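import Fermat.Agent.S34.RedG2A

/-!
# S34 (RG), part B: the family `j^a H^i j_q^l` over `ℚ̄`: action of `w_q`, independence, span,
joint normal form
-/

set_option autoImplicit false
set_option synthInstance.maxHeartbeats 400000

open AlgebraicCurve IntermediateField Polynomial ModularCurve CongruenceSubgroup
  Fermat.Agent.S24Lib Fermat.Agent.FFLib Fermat.Agent.S18Lib Fermat.Agent.S28Lib
  Fermat.Agent.ESLib

namespace Fermat.Agent.S34Lib

noncomputable section

variable (M q : ℕ) [NeZero M] [NeZero q] [hqF : Fact q.Prime] (hqM : ¬ q ∣ M)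

/-- the second `q`-expansion `x ↦ (w_q x)(q)` -/
def wqS : FB (q * M) →+* LaurentSeries Qb :=
  (algebraMap (FB (q * M)) (LaurentSeries Qb)).comp
    ((wq M q hqM : FB (q * M) →ₐ[Qb] FB (q * M)) : FB (q * M) →+* FB (q * M))

theorem wqS_apply (x : FB (q * M)) :
    wqS M q hqM x = ((wq M q hqM x : FB (q * M)) : LaurentSeries Qb) := rfl

theorem wqS_of_mem (z : LaurentSeries Qb) (hz : z ∈ FB M) (hz' : z ∈ FB (q * M)) :
    wqS M q hqM ⟨z, hz'⟩ = qExpand Qb q z := coe_wq M q hqM z hz hz'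

omit hqF in
theorem Vj_mem : qExpand Qb q (jqModC Qb) ∈ FB (q * M) :=
  qExpand_jqModC_mem_FB (q * M) q (dvd_mul_right q M)

theorem wqS_Vj : wqS M q hqM ⟨qExpand Qb q (jqModC Qb), Vj_mem M q⟩ = jqModC Qb := by
  have hj : jqModC Qb ∈ FB M := jqModC_mem_FB M
  have hj' : jqModC Qb ∈ FB (q * M) := jqModC_mem_FB (q * M)
  have h1 : (⟨qExpand Qb q (jqModC Qb), Vj_mem M q⟩ : FB (q * M)) =
      wq M q hqM ⟨jqModC Qb, hj'⟩ := Subtype.ext (coe_wq M q hqM _ hj hj').symm
  rw [wqS_apply, h1, wq_wq]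

omit hqF in
theorem lcF_mem_FB (w : Fin (idx M) × ℕ →₀ Qb) : lcF M Qb w ∈ FB M :=
  MB_lcF_mem M _ (jqModC_mem_FB M) (HH_mem_FB M) w

omit hqF in
theorem evJ_mem_FB (b : Qb[X]) : evJ Qb b ∈ FB M := MB_evJ_mem _ (jqModC_mem_FB M) b

omit hqF in
theorem S1_mem (w : I2 M q →₀ Qb) : S1 M q Qb w ∈ FB (q * M) :=
  sum_mem fun l _ => mul_mem (FB_le M q (lcF_mem_FB M _)) (pow_mem (Vj_mem M q) _)

theorem wqS_S1 (w : I2 M q →₀ Qb) :
    wqS M q hqM ⟨S1 M q Qb w, S1_mem M q w⟩ = S2 M q Qb w := by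
  have h1 : (⟨S1 M q Qb w, S1_mem M q w⟩ : FB (q * M)) =
      ∑ l : Fin (q + 1), (⟨lcF M Qb (w.curry l), FB_le M q (lcF_mem_FB M _)⟩ : FB (q * M)) *
        (⟨qExpand Qb q (jqModC Qb), Vj_mem M q⟩ : FB (q * M)) ^ (l : ℕ) := by
    apply Subtype.ext
    rw [AddSubmonoidClass.coe_finsetSum]
    rfl
  rw [h1, map_sum]
  unfold S2
  refine Finset.sum_congr rfl fun l _ => ?_
  rw [map_mul, map_pow, wqS_Vj, wqS_of_mem M q hqM _ (lcF_mem_FB M _)]

section

variable (A : ValuationSubring Qb) (hA : A.LiesOverPrime q)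

include hqM hA in
/-- **(RG2a)** independence over `ℚ̄` -/
theorem S1_Qb_eq_zero (w : I2 M q →₀ Qb) (h : S1 M q Qb w = 0) : w = 0 := by
  by_contra hw
  obtain ⟨α, w', hα, hw', hww⟩ := exists_scale_finsupp A w hw
  have hchar : CharP (kk A) q := charP_kk A hA
  have hCα : (HahnSeries.C α : LaurentSeries Qb) ≠ 0 := by
    intro h0
    apply hα
    have := congrArg (fun z => HahnSeries.coeff z 0) h0
    simpa using this
  have h1 : S1 M q Qb (w'.mapRange A.subtype (map_zero _)) = 0 := by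
    rw [hww, S1_smul] at h
    exact (mul_eq_zero.1 h).resolve_left hCα
  have h2 : S2 M q Qb (w'.mapRange A.subtype (map_zero _)) = 0 := by
    rw [← wqS_S1 M q hqM]
    have : (⟨S1 M q Qb (w'.mapRange A.subtype (map_zero _)), S1_mem M q _⟩ : FB (q * M)) = 0 :=
      Subtype.ext h1
    rw [this, map_zero]
  have h3 : S1 M q A w' = 0 := by
    apply cE_injective A
    rw [map_zero, cE_def, coeffMap_S1]
    exact h1
  have h4 : S2 M q A w' = 0 := by
    apply cE_injective A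
    rw [map_zero, cE_def, coeffMap_S2]
    exact h2
  apply hw'
  apply joint_indep M q (kk A) (indep_charP M hqM (kk A))
  · rw [← coeffMap_S1, h3, map_zero]
  · rw [← coeffMap_S2, h4, map_zero]

end

omit hqF in
/-- common denominators at level `M` -/
theorem exists_common_den {n : ℕ} (y : Fin n → LaurentSeries Qb) (hy : ∀ l, y l ∈ FB M) :
    ∃ (b : Qb[X]) (w : Fin n → (Fin (idx M) × ℕ →₀ Qb)), b ≠ 0 ∧
      ∀ l, evJ Qb b * y l = lcF M Qb (w l) := by
  classical
  choose bf wf hb hw using fun l => span_eF_Qb M (y l) (hy l)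
  choose w' hw' using fun l =>
    exists_evJ_mul_lcF M Qb (∏ t ∈ Finset.univ.erase l, bf t) (wf l)
  refine ⟨∏ t, bf t, w', Finset.prod_ne_zero_iff.2 fun t _ => hb t, fun l => ?_⟩
  rw [← hw', ← hw l, ← Finset.mul_prod_erase Finset.univ bf (Finset.mem_univ l), map_mul]
  ring

section

variable (A : ValuationSubring Qb) (hA : A.LiesOverPrime q)

include hqM hA in
/-- **(RG2b)** span over `ℚ̄` up to denominators in `ℚ̄[j]` -/
theorem span_S1_Qb (y : LaurentSeries Qb) (hy : y ∈ FB (q * M)) :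
    ∃ (b : Qb[X]) (w : I2 M q →₀ Qb), b ≠ 0 ∧ evJ Qb b * y = S1 M q Qb w := by
  letI := (IntermediateField.inclusion (FB_le M q)).toRingHom.toAlgebra
  have hd := D2_degree (FB_le M q)
  have h1 : (Gamma0 (q * M)).index = (Gamma0 M).index * (q + 1) := by
    rw [Fermat.Agent.S20Lib.index_Gamma0 (q * M),
      Fermat.Agent.S20Lib.dedekindPsi_mul_of_not_dvd (NeZero.ne M) hqF.out hqM,
      ← Fermat.Agent.S20Lib.index_Gamma0 M, mul_comm]
  have hrank : Module.finrank (FB M) (FB (q * M)) = q + 1 := by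
    rw [h1] at hd
    exact (Nat.eq_of_mul_eq_mul_left (Nat.pos_of_ne_zero (D2_index_ne_zero M)) hd).symm
  have hfd : FiniteDimensional (FB M) (FB (q * M)) :=
    Module.finite_of_finrank_pos (by rw [hrank]; exact Nat.succ_pos _)
  set t : FB (q * M) := ⟨qExpand Qb q (jqModC Qb), Vj_mem M q⟩ with ht
  have hsm : ∀ (c : FB M) (x : FB (q * M)),
      ((c • x : FB (q * M)) : LaurentSeries Qb) = (c : LaurentSeries Qb) * (x : LaurentSeries Qb) :=
    fun c x => rfl
  have hsum : ∀ g : Fin (q + 1) → FB M,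
      ((∑ l : Fin (q + 1), g l • t ^ (l : ℕ) : FB (q * M)) : LaurentSeries Qb) =
        ∑ l : Fin (q + 1), (g l : LaurentSeries Qb) * qExpand Qb q (jqModC Qb) ^ (l : ℕ) := by
    intro g
    rw [AddSubmonoidClass.coe_finsetSum]
    rfl
  have hkey : ∀ g : Fin (q + 1) → FB M, ∃ (b : Qb[X]) (w : Fin (q + 1) → (Fin (idx M) × ℕ →₀ Qb)),
      b ≠ 0 ∧ (∀ l, evJ Qb b * (g l : LaurentSeries Qb) = lcF M Qb (w l)) ∧
      evJ Qb b * ((∑ l : Fin (q + 1), g l • t ^ (l : ℕ) : FB (q * M)) : LaurentSeries Qb) =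
        S1 M q Qb (asm M q w) := by
    intro g
    obtain ⟨b, w, hb, hw⟩ := exists_common_den M (fun l => (g l : LaurentSeries Qb))
      (fun l => (g l).2)
    refine ⟨b, w, hb, hw, ?_⟩
    rw [hsum, Finset.mul_sum]
    unfold S1
    refine Finset.sum_congr rfl fun l _ => ?_
    rw [curry_asm, ← hw, mul_assoc]
  have hli : LinearIndependent (FB M) (fun l : Fin (q + 1) => t ^ (l : ℕ)) := by
    rw [Fintype.linearIndependent_iff]
    intro g hg l
    obtain ⟨b, w, hb, hw, hS⟩ := hkey g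
    rw [hg] at hS
    have h0 : asm M q w = 0 := by
      apply S1_Qb_eq_zero M q hqM A hA
      rw [← hS]
      simp
    have h2 : w l = 0 := by rw [← curry_asm M q w l, h0]; ext p; simp
    have h3 := hw l
    rw [h2, rd_lcF_zero] at h3
    have hevb : evJ Qb b ≠ 0 := fun h => hb ((evJ_eq_zero_iff Qb b).1 h)
    exact Subtype.ext ((mul_eq_zero.1 h3).resolve_left hevb)
  have hspan := hli.span_eq_top_of_card_eq_finrank' (by rw [Fintype.card_fin, hrank])
  have hmem : (⟨y, hy⟩ : FB (q * M)) ∈ Submodule.span (FB M) (Set.range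
      (fun l : Fin (q + 1) => t ^ (l : ℕ))) := by
    rw [hspan]; trivial
  obtain ⟨c, hc⟩ := (Submodule.mem_span_range_iff_exists_fun _).1 hmem
  obtain ⟨b, w, hb, -, hS⟩ := hkey c
  rw [hc] at hS
  exact ⟨b, asm M q w, hb, hS⟩

include hqM hA in
/-- **(RG3)** joint normal form -/
theorem exists_normalForm2 (x : LaurentSeries Qb) (hx : x ∈ FB (q * M)) (hx0 : x ≠ 0) :
    ∃ (c : Qb) (b : A[X]) (w : I2 M q →₀ A), c ≠ 0 ∧ cR A (evJ A b) ≠ 0 ∧
      w.mapRange (resA A) (map_zero _) ≠ 0 ∧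
      x * cE A (evJ A b) = HahnSeries.C c * cE A (S1 M q A w) := by
  obtain ⟨b₀, w₀, hb₀, h₀⟩ := span_S1_Qb M q hqM A hA x hx
  have hevb : evJ Qb b₀ ≠ 0 := fun h => hb₀ ((evJ_eq_zero_iff Qb b₀).1 h)
  have hw₀ : w₀ ≠ 0 := by
    intro h
    rw [h, S1_zero] at h₀
    exact (mul_ne_zero hevb hx0) h₀
  obtain ⟨β, b', hβ, hb', hbb⟩ := exists_scale_poly A b₀ hb₀
  obtain ⟨α, w', hα, hw', hww⟩ := exists_scale_finsupp A w₀ hw₀
  refine ⟨α / β, b', w', div_ne_zero hα hβ, ?_, hw', ?_⟩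
  · rw [cR_def, coeffMap_evJ]
    exact fun h => hb' ((evJ_eq_zero_iff (kk A) _).1 h)
  · rw [cE_def, cE_def, coeffMap_evJ, coeffMap_S1]
    rw [hbb, hww, map_mul, nf_evJ_C, S1_smul] at h₀
    have hCβ : (HahnSeries.C β : LaurentSeries Qb) ≠ 0 := by
      intro h
      apply hβ
      have := congrArg (fun z => HahnSeries.coeff z 0) h
      simpa using this
    apply mul_left_cancel₀ hCβ
    have h1 : (HahnSeries.C β : LaurentSeries Qb) * HahnSeries.C (α / β) = HahnSeries.C α := by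
      rw [← map_mul, mul_div_cancel₀ α hβ]
    rw [← mul_assoc (HahnSeries.C β) (HahnSeries.C (α / β)), h1, ← h₀]
    ring

end

end

end Fermat.Agent.S34Lib
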