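import Fermat.Agent.S34.Defs

/-!
# S34 package, (EV): evaluation at a place
-/

set_option autoImplicit false

open AlgebraicCurve IntermediateField Polynomial Fermat.Agent.S24Lib Fermat.Agent.FFLib
  Fermat.Agent.S18Lib

namespace Fermat.Agent.S34Lib

section EV

variable {k Ft : Type*} [Field k] [Field Ft] [Algebra k Ft]

theorem ev_unique (P : Place k Ft) {a : Ft} {c c' : k}
    (h : D2_ge P 1 (a - algebraMap k Ft c)) (h' : D2_ge P 1 (a - algebraMap k Ft c')) :
    c = c' := by
  have h1 := D2.ge_sub P h' h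
  have h2 : a - algebraMap k Ft c' - (a - algebraMap k Ft c) = algebraMap k Ft (c - c') := by
    rw [map_sub]; ring
  rw [h2] at h1
  rcases h1 with h1 | h1
  · have := (map_eq_zero (algebraMap k Ft)).mp h1
    exact sub_eq_zero.mp this
  · rw [ord_algebraMap] at h1
    omega

theorem ev_exists [IsAlgClosed k] (h : IsFF k Ft) (P : Place k Ft) {a : Ft} (ha : D2_ge P 0 a) :
    ∃ c : k, D2_ge P 1 (a - algebraMap k Ft c) := by
  have ha' : 0 ≤ P.ord a := by
    rcases ha with rfl | ha
    · simp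
    · exact ha
  obtain ⟨c, hc | hc⟩ := exists_residue h P ha'
  · exact ⟨c, Or.inl (sub_eq_zero.mpr hc)⟩
  · exact ⟨c, Or.inr (by omega)⟩

theorem evP_eq_of (P : Place k Ft) {a : Ft} {c : k} (h : D2_ge P 1 (a - algebraMap k Ft c)) :
    evP P a = c := by
  have hex : ∃ c : k, D2_ge P 1 (a - algebraMap k Ft c) := ⟨c, h⟩
  unfold evP
  rw [dif_pos hex]
  exact ev_unique P hex.choose_spec h

theorem evP_spec [IsAlgClosed k] (h : IsFF k Ft) (P : Place k Ft) {a : Ft} (ha : D2_ge P 0 a) :
    D2_ge P 1 (a - algebraMap k Ft (evP P a)) := by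
  obtain ⟨c, hc⟩ := ev_exists h P ha
  rw [evP_eq_of P hc]
  exact hc

theorem evP_algebraMap (P : Place k Ft) (c : k) : evP P (algebraMap k Ft c) = c :=
  evP_eq_of P (Or.inl (sub_self _))

theorem evP_add [IsAlgClosed k] (h : IsFF k Ft) (P : Place k Ft) {a b : Ft} (ha : D2_ge P 0 a)
    (hb : D2_ge P 0 b) : evP P (a + b) = evP P a + evP P b := by
  apply evP_eq_of
  have := D2.ge_add P (evP_spec h P ha) (evP_spec h P hb)
  have h2 : a + b - algebraMap k Ft (evP P a + evP P b) =
      a - algebraMap k Ft (evP P a) + (b - algebraMap k Ft (evP P b)) := by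
    rw [map_add]; ring
  rwa [h2]

theorem evP_mul [IsAlgClosed k] (h : IsFF k Ft) (P : Place k Ft) {a b : Ft} (ha : D2_ge P 0 a)
    (hb : D2_ge P 0 b) : evP P (a * b) = evP P a * evP P b := by
  apply evP_eq_of
  have h1 : D2_ge P 1 ((a - algebraMap k Ft (evP P a)) * b) := by
    simpa using D2.ge_mul P (evP_spec h P ha) hb
  have h3 : D2_ge P 0 (algebraMap k Ft (evP P a)) := Or.inr (ord_algebraMap P _).ge
  have h4 : D2_ge P 1 (algebraMap k Ft (evP P a) * (b - algebraMap k Ft (evP P b))) := by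
    simpa using D2.ge_mul P h3 (evP_spec h P hb)
  have := D2.ge_add P h1 h4
  have h2 : a * b - algebraMap k Ft (evP P a * evP P b) =
      (a - algebraMap k Ft (evP P a)) * b +
        algebraMap k Ft (evP P a) * (b - algebraMap k Ft (evP P b)) := by
    rw [map_mul]; ring
  rwa [h2]

theorem evP_smul [IsAlgClosed k] (h : IsFF k Ft) (P : Place k Ft) (c : k) {a : Ft}
    (ha : D2_ge P 0 a) : evP P (c • a) = c * evP P a := by
  rw [Algebra.smul_def, evP_mul h P (Or.inr (ord_algebraMap P _).ge) ha, evP_algebraMap]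

theorem ev_ge_pow (P : Place k Ft) {a : Ft} (ha : D2_ge P 0 a) (n : ℕ) : D2_ge P 0 (a ^ n) := by
  induction n with
  | zero =>
    rw [pow_zero]
    right
    have := ord_algebraMap P (1 : k)
    rw [map_one] at this
    exact this.ge
  | succ n ih =>
    rw [pow_succ]
    simpa using D2.ge_mul P ih ha

theorem evP_pow [IsAlgClosed k] (h : IsFF k Ft) (P : Place k Ft) {a : Ft} (ha : D2_ge P 0 a)
    (n : ℕ) : evP P (a ^ n) = evP P a ^ n := by
  induction n with
  | zero =>
    rw [pow_zero, pow_zero]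
    have := evP_algebraMap P (1 : k)
    rwa [map_one] at this
  | succ n ih =>
    rw [pow_succ, pow_succ, evP_mul h P (ev_ge_pow P ha n) ha, ih]

theorem evP_eq_zero_iff [IsAlgClosed k] (h : IsFF k Ft) (P : Place k Ft) {a : Ft}
    (ha : D2_ge P 0 a) : evP P a = 0 ↔ D2_ge P 1 a := by
  constructor
  · intro h0
    have := evP_spec h P ha
    rwa [h0, map_zero, sub_zero] at this
  · intro h1
    apply evP_eq_of
    rwa [map_zero, sub_zero]

/-- elements of `L(n (x)_∞)` are regular at the finite places -/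
theorem ge_zero_of_mem_L [IsAlgClosed k] (h : IsFF k Ft) {x a : Ft} {n : ℕ}
    (ha : a ∈ riemannRochSpace (n • poleDiv k x)) (P : Place k Ft) (hP : 0 ≤ P.ord x) :
    D2_ge P 0 a := by
  have h1 := (mem_L_iff.mp ha) P
  rw [Finsupp.smul_apply, poleDiv_apply h, max_eq_right (by omega)] at h1
  simpa using h1

end EV

end Fermat.Agent.S34Lib
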