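import Fermat.Agent.S34.Defs

/-!
# S34 package, ABSTRACT part, leaf (N1): normalisation of a function inside the joint structure
-/

set_option autoImplicit false

open AlgebraicCurve IntermediateField Polynomial Fermat.Agent.S24Lib Fermat.Agent.FFLib
  Fermat.Agent.S18Lib

namespace Fermat.Agent.S34Lib

section N1

variable {K k F Ft : Type*} [Field K] [Field k] [Field F] [Algebra K F] [Field Ft] [Algebra k Ft]
  {A : ValuationSubring K} {resK : A →+* k}

theorem N1_add_pow {B : Type*} [CommRing B] (X Y : B) (m : ℕ) :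
    ∃ Q : B, (X + Y) ^ (m + 1) = X ^ (m + 1) + Y ^ (m + 1) + X * Y * Q := by
  induction m with
  | zero => exact ⟨0, by ring⟩
  | succ m ih =>
      obtain ⟨Q, hQ⟩ := ih
      refine ⟨X ^ m + Y ^ m + Q * (X + Y), ?_⟩
      rw [pow_succ, hQ]
      ring

theorem N1_mem_of_pow_mem (A : ValuationSubring K) (g : K) (m : ℕ) (h : g ^ (m + 1) ∈ A) :
    g ∈ A := by
  rcases A.mem_or_inv_mem g with h1 | h1
  · exact h1
  · by_cases hg : g = 0
    · rw [hg]; exact A.zero_mem
    have : g = g ^ (m + 1) * (g⁻¹) ^ m := by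
      rw [pow_succ, inv_pow, mul_right_comm, mul_inv_cancel₀ (pow_ne_zero m hg), one_mul]
    rw [this]
    exact A.mul_mem _ _ h (A.pow_mem h1 m)

theorem N1_isUnit {a a' : Ft × Ft} (ha : a ≠ 0) (ha' : a' ≠ 0) (h : a * a' = 0) (m : ℕ) :
    IsUnit (a ^ (m + 1) + a' ^ (m + 3)) := by
  obtain ⟨a1, a2⟩ := a
  obtain ⟨b1, b2⟩ := a'
  have h1 : a1 * b1 = 0 := congrArg Prod.fst h
  have h2 : a2 * b2 = 0 := congrArg Prod.snd h
  rw [Prod.isUnit_iff]
  simp only [Prod.fst_add, Prod.snd_add, Prod.pow_fst, Prod.pow_snd, isUnit_iff_ne_zero]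
  by_cases ha1 : a1 = 0
  · have ha2 : a2 ≠ 0 := by
      intro h0
      exact ha (by rw [ha1, h0]; rfl)
    have hb2 : b2 = 0 := (mul_eq_zero.1 h2).resolve_left ha2
    have hb1 : b1 ≠ 0 := by
      intro h0
      exact ha' (by rw [hb2, h0]; rfl)
    subst ha1 hb2
    constructor
    · simpa using hb1
    · simpa using ha2
  · have hb1 : b1 = 0 := (mul_eq_zero.1 h1).resolve_left ha1
    have hb2 : b2 ≠ 0 := by
      intro h0
      exact ha' (by rw [hb1, h0]; rfl)
    have ha2 : a2 = 0 := (mul_eq_zero.1 h2).resolve_right hb2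
    subst hb1 ha2
    constructor
    · simpa using ha1
    · simpa using hb2

theorem exists_normalize [IsAlgClosed K] (hres : Function.Surjective resK)
    (R : RedG A resK F (Ft × Ft)) (f : F) (hf : f ≠ 0) (m : ℕ) (hm : 0 < m) :
    ∃ (c : K) (G : F) (h : R.O), c ≠ 0 ∧ G ≠ 0 ∧ IsUnit (R.red h) ∧
      f = algebraMap K F c * G ^ m * ((h : R.O) : F) := by
  -- the case `m = 1`
  obtain ⟨m, rfl⟩ : ∃ m', m = m' + 1 := ⟨m - 1, by omega⟩
  rcases Nat.eq_zero_or_pos m with rfl | hm1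
  · exact ⟨1, f, 1, one_ne_zero, hf, by rw [map_one]; exact isUnit_one, by simp⟩
  obtain ⟨m, rfl⟩ : ∃ m', m = m' + 1 := ⟨m - 1, by omega⟩
  obtain ⟨c, hc, y, hy, hfy⟩ := R.exists_scale f hf
  by_cases hyu : IsUnit (R.red y)
  · exact ⟨c, 1, y, hc, one_ne_zero, hyu, by rw [one_pow, mul_one]; exact hfy⟩
  have hy0 : ((y : R.O) : F) ≠ 0 := by
    intro h
    apply hy
    have : y = 0 := Subtype.ext h
    rw [this, map_zero]
  obtain ⟨c', hc', y', hy', hyy'⟩ := R.exists_scale ((y : R.O) : F)⁻¹ (inv_ne_zero hy0)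
  have hcF : algebraMap K F c' ≠ 0 := by simpa using hc'
  have hprod : ((y : R.O) : F) * ((y' : R.O) : F) = algebraMap K F c'⁻¹ := by
    have h1 : ((y : R.O) : F) * (algebraMap K F c' * ((y' : R.O) : F)) = 1 := by
      rw [← hyy', mul_inv_cancel₀ hy0]
    rw [map_inv₀, eq_comm, inv_eq_iff_eq_inv, eq_comm]
    apply inv_eq_of_mul_eq_one_left
    rw [← h1]
    ring
  have hκA : c'⁻¹ ∈ A := by
    rw [← R.algebraMap_mem_iff, ← hprod]
    exact (y * y').2
  obtain ⟨g, hg⟩ := IsAlgClosed.exists_pow_nat_eq c'⁻¹ (n := m + 1 + 1) (by omega)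
  have hgA : g ∈ A := N1_mem_of_pow_mem A g (m + 1) (by rw [hg]; exact hκA)
  set γ : A := ⟨g, hgA⟩ with hγ
  set κ : A := ⟨c'⁻¹, hκA⟩ with hκ
  have hγκ : γ ^ (m + 1 + 1) = κ := Subtype.ext hg
  have hyκ : y * y' = R.const κ := Subtype.ext hprod
  have hredκ : R.red y * R.red y' = algebraMap k (Ft × Ft) (resK κ) := by
    rw [← map_mul, hyκ, R.red_const]
  have hκ0 : resK κ = 0 := by
    by_contra h0
    apply hyu
    have h1 : IsUnit (algebraMap k (Ft × Ft) (resK κ)) := (isUnit_iff_ne_zero.2 h0).map _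
    rw [← hredκ] at h1
    exact isUnit_of_mul_isUnit_left h1
  have hγ0 : resK γ = 0 := by
    have : resK γ ^ (m + 1 + 1) = 0 := by rw [← map_pow, hγκ, hκ0]
    exact pow_eq_zero_iff (by omega) |>.1 this
  have hzero : R.red y * R.red y' = 0 := by rw [hredκ, hκ0, map_zero]
  obtain ⟨Q, hQ⟩ := N1_add_pow y (R.const γ * y') (m + 1)
  set H : R.O := y ^ (m + 1) + y' ^ (m + 3) + R.const γ * y' * Q with hH
  have hconst : R.const γ ^ (m + 1 + 1) = R.const κ := by
    apply Subtype.ext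
    show (algebraMap K F g) ^ (m + 1 + 1) = algebraMap K F c'⁻¹
    rw [← map_pow, hg]
  have hGH : (y + R.const γ * y') ^ (m + 1 + 1) = y * H := by
    rw [hQ, hH, mul_pow, hconst, ← hyκ]
    ring
  have hredH : R.red H = R.red y ^ (m + 1) + R.red y' ^ (m + 3) := by
    rw [hH, map_add, map_add, map_pow, map_pow, map_mul, map_mul, R.red_const, hγ0, map_zero,
      zero_mul, zero_mul, add_zero]
  have hHu : IsUnit (R.red H) := by
    rw [hredH]
    exact N1_isUnit hy hy' hzero m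
  obtain ⟨Hu, hHu'⟩ := R.isUnit_of_red H hHu
  set h : R.O := ((Hu⁻¹ : R.Oˣ) : R.O) with hh
  have hHh : H * h = 1 := by rw [← hHu', hh]; simp
  have hyG : y = (y + R.const γ * y') ^ (m + 1 + 1) * h := by
    rw [hGH, mul_assoc, hHh, mul_one]
  refine ⟨c, ((y + R.const γ * y' : R.O) : F), h, hc, ?_, ?_, ?_⟩
  · intro h0
    apply hy0
    have h1 : (y + R.const γ * y' : R.O) = 0 := Subtype.ext h0
    rw [hyG, h1, zero_pow (by omega), zero_mul]
    rfl
  · have := (Hu⁻¹).isUnit.map R.red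
    exact this
  · rw [hfy, mul_assoc]
    congr 1
    exact congrArg Subtype.val hyG

end N1

end Fermat.Agent.S34Lib
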