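import Fermat.Agent.S34.Defs
import Fermat.Agent.S34.EvP

/-!
# S34 package, (SUP): consequences of Riemann's theorem
-/

set_option autoImplicit false

open AlgebraicCurve IntermediateField Polynomial Fermat.Agent.S24Lib Fermat.Agent.FFLib
  Fermat.Agent.S18Lib

namespace Fermat.Agent.S34Lib

section SUP

variable {k Ft : Type*} [Field k] [Field Ft] [Algebra k Ft]

theorem sup_degree_mono [IsAlgClosed k] (h : IsFF k Ft) {A B : Divisor k Ft} (hAB : A ≤ B) :
    Divisor.degree A ≤ Divisor.degree B := by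
  have h1 : (0 : Divisor k Ft) ≤ B - A := by
    intro v
    rw [Finsupp.sub_apply]
    have := hAB v
    simp only [Finsupp.coe_zero, Pi.zero_apply]
    omega
  have := dg_degree_nonneg h h1
  rw [map_sub] at this
  omega

theorem L_inf_eq (A B : Divisor k Ft) :
    riemannRochSpace A ⊓ riemannRochSpace B = riemannRochSpace (A ⊓ B) := by
  ext f
  rw [Submodule.mem_inf, mem_L_iff, mem_L_iff, mem_L_iff]
  constructor
  · rintro ⟨h1, h2⟩ v
    rcases h1 v with h0 | h1'
    · exact Or.inl h0
    rcases h2 v with h0 | h2'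
    · exact Or.inl h0
    right
    rw [Finsupp.inf_apply]
    rcases min_choice (A v) (B v) with hm | hm <;> rw [hm] <;> assumption
  · intro h1
    refine ⟨fun v => D2.ge_mono v ?_ (h1 v), fun v => D2.ge_mono v ?_ (h1 v)⟩
    · rw [Finsupp.inf_apply]
      exact neg_le_neg (min_le_left _ _)
    · rw [Finsupp.inf_apply]
      exact neg_le_neg (min_le_right _ _)

/-- `L(A) + L(B) = L(max(A,B))` as soon as `deg min(A,B)` is large -/
theorem L_sup_eq [IsAlgClosed k] (h : IsFF k Ft) :
    ∃ c : ℤ, ∀ A B : Divisor k Ft, c ≤ Divisor.degree (A ⊓ B) →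
      riemannRochSpace A ⊔ riemannRochSpace B = riemannRochSpace (A ⊔ B) := by
  obtain ⟨c, hc⟩ := riemann_equality h
  refine ⟨c, fun A B hAB => ?_⟩
  have hfA := finiteDimensional_L h A
  have hfB := finiteDimensional_L h B
  have hfS := finiteDimensional_L h (A ⊔ B)
  have hle : riemannRochSpace A ⊔ riemannRochSpace B ≤ riemannRochSpace (A ⊔ B) :=
    sup_le (L_mono le_sup_left) (L_mono le_sup_right)
  apply Submodule.eq_of_le_of_finrank_eq hle
  have h1 := Submodule.finrank_sup_add_finrank_inf_eq (riemannRochSpace A) (riemannRochSpace B)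
  rw [L_inf_eq] at h1
  have e1 := hc (A ⊓ B) hAB
  have e2 := hc A (hAB.trans (sup_degree_mono h inf_le_left))
  have e3 := hc B (hAB.trans (sup_degree_mono h inf_le_right))
  have e4 := hc (A ⊔ B) (hAB.trans (sup_degree_mono h (inf_le_left.trans le_sup_left)))
  have e5 : Divisor.degree (A ⊔ B) + Divisor.degree (A ⊓ B) =
      Divisor.degree A + Divisor.degree B := by
    rw [← map_add, ← map_add]
    congr 1
    ext v
    rw [Finsupp.add_apply, Finsupp.add_apply, Finsupp.sup_apply, Finsupp.inf_apply]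
    exact max_add_min _ _
  unfold FFLib.ell at e1 e2 e3 e4
  omega

theorem sup_finrank_pos (h : IsFF k Ft) {x : Ft} (hx : Transcendental k x) :
    0 < Module.finrank k⟮x⟯ Ft := by
  have := h.finiteDimensional hx
  exact Module.finrank_pos

theorem sup_degree_smul [IsAlgClosed k] (h : IsFF k Ft) {x : Ft} (hx : Transcendental k x)
    (n : ℕ) : (n : ℤ) ≤ Divisor.degree (n • poleDiv k x) := by
  rw [map_nsmul, degree_poleDiv h hx]
  have := sup_finrank_pos h hx
  rw [nsmul_eq_mul]
  nlinarith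

/-- `L(A) ≠ L(A + P)` for `deg A` large -/
theorem sup_exists_not_mem [IsAlgClosed k] (h : IsFF k Ft) :
    ∃ c : ℤ, ∀ (A : Divisor k Ft) (P : Place k Ft), c ≤ Divisor.degree A →
      ∃ g ∈ riemannRochSpace (A + Finsupp.single P 1), g ∉ riemannRochSpace A := by
  obtain ⟨c, hc⟩ := riemann_equality h
  refine ⟨c, fun A P hA => ?_⟩
  by_contra hcon
  push Not at hcon
  have hle : riemannRochSpace (A + Finsupp.single P 1) ≤ riemannRochSpace A := hcon
  have hfA := finiteDimensional_L h A
  have h1 := Submodule.finrank_mono hle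
  have e1 := hc A hA
  have e2 := hc (A + Finsupp.single P 1) (by rw [map_add, degree_single' h]; omega)
  rw [map_add, degree_single' h] at e2
  unfold FFLib.ell at e1 e2
  omega

theorem sup_evP_sum [IsAlgClosed k] (h : IsFF k Ft) (P : Place k Ft) {ι : Type*}
    (T : Finset ι) (f : ι → Ft) (hf : ∀ i ∈ T, D2_ge P 0 (f i)) :
    D2_ge P 0 (∑ i ∈ T, f i) ∧ evP P (∑ i ∈ T, f i) = ∑ i ∈ T, evP P (f i) := by
  classical
  induction T using Finset.induction_on with
  | empty =>
    refine ⟨Or.inl (by simp), ?_⟩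
    have := evP_algebraMap P (0 : k)
    simpa using this
  | insert i T hi ih =>
    have ih' := ih (fun j hj => hf j (Finset.mem_insert_of_mem hj))
    have hi' := hf i (Finset.mem_insert_self i T)
    rw [Finset.sum_insert hi, Finset.sum_insert hi]
    exact ⟨D2.ge_add P hi' ih'.1, by rw [evP_add h P hi' ih'.1, ih'.2]⟩

/-- interpolation -/
theorem exists_mem_L_evP [IsAlgClosed k] (h : IsFF k Ft) {x : Ft} (hx : Transcendental k x)
    (T : Finset (Place k Ft)) (hT : ∀ P ∈ T, 0 ≤ P.ord x) :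
    ∃ n₀ : ℕ, ∀ n, n₀ ≤ n → ∀ v : Place k Ft → k,
      ∃ a ∈ riemannRochSpace (n • poleDiv k x), ∀ P ∈ T, evP P a = v P := by
  classical
  obtain ⟨c, hc⟩ := sup_exists_not_mem h
  refine ⟨(c + T.card).toNat, fun n hn v => ?_⟩
  set E : Divisor k Ft := ∑ Q ∈ T, Finsupp.single Q 1 with hE
  have hEdeg : Divisor.degree E = T.card := by
    rw [hE, map_sum]
    simp [degree_single' h]
  have hEapp : ∀ Q : Place k Ft, E Q = if Q ∈ T then 1 else 0 := by
    intro Q
    rw [hE, Finsupp.finsetSum_apply]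
    simp [Finsupp.single_apply]
  have hdeg : c ≤ Divisor.degree (n • poleDiv k x - E) := by
    rw [map_sub, hEdeg]
    have := sup_degree_smul h hx n
    have h2 := Int.self_le_toNat (c + T.card)
    omega
  have hpole : ∀ P ∈ T, (n • poleDiv k x) P = 0 := by
    intro P hP
    rw [Finsupp.smul_apply, poleDiv_apply h, max_eq_right (by have := hT P hP; omega)]
    simp
  -- the basic functions
  have hbasic : ∀ P ∈ T, ∃ g ∈ riemannRochSpace (n • poleDiv k x),
      evP P g = 1 ∧ ∀ Q ∈ T, Q ≠ P → evP Q g = 0 := by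
    intro P hP
    obtain ⟨g, hg, hg'⟩ := hc (n • poleDiv k x - E) P hdeg
    obtain ⟨hg0, hord⟩ := ls_ord_eq hg hg'
    rw [Finsupp.sub_apply, hpole P hP, hEapp, if_pos hP] at hord
    have hgL : g ∈ riemannRochSpace (n • poleDiv k x) := by
      refine L_mono ?_ hg
      intro Q
      rw [Finsupp.add_apply, Finsupp.sub_apply, hEapp, Finsupp.single_apply]
      by_cases hQP : P = Q
      · subst hQP
        simp [hP]
      · rw [if_neg hQP]
        split_ifs <;> omega
    have hreg : D2_ge P 0 g := Or.inr (by omega)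
    have hne : evP P g ≠ 0 := by
      intro h0
      rcases (evP_eq_zero_iff h P hreg).mp h0 with h1 | h1
      · exact hg0 h1
      · omega
    refine ⟨(evP P g)⁻¹ • g, Submodule.smul_mem _ _ hgL, ?_, ?_⟩
    · rw [evP_smul h P _ hreg, inv_mul_cancel₀ hne]
    · intro Q hQ hQP
      have hregQ : D2_ge Q 0 g := ge_zero_of_mem_L h hgL Q (hT Q hQ)
      rw [evP_smul h Q _ hregQ]
      have h1 := (mem_L_iff.mp hg) Q
      rw [Finsupp.add_apply, Finsupp.sub_apply, hpole Q hQ, hEapp, if_pos hQ,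
        Finsupp.single_eq_of_ne hQP] at h1
      have h2 : D2_ge Q 1 g := by simpa using h1
      rw [(evP_eq_zero_iff h Q hregQ).mpr h2, mul_zero]
  choose! g hgL hg1 hg0 using hbasic
  refine ⟨∑ P ∈ T, v P • g P, Submodule.sum_mem _ fun P hP => Submodule.smul_mem _ _ (hgL P hP),
    fun Q hQ => ?_⟩
  have hreg : ∀ P ∈ T, D2_ge Q 0 (g P) := fun P hP => ge_zero_of_mem_L h (hgL P hP) Q (hT Q hQ)
  have hreg' : ∀ P ∈ T, D2_ge Q 0 (v P • g P) := fun P hP =>
    ge_zero_of_mem_L h (Submodule.smul_mem _ _ (hgL P hP)) Q (hT Q hQ)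
  rw [(sup_evP_sum h Q T _ hreg').2, Finset.sum_eq_single Q]
  · rw [evP_smul h Q _ (hreg Q hQ), hg1 Q hQ, mul_one]
  · intro P hP hPQ
    rw [evP_smul h Q _ (hreg P hP), hg0 P hP Q hQ (Ne.symm hPQ), mul_zero]
  · intro hQ'
    exact absurd hQ hQ'

/-- a uniformizer at a finite place which is regular at all finite places -/
theorem exists_mem_L_ord_eq_one [IsAlgClosed k] (h : IsFF k Ft) {x : Ft}
    (hx : Transcendental k x) (P : Place k Ft) (hP : 0 ≤ P.ord x) :
    ∃ (n : ℕ) (a : Ft), a ∈ riemannRochSpace (n • poleDiv k x) ∧ P.ord a = 1 := by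
  classical
  obtain ⟨c, hc⟩ := sup_exists_not_mem h
  set n : ℕ := (c + 2).toNat with hn
  have hdeg : c ≤ Divisor.degree (n • poleDiv k x - Finsupp.single P 2) := by
    rw [map_sub, degree_single' h]
    have := sup_degree_smul h hx n
    have h2 := Int.self_le_toNat (c + 2)
    omega
  obtain ⟨g, hg, hg'⟩ := hc _ P hdeg
  obtain ⟨hg0, hord⟩ := ls_ord_eq hg hg'
  have hpole : (n • poleDiv k x) P = 0 := by
    rw [Finsupp.smul_apply, poleDiv_apply h, max_eq_right (by omega)]
    simp
  rw [Finsupp.sub_apply, hpole, Finsupp.single_eq_same] at hord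
  refine ⟨n, g, L_mono ?_ hg, by omega⟩
  intro Q
  rw [Finsupp.add_apply, Finsupp.sub_apply, Finsupp.single_apply, Finsupp.single_apply]
  split_ifs <;> omega

/-- functions regular at all finite places have bounded poles -/
theorem exists_mem_L_of_regular [IsAlgClosed k] (h : IsFF k Ft) {x : Ft}
    (hx : Transcendental k x) (a : Ft) (ha : ∀ P : Place k Ft, 0 ≤ P.ord x → D2_ge P 0 a) :
    ∃ n : ℕ, a ∈ riemannRochSpace (n • poleDiv k x) := by
  obtain ⟨M, hM⟩ := wa_bound (finite_ord_ne_zero h a).toFinset (fun v => -v.ord a)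
  refine ⟨M.toNat, ?_⟩
  rw [mem_L_iff]
  intro v
  rw [Finsupp.smul_apply, poleDiv_apply h]
  by_cases hv : 0 ≤ v.ord x
  · rw [max_eq_right (by omega)]
    simpa using ha v hv
  · right
    rw [max_eq_left (by omega), nsmul_eq_mul]
    have h1 := Int.self_le_toNat M
    have h3 : (0 : ℤ) ≤ (M.toNat : ℤ) := Int.natCast_nonneg _
    by_cases h0 : v.ord a = 0
    · rw [h0]
      nlinarith
    · have h2 := hM v (by simpa using h0)
      nlinarith

/-- `dim L((n+1) (x)_∞) = dim L(n (x)_∞) + deg`, `n` large -/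
theorem exists_ell_succ [IsAlgClosed k] (h : IsFF k Ft) {x : Ft} (hx : Transcendental k x) :
    ∃ n₀ : ℕ, ∀ n, n₀ ≤ n →
      FFLib.ell ((n + 1) • poleDiv k x) = FFLib.ell (n • poleDiv k x) + Module.finrank k⟮x⟯ Ft := by
  obtain ⟨c, hc⟩ := riemann_equality h
  refine ⟨c.toNat, fun n hn => ?_⟩
  have h2 := Int.self_le_toNat c
  have e1 := hc (n • poleDiv k x) (by have := sup_degree_smul h hx n; omega)
  have e2 := hc ((n + 1) • poleDiv k x) (by
    have := sup_degree_smul h hx (n + 1); push_cast at this; omega)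
  rw [map_nsmul, degree_poleDiv h hx, nsmul_eq_mul] at e1 e2
  push_cast at e2
  have : (FFLib.ell ((n + 1) • poleDiv k x) : ℤ) =
      FFLib.ell (n • poleDiv k x) + Module.finrank k⟮x⟯ Ft := by
    rw [e1, e2]; ring
  exact_mod_cast this

end SUP

end Fermat.Agent.S34Lib
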