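import Fermat.Agent.S34.Defs
import Fermat.Agent.S34.EvP
import Fermat.Agent.S34.FFSup

/-!
# S34 package, (T1b): the glued spaces all have codimension `|S|`
-/

set_option autoImplicit false

open AlgebraicCurve IntermediateField Polynomial Fermat.Agent.S24Lib Fermat.Agent.FFLib
  Fermat.Agent.S18Lib

namespace Fermat.Agent.S34Lib

section T1b

variable {k Ft : Type*} [Field k] [Field Ft] [Algebra k Ft]

theorem T1b_reg₁ [IsAlgClosed k] (hFt : IsFF k Ft) {x₁ x₂ : Ft}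
    {S : Finset (Place k Ft × Place k Ft)} (hS : IsNodeData x₁ x₂ S) {n : ℕ} {φ : Ft × Ft}
    (hφ : φ ∈ Lt k x₁ x₂ n) {s : Place k Ft × Place k Ft} (hs : s ∈ S) : D2_ge s.1 0 φ.1 :=
  ge_zero_of_mem_L hFt (Submodule.mem_prod.mp hφ).1 s.1 (hS.fin₁ s hs)

theorem T1b_reg₂ [IsAlgClosed k] (hFt : IsFF k Ft) {x₁ x₂ : Ft}
    {S : Finset (Place k Ft × Place k Ft)} (hS : IsNodeData x₁ x₂ S) {n : ℕ} {φ : Ft × Ft}
    (hφ : φ ∈ Lt k x₁ x₂ n) {s : Place k Ft × Place k Ft} (hs : s ∈ S) : D2_ge s.2 0 φ.2 :=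
  ge_zero_of_mem_L hFt (Submodule.mem_prod.mp hφ).2 s.2 (hS.fin₂ s hs)

/-- the gluing defect, as a linear map -/
noncomputable def T1b_defect [IsAlgClosed k] (hFt : IsFF k Ft) {x₁ x₂ : Ft}
    (S : Finset (Place k Ft × Place k Ft)) (hS : IsNodeData x₁ x₂ S)
    (c : Place k Ft × Place k Ft → k) (n : ℕ) : Lt k x₁ x₂ n →ₗ[k] (S → k) where
  toFun φ := fun s => evP s.1.1 φ.1.1 - c s.1 * evP s.1.2 φ.1.2
  map_add' φ ψ := by
    funext s
    simp only [Submodule.coe_add, Prod.fst_add, Prod.snd_add, Pi.add_apply]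
    rw [evP_add hFt _ (T1b_reg₁ hFt hS φ.2 s.2) (T1b_reg₁ hFt hS ψ.2 s.2),
      evP_add hFt _ (T1b_reg₂ hFt hS φ.2 s.2) (T1b_reg₂ hFt hS ψ.2 s.2)]
    ring
  map_smul' a φ := by
    funext s
    simp only [Submodule.coe_smul, Prod.smul_fst, Prod.smul_snd, Pi.smul_apply, RingHom.id_apply,
      smul_eq_mul]
    rw [evP_smul hFt _ a (T1b_reg₁ hFt hS φ.2 s.2), evP_smul hFt _ a (T1b_reg₂ hFt hS φ.2 s.2)]
    ring

theorem T1b_defect_apply [IsAlgClosed k] (hFt : IsFF k Ft) {x₁ x₂ : Ft}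
    (S : Finset (Place k Ft × Place k Ft)) (hS : IsNodeData x₁ x₂ S)
    (c : Place k Ft × Place k Ft → k) (n : ℕ) (φ : Lt k x₁ x₂ n) (s : S) :
    T1b_defect hFt S hS c n φ s = evP s.1.1 φ.1.1 - c s.1 * evP s.1.2 φ.1.2 := rfl

theorem T1b_mem_ker [IsAlgClosed k] (hFt : IsFF k Ft) {x₁ x₂ : Ft}
    (S : Finset (Place k Ft × Place k Ft)) (hS : IsNodeData x₁ x₂ S)
    (c : Place k Ft × Place k Ft → k) (n : ℕ) (φ : Lt k x₁ x₂ n) :
    φ ∈ LinearMap.ker (T1b_defect hFt S hS c n) ↔ Glued S c φ.1 := by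
  rw [LinearMap.mem_ker]
  constructor
  · intro h s hs
    have := congrFun h ⟨s, hs⟩
    rw [T1b_defect_apply] at this
    exact sub_eq_zero.mp this
  · intro h
    funext s
    rw [T1b_defect_apply]
    exact sub_eq_zero.mpr (h s.1 s.2)

/-- a function on places taking prescribed values at the first coordinates of the nodes -/
theorem T1b_exists_fun {x₁ x₂ : Ft} {S : Finset (Place k Ft × Place k Ft)}
    (hS : IsNodeData x₁ x₂ S) (c : Place k Ft × Place k Ft → k) :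
    ∃ v : Place k Ft → k, ∀ s ∈ S, v s.1 = c s := by
  classical
  refine ⟨fun P => if h : ∃ s ∈ S, s.1 = P then c h.choose else 0, fun s hs => ?_⟩
  have h : ∃ t ∈ S, t.1 = s.1 := ⟨s, hs, rfl⟩
  simp only [dif_pos h]
  rw [hS.inj₁ _ h.choose_spec.1 _ hs h.choose_spec.2]

/-- `p.prod q ≃ p × q` -/
def T1b_prodEquiv (p q : Submodule k Ft) : (p.prod q) ≃ₗ[k] (p × q) where
  toFun φ := (⟨φ.1.1, φ.2.1⟩, ⟨φ.1.2, φ.2.2⟩)
  invFun ψ := ⟨(ψ.1.1, ψ.2.1), ⟨ψ.1.2, ψ.2.2⟩⟩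
  map_add' _ _ := rfl
  map_smul' _ _ := rfl
  left_inv _ := rfl
  right_inv _ := rfl

theorem T1b_finiteDimensional_Lt [IsAlgClosed k] (hFt : IsFF k Ft) (x₁ x₂ : Ft) (n : ℕ) :
    FiniteDimensional k (Lt k x₁ x₂ n) := by
  have h1 := finiteDimensional_L hFt (n • poleDiv k x₁)
  have h2 := finiteDimensional_L hFt (n • poleDiv k x₂)
  unfold Lt
  exact Module.Finite.equiv (T1b_prodEquiv _ _).symm

theorem T1b_finrank_Lt [IsAlgClosed k] (hFt : IsFF k Ft) (x₁ x₂ : Ft) (n : ℕ) :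
    Module.finrank k (Lt k x₁ x₂ n) = FFLib.ell (n • poleDiv k x₁) + FFLib.ell (n • poleDiv k x₂) := by
  have h1 := finiteDimensional_L hFt (n • poleDiv k x₁)
  have h2 := finiteDimensional_L hFt (n • poleDiv k x₂)
  unfold Lt
  rw [(T1b_prodEquiv _ _).finrank_eq, Module.finrank_prod]
  rfl

/-- (T1b) `S34/GluedDim.lean` : the glued spaces all have codimension `|S|` -/
theorem finrank_glued [IsAlgClosed k] (hFt : IsFF k Ft) {x₁ x₂ : Ft}
    (hx₁ : Transcendental k x₁) (hx₂ : Transcendental k x₂)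
    (S : Finset (Place k Ft × Place k Ft)) (hS : IsNodeData x₁ x₂ S) :
    ∃ n₁ : ℕ, ∀ n, n₁ ≤ n → ∀ (c : Place k Ft × Place k Ft → k) (W : Submodule k (Ft × Ft)),
      (∀ φ, φ ∈ W ↔ φ ∈ Lt k x₁ x₂ n ∧ Glued S c φ) →
      Module.finrank k W + S.card = Module.finrank k (Lt k x₁ x₂ n) := by
  classical
  obtain ⟨n₁, hn₁⟩ := exists_mem_L_evP hFt hx₁ (S.image Prod.fst) (by
    intro P hP
    obtain ⟨s, hs, rfl⟩ := Finset.mem_image.mp hP
    exact hS.fin₁ s hs)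
  refine ⟨n₁, fun n hn c W hW => ?_⟩
  have hfd := T1b_finiteDimensional_Lt hFt x₁ x₂ n
  have hsurj : Function.Surjective (T1b_defect hFt S hS c n) := by
    intro y
    obtain ⟨v, hv⟩ := T1b_exists_fun hS (fun s => if h : s ∈ S then y ⟨s, h⟩ else 0)
    obtain ⟨a, ha, hav⟩ := hn₁ n hn v
    refine ⟨⟨(a, 0), Submodule.mem_prod.mpr ⟨ha, Submodule.zero_mem _⟩⟩, ?_⟩
    funext s
    rw [T1b_defect_apply]
    have h0 : evP s.1.2 (0 : Ft) = 0 := by
      have := evP_algebraMap s.1.2 (0 : k)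
      rwa [map_zero] at this
    simp only
    rw [h0, mul_zero, sub_zero, hav _ (Finset.mem_image_of_mem _ s.2), hv _ s.2, dif_pos s.2]
  have hrn := LinearMap.finrank_range_add_finrank_ker (T1b_defect hFt S hS c n)
  rw [LinearMap.range_eq_top.mpr hsurj, finrank_top, Module.finrank_fintype_fun_eq_card,
    Fintype.card_coe] at hrn
  have hWle : W ≤ Lt k x₁ x₂ n := fun φ hφ => ((hW φ).mp hφ).1
  have hker : LinearMap.ker (T1b_defect hFt S hS c n) = W.comap (Lt k x₁ x₂ n).subtype := by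
    ext φ
    rw [T1b_mem_ker, Submodule.mem_comap, Submodule.subtype_apply, hW]
    exact ⟨fun h => ⟨φ.2, h⟩, fun h => h.2⟩
  rw [hker, (Submodule.comapSubtypeEquivOfLe hWle).finrank_eq] at hrn
  omega

/-- (T1b') the glued pairs form a subspace, and contain a section which is `1` at all `P'` -/
theorem exists_glued_submodule [IsAlgClosed k] (hFt : IsFF k Ft) {x₁ x₂ : Ft}
    (S : Finset (Place k Ft × Place k Ft)) (hS : IsNodeData x₁ x₂ S)
    (c : Place k Ft × Place k Ft → k) (n : ℕ) :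
    ∃ W : Submodule k (Ft × Ft), ∀ φ, φ ∈ W ↔ φ ∈ Lt k x₁ x₂ n ∧ Glued S c φ := by
  refine ⟨(LinearMap.ker (T1b_defect hFt S hS c n)).map (Lt k x₁ x₂ n).subtype, fun φ => ?_⟩
  rw [Submodule.mem_map]
  constructor
  · rintro ⟨ψ, hψ, rfl⟩
    exact ⟨ψ.2, (T1b_mem_ker hFt S hS c n ψ).mp hψ⟩
  · rintro ⟨h1, h2⟩
    exact ⟨⟨φ, h1⟩, (T1b_mem_ker hFt S hS c n ⟨φ, h1⟩).mpr h2, rfl⟩

theorem exists_glued_one [IsAlgClosed k] (hFt : IsFF k Ft) {x₁ x₂ : Ft}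
    (hx₁ : Transcendental k x₁) (hx₂ : Transcendental k x₂)
    (S : Finset (Place k Ft × Place k Ft)) (hS : IsNodeData x₁ x₂ S) :
    ∃ n₁ : ℕ, ∀ n, n₁ ≤ n → ∀ c : Place k Ft × Place k Ft → k,
      ∃ φ ∈ Lt k x₁ x₂ n, Glued S c φ ∧ ∀ s ∈ S, evP s.2 φ.2 = 1 := by
  classical
  obtain ⟨n₁, hn₁⟩ := exists_mem_L_evP hFt hx₁ (S.image Prod.fst) (by
    intro P hP
    obtain ⟨s, hs, rfl⟩ := Finset.mem_image.mp hP
    exact hS.fin₁ s hs)
  refine ⟨n₁, fun n hn c => ?_⟩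
  obtain ⟨v, hv⟩ := T1b_exists_fun hS c
  obtain ⟨a, ha, hav⟩ := hn₁ n hn v
  have h1 : ∀ P : Place k Ft, evP P (1 : Ft) = 1 := by
    intro P
    have := evP_algebraMap P (1 : k)
    rwa [map_one] at this
  have hone : (1 : Ft) ∈ riemannRochSpace (n • poleDiv k x₂) := by
    apply L_mono (A := 0)
    · exact nsmul_nonneg (dg_poleDiv_nonneg hFt x₂) n
    · exact (mem_L_zero_iff hFt 1).mpr ⟨1, map_one _⟩
  refine ⟨(a, 1), Submodule.mem_prod.mpr ⟨ha, hone⟩, ?_, fun s _ => h1 _⟩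
  intro s hs
  simp only
  rw [h1, mul_one, hav _ (Finset.mem_image_of_mem _ hs), hv _ hs]

end T1b

end Fermat.Agent.S34Lib
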