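import Fermat.Agent.S34.Defs

/-!
# S34 library, ABSTRACT part, leaf (RS2): the dimension of the reduction `V(U)` of a finite
dimensional space of functions, the kernel of `red`, lattice Nakayama
-/

set_option autoImplicit false

open AlgebraicCurve IntermediateField Polynomial Fermat.Agent.S24Lib Fermat.Agent.FFLib
  Fermat.Agent.S18Lib

namespace Fermat.Agent.S34Lib

section RS2

variable {K k F Φ : Type*} [Field K] [Field k] [Field F] [Algebra K F] [CommRing Φ] [Algebra k Φ]
  {A : ValuationSubring K} {resK : A →+* k}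

theorem linearIndependent_of_redG (R : RedG A resK F Φ) {ι : Type*} (b : ι → R.O)
    (hb : LinearIndependent k (fun i => R.red (b i))) :
    LinearIndependent K (fun i => ((b i : R.O) : F)) := by
  classical
  rw [linearIndependent_iff']
  intro s c hsum
  by_contra hcon
  push Not at hcon
  obtain ⟨j, hj, hj0, hA⟩ := exists_scale_finset A s c hcon
  set a : ι → A := fun i => if hi : i ∈ s then ⟨c i / c j, hA i hi⟩ else 0 with ha
  have h1 : ∑ i ∈ s, R.const (a i) * b i = 0 := by
    apply Subtype.val_injective
    have h2 : ((∑ i ∈ s, R.const (a i) * b i : R.O) : F) =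
        ∑ i ∈ s, ((R.const (a i) * b i : R.O) : F) := by
      exact map_sum R.O.subtype _ _
    rw [h2]
    have h3 : ∀ i ∈ s, ((R.const (a i) * b i : R.O) : F) =
        (c j)⁻¹ • (c i • ((b i : R.O) : F)) := by
      intro i hi
      have : ((a i : A) : K) = c i / c j := by
        rw [ha]
        simp only [dif_pos hi]
      rw [smul_smul, Algebra.smul_def]
      change algebraMap K F ((a i : A) : K) * _ = _
      rw [this, div_eq_inv_mul]
    rw [Finset.sum_congr rfl h3, ← Finset.smul_sum, hsum, smul_zero]
    rfl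
  have h2 := congrArg R.red h1
  rw [map_sum, map_zero] at h2
  simp only [map_mul, R.red_const, ← Algebra.smul_def] at h2
  have h3 := (linearIndependent_iff'.1 hb) s (fun i => resK (a i)) h2 j hj
  have h4 : a j = 1 := by
    rw [ha]
    simp only [dif_pos hj]
    exact Subtype.ext (div_self hj0)
  rw [h4, map_one] at h3
  exact one_ne_zero h3

private theorem rs2_card_le (R : RedG A resK F Φ) (hres : Function.Surjective resK)
    (U : Submodule K F) [FiniteDimensional K U] (s : Finset (redSp R hres U))
    (hs : LinearIndependent k fun i : s => (i : redSp R hres U)) :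
    s.card ≤ Module.finrank K U := by
  have h1 : ∀ i : s, ∃ x : R.O, ((x : R.O) : F) ∈ U ∧
      R.red x = ((i : redSp R hres U) : Φ) :=
    fun i => mem_redSp.1 (i : redSp R hres U).2
  choose x hxU hx using h1
  have h2 : LinearIndependent k (fun i : s => R.red (x i)) := by
    have h3 := hs.map' (redSp R hres U).subtype (Submodule.ker_subtype _)
    have h4 : (fun i : s => R.red (x i)) =
        (redSp R hres U).subtype ∘ fun i : s => (i : redSp R hres U) := by
      funext i
      exact hx i
    rw [h4]
    exact h3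
  have h3 := linearIndependent_of_redG R x h2
  have h4 : LinearIndependent K (fun i : s => (⟨((x i : R.O) : F), hxU i⟩ : U)) :=
    LinearIndependent.of_comp U.subtype h3
  have h5 := h4.fintype_card_le_finrank
  simpa using h5

private theorem rs2_rank_le (R : RedG A resK F Φ) (hres : Function.Surjective resK)
    (U : Submodule K F) [FiniteDimensional K U] :
    Module.rank k (redSp R hres U) ≤ (Module.finrank K U : ℕ) :=
  rank_le fun s hs => rs2_card_le R hres U s hs

theorem finiteDimensional_redSp (R : RedG A resK F Φ) (hres : Function.Surjective resK)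
    (U : Submodule K F) [FiniteDimensional K U] : FiniteDimensional k (redSp R hres U) := by
  rw [FiniteDimensional, ← Module.rank_lt_aleph0_iff]
  exact (rs2_rank_le R hres U).trans_lt (Cardinal.natCast_lt_aleph0)

theorem finrank_redSp (R : RedG A resK F Φ) (hres : Function.Surjective resK)
    (U : Submodule K F) [FiniteDimensional K U] :
    Module.finrank k (redSp R hres U) = Module.finrank K U := by
  have hfin := finiteDimensional_redSp R hres U
  apply le_antisymm
  · have h1 := rs2_rank_le R hres U
    rw [← Module.finrank_eq_rank] at h1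
    exact_mod_cast h1
  · obtain ⟨b, hbU, hb⟩ := R.exists_orth U inferInstance
    have h1 : LinearIndependent k
        (fun i => (⟨R.red (b i), red_mem_redSp hres (hbU i)⟩ : redSp R hres U)) :=
      LinearIndependent.of_comp (redSp R hres U).subtype hb
    have h2 := h1.fintype_card_le_finrank
    simpa using h2

/-- same, staying inside a subspace -/
theorem exists_of_red_eq_zero (R : RedG A resK F Φ) (hres : Function.Surjective resK)
    (U : Submodule K F) (x : R.O) (hxU : ((x : R.O) : F) ∈ U) (hx : R.red x = 0) :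
    ∃ (π : A) (y : R.O), resK π = 0 ∧ ((y : R.O) : F) ∈ U ∧ x = R.const π * y := by
  by_cases hx0 : ((x : R.O) : F) = 0
  · refine ⟨0, 0, map_zero _, by simp, ?_⟩
    rw [mul_zero]
    exact Subtype.ext hx0
  obtain ⟨c, hc0, y, hy, hxy⟩ := R.exists_scale _ hx0
  have hcinv : c⁻¹ ∉ A := by
    intro hcA
    apply hy
    have h1 : y = R.const ⟨c⁻¹, hcA⟩ * x := by
      apply Subtype.ext
      change ((y : R.O) : F) = algebraMap K F c⁻¹ * ((x : R.O) : F)
      rw [hxy, ← mul_assoc, ← map_mul, inv_mul_cancel₀ hc0, map_one, one_mul]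
    rw [h1, map_mul, hx, mul_zero]
  have hcA : c ∈ A := (A.mem_or_inv_mem c).resolve_right hcinv
  refine ⟨⟨c, hcA⟩, y, ?_, ?_, Subtype.ext hxy⟩
  · rw [resK_eq_zero_iff hres]
    intro hu
    obtain ⟨d, hd⟩ := hu.exists_right_inv
    apply hcinv
    have h1 : c * (d : K) = 1 := congrArg Subtype.val hd
    have h2 : c⁻¹ = (d : K) := by
      rw [inv_eq_iff_eq_inv]
      exact eq_inv_of_mul_eq_one_left h1
    rw [h2]
    exact d.2
  · have h1 : ((y : R.O) : F) = c⁻¹ • ((x : R.O) : F) := by
      rw [Algebra.smul_def, hxy, ← mul_assoc, ← map_mul, inv_mul_cancel₀ hc0, map_one, one_mul]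
    rw [h1]
    exact U.smul_mem _ hxU

/-- the kernel of `red` is `𝔪_A O` -/
theorem red_eq_zero_iff_exists (R : RedG A resK F Φ) (hres : Function.Surjective resK) (x : R.O) :
    R.red x = 0 ↔ ∃ (π : A) (y : R.O), resK π = 0 ∧ x = R.const π * y := by
  constructor
  · intro hx
    obtain ⟨π, y, h1, -, h2⟩ := exists_of_red_eq_zero R hres ⊤ x trivial hx
    exact ⟨π, y, h1, h2⟩
  · rintro ⟨π, y, h1, rfl⟩
    rw [map_mul, R.red_const, h1, map_zero, zero_mul]

/-- lattice Nakayama: integral elements of `U` whose reductions are independent and as many as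
`dim U` form an `A`-basis of `U ∩ O` -/
theorem exists_coeff_of_red_basis (R : RedG A resK F Φ) (hres : Function.Surjective resK)
    (U : Submodule K F) [FiniteDimensional K U] (b : Fin (Module.finrank K U) → R.O)
    (hbU : ∀ i, ((b i : R.O) : F) ∈ U) (hb : LinearIndependent k (fun i => R.red (b i)))
    (x : R.O) (hx : ((x : R.O) : F) ∈ U) :
    ∃ a : Fin (Module.finrank K U) → A, x = ∑ i, R.const (a i) * b i := by
  classical
  have h1 := linearIndependent_of_redG R b hb
  have h2 : LinearIndependent K (fun i => (⟨((b i : R.O) : F), hbU i⟩ : U)) :=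
    LinearIndependent.of_comp U.subtype h1
  set B := Module.Basis.mk h2 (h2.span_eq_top_of_card_eq_finrank' (by simp)).ge with hB
  have hBi : ∀ i, ((B i : U) : F) = ((b i : R.O) : F) := by
    intro i
    rw [hB, Module.Basis.mk_apply]
  set c : Fin (Module.finrank K U) → K := fun i => B.repr ⟨_, hx⟩ i with hc
  have hsum : ((x : R.O) : F) = ∑ i, c i • ((b i : R.O) : F) := by
    have h3 := B.sum_repr ⟨_, hx⟩
    have h4 := congrArg U.subtype h3
    rw [map_sum] at h4
    simp only [map_smul, Submodule.subtype_apply, hBi] at h4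
    exact h4.symm
  by_cases hall : ∀ i, c i ∈ A
  · refine ⟨fun i => ⟨c i, hall i⟩, ?_⟩
    apply Subtype.ext
    rw [hsum]
    have h2 : ((∑ i, R.const (⟨c i, hall i⟩ : A) * b i : R.O) : F) =
        ∑ i, ((R.const (⟨c i, hall i⟩ : A) * b i : R.O) : F) := map_sum R.O.subtype _ _
    rw [h2]
    refine Finset.sum_congr rfl fun i _ => ?_
    rw [Algebra.smul_def]
    rfl
  · exfalso
    push Not at hall
    obtain ⟨i₁, hi₁⟩ := hall
    have hne : ∃ i ∈ (Finset.univ : Finset (Fin (Module.finrank K U))), c i ≠ 0 :=
      ⟨i₁, Finset.mem_univ _, fun h => hi₁ (h ▸ A.zero_mem)⟩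
    obtain ⟨j, -, hj0, hA⟩ := exists_scale_finset A Finset.univ c hne
    -- `c j ∉ A`
    have hjA : c j ∉ A := by
      intro hjA
      apply hi₁
      have := A.mul_mem _ _ (hA i₁ (Finset.mem_univ _)) hjA
      rwa [div_mul_cancel₀ _ hj0] at this
    have hjinv : (c j)⁻¹ ∈ A := (A.mem_or_inv_mem (c j)).resolve_left hjA
    have hres0 : resK ⟨(c j)⁻¹, hjinv⟩ = 0 := by
      rw [resK_eq_zero_iff hres]
      intro hu
      obtain ⟨d, hd⟩ := hu.exists_right_inv
      apply hjA
      have h1 : (c j)⁻¹ * (d : K) = 1 := congrArg Subtype.val hd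
      have h2 : c j = (d : K) := by
        field_simp at h1
        exact h1.symm
      rw [h2]
      exact d.2
    set a : Fin (Module.finrank K U) → A := fun i => ⟨c i / c j, hA i (Finset.mem_univ _)⟩ with ha
    have h3 : R.const ⟨(c j)⁻¹, hjinv⟩ * x = ∑ i, R.const (a i) * b i := by
      apply Subtype.ext
      have h2 : ((∑ i, R.const (a i) * b i : R.O) : F) =
          ∑ i, ((R.const (a i) * b i : R.O) : F) := map_sum R.O.subtype _ _
      rw [h2]
      change algebraMap K F (c j)⁻¹ * ((x : R.O) : F) = _
      rw [hsum, Finset.mul_sum]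
      refine Finset.sum_congr rfl fun i _ => ?_
      change _ = algebraMap K F (c i / c j) * ((b i : R.O) : F)
      rw [Algebra.smul_def, ← mul_assoc, ← map_mul, div_eq_inv_mul]
    have h4 := congrArg R.red h3
    rw [map_mul, R.red_const, hres0, map_zero, zero_mul, map_sum] at h4
    simp only [map_mul, R.red_const, ← Algebra.smul_def] at h4
    have h5 := (linearIndependent_iff'.1 hb) Finset.univ (fun i => resK (a i)) h4.symm j
      (Finset.mem_univ _)
    have h6 : a j = 1 := Subtype.ext (div_self hj0)
    rw [h6, map_one] at h5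
    exact one_ne_zero h5

/-- lattice Nakayama, second form: an additive subgroup `Λ ⊆ U ∩ O` stable under `A` with
`red Λ = V(U)` is all of `U ∩ O` -/
theorem mem_of_red_surj (R : RedG A resK F Φ) (hres : Function.Surjective resK)
    (U : Submodule K F) [FiniteDimensional K U] (Λ : AddSubgroup R.O)
    (hA : ∀ (a : A) (y : R.O), y ∈ Λ → R.const a * y ∈ Λ)
    (hΛU : ∀ y ∈ Λ, ((y : R.O) : F) ∈ U)
    (hsurj : ∀ φ ∈ redSp R hres U, ∃ y ∈ Λ, R.red y = φ)
    (x : R.O) (hx : ((x : R.O) : F) ∈ U) : x ∈ Λ := by
  obtain ⟨b₀, hb₀U, hb₀⟩ := R.exists_orth U inferInstance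
  have h1 : ∀ i, ∃ y ∈ Λ, R.red y = R.red (b₀ i) :=
    fun i => hsurj _ (red_mem_redSp hres (hb₀U i))
  choose b hbΛ hb using h1
  have h2 : LinearIndependent k (fun i => R.red (b i)) := by
    simp only [hb]
    exact hb₀
  obtain ⟨a, ha⟩ := exists_coeff_of_red_basis R hres U b (fun i => hΛU _ (hbΛ i)) h2 x hx
  rw [ha]
  exact Λ.sum_mem fun i _ => hA _ _ (hbΛ i)

end RS2

end Fermat.Agent.S34Lib
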