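import Fermat.Agent.S34.Defs
import Fermat.Agent.S34.RedSp
import Fermat.Agent.S18.DegLe

/-!
# S34 library, ABSTRACT part, leaf (DL2): the degree of a function does not grow under reduction
(two components)
-/

set_option autoImplicit false

open AlgebraicCurve IntermediateField Polynomial Fermat.Agent.S24Lib Fermat.Agent.FFLib
  Fermat.Agent.S18Lib

namespace Fermat.Agent.S34Lib

section DL2

variable {K k F Ft : Type*} [Field K] [Field k] [Field F] [Algebra K F] [Field Ft] [Algebra k Ft]
  {A : ValuationSubring K} {resK : A →+* k}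

theorem transcendental_of_red2 (R : RedG A resK F (Ft × Ft)) (x : R.O)
    (hx : Transcendental k (R.red x).1) : Transcendental K ((x : R.O) : F) := by
  apply dl_transcendental_of_pow
  have h1 := dl_linearIndependent_pow hx
  have h2 : LinearIndependent k (fun n : ℕ => R.red (x ^ n)) := by
    apply LinearIndependent.of_comp (LinearMap.fst k Ft Ft)
    have h3 : (LinearMap.fst k Ft Ft) ∘ (fun n : ℕ => R.red (x ^ n)) =
        fun n : ℕ => (R.red x).1 ^ n := by
      funext n
      simp [map_pow]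
    rw [h3]
    exact h1
  exact linearIndependent_of_redG R (fun n => x ^ n) h2

private theorem dl2_indep {z : Ft} [FiniteDimensional k⟮z⟯ Ft] (hz : Transcendental k z) :
    LinearIndependent k (fun p : ℕ × Fin (Module.finrank k⟮z⟯ Ft) =>
      z ^ p.1 * Module.finBasis k⟮z⟯ Ft p.2) := by
  set g : k⟮z⟯ := AdjoinSimple.gen k z with hg
  have hgt : Transcendental k g := by
    intro hal
    apply hz
    have := hal.algebraMap (A := Ft)
    rwa [hg, AdjoinSimple.algebraMap_gen] at this
  have h1 : LinearIndependent k (fun p : ℕ × Fin (Module.finrank k⟮z⟯ Ft) =>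
      g ^ p.1 • Module.finBasis k⟮z⟯ Ft p.2) :=
    linearIndependent_smul (dl_linearIndependent_pow hgt)
      (Module.finBasis k⟮z⟯ Ft).linearIndependent
  have h2 : (fun p : ℕ × Fin (Module.finrank k⟮z⟯ Ft) =>
      g ^ p.1 • Module.finBasis k⟮z⟯ Ft p.2) =
      fun p => z ^ p.1 * Module.finBasis k⟮z⟯ Ft p.2 := by
    funext p
    rw [Algebra.smul_def, map_pow, hg, AdjoinSimple.algebraMap_gen]
  rw [h2] at h1
  exact h1

theorem finrank_red_le2 (hF : IsFF K F) (hFt : IsFF k Ft) [IsAlgClosed K]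
    (R : RedG A resK F (Ft × Ft)) (x : R.O) (hx₁ : Transcendental k (R.red x).1)
    (hx₂ : Transcendental k (R.red x).2) :
    Module.finrank k⟮(R.red x).1⟯ Ft + Module.finrank k⟮(R.red x).2⟯ Ft ≤
      Module.finrank K⟮((x : R.O) : F)⟯ F := by
  classical
  have hxK := transcendental_of_red2 R x hx₁
  have hfin2 : FiniteDimensional K⟮((x : R.O) : F)⟯ F := hF.finiteDimensional hxK
  have hfin3 : FiniteDimensional k⟮(R.red x).1⟯ Ft := hFt.finiteDimensional hx₁
  have hfin4 : FiniteDimensional k⟮(R.red x).2⟯ Ft := hFt.finiteDimensional hx₂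
  have hx0 : ((x : R.O) : F) ≠ 0 := by
    intro h
    rw [h] at hxK
    exact hxK isAlgebraic_zero
  set d₁ := Module.finrank k⟮(R.red x).1⟯ Ft with hd₁
  set d₂ := Module.finrank k⟮(R.red x).2⟯ Ft with hd₂
  set b₁ := Module.finBasis k⟮(R.red x).1⟯ Ft with hb₁
  set b₂ := Module.finBasis k⟮(R.red x).2⟯ Ft with hb₂
  have hlift₁ : ∀ i, ∃ y : R.O, R.red y = (b₁ i, 0) := fun i => R.red_surjective _
  have hlift₂ : ∀ i, ∃ y : R.O, R.red y = (0, b₂ i) := fun i => R.red_surjective _
  choose y₁ hy₁ using hlift₁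
  choose y₂ hy₂ using hlift₂
  set Y : Fin d₁ ⊕ Fin d₂ → R.O := Sum.elim y₁ y₂ with hY
  have h0 := linearIndependent_inl_union_inr' (dl2_indep hx₁) (dl2_indep hx₂)
  have h1 := h0.comp (Equiv.prodSumDistrib ℕ (Fin d₁) (Fin d₂))
    (Equiv.prodSumDistrib ℕ (Fin d₁) (Fin d₂)).injective
  have h2 : LinearIndependent k (fun p : ℕ × (Fin d₁ ⊕ Fin d₂) => R.red (x ^ p.1 * Y p.2)) := by
    convert h1 using 1
    funext p
    obtain ⟨n, i | i⟩ := p
    · simp only [hY, Sum.elim_inl, map_mul, map_pow, hy₁, Function.comp_apply,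
        Equiv.prodSumDistrib_apply_left, LinearMap.inl_apply]
      ext <;> simp [hb₁]
    · simp only [hY, Sum.elim_inr, map_mul, map_pow, hy₂, Function.comp_apply,
        Equiv.prodSumDistrib_apply_right, LinearMap.inr_apply]
      ext <;> simp [hb₂]
  have h3 := linearIndependent_of_redG R _ h2
  have h4 := card_le_finrank_of_indep (K := K) ((x : R.O) : F) hx0
    (fun i => ((Y i : R.O) : F)) ?_
  · simpa using h4
  intro φ hsum i
  obtain ⟨N, hN⟩ : ∃ N : ℕ, ∀ i, (φ i).natDegree < N := by
    refine ⟨Finset.univ.sup (fun i => (φ i).natDegree) + 1, fun i => ?_⟩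
    have := Finset.le_sup (f := fun i => (φ i).natDegree) (Finset.mem_univ i)
    omega
  have h5 : ∑ p ∈ Finset.range N ×ˢ Finset.univ,
      (φ p.2).coeff p.1 • (((x ^ p.1 * Y p.2 : R.O)) : F) = 0 := by
    rw [Finset.sum_product_right, ← hsum]
    refine Finset.sum_congr rfl fun i _ => ?_
    rw [aeval_eq_sum_range' (hN i), Finset.sum_mul]
    refine Finset.sum_congr rfl fun m _ => ?_
    push_cast
    rw [smul_mul_assoc]
  have h6 := (linearIndependent_iff'.1 h3) _ (fun p => (φ p.2).coeff p.1) h5 (0, i)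
    (Finset.mem_product.2 ⟨Finset.mem_range.2 (by have := hN i; omega), Finset.mem_univ _⟩)
  exact h6

end DL2

end Fermat.Agent.S34Lib
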