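import Fermat.Agent.S34.Defs
import Fermat.Agent.S34.EvP
import Fermat.Agent.S34.RedSp
import Fermat.Agent.S34.FFSup
import Fermat.Agent.S34.DegLe2
import Fermat.Agent.S34.GluedDim

/-!
# S34 package, (T1a) + (T1c): `V(L(n J + D))` is a space of twisted glued pairs
-/

set_option autoImplicit false

open AlgebraicCurve IntermediateField Polynomial Fermat.Agent.S24Lib Fermat.Agent.FFLib
  Fermat.Agent.S18Lib

namespace Fermat.Agent.S34Lib

section T1a

/-- union of `r` lines: the coefficient of `t` -/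
theorem T1a_lines {k : Type*} [Field k] [Infinite k] (r : ℕ) (hr : (r : k) ≠ 0) (a a₀ b b₀ : k)
    (h : ∀ t : k, (t * a + a₀) ^ r = (t * b + b₀) ^ r) :
    a * a₀ ^ (r - 1) = b * b₀ ^ (r - 1) := by
  have hp : (X * C a + C a₀ : k[X]) ^ r = (X * C b + C b₀) ^ r := by
    apply Polynomial.funext
    intro t
    simp only [eval_pow, eval_add, eval_mul, eval_X, eval_C]
    exact h t
  have hd := congrArg (fun p : k[X] => (derivative p).eval 0) hp
  simp only [derivative_pow, derivative_add, derivative_mul, derivative_X, derivative_C,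
    eval_mul, eval_pow, eval_add, eval_X, eval_C, one_mul, mul_zero, add_zero, zero_mul,
    zero_add, eval_natCast, map_natCast] at hd
  have := mul_left_cancel₀ hr (by simpa [mul_assoc] using hd :
    (r : k) * (a₀ ^ (r - 1) * a) = (r : k) * (b₀ ^ (r - 1) * b))
  rw [mul_comm a, mul_comm b]
  exact this

variable {K k F Ft : Type*} [Field K] [Field k] [Field F] [Algebra K F] [Field Ft] [Algebra k Ft]
  {A : ValuationSubring K} {resK : A →+* k}

/-- `f ∈ L(n J + D)`, `div u = r D`  ⟹  `f^r u ∈ L(r n J)` -/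
theorem T1a_pow_mem {J D : Divisor K F} {n r : ℕ} {f u : F} (hu : u ≠ 0)
    (hD : ∀ v : Place K F, v.ord u = r * D v) (hf : f ∈ riemannRochSpace (n • J + D)) :
    f ^ r * u ∈ riemannRochSpace ((r * n) • J) := by
  rw [mem_L_iff] at hf ⊢
  intro v
  rcases hf v with h0 | h0
  · by_cases hr : r = 0
    · subst hr
      right
      rw [pow_zero, one_mul, hD v]
      simp
    · left
      rw [h0, zero_pow hr, zero_mul]
  · by_cases hf0 : f = 0
    · by_cases hr : r = 0
      · subst hr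
        right
        rw [pow_zero, one_mul, hD v]
        simp
      · left
        rw [hf0, zero_pow hr, zero_mul]
    right
    rw [v.ord_mul (pow_ne_zero _ hf0) hu, wa_ord_pow, hD v]
    simp only [Finsupp.add_apply, Finsupp.smul_apply, nsmul_eq_mul, neg_add_rev,
      Nat.cast_mul] at h0 ⊢
    have hr0 : (0 : ℤ) ≤ r := Int.natCast_nonneg r
    nlinarith [mul_le_mul_of_nonneg_left h0 hr0]

/-- `a^r ∈ L(r n J)`  ⟹  `a ∈ L(n J)` -/
theorem T1a_root_mem {J : Divisor k Ft} {n r : ℕ} (hr : 0 < r) {a : Ft}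
    (ha : a ^ r ∈ riemannRochSpace ((r * n) • J)) : a ∈ riemannRochSpace (n • J) := by
  rw [mem_L_iff] at ha ⊢
  intro v
  rcases ha v with h0 | h0
  · left
    exact pow_eq_zero_iff (by omega) |>.mp h0
  · right
    rw [wa_ord_pow] at h0
    simp only [Finsupp.smul_apply, nsmul_eq_mul, Nat.cast_mul] at h0 ⊢
    have hr0 : (0 : ℤ) < r := by exact_mod_cast hr
    have : (r : ℤ) * (-(n * J v)) ≤ r * v.ord a := by
      calc (r : ℤ) * (-(n * J v)) = -(r * n * J v) := by ring
        _ ≤ _ := h0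
    exact le_of_mul_le_mul_left this hr0

/-- the basic consequence of (HW): `r`-th powers are glued -/
theorem T1a_key (hFt : IsFF k Ft) [IsAlgClosed k]
    (hres : Function.Surjective resK)
    (R : RedG A resK F (Ft × Ft)) (x : R.O)
    (S : Finset (Place k Ft × Place k Ft)) (n₀ : ℕ)
    (hS : IsNodeData (R.red x).1 (R.red x).2 S) (hW : HW R hres x S n₀)
    (r : ℕ) (hr : (r : k) ≠ 0) (u : R.O) (hu : R.red u = 1)
    (D : Divisor K F) (hD : ∀ v : Place K F, v.ord ((u : R.O) : F) = r * D v)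
    (n : ℕ) (hn : n₀ ≤ n) (φ : Ft × Ft)
    (hφ : φ ∈ redSp R hres (riemannRochSpace (n • poleDiv K ((x : R.O) : F) + D))) :
    φ ∈ Lt k (R.red x).1 (R.red x).2 n ∧ ∀ s ∈ S, evP s.1 φ.1 ^ r = evP s.2 φ.2 ^ r := by
  have hr0 : 0 < r := by
    rcases Nat.eq_zero_or_pos r with h | h
    · subst h; simp at hr
    · exact h
  have hu0 : ((u : R.O) : F) ≠ 0 := by
    intro h
    have : u = 0 := Subtype.ext h
    rw [this, map_zero] at hu
    exact zero_ne_one hu
  obtain ⟨f, hf, rfl⟩ := hφ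
  have hg : (((f ^ r * u : R.O)) : F) ∈
      riemannRochSpace ((r * n) • poleDiv K ((x : R.O) : F)) := by
    have := T1a_pow_mem hu0 hD hf
    simpa using this
  have hrn : n₀ ≤ r * n := le_trans hn (Nat.le_mul_of_pos_left n hr0)
  have h1 := (hW (r * n) hrn (R.red (f ^ r * u))).mp (red_mem_redSp hres hg)
  rw [map_mul, hu, mul_one, map_pow] at h1
  obtain ⟨h2, h3⟩ := h1
  have h4 : R.red f ∈ Lt k (R.red x).1 (R.red x).2 n := by
    have h2' := Submodule.mem_prod.mp h2
    exact Submodule.mem_prod.mpr ⟨T1a_root_mem hr0 h2'.1, T1a_root_mem hr0 h2'.2⟩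
  refine ⟨h4, fun s hs => ?_⟩
  have h5 := h3 s hs
  rw [one_mul, Prod.pow_fst, Prod.pow_snd, evP_pow hFt _ (T1b_reg₁ hFt hS h4 hs),
    evP_pow hFt _ (T1b_reg₂ hFt hS h4 hs)] at h5
  exact h5

theorem T1a_mono (hF : IsFF K F) [IsAlgClosed K] (hres : Function.Surjective resK)
    (R : RedG A resK F (Ft × Ft)) (x : F) (D : Divisor K F) {n m : ℕ} (h : n ≤ m) :
    redSp R hres (riemannRochSpace (n • poleDiv K x + D)) ≤
      redSp R hres (riemannRochSpace (m • poleDiv K x + D)) :=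
  redSp_mono hres (L_mono (add_le_add_left (nsmul_le_nsmul_left (dg_poleDiv_nonneg hF _) h) _))

/-- (T1a) `S34/Twist.lean` : union of `r` lines -/
theorem exists_twist_le (hF : IsFF K F) (hFt : IsFF k Ft) [IsAlgClosed K] [IsAlgClosed k]
    (hres : Function.Surjective resK)
    (R : RedG A resK F (Ft × Ft)) (x : R.O) (hx₁ : Transcendental k (R.red x).1)
    (hx₂ : Transcendental k (R.red x).2)
    (S : Finset (Place k Ft × Place k Ft)) (n₀ : ℕ)
    (hS : IsNodeData (R.red x).1 (R.red x).2 S) (hW : HW R hres x S n₀)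
    (r : ℕ) (hr : (r : k) ≠ 0) (u : R.O) (hu : R.red u = 1)
    (D : Divisor K F) (hD : ∀ v : Place K F, v.ord ((u : R.O) : F) = r * D v) :
    ∃ c : Place k Ft × Place k Ft → k, (∀ s ∈ S, c s ≠ 0) ∧ ∀ (n : ℕ), n₀ ≤ n → ∀ (φ : Ft × Ft),
      φ ∈ redSp R hres (riemannRochSpace (n • poleDiv K ((x : R.O) : F) + D)) →
        φ ∈ Lt k (R.red x).1 (R.red x).2 n ∧ Glued S c φ := by
  classical
  have hr0 : r ≠ 0 := by
    rintro rfl
    simp at hr
  have hkey := T1a_key hFt hres R x S n₀ hS hW r hr u hu D hD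
  -- the bilinear relation
  have hbil : ∀ n, n₀ ≤ n → ∀ φ φ₀ : Ft × Ft,
      φ ∈ redSp R hres (riemannRochSpace (n • poleDiv K ((x : R.O) : F) + D)) →
      φ₀ ∈ redSp R hres (riemannRochSpace (n • poleDiv K ((x : R.O) : F) + D)) →
      ∀ s ∈ S, evP s.1 φ.1 * evP s.1 φ₀.1 ^ (r - 1) = evP s.2 φ.2 * evP s.2 φ₀.2 ^ (r - 1) := by
    intro n hn φ φ₀ hφ hφ₀ s hs
    have hL := (hkey n hn φ hφ).1
    have hL₀ := (hkey n hn φ₀ hφ₀).1
    apply T1a_lines r hr
    intro t
    have hmem := Submodule.add_mem _ (Submodule.smul_mem _ t hφ) hφ₀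
    have h1 := (hkey n hn _ hmem).2 s hs
    have hLt := Submodule.smul_mem _ t hL
    rw [Prod.fst_add, Prod.snd_add,
      evP_add hFt _ (T1b_reg₁ hFt hS hLt hs) (T1b_reg₁ hFt hS hL₀ hs),
      evP_add hFt _ (T1b_reg₂ hFt hS hLt hs) (T1b_reg₂ hFt hS hL₀ hs),
      Prod.smul_fst, Prod.smul_snd,
      evP_smul hFt _ t (T1b_reg₁ hFt hS hL hs), evP_smul hFt _ t (T1b_reg₂ hFt hS hL hs)] at h1
    exact h1
  let Pr : Place k Ft × Place k Ft → ℕ × (Ft × Ft) → Prop := fun s p =>
    n₀ ≤ p.1 ∧ p.2 ∈ redSp R hres (riemannRochSpace (p.1 • poleDiv K ((x : R.O) : F) + D)) ∧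
      evP s.2 p.2.2 ≠ 0
  refine ⟨fun s => if h : ∃ p, Pr s p then
      (evP s.2 h.choose.2.2 / evP s.1 h.choose.2.1) ^ (r - 1) else 1, ?_, ?_⟩
  · intro s hs
    by_cases h : ∃ p, Pr s p
    · simp only [dif_pos h]
      obtain ⟨h1, h2, h3⟩ := h.choose_spec
      have h4 := (hkey _ h1 _ h2).2 s hs
      have h5 : evP s.1 h.choose.2.1 ≠ 0 := by
        intro h0
        rw [h0, zero_pow hr0] at h4
        exact h3 (pow_eq_zero_iff hr0 |>.mp h4.symm)
      exact pow_ne_zero _ (div_ne_zero h3 h5)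
    · simp only [dif_neg h]
      exact one_ne_zero
  · intro n hn φ hφ
    refine ⟨(hkey n hn φ hφ).1, fun s hs => ?_⟩
    by_cases h : ∃ p, Pr s p
    · simp only [dif_pos h]
      obtain ⟨h1, h2, h3⟩ := h.choose_spec
      have h4 := (hkey _ h1 _ h2).2 s hs
      have h5 : evP s.1 h.choose.2.1 ≠ 0 := by
        intro h0
        rw [h0, zero_pow hr0] at h4
        exact h3 (pow_eq_zero_iff hr0 |>.mp h4.symm)
      have h6 := hbil (max n h.choose.1) (le_trans hn (le_max_left _ _)) φ h.choose.2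
        (T1a_mono hF hres R _ D (le_max_left _ _) hφ)
        (T1a_mono hF hres R _ D (le_max_right _ _) h2) s hs
      rw [div_pow]
      field_simp
      rw [h6]; ring
    · simp only [dif_neg h, one_mul]
      have h3 : evP s.2 φ.2 = 0 := by
        by_contra h3
        exact h ⟨(n, φ), hn, hφ, h3⟩
      have h4 := (hkey n hn φ hφ).2 s hs
      rw [h3, zero_pow hr0] at h4
      rw [h3]
      exact pow_eq_zero_iff hr0 |>.mp h4

/-- (T1c) `S34/Twist.lean` -/
theorem exists_twist (hF : IsFF K F) (hFt : IsFF k Ft) [IsAlgClosed K] [IsAlgClosed k]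
    (hres : Function.Surjective resK)
    (R : RedG A resK F (Ft × Ft)) (x : R.O) (hx₁ : Transcendental k (R.red x).1)
    (hx₂ : Transcendental k (R.red x).2)
    (S : Finset (Place k Ft × Place k Ft)) (n₀ : ℕ)
    (hS : IsNodeData (R.red x).1 (R.red x).2 S) (hW : HW R hres x S n₀)
    (r : ℕ) (hr : (r : k) ≠ 0) (u : R.O) (hu : R.red u = 1)
    (D : Divisor K F) (hD : ∀ v : Place K F, v.ord ((u : R.O) : F) = r * D v) :
    ∃ c : Place k Ft × Place k Ft → k, (∀ s ∈ S, c s ≠ 0) ∧ ∃ n₁ : ℕ, ∀ n, n₁ ≤ n →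
      ∀ φ : Ft × Ft,
      φ ∈ redSp R hres (riemannRochSpace (n • poleDiv K ((x : R.O) : F) + D)) ↔
        φ ∈ Lt k (R.red x).1 (R.red x).2 n ∧ Glued S c φ := by
  have hr0 : r ≠ 0 := by
    rintro rfl
    simp at hr
  obtain ⟨c, hc, hle⟩ := exists_twist_le hF hFt hres R x hx₁ hx₂ S n₀ hS hW r hr u hu D hD
  obtain ⟨m₁, hm₁⟩ := finrank_glued hFt hx₁ hx₂ S hS
  obtain ⟨c₀, hc₀⟩ := riemann_equality hF
  have hx : Transcendental K ((x : R.O) : F) := transcendental_of_red2 R x hx₁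
  have hdegD : Divisor.degree D = 0 := by
    have h1 : divOf K ((u : R.O) : F) = r • D := by
      ext v
      rw [divOf_apply hF, hD v]
      simp
    have h2 := degree_divOf hF ((u : R.O) : F)
    rw [h1, map_nsmul, nsmul_eq_mul] at h2
    rcases mul_eq_zero.mp h2 with h | h
    · exact absurd (by exact_mod_cast h) hr0
    · exact h
  have hdpos : 0 < Module.finrank K⟮((x : R.O) : F)⟯ F := by
    have := hF.finiteDimensional hx
    exact Module.finrank_pos
  refine ⟨c, hc, max (max n₀ m₁) c₀.toNat, fun n hn φ => ⟨hle n ?_ φ, ?_⟩⟩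
  · exact le_trans (le_trans (le_max_left _ _) (le_max_left _ _)) hn
  have hn0 : n₀ ≤ n := le_trans (le_trans (le_max_left _ _) (le_max_left _ _)) hn
  have hn1 : m₁ ≤ n := le_trans (le_trans (le_max_right _ _) (le_max_left _ _)) hn
  have hn2 : c₀.toNat ≤ n := le_trans (le_max_right _ _) hn
  obtain ⟨W, hWc⟩ := exists_glued_submodule hFt S hS c n
  obtain ⟨W₁, hW₁⟩ := exists_glued_submodule hFt S hS (fun _ => 1) n
  have e1 := hm₁ n hn1 c W hWc
  have e2 := hm₁ n hn1 (fun _ => 1) W₁ hW₁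
  have hV1 : redSp R hres (riemannRochSpace (n • poleDiv K ((x : R.O) : F))) = W₁ := by
    ext ψ
    rw [hW n hn0 ψ, hW₁]
  have hfd1 := finiteDimensional_L hF (n • poleDiv K ((x : R.O) : F))
  have hfd2 := finiteDimensional_L hF (n • poleDiv K ((x : R.O) : F) + D)
  have d1 := finrank_redSp R hres (riemannRochSpace (n • poleDiv K ((x : R.O) : F)))
  have d2 := finrank_redSp R hres (riemannRochSpace (n • poleDiv K ((x : R.O) : F) + D))
  have hdeg1 : Divisor.degree (n • poleDiv K ((x : R.O) : F)) =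
      n * (Module.finrank K⟮((x : R.O) : F)⟯ F : ℤ) := by
    rw [map_nsmul, degree_poleDiv hF hx, nsmul_eq_mul]
  have hdeg2 : Divisor.degree (n • poleDiv K ((x : R.O) : F) + D) =
      n * (Module.finrank K⟮((x : R.O) : F)⟯ F : ℤ) := by
    rw [map_add, hdeg1, hdegD, add_zero]
  have hbig : c₀ ≤ n * (Module.finrank K⟮((x : R.O) : F)⟯ F : ℤ) := by
    have h1 : c₀ ≤ (n : ℤ) := by
      have := Int.self_le_toNat c₀
      have h2 : (c₀.toNat : ℤ) ≤ n := by exact_mod_cast hn2
      omega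
    have h3 : (1 : ℤ) ≤ (Module.finrank K⟮((x : R.O) : F)⟯ F : ℤ) := by exact_mod_cast hdpos
    have h4 : (0 : ℤ) ≤ n := Int.natCast_nonneg n
    nlinarith
  have l1 := hc₀ _ (hdeg1 ▸ hbig)
  have l2 := hc₀ _ (hdeg2 ▸ hbig)
  rw [hdeg1] at l1
  rw [hdeg2] at l2
  have hell : FFLib.ell (n • poleDiv K ((x : R.O) : F) + D)
      = FFLib.ell (n • poleDiv K ((x : R.O) : F)) := by
    have : (FFLib.ell (n • poleDiv K ((x : R.O) : F) + D) : ℤ)
      = FFLib.ell (n • poleDiv K ((x : R.O) : F)) := by rw [l1, l2]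
    exact_mod_cast this
  have hleW : redSp R hres (riemannRochSpace (n • poleDiv K ((x : R.O) : F) + D)) ≤ W := by
    intro ψ hψ
    exact (hWc ψ).mpr (hle n hn0 ψ hψ)
  have hfdW : FiniteDimensional k W := by
    have := T1b_finiteDimensional_Lt hFt (R.red x).1 (R.red x).2 n
    exact Submodule.finiteDimensional_of_le (fun ψ hψ => ((hWc ψ).mp hψ).1)
  have heq : redSp R hres (riemannRochSpace (n • poleDiv K ((x : R.O) : F) + D)) = W := by
    apply Submodule.eq_of_le_of_finrank_le hleW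
    rw [d2]
    rw [hV1] at d1
    unfold FFLib.ell at hell
    omega
  intro h
  rw [heq]
  exact (hWc φ).mpr h

end T1a

end Fermat.Agent.S34Lib
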