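import Fermat.Agent.S34.Defs
import Fermat.Agent.S34.RedSp
import Fermat.Agent.S34.EvP
import Fermat.Agent.S34.GluedDim
import Fermat.Agent.S34.Twist

/-!
# S34 library, ABSTRACT part, leaf (T1d): equal reductions of `L(nJ + D)`, `L(nJ + D')` force
`V(L(nJ + D' - D)) = V(L(nJ))`
-/

set_option autoImplicit false

open AlgebraicCurve IntermediateField Polynomial Fermat.Agent.S24Lib Fermat.Agent.FFLib
  Fermat.Agent.S18Lib

namespace Fermat.Agent.S34Lib

section T1d

variable {K k F Ft : Type*} [Field K] [Field k] [Field F] [Algebra K F] [Field Ft] [Algebra k Ft]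
  {A : ValuationSubring K} {resK : A →+* k}

theorem T1d_mul_mem {A₁ A₂ : Divisor K F} {f g : F} (hf : f ∈ riemannRochSpace A₁)
    (hg : g ∈ riemannRochSpace A₂) : f * g ∈ riemannRochSpace (A₁ + A₂) := by
  rw [mem_L_iff]
  intro v
  have := D2.ge_mul v (mem_L_iff.1 hf v) (mem_L_iff.1 hg v)
  refine D2.ge_mono v (le_of_eq ?_) this
  rw [Finsupp.add_apply]; ring

/-- (T1d) `S34/Diff.lean` -/
theorem redSp_diff_eq (hF : IsFF K F) (hFt : IsFF k Ft) [IsAlgClosed K] [IsAlgClosed k]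
    (hres : Function.Surjective resK)
    (R : RedG A resK F (Ft × Ft)) (x : R.O) (hx₁ : Transcendental k (R.red x).1)
    (hx₂ : Transcendental k (R.red x).2)
    (S : Finset (Place k Ft × Place k Ft)) (n₀ : ℕ)
    (hS : IsNodeData (R.red x).1 (R.red x).2 S) (hW : HW R hres x S n₀)
    (r : ℕ) (hr : (r : k) ≠ 0) (u u' : R.O) (hu : R.red u = 1) (hu' : R.red u' = 1)
    (D D' : Divisor K F) (hD : ∀ v : Place K F, v.ord ((u : R.O) : F) = r * D v)
    (hD' : ∀ v : Place K F, v.ord ((u' : R.O) : F) = r * D' v)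
    (hV : ∀ n : ℕ, redSp R hres (riemannRochSpace (n • poleDiv K ((x : R.O) : F) + D)) =
      redSp R hres (riemannRochSpace (n • poleDiv K ((x : R.O) : F) + D'))) :
    ∃ n₃ : ℕ, ∀ n, n₃ ≤ n →
      redSp R hres (riemannRochSpace (n • poleDiv K ((x : R.O) : F) + (D' - D))) =
      redSp R hres (riemannRochSpace (n • poleDiv K ((x : R.O) : F))) := by
  classical
  obtain ⟨c, hc0, n₁, hc⟩ := exists_twist hF hFt hres R x hx₁ hx₂ S n₀ hS hW r hr u hu D hD
  obtain ⟨c', -, n₁', hc'⟩ := exists_twist hF hFt hres R x hx₁ hx₂ S n₀ hS hW r hr u' hu' D' hD'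
  -- the quotient `u' / u`
  have huu : IsUnit u := R.isUnit_of_red u (by rw [hu]; exact isUnit_one)
  obtain ⟨v, hv⟩ := huu.exists_right_inv
  have hrv : R.red v = 1 := by
    have := congrArg R.red hv
    rwa [map_mul, hu, one_mul, map_one] at this
  have hu'' : R.red (u' * v) = 1 := by rw [map_mul, hu', hrv, one_mul]
  have hvF : ((u : R.O) : F) * ((v : R.O) : F) = 1 := by
    have := congrArg (fun z : R.O => (z : F)) hv
    simpa using this
  have hu0 : ((u : R.O) : F) ≠ 0 := left_ne_zero_of_mul_eq_one hvF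
  have hv0 : ((v : R.O) : F) ≠ 0 := right_ne_zero_of_mul_eq_one hvF
  have hu'0 : ((u' : R.O) : F) ≠ 0 := by
    intro h
    have h0 : u' = 0 := Subtype.ext h
    rw [h0, map_zero] at hu'
    exact zero_ne_one hu'
  have hD'' : ∀ w : Place K F, w.ord (((u' * v : R.O) : R.O) : F) = r * (D' - D) w := by
    intro w
    have e1 : w.ord ((u : R.O) : F) + w.ord ((v : R.O) : F) = 0 := by
      rw [← w.ord_mul hu0 hv0, hvF, w.ord_one]
    have e2 : (((u' * v : R.O) : R.O) : F) = ((u' : R.O) : F) * ((v : R.O) : F) := rfl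
    rw [e2, w.ord_mul hu'0 hv0, hD' w, Finsupp.sub_apply]
    have := hD w
    linarith
  obtain ⟨c'', -, n₁'', hc''⟩ :=
    exists_twist hF hFt hres R x hx₁ hx₂ S n₀ hS hW r hr (u' * v) hu'' (D' - D) hD''
  obtain ⟨m₁, hone⟩ := exists_glued_one hFt hx₁ hx₂ S hS
  set N : ℕ := max (max n₁ n₁') (max n₁'' m₁) with hN
  have hN1 : n₁ ≤ N := (le_max_left _ _).trans (le_max_left _ _)
  have hN2 : n₁' ≤ N := (le_max_right _ _).trans (le_max_left _ _)
  have hN3 : n₁'' ≤ N := (le_max_left _ _).trans (le_max_right _ _)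
  have hN4 : m₁ ≤ N := (le_max_right _ _).trans (le_max_right _ _)
  obtain ⟨φ, hφL, hφg, hφ1⟩ := hone N hN4 c
  obtain ⟨ψ, hψL, hψg, hψ1⟩ := hone N hN4 c''
  have hφV := (hc N hN1 φ).2 ⟨hφL, hφg⟩
  have hψV := (hc'' N hN3 ψ).2 ⟨hψL, hψg⟩
  -- `c = c'` on `S`
  have hcc' : ∀ s ∈ S, c s = c' s := by
    intro s hs
    have h1 := hφg s hs
    rw [hV N] at hφV
    have h2 := ((hc' N hN2 φ).1 hφV).2 s hs
    rw [hφ1 s hs, mul_one] at h1 h2
    rw [← h1, ← h2]
  -- `c'' = 1` on `S`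
  have hc''1 : ∀ s ∈ S, c'' s = 1 := by
    intro s hs
    obtain ⟨a, haU, ha⟩ := hφV
    obtain ⟨b, hbU, hb⟩ := hψV
    have hab : (((a * b : R.O) : R.O) : F) ∈
        riemannRochSpace ((N + N) • poleDiv K ((x : R.O) : F) + D') := by
      have := T1d_mul_mem haU hbU
      have e : N • poleDiv K ((x : R.O) : F) + D + (N • poleDiv K ((x : R.O) : F) + (D' - D))
          = (N + N) • poleDiv K ((x : R.O) : F) + D' := by
        rw [add_nsmul]; abel
      rw [e] at this
      exact this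
    have h3 := ((hc' (N + N) (by omega) _).1 (red_mem_redSp hres hab)).2 s hs
    rw [map_mul, ha, hb, Prod.fst_mul, Prod.snd_mul] at h3
    have rφ := Submodule.mem_prod.1 hφL
    have rψ := Submodule.mem_prod.1 hψL
    rw [evP_mul hFt s.1 (ge_zero_of_mem_L hFt rφ.1 s.1 (hS.fin₁ s hs))
        (ge_zero_of_mem_L hFt rψ.1 s.1 (hS.fin₁ s hs)),
      evP_mul hFt s.2 (ge_zero_of_mem_L hFt rφ.2 s.2 (hS.fin₂ s hs))
        (ge_zero_of_mem_L hFt rψ.2 s.2 (hS.fin₂ s hs)),
      hφg s hs, hψg s hs, hφ1 s hs, hψ1 s hs, ← hcc' s hs] at h3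
    simp only [mul_one] at h3
    exact mul_left_cancel₀ (hc0 s hs) (by rw [h3, mul_one])
  refine ⟨max n₁'' n₀, fun n hn => ?_⟩
  ext φ'
  rw [hc'' n ((le_max_left _ _).trans hn), hW n ((le_max_right _ _).trans hn)]
  refine and_congr_right fun _ => ⟨fun h s hs => ?_, fun h s hs => ?_⟩
  · have := h s hs
    rwa [hc''1 s hs] at this
  · rw [hc''1 s hs]
    exact h s hs

end T1d

end Fermat.Agent.S34Lib
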