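import Fermat.Agent.S34.Defs
import Fermat.Agent.S34.RedSp

/-!
# S34 library, ABSTRACT part, leaf (OB2): the lattice linear algebra behind the obstruction
argument, for `RedG`
-/

set_option autoImplicit false

open AlgebraicCurve IntermediateField Polynomial Fermat.Agent.S24Lib Fermat.Agent.FFLib
  Fermat.Agent.S18Lib

namespace Fermat.Agent.S34Lib

section OB2

variable {K k F Φ : Type*} [Field K] [Field k] [Field F] [Algebra K F] [CommRing Φ] [Algebra k Φ]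
  [Nontrivial Φ] {A : ValuationSubring K} {resK : A →+* k}

omit [Nontrivial Φ] in
private theorem ob2_sup_le (R : RedG A resK F Φ) (hres : Function.Surjective resK)
    (U₁ U₂ : Submodule K F) :
    redSp R hres U₁ ⊔ redSp R hres U₂ ≤ redSp R hres (U₁ ⊔ U₂) :=
  sup_le (redSp_mono hres le_sup_left) (redSp_mono hres le_sup_right)

theorem exists_gapG (R : RedG A resK F Φ) (hres : Function.Surjective resK)
    (U₁ U₂ : Submodule K F) [FiniteDimensional K U₁] [FiniteDimensional K U₂]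
    (hdisj : U₁ ⊓ U₂ = ⊥)
    (h1 : (1 : Φ) ∈ redSp R hres U₁) (h2 : (1 : Φ) ∈ redSp R hres U₂)
    (hint : ∀ a ∈ redSp R hres U₁ ⊓ redSp R hres U₂, a ∈ (algebraMap k Φ).range) :
    ∃ (s₁ s₂ w : R.O) (π : A), ((s₁ : R.O) : F) ∈ U₁ ∧ ((s₂ : R.O) : F) ∈ U₂ ∧
      R.red s₁ = 1 ∧ R.red s₂ = 1 ∧ π ≠ 0 ∧ resK π = 0 ∧ s₁ - s₂ = R.const π * w ∧
      R.red w ∉ redSp R hres U₁ ⊔ redSp R hres U₂ := by
  classical
  set V₁ := redSp R hres U₁ with hV₁
  set V₂ := redSp R hres U₂ with hV₂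
  have : FiniteDimensional k V₁ := finiteDimensional_redSp R hres U₁
  have : FiniteDimensional k V₂ := finiteDimensional_redSp R hres U₂
  have : FiniteDimensional k (redSp R hres (U₁ ⊔ U₂)) :=
    finiteDimensional_redSp R hres (U₁ ⊔ U₂)
  -- Step 1: a class outside `V₁ + V₂`
  obtain ⟨w₀, hw₀U, hw₀⟩ : ∃ w₀ : R.O, ((w₀ : R.O) : F) ∈ U₁ ⊔ U₂ ∧ R.red w₀ ∉ V₁ ⊔ V₂ := by
    by_contra hcon
    push Not at hcon
    have hle : redSp R hres (U₁ ⊔ U₂) ≤ V₁ ⊔ V₂ := by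
      rintro a ⟨x, hx, rfl⟩
      exact hcon x hx
    have e1 := Submodule.finrank_sup_add_finrank_inf_eq U₁ U₂
    have e2 := Submodule.finrank_sup_add_finrank_inf_eq V₁ V₂
    rw [hdisj, finrank_bot, add_zero] at e1
    have e3 : Module.finrank k (redSp R hres (U₁ ⊔ U₂)) ≤ Module.finrank k ↥(V₁ ⊔ V₂) :=
      Submodule.finrank_mono hle
    rw [finrank_redSp, e1] at e3
    rw [hV₁, hV₂, finrank_redSp, finrank_redSp, ← hV₁, ← hV₂] at e2
    have e4 : 0 < Module.finrank k ↥(V₁ ⊓ V₂) :=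
      ob_finrank_pos_of_mem (V₁ ⊓ V₂) (a := 1) ⟨h1, h2⟩ one_ne_zero
    omega
  obtain ⟨t₁, ht₁, t₂, ht₂, hsum⟩ := Submodule.mem_sup.mp hw₀U
  -- `t₁ ∉ O`
  have ht₁O : t₁ ∉ R.O := by
    intro h
    have h' : t₂ ∈ R.O := by
      have : t₂ = (w₀ : F) - t₁ := by rw [← hsum]; ring
      rw [this]
      exact R.O.sub_mem w₀.2 h
    apply hw₀
    have : w₀ = (⟨t₁, h⟩ : R.O) + ⟨t₂, h'⟩ := Subtype.ext hsum.symm
    rw [this, map_add]
    exact Submodule.add_mem_sup (red_mem_redSp hres ht₁) (red_mem_redSp hres ht₂)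
  have ht₁0 : t₁ ≠ 0 := fun h => ht₁O (h ▸ R.O.zero_mem)
  obtain ⟨c, hc0, y, he0, hy⟩ := R.exists_scale t₁ ht₁0
  have hcA : c ∉ A := by
    intro h
    apply ht₁O
    rw [hy]
    exact R.O.mul_mem ((R.algebraMap_mem_iff c).2 h) (y : R.O).2
  have hcinv : c⁻¹ ∈ A := (A.mem_or_inv_mem c).resolve_left hcA
  set π : A := ⟨c⁻¹, hcinv⟩ with hπ
  have hπ0 : π ≠ 0 := fun h => inv_ne_zero hc0 (congrArg Subtype.val h)
  have hπu : ¬ IsUnit π := by
    rintro ⟨v, hv⟩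
    apply hcA
    have h1 : ((v⁻¹ : Aˣ) : A) * π = 1 := by rw [← hv]; simp
    have h2 : (((v⁻¹ : Aˣ) : A) : K) * c⁻¹ = 1 := congrArg Subtype.val h1
    have h3 : (((v⁻¹ : Aˣ) : A) : K) = c := by
      field_simp at h2
      exact h2
    rw [← h3]
    exact ((v⁻¹ : Aˣ) : A).2
  have hπres : resK π = 0 := (resK_eq_zero_iff hres π).2 hπu
  have hcF : algebraMap K F c ≠ 0 := by simpa using hc0
  -- the two preliminary sections
  have hyF : (((y : R.O)) : F) = c⁻¹ • t₁ := by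
    rw [hy, Algebra.smul_def, map_inv₀, ← mul_assoc, inv_mul_cancel₀ hcF, one_mul]
  have hs₁' : (((y : R.O)) : F) ∈ U₁ := by rw [hyF]; exact U₁.smul_mem _ ht₁
  set s₂' : R.O := (y : R.O) - R.const π * w₀ with hs₂'
  have hs₂'F : ((s₂' : R.O) : F) = (-c⁻¹) • t₂ := by
    have : ((s₂' : R.O) : F) = ((y : R.O) : F) - algebraMap K F c⁻¹ * (w₀ : F) := rfl
    rw [this, hyF, ← hsum, Algebra.smul_def, Algebra.smul_def, map_neg]
    ring
  have hs₂'U : ((s₂' : R.O) : F) ∈ U₂ := by rw [hs₂'F]; exact U₂.smul_mem _ ht₂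
  have hred₂ : R.red s₂' = R.red (y : R.O) := by
    rw [hs₂', map_sub, map_mul, R.red_const, hπres, map_zero, zero_mul, sub_zero]
  obtain ⟨eb, heb⟩ := hint (R.red (y : R.O))
    ⟨red_mem_redSp hres hs₁', hred₂ ▸ red_mem_redSp hres hs₂'U⟩
  have heb0 : eb ≠ 0 := by
    rintro rfl
    exact he0 (by rw [← heb, map_zero])
  obtain ⟨f, hf⟩ := hres eb⁻¹
  have hmul : algebraMap k Φ (resK f) * R.red (y : R.O) = 1 := by
    rw [hf, ← heb, ← map_mul, inv_mul_cancel₀ heb0, map_one]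
  refine ⟨R.const f * (y : R.O), R.const f * s₂', R.const f * w₀, π, ?_, ?_, ?_, ?_, hπ0, hπres,
    ?_, ?_⟩
  · have := U₁.smul_mem (f : K) hs₁'
    rwa [Algebra.smul_def] at this
  · have := U₂.smul_mem (f : K) hs₂'U
    rwa [Algebra.smul_def] at this
  · rw [map_mul, R.red_const, hmul]
  · rw [map_mul, R.red_const, hred₂, hmul]
  · rw [hs₂']; ring
  · rw [map_mul, R.red_const, hf, ← Algebra.smul_def,
      Submodule.smul_mem_iff _ (inv_ne_zero heb0)]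
    exact hw₀

theorem redSp_sup_of_one_mem (R : RedG A resK F Φ) (hres : Function.Surjective resK)
    (U₁ U₂ : Submodule K F) [FiniteDimensional K U₁] [FiniteDimensional K U₂]
    (h1 : (1 : F) ∈ U₁) (h2 : (1 : F) ∈ U₂)
    (hint : ∀ a ∈ redSp R hres U₁ ⊓ redSp R hres U₂, a ∈ (algebraMap k Φ).range) :
    redSp R hres (U₁ ⊔ U₂) = redSp R hres U₁ ⊔ redSp R hres U₂ := by
  classical
  set V₁ := redSp R hres U₁ with hV₁
  set V₂ := redSp R hres U₂ with hV₂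
  have : FiniteDimensional k V₁ := finiteDimensional_redSp R hres U₁
  have : FiniteDimensional k V₂ := finiteDimensional_redSp R hres U₂
  have : FiniteDimensional k (redSp R hres (U₁ ⊔ U₂)) :=
    finiteDimensional_redSp R hres (U₁ ⊔ U₂)
  symm
  apply Submodule.eq_of_le_of_finrank_le (ob2_sup_le R hres U₁ U₂)
  have e1 := Submodule.finrank_sup_add_finrank_inf_eq U₁ U₂
  have e2 := Submodule.finrank_sup_add_finrank_inf_eq V₁ V₂
  rw [hV₁, hV₂, finrank_redSp, finrank_redSp, ← hV₁, ← hV₂] at e2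
  rw [finrank_redSp]
  show Module.finrank K ↥(U₁ ⊔ U₂) ≤ Module.finrank k ↥(V₁ ⊔ V₂)
  have e3 : 0 < Module.finrank K ↥(U₁ ⊓ U₂) :=
    ob_finrank_pos_of_mem (U₁ ⊓ U₂) (a := 1) ⟨h1, h2⟩ one_ne_zero
  have e4 : Module.finrank k ↥(V₁ ⊓ V₂) ≤ 1 := by
    have hle : V₁ ⊓ V₂ ≤ Submodule.span k {(1 : Φ)} := by
      intro a ha
      obtain ⟨c, rfl⟩ := hint a ha
      rw [Submodule.mem_span_singleton]
      exact ⟨c, by rw [Algebra.smul_def, mul_one]⟩
    calc Module.finrank k ↥(V₁ ⊓ V₂) ≤ Module.finrank k ↥(Submodule.span k {(1 : Φ)}) :=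
          Submodule.finrank_mono hle
      _ ≤ 1 := by rw [finrank_span_singleton one_ne_zero]
  omega

end OB2

end Fermat.Agent.S34Lib
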