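import Fermat.Agent.S34.Defs
import Fermat.Agent.S18.PoleLemma

/-!
# S34 library, ABSTRACT part, leaf (XM): `L(a (x)_∞ + b (x)_0 + D) = x^{-b} L((a+b) (x)_∞ + D)`
-/

set_option autoImplicit false

open AlgebraicCurve IntermediateField Polynomial Fermat.Agent.S24Lib Fermat.Agent.FFLib
  Fermat.Agent.S18Lib

namespace Fermat.Agent.S34Lib

section XM

variable {K k F Ft : Type*} [Field K] [Field k] [Field F] [Algebra K F] [Field Ft] [Algebra k Ft]
  {A : ValuationSubring K} {resK : A →+* k}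

theorem mem_L_maE_iff [IsAlgClosed K] (hF : IsFF K F) {x : F} (hx : x ≠ 0) (a b : ℕ)
    (D : Divisor K F) (f : F) :
    f ∈ riemannRochSpace (maE K x a b + D) ↔
      x ^ b * f ∈ riemannRochSpace ((a + b) • poleDiv K x + D) := by
  rw [mem_L_iff, mem_L_iff]
  refine forall_congr' fun v => ?_
  by_cases hf : f = 0
  · subst hf
    simp [D2_ge]
  have hxf : x ^ b * f ≠ 0 := mul_ne_zero (pow_ne_zero _ hx) hf
  simp only [D2_ge, hf, hxf, false_or]
  rw [Finsupp.add_apply, Finsupp.add_apply, maE_apply hF, Finsupp.smul_apply, poleDiv_apply hF,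
    v.ord_mul (pow_ne_zero _ hx) hf, pl_ord_pow, nsmul_eq_mul]
  push_cast
  rcases le_total 0 (v.ord x) with h | h
  · rw [max_eq_right (a := -v.ord x) (by omega), max_eq_left h]
    constructor <;> intro h' <;> linarith
  · rw [max_eq_left (a := -v.ord x) (by omega), max_eq_right h]
    constructor <;> intro h' <;> linarith

theorem mem_redSp_maE_iff [IsAlgClosed K] (hF : IsFF K F) (hres : Function.Surjective resK)
    (R : RedG A resK F (Ft × Ft)) (x : R.O) (hx : IsUnit (R.red x)) (a b : ℕ)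
    (D : Divisor K F) (φ : Ft × Ft) :
    φ ∈ redSp R hres (riemannRochSpace (maE K ((x : R.O) : F) a b + D)) ↔
      R.red x ^ b * φ ∈ redSp R hres (riemannRochSpace ((a + b) • poleDiv K ((x : R.O) : F) + D)) := by
  obtain ⟨ux, hux⟩ := R.isUnit_of_red x hx
  set xi : R.O := ((ux⁻¹ : R.Oˣ) : R.O) with hxi_def
  have hxi : xi * x = 1 := by rw [← hux, hxi_def]; simp
  have hx0 : ((x : R.O) : F) ≠ 0 := by
    intro h
    have h1 : x = 0 := Subtype.ext h
    rw [h1, mul_zero] at hxi
    have h2 : ((0 : R.O) : F) = ((1 : R.O) : F) := congrArg Subtype.val hxi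
    exact zero_ne_one h2
  constructor
  · rintro ⟨y, hy, rfl⟩
    refine ⟨x ^ b * y, ?_, by rw [map_mul, map_pow]⟩
    exact (mem_L_maE_iff hF hx0 a b D _).1 hy
  · rintro ⟨z, hz, hzφ⟩
    refine ⟨xi ^ b * z, ?_, ?_⟩
    · rw [mem_L_maE_iff hF hx0 a b D]
      have h1 : x ^ b * (xi ^ b * z) = z := by
        rw [← mul_assoc, ← mul_pow, mul_comm x xi, hxi, one_pow, one_mul]
      have h2 : ((x : R.O) : F) ^ b * ((xi ^ b * z : R.O) : F) = ((z : R.O) : F) :=
        congrArg Subtype.val h1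
      rw [h2]
      exact hz
    · rw [map_mul, hzφ, ← mul_assoc, map_pow, ← mul_pow, ← map_mul, hxi, map_one, one_pow,
        one_mul]

end XM

end Fermat.Agent.S34Lib
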