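import Fermat.Agent.S34.Defs
import Fermat.Agent.S34.RedSp
import Fermat.Agent.S34.Gap
import Fermat.Agent.S34.EvP
import Fermat.Agent.S34.MulX

/-!
# S34 library, ABSTRACT part, leaf (T1e): the obstruction argument on the nodal reduction
(copy of `S18Lib.good_reduction_torsion_of_x`)
-/

set_option autoImplicit false

open AlgebraicCurve IntermediateField Polynomial Fermat.Agent.S24Lib Fermat.Agent.FFLib
  Fermat.Agent.S18Lib

namespace Fermat.Agent.S34Lib

section T1eAux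

variable {k Ft : Type*} [Field k] [Field Ft] [Algebra k Ft]

/-- regular at all the places of `S` -/
def T1e_Reg (S : Finset (Place k Ft × Place k Ft)) (φ : Ft × Ft) : Prop :=
  ∀ s ∈ S, D2_ge s.1 0 φ.1 ∧ D2_ge s.2 0 φ.2

theorem T1e_reg_of_mem_Lt [IsAlgClosed k] (hFt : IsFF k Ft) {x₁ x₂ : Ft}
    {S : Finset (Place k Ft × Place k Ft)} (hS : IsNodeData x₁ x₂ S) {n : ℕ} {φ : Ft × Ft}
    (hφ : φ ∈ Lt k x₁ x₂ n) : T1e_Reg S φ := by
  intro s hs
  have h := Submodule.mem_prod.1 hφ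
  exact ⟨ge_zero_of_mem_L hFt h.1 s.1 (hS.fin₁ s hs), ge_zero_of_mem_L hFt h.2 s.2 (hS.fin₂ s hs)⟩

theorem T1e_reg_mul {S : Finset (Place k Ft × Place k Ft)} {φ ψ : Ft × Ft}
    (hφ : T1e_Reg S φ) (hψ : T1e_Reg S ψ) : T1e_Reg S (φ * ψ) := by
  intro s hs
  constructor
  · have := D2.ge_mul s.1 (hφ s hs).1 (hψ s hs).1
    rwa [add_zero] at this
  · have := D2.ge_mul s.2 (hφ s hs).2 (hψ s hs).2
    rwa [add_zero] at this

theorem T1e_glued_mul [IsAlgClosed k] (hFt : IsFF k Ft) {S : Finset (Place k Ft × Place k Ft)}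
    {φ ψ : Ft × Ft} (hφ : T1e_Reg S φ) (hψ : T1e_Reg S ψ) (gφ : Glued S (fun _ => 1) φ)
    (gψ : Glued S (fun _ => 1) ψ) : Glued S (fun _ => 1) (φ * ψ) := by
  intro s hs
  have h1 := gφ s hs
  have h2 := gψ s hs
  rw [one_mul] at h1 h2 ⊢
  rw [Prod.fst_mul, Prod.snd_mul, evP_mul hFt s.1 (hφ s hs).1 (hψ s hs).1,
    evP_mul hFt s.2 (hφ s hs).2 (hψ s hs).2, h1, h2]

theorem T1e_glued_sub [IsAlgClosed k] (hFt : IsFF k Ft) {S : Finset (Place k Ft × Place k Ft)}
    {φ ψ : Ft × Ft} (hφ : T1e_Reg S φ) (hψ : T1e_Reg S ψ) (gφ : Glued S (fun _ => 1) φ)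
    (gψ : Glued S (fun _ => 1) ψ) : Glued S (fun _ => 1) (φ - ψ) := by
  intro s hs
  have h1 := gφ s hs
  have h2 := gψ s hs
  rw [one_mul] at h1 h2 ⊢
  have e1 := evP_add hFt s.1 (D2.ge_sub s.1 (hφ s hs).1 (hψ s hs).1) (hψ s hs).1
  have e2 := evP_add hFt s.2 (D2.ge_sub s.2 (hφ s hs).2 (hψ s hs).2) (hψ s hs).2
  rw [sub_add_cancel] at e1 e2
  rw [Prod.fst_sub, Prod.snd_sub]
  have : evP s.1 (φ.1 - ψ.1) + evP s.1 ψ.1 = evP s.2 (φ.2 - ψ.2) + evP s.2 ψ.2 := by
    rw [← e1, ← e2, h1]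
  rw [h2] at this
  exact add_right_cancel this

theorem T1e_maE_zero_right (x : Ft) (n : ℕ) : maE k x n 0 = n • poleDiv k x := by
  simp [maE]

/-- `x ^ b y ∈ L((a+b) (x)_∞) ↔ y ∈ L(a (x)_∞ + b (x)_0)` -/
theorem T1e_mem_maE [IsAlgClosed k] (hFt : IsFF k Ft) {x : Ft} (hx : x ≠ 0) (a b : ℕ) (y : Ft) :
    y ∈ riemannRochSpace (maE k x a b) ↔ x ^ b * y ∈ riemannRochSpace ((a + b) • poleDiv k x) := by
  have := mem_L_maE_iff hFt hx a b 0 y
  rwa [add_zero, add_zero] at this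

end T1eAux

section T1e

variable {K k F Ft : Type*} [Field K] [Field k] [Field F] [Algebra K F] [Field Ft] [Algebra k Ft]
  {A : ValuationSubring K} {resK : A →+* k}

/-- (T1e) `S34/Obstruction2.lean` : copy of `good_reduction_torsion_of_x` -/
theorem obstruction2 (hF : IsFF K F) (hFt : IsFF k Ft) [IsAlgClosed K] [IsAlgClosed k]
    (hres : Function.Surjective resK)
    (R : RedG A resK F (Ft × Ft)) (x : R.O) (hx₁ : Transcendental k (R.red x).1)
    (hx₂ : Transcendental k (R.red x).2)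
    (S : Finset (Place k Ft × Place k Ft)) (n₀ : ℕ)
    (hS : IsNodeData (R.red x).1 (R.red x).2 S) (hW : HW R hres x S n₀)
    (r : ℕ) (hr : (r : k) ≠ 0) (u : R.O) (hu : R.red u = 1)
    (D : Divisor K F) (hD : ∀ v : Place K F, v.ord ((u : R.O) : F) = r * D v)
    (hV : ∃ n₃ : ℕ, ∀ n, n₃ ≤ n →
      redSp R hres (riemannRochSpace (n • poleDiv K ((x : R.O) : F) + D)) =
      redSp R hres (riemannRochSpace (n • poleDiv K ((x : R.O) : F)))) :
    Divisor.IsPrincipal D := by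
  classical
  have hr0 : 0 < r := Nat.pos_of_ne_zero (by rintro rfl; simp at hr)
  obtain ⟨n₃, hV⟩ := hV
  have hx₁0 : (R.red x).1 ≠ 0 := by
    intro h; rw [h] at hx₁; exact hx₁ (isAlgebraic_zero)
  have hx₂0 : (R.red x).2 ≠ 0 := by
    intro h; rw [h] at hx₂; exact hx₂ (isAlgebraic_zero)
  have hxu : IsUnit (R.red x) := by
    rw [Prod.isUnit_iff]
    exact ⟨hx₁0.isUnit, hx₂0.isUnit⟩
  set xF : F := ((x : R.O) : F) with hxF
  -- degree of `D`
  have hdegD : Divisor.degree D = 0 := by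
    have e : r • D = divOf K (u : F) := by
      ext v
      rw [divOf_apply hF, hD v]
      simp
    have := degree_divOf hF ((u : R.O) : F)
    rw [← e, map_nsmul, nsmul_eq_mul] at this
    rcases mul_eq_zero.1 this with h | h
    · exact absurd (by exact_mod_cast h) hr0.ne'
    · exact h
  set n : ℕ := max n₀ n₃ with hn
  have hn₀ : n₀ ≤ n := le_max_left _ _
  have hn₃ : n₃ ≤ n := le_max_right _ _
  -- description of the reductions
  have F3 : ∀ a b : ℕ, n ≤ a + b → ∀ φ : Ft × Ft,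
      φ ∈ redSp R hres (riemannRochSpace (maE K xF a b + D)) ↔
        (R.red x ^ b * φ ∈ Lt k (R.red x).1 (R.red x).2 (a + b) ∧
          Glued S (fun _ => 1) (R.red x ^ b * φ)) := by
    intro a b hab φ
    rw [mem_redSp_maE_iff hF hres R x hxu a b D φ, hV (a + b) (hn₃.trans hab),
      hW (a + b) (hn₀.trans hab)]
  have F4 : ∀ a b : ℕ, n ≤ a + b → ∀ φ : Ft × Ft,
      φ ∈ redSp R hres (riemannRochSpace (maE K xF a b)) ↔
        (R.red x ^ b * φ ∈ Lt k (R.red x).1 (R.red x).2 (a + b) ∧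
          Glued S (fun _ => 1) (R.red x ^ b * φ)) := by
    intro a b hab φ
    have := mem_redSp_maE_iff hF hres R x hxu a b 0 φ
    rw [add_zero, add_zero] at this
    rw [this, hW (a + b) (hn₀.trans hab)]
  -- `x̄ ^ m` is a glued section
  have hxpow : ∀ m : ℕ, n ≤ m → (R.red x ^ m ∈ Lt k (R.red x).1 (R.red x).2 m ∧
      Glued S (fun _ => 1) (R.red x ^ m)) := by
    intro m hm
    have h1 : (1 : Ft × Ft) ∈ redSp R hres (riemannRochSpace (maE K xF 0 m)) :=
      ⟨1, by simpa using ma_one_mem hF xF 0 m, map_one _⟩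
    have := (F4 0 m (by omega) 1).1 h1
    rwa [mul_one, zero_add] at this
  -- constants
  have hconst : ∀ m : ℕ, ∀ a : Ft × Ft, (a ∈ Lt k (R.red x).1 (R.red x).2 m ∧
      Glued S (fun _ => 1) a) → (R.red x ^ m * a ∈ Lt k (R.red x).1 (R.red x).2 m) →
      a ∈ (algebraMap k (Ft × Ft)).range := by
    rintro m a ⟨ha, hg⟩ hb
    have ha' := Submodule.mem_prod.1 ha
    have hb' := Submodule.mem_prod.1 hb
    rw [Prod.fst_mul, Prod.pow_fst] at hb'
    rw [Prod.snd_mul, Prod.pow_snd] at hb'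
    have c1 : a.1 ∈ (algebraMap k Ft).range := by
      refine ma_inf_le hFt (R.red x).1 m m ?_ ?_
      · rw [T1e_maE_zero_right]; exact ha'.1
      · rw [T1e_mem_maE hFt hx₁0, zero_add]; exact hb'.1
    have c2 : a.2 ∈ (algebraMap k Ft).range := by
      refine ma_inf_le hFt (R.red x).2 m m ?_ ?_
      · rw [T1e_maE_zero_right]; exact ha'.2
      · rw [T1e_mem_maE hFt hx₂0, zero_add]; exact hb'.2
    obtain ⟨c₁, hc₁⟩ := c1
    obtain ⟨c₂, hc₂⟩ := c2
    obtain ⟨s, hs⟩ := hS.nonempty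
    have := hg s hs
    rw [← hc₁, ← hc₂, evP_algebraMap, evP_algebraMap, one_mul] at this
    refine ⟨c₁, ?_⟩
    ext
    · simpa using hc₁
    · rw [this]; simpa using hc₂
  -- the spaces
  set U₁ : Submodule K F := riemannRochSpace (maE K xF n 0 + D) with hU₁
  set U₂ : Submodule K F := riemannRochSpace (maE K xF 0 n + D) with hU₂
  set U₁' : Submodule K F := riemannRochSpace (maE K xF (r * n) (r * 0)) with hU₁'
  set U₂' : Submodule K F := riemannRochSpace (maE K xF (r * 0) (r * n)) with hU₂'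
  have : FiniteDimensional K U₁ := finiteDimensional_L hF _
  have : FiniteDimensional K U₂ := finiteDimensional_L hF _
  have : FiniteDimensional K U₁' := finiteDimensional_L hF _
  have : FiniteDimensional K U₂' := finiteDimensional_L hF _
  have hrn : n ≤ r * n := Nat.le_mul_of_pos_left n hr0
  by_contra hnp
  -- `U₁ ⊓ U₂ = ⊥`
  have hdisj : U₁ ⊓ U₂ = ⊥ := by
    rw [eq_bot_iff]
    rintro f ⟨h1, h2⟩
    by_contra hf
    apply hnp
    refine ma_isPrincipal_of_mem hF D hdegD hf ?_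
    rw [mem_L_iff]
    intro v
    have h1 := mem_L_iff.1 h1 v
    have h2 := mem_L_iff.1 h2 v
    rw [Finsupp.add_apply, maE_apply hF] at h1 h2
    rcases le_total 0 (v.ord xF) with ho | ho
    · rw [max_eq_right (by omega : -v.ord xF ≤ 0)] at h1
      simpa using h1
    · rw [max_eq_right ho] at h2
      simpa using h2
  have hone : (1 : Ft × Ft) ∈ Lt k (R.red x).1 (R.red x).2 n ∧
      Glued S (fun _ => 1) (1 : Ft × Ft) := by
    have h1 : (1 : Ft × Ft) ∈ redSp R hres (riemannRochSpace (maE K xF n 0)) :=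
      ⟨1, by simpa using ma_one_mem hF xF n 0, map_one _⟩
    have := (F4 n 0 (by omega) 1).1 h1
    rwa [mul_one, pow_zero, add_zero] at this
  obtain ⟨s₁, s₂, w, π, hs₁, hs₂, hrs₁, hrs₂, hπ0, hπ, hsw, hw⟩ :=
    exists_gapG R hres U₁ U₂ hdisj
      (by rw [hU₁, F3 n 0 (by omega)]; rw [pow_zero, mul_one, add_zero]; exact hone)
      (by rw [hU₂, F3 0 n (by omega)]; rw [mul_one, zero_add]; exact hxpow n le_rfl)
      (by
        rintro a ⟨h1, h2⟩
        rw [SetLike.mem_coe, hU₁, F3 n 0 (by omega), pow_zero, one_mul, add_zero] at h1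
        rw [SetLike.mem_coe, hU₂, F3 0 n (by omega), zero_add] at h2
        exact hconst n a h1 h2.1)
  have hπK : (π : K) ≠ 0 := fun h => hπ0 (Subtype.ext h)
  -- `w ∈ L(n (x)_∞ + n (x)_0 + D)`
  have hmono₁ : U₁ ≤ riemannRochSpace (maE K xF n n + D) := by
    apply L_mono
    intro v
    rw [Finsupp.add_apply, Finsupp.add_apply, maE_apply hF, maE_apply hF]
    have : (0 : ℤ) ≤ (n : ℤ) * max (v.ord xF) 0 := by positivity
    simp only [Nat.cast_zero, zero_mul, add_zero]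
    omega
  have hmono₂ : U₂ ≤ riemannRochSpace (maE K xF n n + D) := by
    apply L_mono
    intro v
    rw [Finsupp.add_apply, Finsupp.add_apply, maE_apply hF, maE_apply hF]
    have : (0 : ℤ) ≤ (n : ℤ) * max (-v.ord xF) 0 := by positivity
    simp only [Nat.cast_zero, zero_mul, zero_add]
    omega
  have hswF : ((s₁ : R.O) : F) - s₂ = (π : K) • ((w : R.O) : F) := by
    have := congrArg (fun z : R.O => (z : F)) hsw
    simpa [Algebra.smul_def] using this
  have hw3 : ((w : R.O) : F) ∈ riemannRochSpace (maE K xF n n + D) := by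
    rw [← Submodule.smul_mem_iff _ hπK, ← hswF]
    exact Submodule.sub_mem _ (hmono₁ hs₁) (hmono₂ hs₂)
  have hrw := (F3 n n (by omega) (R.red w)).1 (red_mem_redSp hres hw3)
  -- the `r`-th powers
  set G : R.O := ∑ i ∈ Finset.range r, s₁ ^ i * s₂ ^ (r - 1 - i) with hG
  set w' : R.O := w * u * G with hw'
  have hrG : R.red G = (r : Ft × Ft) := by
    rw [hG, map_sum]
    simp [hrs₁, hrs₂]
  have hrw' : R.red w' = (r : k) • R.red w := by
    rw [hw', map_mul, map_mul, hu, hrG, mul_one, Algebra.smul_def, map_natCast, mul_comm]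
  have ht : (s₁ ^ r * u - s₂ ^ r * u : R.O) = R.const π * w' := by
    have := geom_sum₂_mul s₁ s₂ r
    rw [← sub_mul, ← this, hsw, hw', ← hG]
    ring
  have htF : ((s₁ : R.O) : F) ^ r * u - (s₂ : F) ^ r * u = (π : K) • ((w' : R.O) : F) := by
    have := congrArg (fun z : R.O => (z : F)) ht
    simpa [Algebra.smul_def] using this
  have ht₁ : ((s₁ : R.O) : F) ^ r * u ∈ U₁' := ma_pow_mul_mem hF xF (u : F) r hr0 D hD n 0 hs₁
  have ht₂ : ((s₂ : R.O) : F) ^ r * u ∈ U₂' := ma_pow_mul_mem hF xF (u : F) r hr0 D hD 0 n hs₂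
  have hw'mem : ((w' : R.O) : F) ∈ U₁' ⊔ U₂' := by
    rw [← Submodule.smul_mem_iff _ hπK, ← htF]
    exact Submodule.sub_mem _ (Submodule.mem_sup_left ht₁) (Submodule.mem_sup_right ht₂)
  have hsup := redSp_sup_of_one_mem R hres U₁' U₂' (ma_one_mem hF _ _ _) (ma_one_mem hF _ _ _)
    (by
      rintro a ⟨h1, h2⟩
      rw [SetLike.mem_coe, hU₁', mul_zero, F4 (r * n) 0 (by omega), pow_zero, one_mul,
        add_zero] at h1
      rw [SetLike.mem_coe, hU₂', mul_zero, F4 0 (r * n) (by omega), zero_add] at h2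
      exact hconst (r * n) a h1 h2.1)
  have hmem : R.red w' ∈ redSp R hres U₁' ⊔ redSp R hres U₂' := by
    rw [← hsup]
    exact red_mem_redSp hres hw'mem
  obtain ⟨y₁, hy₁, y₂, hy₂, hy⟩ := Submodule.mem_sup.1 hmem
  rw [hU₁', mul_zero, F4 (r * n) 0 (by omega), pow_zero, one_mul, add_zero] at hy₁
  rw [hU₂', mul_zero, F4 0 (r * n) (by omega), zero_add] at hy₂
  -- `x̄ ^ n (y₁ + y₂)` is a glued section of `Lt (n + n)`
  have hy12 : R.red x ^ n * (y₁ + y₂) ∈ Lt k (R.red x).1 (R.red x).2 (n + n) ∧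
      Glued S (fun _ => 1) (R.red x ^ n * (y₁ + y₂)) := by
    refine (F3 n n (by omega) (y₁ + y₂)).1 ?_
    rw [hy, hrw']
    exact Submodule.smul_mem _ _ (red_mem_redSp hres hw3)
  -- splitting, componentwise
  have a₁ := Submodule.mem_prod.1 hy₁.1
  have a₂ := Submodule.mem_prod.1 hy₂.1
  have a₃ := Submodule.mem_prod.1 hy12.1
  rw [Prod.fst_mul, Prod.pow_fst, Prod.snd_mul, Prod.pow_snd] at a₂
  rw [Prod.fst_mul, Prod.pow_fst, Prod.snd_mul, Prod.pow_snd, Prod.fst_add, Prod.snd_add] at a₃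
  obtain ⟨z₁₁, z₂₁⟩ := ma_split hFt (R.red x).1 n (r * n) (y₁ := y₁.1) (y₂ := y₂.1)
    (by rw [T1e_maE_zero_right]; exact a₁.1)
    (by rw [T1e_mem_maE hFt hx₁0, zero_add]; exact a₂.1)
    (by rw [T1e_mem_maE hFt hx₁0]; exact a₃.1)
  obtain ⟨z₁₂, z₂₂⟩ := ma_split hFt (R.red x).2 n (r * n) (y₁ := y₁.2) (y₂ := y₂.2)
    (by rw [T1e_maE_zero_right]; exact a₁.2)
    (by rw [T1e_mem_maE hFt hx₂0, zero_add]; exact a₂.2)
    (by rw [T1e_mem_maE hFt hx₂0]; exact a₃.2)
  have hz₁ : y₁ ∈ redSp R hres U₁ := by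
    rw [hU₁, F3 n 0 (by omega), pow_zero, one_mul, add_zero]
    refine ⟨Submodule.mem_prod.2 ⟨?_, ?_⟩, hy₁.2⟩
    · rw [← T1e_maE_zero_right]; exact z₁₁
    · rw [← T1e_maE_zero_right]; exact z₁₂
  have hz₂ : y₂ ∈ redSp R hres U₂ := by
    rw [hU₂, F3 0 n (by omega), zero_add]
    refine ⟨Submodule.mem_prod.2 ⟨?_, ?_⟩, ?_⟩
    · rw [Prod.fst_mul, Prod.pow_fst]
      have := (T1e_mem_maE hFt hx₁0 0 n y₂.1).1 z₂₁
      rwa [zero_add] at this
    · rw [Prod.snd_mul, Prod.pow_snd]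
      have := (T1e_mem_maE hFt hx₂0 0 n y₂.2).1 z₂₂
      rwa [zero_add] at this
    · have e : R.red x ^ n * y₂ = R.red x ^ n * (y₁ + y₂) - R.red x ^ n * y₁ := by ring
      rw [e]
      have rx := T1e_reg_of_mem_Lt hFt hS (hxpow n le_rfl).1
      have ry := T1e_reg_of_mem_Lt hFt hS hy₁.1
      exact T1e_glued_sub hFt (T1e_reg_of_mem_Lt hFt hS hy12.1) (T1e_reg_mul rx ry) hy12.2
        (T1e_glued_mul hFt rx ry (hxpow n le_rfl).2 hy₁.2)
  apply hw
  have : R.red w = (r : k)⁻¹ • (y₁ + y₂) := by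
    rw [hy, hrw', smul_smul, inv_mul_cancel₀ hr, one_smul]
  rw [this]
  exact Submodule.smul_mem _ _ (Submodule.add_mem _ (Submodule.mem_sup_left hz₁)
    (Submodule.mem_sup_right hz₂))

end T1e

end Fermat.Agent.S34Lib
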