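import Fermat.Agent.S34.Defs
import Fermat.Agent.S34.Diff
import Fermat.Agent.S34.Obstruction2

/-!
# S34 package, ABSTRACT part, leaf (T1): rigidity
-/

set_option autoImplicit false

open AlgebraicCurve IntermediateField Polynomial Fermat.Agent.S24Lib Fermat.Agent.FFLib
  Fermat.Agent.S18Lib

namespace Fermat.Agent.S34Lib

section T1

variable {K k F Ft : Type*} [Field K] [Field k] [Field F] [Algebra K F] [Field Ft] [Algebra k Ft]
  {A : ValuationSubring K} {resK : A →+* k}

/-- (T1) `S34/Rigidity.lean` -/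
theorem rigidity (hF : IsFF K F) (hFt : IsFF k Ft) [IsAlgClosed K] [IsAlgClosed k]
    (hres : Function.Surjective resK)
    (R : RedG A resK F (Ft × Ft)) (x : R.O) (hx₁ : Transcendental k (R.red x).1)
    (hx₂ : Transcendental k (R.red x).2)
    (S : Finset (Place k Ft × Place k Ft)) (n₀ : ℕ)
    (hS : IsNodeData (R.red x).1 (R.red x).2 S) (hW : HW R hres x S n₀)
    (r : ℕ) (hr : (r : k) ≠ 0) (u u' : R.O) (hu : R.red u = 1) (hu' : R.red u' = 1)
    (D D' : Divisor K F) (hD : ∀ v : Place K F, v.ord ((u : R.O) : F) = r * D v)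
    (hD' : ∀ v : Place K F, v.ord ((u' : R.O) : F) = r * D' v)
    (hV : ∀ n : ℕ, redSp R hres (riemannRochSpace (n • poleDiv K ((x : R.O) : F) + D)) =
      redSp R hres (riemannRochSpace (n • poleDiv K ((x : R.O) : F) + D'))) :
    Divisor.IsPrincipal (D' - D) := by
  have h3 := redSp_diff_eq hF hFt hres R x hx₁ hx₂ S n₀ hS hW r hr u u' hu hu' D D' hD hD' hV
  obtain ⟨uu, huu⟩ := R.isUnit_of_red u (by rw [hu]; exact isUnit_one)
  set ui : R.O := ((uu⁻¹ : R.Oˣ) : R.O) with hui
  have hmul : u * ui = 1 := by rw [← huu, hui]; simp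
  have hredui : R.red ui = 1 := by
    have := congrArg R.red hmul
    rwa [map_mul, hu, one_mul, map_one] at this
  have huiF : ((ui : R.O) : F) = ((u : R.O) : F)⁻¹ :=
    eq_inv_of_mul_eq_one_right (congrArg Subtype.val hmul)
  have hu0 : ((u : R.O) : F) ≠ 0 := by
    intro h
    have h1 : ((u : R.O) : F) * ((ui : R.O) : F) = 1 := congrArg Subtype.val hmul
    rw [h, zero_mul] at h1
    exact zero_ne_one h1
  have hu'0 : ((u' : R.O) : F) ≠ 0 := by
    intro h
    have h1 : u' = 0 := Subtype.ext h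
    rw [h1, map_zero] at hu'
    exact zero_ne_one hu'
  refine obstruction2 hF hFt hres R x hx₁ hx₂ S n₀ hS hW r hr (u' * ui)
    (by rw [map_mul, hu', hredui, one_mul]) (D' - D) (fun v => ?_) h3
  have e : (((u' * ui : R.O)) : F) = ((u' : R.O) : F) * ((u : R.O) : F)⁻¹ := by
    rw [← huiF]; rfl
  rw [e, v.ord_mul hu'0 (inv_ne_zero hu0), v.ord_inv, hD, hD', Finsupp.sub_apply]
  ring

end T1

end Fermat.Agent.S34Lib
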