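import Fermat.Agent.S34.Defs
import Fermat.Agent.S34.Normalize
import Fermat.Agent.S34.Rigidity

/-!
# S34 package, ABSTRACT part, leaf (GA): the abstract unipotence statement
-/

set_option autoImplicit false

open AlgebraicCurve IntermediateField Polynomial Fermat.Agent.S24Lib Fermat.Agent.FFLib
  Fermat.Agent.S18Lib

namespace Fermat.Agent.S34Lib

section GA

variable {K k F Ft : Type*} [Field K] [Field k] [Field F] [Algebra K F] [Field Ft] [Algebra k Ft]
  {A : ValuationSubring K} {resK : A →+* k}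

/-- a semilinear automorphism acting trivially on the reduction -/
structure ActsTrivially (R : RedG A resK F (Ft × Ft)) (g : SemilinearAut K F) : Prop where
  mem : ∀ y : R.O, g • ((y : R.O) : F) ∈ R.O
  red : ∀ (y : R.O) (h : g • ((y : R.O) : F) ∈ R.O), R.red ⟨g • ((y : R.O) : F), h⟩ = R.red y

theorem GA_ord_smul (g : SemilinearAut K F) (v : Place K F) (f : F) :
    v.ord (g • f) = (g⁻¹ • v).ord f := by
  have := SemilinearAut.ord_smul g (g⁻¹ • v) f
  rwa [smul_inv_smul] at this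

/-- the divisor `(div u) / r` -/
noncomputable def GA_div (K : Type*) {F : Type*} [Field K] [Field F] [Algebra K F] (u : F) (r : ℕ) :
    Divisor K F :=
  (divOf K u).mapRange (fun n => n / (r : ℤ)) (by simp)

theorem GA_div_apply [IsAlgClosed K] (hF : IsFF K F) (u : F) (r : ℕ) (v : Place K F) :
    GA_div K u r v = v.ord u / (r : ℤ) := by
  rw [GA_div, Finsupp.mapRange_apply, divOf_apply hF]

/-- transport of Riemann-Roch spaces -/
theorem GA_smul_mem [IsAlgClosed K] (hF : IsFF K F) (g : SemilinearAut K F) (x : F)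
    (hgx : g • x = x) (n : ℕ) (E E' : Divisor K F) (hE : ∀ v : Place K F, E' v = E (g⁻¹ • v))
    {y : F} (hy : y ∈ riemannRochSpace (n • poleDiv K x + E)) :
    g • y ∈ riemannRochSpace (n • poleDiv K x + E') := by
  rw [mem_L_iff] at hy ⊢
  intro v
  rcases hy (g⁻¹ • v) with h0 | h0
  · left
    rw [h0, smul_zero]
  · right
    rw [GA_ord_smul]
    rw [Finsupp.add_apply, Finsupp.smul_apply, poleDiv_apply hF] at h0 ⊢
    have e : (g⁻¹ • v).ord x = v.ord x := by
      rw [← GA_ord_smul, hgx]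
    rw [e] at h0
    rw [hE v]
    exact h0

theorem unip_abstract (hF : IsFF K F) (hFt : IsFF k Ft) [IsAlgClosed K] [IsAlgClosed k]
    [CharZero K] (hres : Function.Surjective resK)
    (R : RedG A resK F (Ft × Ft)) (x : R.O) (hx₁ : Transcendental k (R.red x).1)
    (hx₂ : Transcendental k (R.red x).2)
    (S : Finset (Place k Ft × Place k Ft)) (n₀ : ℕ)
    (hS : IsNodeData (R.red x).1 (R.red x).2 S) (hW : HW R hres x S n₀)
    (r : ℕ) (hr : (r : k) ≠ 0)
    (s t : SemilinearAut K F) (hs : ActsTrivially R s) (ht : ActsTrivially R t)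
    (ht' : ActsTrivially R t⁻¹) (htx : t • ((x : R.O) : F) = x)
    (f : F) (hf : f ≠ 0) (hfr : ∀ v : Place K F, (r : ℤ) ∣ v.ord f) :
    ∃ w : F, t • (s • f) * f = w ^ r * (s • f * t • f) := by
  classical
  have hr0 : 0 < r := Nat.pos_of_ne_zero (by rintro rfl; simp at hr)
  have hrZ : (r : ℤ) ≠ 0 := by exact_mod_cast hr0.ne'
  obtain ⟨c, G, h, hc, hG, hhu, hfe⟩ := exists_normalize hres R f hf r hr0
  have hcF : algebraMap K F c ≠ 0 := by simpa using hc
  obtain ⟨hU, hhU⟩ := R.isUnit_of_red h hhu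
  set hi : R.O := ((hU⁻¹ : R.Oˣ) : R.O) with hhi
  have hmul : h * hi = 1 := by rw [← hhU, hhi]; simp
  have hiF : ((hi : R.O) : F) = ((h : R.O) : F)⁻¹ :=
    eq_inv_of_mul_eq_one_right (congrArg Subtype.val hmul)
  have hh0 : ((h : R.O) : F) ≠ 0 := by
    intro h0
    have h1 : ((h : R.O) : F) * ((hi : R.O) : F) = 1 := congrArg Subtype.val hmul
    rw [h0, zero_mul] at h1
    exact zero_ne_one h1
  -- `r ∣ ord h`
  have hhr : ∀ v : Place K F, (r : ℤ) ∣ v.ord ((h : R.O) : F) := by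
    intro v
    have h1 := hfr v
    rw [hfe, v.ord_mul (mul_ne_zero hcF (pow_ne_zero _ hG)) hh0, v.ord_mul hcF (pow_ne_zero _ hG),
      ord_algebraMap, zero_add, ma_ord_pow] at h1
    exact (Int.dvd_add_right (Dvd.intro _ rfl)).1 h1
  -- `u = s h / h`
  set sh : R.O := ⟨s • ((h : R.O) : F), hs.mem h⟩ with hsh
  have hshred : R.red sh = R.red h := hs.red h _
  have hsh0 : s • ((h : R.O) : F) ≠ 0 := by
    rw [Ne, smul_eq_zero_iff_eq]
    exact hh0
  set u : R.O := sh * hi with hu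
  have hured : R.red u = 1 := by
    rw [hu, map_mul, hshred, ← map_mul, hmul, map_one]
  have huF : ((u : R.O) : F) = s • ((h : R.O) : F) * ((h : R.O) : F)⁻¹ := by
    rw [← hiF]; rfl
  have hu0 : ((u : R.O) : F) ≠ 0 := by
    rw [huF]; exact mul_ne_zero hsh0 (inv_ne_zero hh0)
  have hur : ∀ v : Place K F, (r : ℤ) ∣ v.ord ((u : R.O) : F) := by
    intro v
    rw [huF, v.ord_mul hsh0 (inv_ne_zero hh0), v.ord_inv, GA_ord_smul]
    exact dvd_add (hhr _) ((dvd_neg).2 (hhr v))
  set D : Divisor K F := GA_div K ((u : R.O) : F) r with hD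
  have hDu : ∀ v : Place K F, v.ord ((u : R.O) : F) = r * D v := by
    intro v
    rw [hD, GA_div_apply hF, Int.mul_ediv_cancel' (hur v)]
  set u' : R.O := ⟨t • ((u : R.O) : F), ht.mem u⟩ with hu'
  have hu'red : R.red u' = 1 := by rw [hu', ht.red u _, hured]
  have hu'F : ((u' : R.O) : F) = t • ((u : R.O) : F) := rfl
  set D' : Divisor K F := GA_div K ((u' : R.O) : F) r with hD'
  have hDD' : ∀ v : Place K F, D' v = D (t⁻¹ • v) := by
    intro v
    rw [hD', hD, GA_div_apply hF, GA_div_apply hF, hu'F, GA_ord_smul]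
  have hD'u : ∀ v : Place K F, v.ord ((u' : R.O) : F) = r * D' v := by
    intro v
    rw [hDD', ← hDu, hu'F, GA_ord_smul]
  have htx' : t⁻¹ • ((x : R.O) : F) = x := by
    rw [inv_smul_eq_iff, htx]
  have hV : ∀ n : ℕ, redSp R hres (riemannRochSpace (n • poleDiv K ((x : R.O) : F) + D)) =
      redSp R hres (riemannRochSpace (n • poleDiv K ((x : R.O) : F) + D')) := by
    intro n
    apply le_antisymm
    · rintro _ ⟨y, hy, rfl⟩
      exact ⟨⟨t • ((y : R.O) : F), ht.mem y⟩, GA_smul_mem hF t _ htx n D D' hDD' hy, ht.red y _⟩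
    · rintro _ ⟨y, hy, rfl⟩
      refine ⟨⟨t⁻¹ • ((y : R.O) : F), ht'.mem y⟩,
        GA_smul_mem hF t⁻¹ _ htx' n D' D (fun v => ?_) hy, ht'.red y _⟩
      rw [hDD', inv_inv, inv_smul_smul]
  obtain ⟨w0, hw0, hw⟩ := rigidity hF hFt hres R x hx₁ hx₂ S n₀ hS hW r hr u u' hured hu'red D D'
    hDu hD'u hV
  have hu'0 : t • ((u : R.O) : F) ≠ 0 := by
    rw [Ne, smul_eq_zero_iff_eq]
    exact hu0
  -- `t u = a * u * w0 ^ r`
  obtain ⟨a, ha⟩ : t • ((u : R.O) : F) * (((u : R.O) : F) * w0 ^ r)⁻¹ ∈ (algebraMap K F).range := by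
    rw [← mem_L_zero_iff hF, mem_L_iff]
    intro v
    right
    have h1 := hw v
    rw [Finsupp.sub_apply] at h1
    have h2 := hD'u v
    have h3 := hDu v
    rw [hu'F] at h2
    rw [v.ord_mul hu'0 (inv_ne_zero (mul_ne_zero hu0 (pow_ne_zero _ hw0))), v.ord_inv,
      v.ord_mul hu0 (pow_ne_zero _ hw0), ma_ord_pow, h2, h3, ← h1]
    simp only [Finsupp.coe_zero, Pi.zero_apply, neg_zero]
    apply le_of_eq
    ring
  obtain ⟨b, hb⟩ := IsAlgClosed.exists_pow_nat_eq a hr0
  have htu : t • ((u : R.O) : F) = (algebraMap K F b * w0) ^ r * ((u : R.O) : F) := by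
    have h1 : t • ((u : R.O) : F) = algebraMap K F a * (((u : R.O) : F) * w0 ^ r) := by
      rw [ha, mul_assoc, inv_mul_cancel₀ (mul_ne_zero hu0 (pow_ne_zero _ hw0)), mul_one]
    rw [h1, ← hb, map_pow, mul_pow]
    ring
  -- `s f = g1 ^ r * u * f`
  obtain ⟨c2, hc2⟩ := IsAlgClosed.exists_pow_nat_eq (SemilinearAut.baseAut s c / c) hr0
  set g1 : F := algebraMap K F c2 * (s • G) * G⁻¹ with hg1
  have hsf : s • f = g1 ^ r * ((u : R.O) : F) * f := by
    have e1 : s • f = algebraMap K F (SemilinearAut.baseAut s c) * (s • G) ^ r *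
        s • ((h : R.O) : F) := by
      rw [hfe, smul_mul', smul_mul', smul_pow', SemilinearAut.smul_algebraMap]
    have e2 : algebraMap K F (SemilinearAut.baseAut s c) =
        algebraMap K F c2 ^ r * algebraMap K F c := by
      rw [← map_pow, hc2, ← map_mul, div_mul_cancel₀ _ hc]
    rw [e1, e2, hg1, huF]
    conv_rhs => rw [hfe]
    rw [mul_pow, mul_pow, inv_pow]
    have hGr : G ^ r ≠ 0 := pow_ne_zero _ hG
    field_simp
  have hg10 : g1 ≠ 0 := by
    intro h0
    have : s • f = 0 := by rw [hsf, h0, zero_pow hr0.ne', zero_mul, zero_mul]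
    rw [smul_eq_zero_iff_eq] at this
    exact hf this
  refine ⟨t • g1 * (algebraMap K F b * w0) * g1⁻¹, ?_⟩
  have e3 : t • (s • f) = (t • g1) ^ r * ((algebraMap K F b * w0) ^ r * ((u : R.O) : F)) * t • f := by
    rw [hsf, smul_mul', smul_mul', smul_pow', htu]
  rw [e3, hsf]
  simp only [mul_pow, inv_pow]
  have hg1r : g1 ^ r ≠ 0 := pow_ne_zero _ hg10
  field_simp

end GA

end Fermat.Agent.S34Lib
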