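import Fermat.Agent.S34.ModDefs

/-! # S34 (AR): valuation rings of `ℚ̄` over a prime have rank one -/

set_option autoImplicit false
set_option synthInstance.maxHeartbeats 400000

open AlgebraicCurve IntermediateField Polynomial ModularCurve CongruenceSubgroup
  Fermat.Agent.S24Lib Fermat.Agent.FFLib Fermat.Agent.S18Lib Fermat.Agent.S28Lib
  Fermat.Agent.ESLib

namespace Fermat.Agent.S34Lib

noncomputable section

variable (M q : ℕ) [NeZero M] [NeZero q] [hqF : Fact q.Prime] (hqM : ¬ q ∣ M)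
variable (A : ValuationSubring Qb) (hA : A.LiesOverPrime q)

variable {M q hqM A}

omit [NeZero q] hqF in
theorem AR_exists_poly (a : A) : ∃ p : ℤ[X], p ≠ 0 ∧ aeval a p = 0 := by
  have h1 : IsAlgebraic ℚ (a : Qb) := AlgebraicClosure.isAlgebraic ℚ |>.isAlgebraic _
  have h2 : IsAlgebraic ℤ (a : Qb) := (IsFractionRing.isAlgebraic_iff ℤ ℚ Qb).mpr h1
  obtain ⟨p, hp, hpa⟩ := h2
  refine ⟨p, hp, ?_⟩
  apply Subtype.ext
  have : ((aeval a p : A) : Qb) = aeval (a : Qb) p := by
    have := Polynomial.aeval_algebraMap_apply Qb a p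
    simpa using this.symm
  rw [this, hpa]
  rfl

omit [NeZero q] hqF in
theorem AR_dvd_aux (a : A) (ha : a ≠ 0) : ∀ (n : ℕ) (p : ℤ[X]), p.natDegree ≤ n → p ≠ 0 →
    aeval a p = 0 → ∃ c : ℤ, c ≠ 0 ∧ a ∣ (c : A) := by
  intro n
  induction n with
  | zero =>
    intro p hn hp hpa
    refine ⟨p.coeff 0, ?_, ?_⟩
    · intro h0
      apply hp
      rw [Polynomial.eq_C_of_natDegree_le_zero hn, h0, map_zero]
    · rw [Polynomial.eq_C_of_natDegree_le_zero hn, aeval_C] at hpa
      simp only [algebraMap_int_eq, eq_intCast] at hpa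
      rw [hpa]
      exact dvd_zero a
  | succ n ih =>
    intro p hn hp hpa
    have hdec : aeval a p = aeval a p.divX * a + ((p.coeff 0 : ℤ) : A) := by
      conv_lhs => rw [← Polynomial.divX_mul_X_add p]
      simp
    by_cases h0 : p.coeff 0 = 0
    · rw [hpa, h0, Int.cast_zero, add_zero] at hdec
      have h1 : aeval a p.divX = 0 := by
        rcases mul_eq_zero.mp hdec.symm with h | h
        · exact h
        · exact absurd h ha
      refine ih p.divX ?_ ?_ h1
      · rw [Polynomial.natDegree_divX_eq_natDegree_tsub_one]; omega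
      · intro h2
        apply hp
        rw [← Polynomial.divX_mul_X_add p, h2, h0]
        simp
    · refine ⟨p.coeff 0, h0, ?_⟩
      rw [hpa] at hdec
      have : ((p.coeff 0 : ℤ) : A) = a * (-aeval a p.divX) := by
        linear_combination -hdec
      rw [this]
      exact dvd_mul_right _ _

omit [NeZero q] in
include hA in
theorem AR_isUnit_of_not_dvd (u : ℤ) (hu : ¬ (q : ℤ) ∣ u) : IsUnit (u : A) := by
  have : CharP (kk A) q := Fermat.Agent.S18Lib.charP_kk A hA
  rw [← IsLocalRing.residue_ne_zero_iff_isUnit, map_intCast]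
  intro h
  exact hu ((CharP.intCast_eq_zero_iff (kk A) q u).mp h)

omit [NeZero q] in
include hA in
theorem AR_pow_aux (b : A) (hb : ¬ IsUnit b) : ∀ (n : ℕ) (p : ℤ[X]) (k : ℕ), p.natDegree ≤ n →
    (∃ i, ¬ (q : ℤ) ∣ p.coeff i) → (q : A) ∣ aeval b p * b ^ k → ∃ m : ℕ, (q : A) ∣ b ^ m := by
  intro n
  have hstep : ∀ (p : ℤ[X]) (k : ℕ), ¬ (q : ℤ) ∣ p.coeff 0 → (q : A) ∣ aeval b p * b ^ k →
      ∃ m : ℕ, (q : A) ∣ b ^ m := by
    intro p k h0 hdvd
    have hdec : aeval b p = aeval b p.divX * b + ((p.coeff 0 : ℤ) : A) := by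
      conv_lhs => rw [← Polynomial.divX_mul_X_add p]
      simp
    have hu : IsUnit (aeval b p) := by
      rw [hdec]
      have h1 : aeval b p.divX * b ∈ IsLocalRing.maximalIdeal A :=
        Ideal.mul_mem_left _ _ ((IsLocalRing.mem_maximalIdeal b).mpr hb)
      have h2 := AR_isUnit_of_not_dvd hA _ h0
      by_contra hcon
      have h3 : aeval b p.divX * b + ((p.coeff 0 : ℤ) : A) ∈ IsLocalRing.maximalIdeal A :=
        (IsLocalRing.mem_maximalIdeal _).mpr hcon
      have h4 := (Ideal.add_mem_iff_right _ h1).mp h3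
      exact (IsLocalRing.mem_maximalIdeal _).mp h4 h2
    exact ⟨k, (hu.dvd_mul_left).mp hdvd⟩
  induction n with
  | zero =>
    intro p k hn ⟨i, hi⟩ hdvd
    apply hstep p k _ hdvd
    rcases Nat.eq_zero_or_pos i with rfl | hipos
    · exact hi
    · exfalso
      apply hi
      rw [Polynomial.coeff_eq_zero_of_natDegree_lt (by omega)]
      exact dvd_zero _
  | succ n ih =>
    intro p k hn ⟨i, hi⟩ hdvd
    by_cases h0 : (q : ℤ) ∣ p.coeff 0
    · have hdec : aeval b p = aeval b p.divX * b + ((p.coeff 0 : ℤ) : A) := by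
        conv_lhs => rw [← Polynomial.divX_mul_X_add p]
        simp
      have hq0 : (q : A) ∣ ((p.coeff 0 : ℤ) : A) := by
        obtain ⟨c, hc⟩ := h0
        rw [hc]
        push_cast
        exact dvd_mul_right _ _
      refine ih p.divX (k + 1) ?_ ?_ ?_
      · rw [Polynomial.natDegree_divX_eq_natDegree_tsub_one]; omega
      · rcases Nat.eq_zero_or_pos i with rfl | hipos
        · exact absurd h0 hi
        · refine ⟨i - 1, ?_⟩
          rw [Polynomial.coeff_divX]
          have : i - 1 + 1 = i := by omega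
          rwa [this]
      · have e : aeval b p.divX * b ^ (k + 1)
            = aeval b p * b ^ k - ((p.coeff 0 : ℤ) : A) * b ^ k := by
          rw [hdec]; ring
        rw [e]
        exact dvd_sub hdvd (Dvd.dvd.mul_right hq0 _)
    · exact hstep p k h0 hdvd

omit [NeZero q] in
theorem isArch (A : ValuationSubring Qb) (hA : A.LiesOverPrime q) : IsArch A := by
  intro a b ha hb
  -- `q ∣ b ^ m`
  obtain ⟨p, hp, hpb⟩ := AR_exists_poly b
  have hprim : aeval b p.primPart = 0 := by
    have h1 := Polynomial.eq_C_content_mul_primPart p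
    rw [h1, map_mul, aeval_C] at hpb
    rcases mul_eq_zero.mp hpb with h | h
    · exfalso
      have hc : p.content ≠ 0 := by
        rwa [Ne, Polynomial.content_eq_zero_iff]
      simp only [algebraMap_int_eq, eq_intCast, Int.cast_eq_zero] at h
      exact hc h
    · exact h
  have hex : ∃ i, ¬ (q : ℤ) ∣ p.primPart.coeff i := by
    by_contra hcon
    push Not at hcon
    have h1 : C (q : ℤ) ∣ p.primPart := (Polynomial.C_dvd_iff_dvd_coeff _ _).mpr hcon
    have h2 := p.isPrimitive_primPart _ h1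
    have h3 := Int.isUnit_iff.mp h2
    have h4 : 2 ≤ q := hqF.out.two_le
    omega
  obtain ⟨m, hm⟩ := AR_pow_aux hA b hb _ p.primPart 0 le_rfl hex (by rw [hprim, zero_mul]; exact dvd_zero _)
  -- `a ∣ q ^ e`
  obtain ⟨p', hp', hpa⟩ := AR_exists_poly a
  obtain ⟨c, hc, hac⟩ := AR_dvd_aux a ha _ p' le_rfl hp' hpa
  obtain ⟨e, u, hu, hcu⟩ := Nat.exists_eq_pow_mul_and_not_dvd (n := c.natAbs)
    (Int.natAbs_ne_zero.mpr hc) q hqF.out.ne_one
  have hcq : (c : A) ∣ (q : A) ^ e := by
    have h1 : IsUnit ((u : ℤ) : A) := AR_isUnit_of_not_dvd hA _ (by exact_mod_cast hu)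
    have h2 : ((c.natAbs : ℤ) : A) = (q : A) ^ e * ((u : ℤ) : A) := by
      rw [hcu]; push_cast; ring
    have h3 : (c : A) ∣ ((c.natAbs : ℤ) : A) := by
      have : c ∣ (c.natAbs : ℤ) := Int.dvd_natAbs.mpr dvd_rfl
      obtain ⟨d, hd⟩ := this
      rw [hd]; push_cast
      exact dvd_mul_right _ _
    rw [h2] at h3
    exact (h1.dvd_mul_right).mp h3
  refine ⟨m * e, ?_⟩
  rw [pow_mul]
  exact (hac.trans hcq).trans (pow_dvd_pow_of_dvd hm e)

end

end Fermat.Agent.S34Lib
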