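import Fermat.Agent.S34.PolesJ

/-!
# S34 MOD (DG): degrees
-/

set_option autoImplicit false
set_option synthInstance.maxHeartbeats 400000

open AlgebraicCurve IntermediateField Polynomial ModularCurve CongruenceSubgroup
  Fermat.Agent.S24Lib Fermat.Agent.FFLib Fermat.Agent.S18Lib Fermat.Agent.S28Lib
  Fermat.Agent.ESLib

namespace Fermat.Agent.S34Lib

noncomputable section

/-! ### general lemmas -/

theorem DG_poleDiv_pow {K F : Type*} [Field K] [IsAlgClosed K] [Field F] [Algebra K F]
    (h : IsFF K F) (x : F) (n : ℕ) : poleDiv K (x ^ n) = n • poleDiv K x := by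
  ext v
  rw [Finsupp.smul_apply, poleDiv_apply h, poleDiv_apply h, ← zpow_natCast, v.ord_zpow,
    nsmul_eq_mul, mul_max_of_nonneg _ _ (Nat.cast_nonneg n), mul_zero, mul_neg]

theorem DG_transcendental_pow {K F : Type*} [Field K] [Field F] [Algebra K F] {x : F}
    (hx : Transcendental K x) {n : ℕ} (hn : 0 < n) : Transcendental K (x ^ n) :=
  fun h => hx (h.of_pow hn)

theorem DG_finrank_pow {K F : Type*} [Field K] [IsAlgClosed K] [Field F] [Algebra K F]
    (h : IsFF K F) {x : F} (hx : Transcendental K x) {n : ℕ} (hn : 0 < n) :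
    Module.finrank K⟮x ^ n⟯ F = n * Module.finrank K⟮x⟯ F := by
  have h1 := degree_poleDiv h (DG_transcendental_pow hx hn)
  rw [DG_poleDiv_pow h, map_nsmul, degree_poleDiv h hx, nsmul_eq_mul] at h1
  exact_mod_cast h1.symm

theorem DG_finrank_algEquiv {K F : Type*} [Field K] [Field F] [Algebra K F] (σ : F ≃ₐ[K] F)
    (x : F) : Module.finrank K⟮σ x⟯ F = Module.finrank K⟮x⟯ F := by
  have hmap : (K⟮x⟯).map (σ : F →ₐ[K] F) = K⟮σ x⟯ := by
    rw [IntermediateField.adjoin_map, Set.image_singleton]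
    rfl
  rw [← hmap]
  symm
  exact Algebra.finrank_eq_of_equiv_equiv
    (IntermediateField.equivMap K⟮x⟯ (σ : F →ₐ[K] F)).toRingEquiv σ.toRingEquiv (by ext; rfl)

variable (M q : ℕ) [NeZero M] [NeZero q] [hqF : Fact q.Prime] (hqM : ¬ q ∣ M)

include hqM in
theorem finrank_jN : Module.finrank Qb⟮jN M q⟯ (FB (q * M)) = (q + 1) * idx M := by
  have h := finrank_eq_index (q * M)
  have h2 : (Gamma0 (q * M)).index = (q + 1) * idx M := by
    rw [Fermat.Agent.S20Lib.index_Gamma0 (q * M),
      Fermat.Agent.S20Lib.dedekindPsi_mul_of_not_dvd (NeZero.ne M) hqF.out hqM,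
      ← Fermat.Agent.S20Lib.index_Gamma0 M]
    rfl
  rw [← h2]
  exact h

include hqM in
theorem DG_transcendental_x : Transcendental Qb (jN M q * jQ M q) := by
  have hFF := isFF_FB (q * M)
  intro halg
  -- an algebraic element is a constant, hence has no poles
  have hmem : jN M q * jQ M q ∈ (algebraMap Qb (FB (q * M))).range := by
    by_contra hr
    exact transcendental_of_not_mem_range hr halg
  obtain ⟨c, hc⟩ := hmem
  have h0 : poleDiv Qb (jN M q * jQ M q) = 0 := by
    ext v
    rw [poleDiv_apply hFF, ← hc, ord_algebraMap]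
    simp
  rw [poleDiv_mul M q hqM] at h0
  have h1 := congrArg Divisor.degree h0
  have htN : Transcendental Qb (jN M q) := transcendental_jBar (q * M)
  rw [map_add, map_zero, degree_poleDiv hFF htN] at h1
  have h2 : 0 ≤ Divisor.degree (poleDiv Qb (jQ M q)) :=
    dg_degree_nonneg hFF (dg_poleDiv_nonneg hFF _)
  have h3 := finrank_jN M q hqM
  have h4 : 0 < (q + 1) * idx M := Nat.mul_pos (Nat.succ_pos q)
    (Nat.pos_of_ne_zero (D2_index_ne_zero M))
  have h5 : (Module.finrank Qb⟮jN M q⟯ (FB (q * M)) : ℤ) = ((q + 1) * idx M : ℕ) := by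
    exact_mod_cast h3
  rw [h5] at h1
  have h6 : (0 : ℤ) < ((q + 1) * idx M : ℕ) := by exact_mod_cast h4
  omega

include hqM in
theorem finrank_x_le :
    Module.finrank Qb⟮jN M q * jQ M q⟯ (FB (q * M)) ≤ 2 * ((q + 1) * idx M) := by
  have hFF := isFF_FB (q * M)
  have h1 := degree_poleDiv hFF (DG_transcendental_x M q hqM)
  have htN : Transcendental Qb (jN M q) := transcendental_jBar (q * M)
  have htQ : Transcendental Qb (jQ M q) := by
    rw [← wq_jN M q hqM]
    intro halg
    apply htN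
    have := halg.algHom ((wq M q hqM).symm : FB (q * M) →ₐ[Qb] FB (q * M))
    simpa using this
  have h2 : Module.finrank Qb⟮jQ M q⟯ (FB (q * M)) = Module.finrank Qb⟮jN M q⟯ (FB (q * M)) := by
    rw [← wq_jN M q hqM, DG_finrank_algEquiv]
  rw [poleDiv_mul M q hqM, map_add, degree_poleDiv hFF htN,
    degree_poleDiv hFF htQ, h2, finrank_jN M q hqM] at h1
  have : Module.finrank Qb⟮jN M q * jQ M q⟯ (FB (q * M))
      = (q + 1) * idx M + (q + 1) * idx M := by exact_mod_cast h1.symm
  omega

omit [NeZero q] hqF in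
theorem finrank_jT_pow (A : ValuationSubring Qb) (n : ℕ) (hn : 0 < n) :
    Module.finrank (kk A)⟮jT A M ^ n⟯ (FT A M) = n * Module.finrank (kk A)⟮jT A M⟯ (FT A M) := by
  have := isAlgClosed_kk A
  exact DG_finrank_pow (isFF_FT A M) (transcendental_jT A M) hn

omit [NeZero q] hqF in
theorem poleDiv_jT_pow (A : ValuationSubring Qb) (n : ℕ) :
    poleDiv (kk A) (jT A M ^ n) = n • poleDiv (kk A) (jT A M) := by
  have := isAlgClosed_kk A
  exact DG_poleDiv_pow (isFF_FT A M) _ n

end

end Fermat.Agent.S34Lib
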