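import Fermat.Agent.S34.ModDefs

/-! # S34 (FR): Frobenius identities -/

set_option autoImplicit false
set_option synthInstance.maxHeartbeats 400000

open AlgebraicCurve IntermediateField Polynomial ModularCurve CongruenceSubgroup
  Fermat.Agent.S24Lib Fermat.Agent.FFLib Fermat.Agent.S18Lib Fermat.Agent.S28Lib
  Fermat.Agent.ESLib

namespace Fermat.Agent.S34Lib

noncomputable section

variable (M q : ℕ) [NeZero M] [NeZero q] [hqF : Fact q.Prime]
variable (A : ValuationSubring Qb) (hA : A.LiesOverPrime q)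

/-! ## (FR) `S34/Frob.lean` : Frobenius identities in `k((q))` -/

omit [NeZero M] in
theorem qExpand_jqModC_eq_pow (κ : Type) [Field κ] [CharP κ q] :
    qExpand κ q (jqModC κ) = jqModC κ ^ q := by
  rw [pow_char_eq q (jqModC κ), coeffMap_jqModC]

omit [NeZero M] [NeZero q] hqF in
/-- a ring endomorphism of the constants preserves `FT A M` -/
theorem FR_coeffMap_mem (φ : kk A →+* kk A) (y : LaurentSeries (kk A)) (hy : y ∈ FT A M) :
    coeffMap φ y ∈ FT A M := by
  induction hy using IntermediateField.adjoin_induction with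
  | mem x hx =>
    obtain ⟨d, hd, hdM, rfl⟩ := hx
    rw [coeffMap_qExpand, coeffMap_jqModC]
    exact IntermediateField.subset_adjoin _ _ ⟨d, hd, hdM, rfl⟩
  | algebraMap c =>
    have : coeffMap φ (algebraMap (kk A) (LaurentSeries (kk A)) c)
        = algebraMap (kk A) (LaurentSeries (kk A)) (φ c) := by
      rw [algebraMap_laurentSeries_eq_single, algebraMap_laurentSeries_eq_single, coeffMap_single]
    rw [this]
    exact IntermediateField.algebraMap_mem _ _
  | add x y _ _ hx hy => rw [map_add]; exact add_mem hx hy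
  | inv x _ hx => rw [map_inv₀]; exact inv_mem hx
  | mul x y _ _ hx hy => rw [map_mul]; exact mul_mem hx hy

include hA in
/-- `V_q y` is a `q`-th power in `FT A M` -/
theorem exists_pow_eq_qExpand (y : LaurentSeries (kk A)) (hy : y ∈ FT A M) :
    ∃ w ∈ FT A M, w ^ q = qExpand (kk A) q y := by
  haveI : CharP (kk A) q := Fermat.Agent.S18Lib.charP_kk A hA
  haveI : IsAlgClosed (kk A) := isAlgClosed_kk A
  refine ⟨coeffMap ((frobeniusEquiv (kk A) q).symm : kk A →+* kk A) y,
    FR_coeffMap_mem M A _ y hy, ?_⟩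
  rw [pow_char_eq q]
  congr 1
  ext n
  simp [coeffMap_coeff]

include hA in
theorem qExpand_mem_FT (y : LaurentSeries (kk A)) (hy : y ∈ FT A M) :
    qExpand (kk A) q y ∈ FT A M := by
  obtain ⟨w, hw, hwq⟩ := exists_pow_eq_qExpand M q A hA y hy
  rw [← hwq]
  exact pow_mem hw q

/-- `V_q : Ft → Ft` -/
def Vq : FT A M →+* FT A M where
  toFun y := ⟨qExpand (kk A) q (y : LaurentSeries (kk A)), qExpand_mem_FT M q A hA _ y.2⟩
  map_one' := Subtype.ext (map_one _)
  map_mul' _ _ := Subtype.ext (map_mul _ _ _)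
  map_zero' := Subtype.ext (map_zero _)
  map_add' _ _ := Subtype.ext (map_add _ _ _)

end

end Fermat.Agent.S34Lib
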