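import Fermat.Agent.S34.ModDefs
import Fermat.Agent.S34.Frob
import Fermat.Agent.S18.RiemannLower
import Fermat.Agent.S18.RiemannUpper

/-!
# S34 package, MODULAR part, leaf (GRM): good reduction at level `M` in the form
`V(L(nJ)) = L(n J̄)`
-/

set_option autoImplicit false
set_option synthInstance.maxHeartbeats 400000

open AlgebraicCurve IntermediateField Polynomial ModularCurve CongruenceSubgroup
  Fermat.Agent.S24Lib Fermat.Agent.FFLib Fermat.Agent.S18Lib Fermat.Agent.S28Lib
  Fermat.Agent.ESLib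

namespace Fermat.Agent.S34Lib

noncomputable section

variable (M q : ℕ) [NeZero M] [NeZero q] [hqF : Fact q.Prime] (hqM : ¬ q ∣ M)

/-- abstract: the `key` of `S18Lib.good_reduction_torsion_of_x` with `D = 0` -/
theorem redSpace_L_eq {K k F Ft : Type*} [Field K] [Field k] [Field F] [Algebra K F] [Field Ft]
    [Algebra k Ft] {A : ValuationSubring K} {resK : A →+* k} [IsAlgClosed K] [IsAlgClosed k]
    (hF : IsFF K F) (hFt : IsFF k Ft) (hres : Function.Surjective resK)
    (R : RedData A resK F Ft) (g : ℤ)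
    (hlow : ∀ E : Divisor K F, Divisor.degree E + 1 - g ≤ (FFLib.ell E : ℤ))
    (hup : ∀ c : ℤ, ∃ E : Divisor k Ft, c ≤ Divisor.degree E ∧
      (FFLib.ell E : ℤ) ≤ Divisor.degree E + 1 - g)
    (x : R.O) (hx : Transcendental k (R.red x))
    (hdeg : Module.finrank K⟮((x : R.O) : F)⟯ F ≤ Module.finrank k⟮R.red x⟯ Ft) :
    ∃ n₀ : ℕ, ∀ n, n₀ ≤ n →
      redSpace R hres (riemannRochSpace (n • poleDiv K ((x : R.O) : F))) =
        riemannRochSpace (n • poleDiv k (R.red x)) := by
  classical
  have hxK : Transcendental K ((x : R.O) : F) := transcendental_of_red R x hx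
  have hle := finrank_red_le hF hFt R x hx
  set xF : F := ((x : R.O) : F) with hxF
  set xb : Ft := R.red x with hxb
  set dF := Module.finrank K⟮xF⟯ F with hdF
  set dt := Module.finrank k⟮xb⟯ Ft with hdt
  have hdd : dF = dt := le_antisymm hdeg hle
  have hdt0 : 0 < dt := by
    have := IsFF.finiteDimensional hFt hx
    exact Module.finrank_pos
  obtain ⟨c, hc⟩ := riemann_equality hFt
  have hg : g ≤ (genusR k Ft : ℤ) := by
    obtain ⟨E, hE1, hE2⟩ := hup c
    have := hc E hE1
    omega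
  refine ⟨c.toNat, fun n hn => ?_⟩
  have hcn : c ≤ (n : ℤ) * dt := by
    have h1 : c ≤ (n : ℤ) := (Int.self_le_toNat c).trans (by exact_mod_cast hn)
    have h2 : (n : ℤ) * 1 ≤ (n : ℤ) * dt := by
      apply mul_le_mul_of_nonneg_left _ (by positivity)
      exact_mod_cast hdt0
    omega
  have : FiniteDimensional K (riemannRochSpace (n • poleDiv K xF)) := finiteDimensional_L hF _
  have : FiniteDimensional k (riemannRochSpace (n • poleDiv k xb)) := finiteDimensional_L hFt _
  apply Submodule.eq_of_le_of_finrank_le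
  · rintro _ ⟨s, hs, rfl⟩
    have h1 := red_mem_L_pole_zero hF hFt R x hx hdeg n 0 s (by simpa using hs)
    simpa using h1
  · rw [finrank_redSpace]
    have h1 := hlow (n • poleDiv K xF)
    rw [map_nsmul, degree_poleDiv hF hxK, nsmul_eq_mul] at h1
    have h2 := hc (n • poleDiv k xb) (by
      rw [map_nsmul, degree_poleDiv hFt hx, nsmul_eq_mul]
      exact hcn)
    rw [map_nsmul, degree_poleDiv hFt hx, nsmul_eq_mul] at h2
    have h3 : (FFLib.ell (n • poleDiv k xb) : ℤ) ≤ (FFLib.ell (n • poleDiv K xF) : ℤ) := by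
      rw [← hdF] at h1
      rw [← hdt] at h2
      rw [hdd] at h1
      omega
    exact_mod_cast h3

theorem exists_lift_L (hbase : 2 ∣ M ∨ 3 ∣ M) (A : ValuationSubring Qb) (hA : A.LiesOverPrime q) :
    ∃ n₀ : ℕ, ∀ n, n₀ ≤ n → ∀ y ∈ riemannRochSpace (n • poleDiv (kk A) (jT A M)),
      ∃ z : OC M hqM A hA, (z : FB M) ∈ riemannRochSpace (n • poleDiv Qb (jBar M)) ∧
        redC M hqM A hA z = y := by
  have hk := isAlgClosed_kk A
  have hFt := isFF_FT A M
  have hF := isFF_bar M
  have hy : cE A (jqModC A) ∈ FB M := by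
    have := uj_coe_jBar M A
    change ((jBar M : FB M) : LaurentSeries Qb) = cE A (jqModC A) at this
    rw [← this]
    exact (jBar M).2
  obtain ⟨h, hred⟩ := rd_int M hqM A hA (jqModC A) hy
  have hx : (⟨cE A (jqModC A), hy⟩ : FB M) = jBar M :=
    Subtype.ext (uj_coe_jBar M A).symm
  set x : (RM M q hqM A hA).O := ⟨⟨cE A (jqModC A), hy⟩, h⟩ with hxdef
  have hr : (RM M q hqM A hA).red x = jT A M := by
    apply Subtype.ext
    refine hred.trans ?_
    change coeffMap (IsLocalRing.residue A) (jqModC A) = _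
    rw [coeffMap_jqModC]
    rfl
  have hxc : ((x : (RM M q hqM A hA).O) : FB M) = jBar M := hx
  obtain ⟨n₀, hn₀⟩ := redSpace_L_eq hF hFt IsLocalRing.residue_surjective (RM M q hqM A hA)
    (Module.finrank ℂ (CuspForm (Gamma0 M) 2) : ℤ)
    (fun E => by rw [← ell_eq_ell]; exact riemann_lower M E)
    (fun c => by
      obtain ⟨E, h1, h2⟩ := riemann_upper M hqM hbase A hA c
      exact ⟨E, h1, by rw [← ell_eq_ell]; exact h2⟩)
    x (by rw [hr]; exact transcendental_jT A M)
    (by
      rw [hr, hxc, finrank_eq_index M]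
      exact idx_le_finrank_FT M hqM A hA)
  refine ⟨n₀, fun n hn y hy => ?_⟩
  have h1 := hn₀ n hn
  rw [hr, hxc] at h1
  rw [← h1] at hy
  obtain ⟨z, hz, hzy⟩ := hy
  exact ⟨z, hz, hzy⟩

end

end Fermat.Agent.S34Lib
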