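import Fermat.Agent.S34.ModDefs
import Fermat.Agent.S18.RiemannLower

/-!
# S34 MOD (JQ): the poles of `j` and `j_q`
-/

set_option autoImplicit false
set_option synthInstance.maxHeartbeats 400000

open AlgebraicCurve IntermediateField Polynomial ModularCurve CongruenceSubgroup
  Fermat.Agent.S24Lib Fermat.Agent.FFLib Fermat.Agent.S18Lib Fermat.Agent.S28Lib
  Fermat.Agent.ESLib
open UpperHalfPlane ModularForm Matrix.SpecialLinearGroup
open scoped MatrixGroups Manifold
open Fermat.Agent.S20Lib Fermat.Agent.S20Lib.Cusps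

namespace Fermat.Agent.S34Lib

noncomputable section

/-! ### general function-field lemmas -/

/-- transport of `L(n (x)_∞)` by an automorphism -/
theorem JQ_algEquiv_mem_L {K F : Type*} [Field K] [IsAlgClosed K] [Field F] [Algebra K F]
    (h : IsFF K F) (σ : F ≃ₐ[K] F) (x f : F) (n : ℕ)
    (hf : f ∈ riemannRochSpace (n • poleDiv K x)) :
    σ f ∈ riemannRochSpace (n • poleDiv K (σ x)) := by
  rw [mem_L_iff] at hf ⊢
  intro v
  have hv : v = σ • (σ⁻¹ • v) := by rw [smul_smul, mul_inv_cancel, one_smul]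
  rcases hf (σ⁻¹ • v) with h0 | h1
  · left
    rw [h0, map_zero]
  · right
    rw [Finsupp.smul_apply, poleDiv_apply h] at h1
    rw [Finsupp.smul_apply, poleDiv_apply h, hv, Place.ord_smul, Place.ord_smul]
    exact h1

/-- `f ∈ L(D)`, `D ≥ 0` implies `(f)_∞ ≤ D` -/
theorem JQ_poleDiv_le {K F : Type*} [Field K] [IsAlgClosed K] [Field F] [Algebra K F]
    (h : IsFF K F) {f : F} {D : Divisor K F} (hD : 0 ≤ D) (hf : f ∈ riemannRochSpace D) :
    poleDiv K f ≤ D := by
  rw [mem_L_iff] at hf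
  intro v
  rw [poleDiv_apply h]
  have hDv : 0 ≤ D v := hD v
  rcases hf v with h0 | h1
  · rw [h0, Place.ord_zero]
    simpa using hDv
  · exact max_le (by omega) hDv

/-- if `x` and `y` have the same poles then `(xy)_∞ = (x)_∞ + (y)_∞` -/
theorem JQ_poleDiv_mul {K F : Type*} [Field K] [IsAlgClosed K] [Field F] [Algebra K F]
    (h : IsFF K F) {x y : F} (hx : x ≠ 0) (hy : y ≠ 0) (n m : ℕ)
    (h1 : poleDiv K x ≤ n • poleDiv K y) (h2 : poleDiv K y ≤ m • poleDiv K x) :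
    poleDiv K (x * y) = poleDiv K x + poleDiv K y := by
  ext v
  have e1 := h1 v
  have e2 := h2 v
  rw [Finsupp.smul_apply, poleDiv_apply h, poleDiv_apply h, nsmul_eq_mul] at e1 e2
  rw [Finsupp.add_apply, poleDiv_apply h, poleDiv_apply h, poleDiv_apply h, v.ord_mul hx hy]
  rcases le_or_gt 0 (v.ord x) with ha | ha
  · have e3 : max (-v.ord x) 0 = 0 := max_eq_right (by omega)
    rw [e3, mul_zero] at e2
    have hb : 0 ≤ v.ord y := by
      by_contra hb
      have : -v.ord y ≤ max (-v.ord y) 0 := le_max_left _ _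
      omega
    rw [e3, max_eq_right (by omega), max_eq_right (by omega)]
    rfl
  · have hb : v.ord y < 0 := by
      by_contra hb
      have e3 : max (-v.ord y) 0 = 0 := max_eq_right (by omega)
      rw [e3, mul_zero] at e1
      have : -v.ord x ≤ max (-v.ord x) 0 := le_max_left _ _
      omega
    rw [max_eq_left (by omega), max_eq_left (by omega), max_eq_left (by omega)]
    ring

/-! ### `j` and `j_q` -/

variable (M q : ℕ) [NeZero M] [NeZero q] [hqF : Fact q.Prime] (hqM : ¬ q ∣ M)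

theorem JQ_Rep : W7_Rep (q * M) q ((jQ M q : FB (q * M)) : LaurentSeries Qb) := by
  have hq0 : 0 < q := NeZero.pos q
  have hwh : IsWH (Gamma0 (q * M)) (janD q) := isWH_janD (dvd_mul_right q M)
  refine ⟨janD q, hwh, ?_, ?_⟩
  · rw [laurentFun_janD]
    exact (W6_coeffMap_iotaC_coeffEmb _).symm
  · have hD : IsMF ⊤ (12 * (q : ℤ)) (Dl ^ q) := by
      have := SeparatingAux.isMF_pow isMF_Dl q
      rwa [mul_comm] at this
    have hsl : ∀ γ : SL(2, ℤ), (janD q * Dl ^ q) ∣[(12 * q : ℤ)] γ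
        = (janD q ∣[(0 : ℤ)] γ) * Dl ^ q := by
      intro γ
      have := mul_slash_SL2 0 (12 * q) γ (janD q) (Dl ^ q)
      rw [zero_add, hD.top_slash] at this
      exact this
    refine ⟨hwh.holo.mul hD.holo, fun γ hγ => by rw [hsl, hwh.inv γ hγ], fun γ => ?_⟩
    rw [hsl]
    obtain ⟨a, b, a', ha, ha', h1, _, h3⟩ := W3.janD_slash hq0 γ
    have : (janD q ∣[(0 : ℤ)] γ) = fun τ => jan (utr a b a' τ) := funext h3
    rw [this]
    exact W3.bdd_jan_utr_mul ha ha' h1

theorem jQ_mem_L : jQ M q ∈ riemannRochSpace (q • poleDiv Qb (jN M q)) :=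
  bl_mem_L (q * M) q _ (JQ_Rep M q) (jQ M q).2

theorem wq_jN : wq M q hqM (jN M q) = jQ M q := by
  apply Subtype.ext
  have h1 : ((jN M q : FB (q * M)) : LaurentSeries Qb) = ((jBar M : FB M) : LaurentSeries Qb) := by
    rw [jN, ff_coe_jBar, ff_coe_jBar]
  have h2 := coe_wq M q hqM _ (jBar M).2 (h1 ▸ (jN M q).2)
  have h3 : (⟨((jBar M : FB M) : LaurentSeries Qb), h1 ▸ (jN M q).2⟩ : FB (q * M)) = jN M q :=
    Subtype.ext h1.symm
  rw [h3] at h2
  rw [h2, jQ, ff_coe_jBarD, ff_coe_jBar]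

theorem wq_jQ : wq M q hqM (jQ M q) = jN M q := by
  rw [← wq_jN M q hqM, wq_wq]

theorem JQ_jN_ne_zero : jN M q ≠ 0 := by
  intro h
  have h' : jBar (q * M) = 0 := h
  exact transcendental_jBar (q * M) (h' ▸ isAlgebraic_zero)

include hqM in
theorem JQ_jQ_ne_zero : jQ M q ≠ 0 := by
  rw [← wq_jN M q hqM]
  exact (map_ne_zero_iff _ (wq M q hqM).injective).2 (JQ_jN_ne_zero M q)

/-- transport of `L`-spaces by `w_q` -/
theorem wq_mem_L (n : ℕ) (f : FB (q * M)) (hf : f ∈ riemannRochSpace (n • poleDiv Qb (jN M q))) :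
    wq M q hqM f ∈ riemannRochSpace (n • poleDiv Qb (jQ M q)) := by
  have := JQ_algEquiv_mem_L (isFF_FB (q * M)) (wq M q hqM) (jN M q) f n hf
  rwa [wq_jN] at this

include hqM in
theorem jN_mem_L : jN M q ∈ riemannRochSpace (q • poleDiv Qb (jQ M q)) := by
  have := JQ_algEquiv_mem_L (isFF_FB (q * M)) (wq M q hqM) (jN M q) (jQ M q) q (jQ_mem_L M q)
  rwa [wq_jN, wq_jQ] at this

theorem poleDiv_jQ_le : poleDiv Qb (jQ M q) ≤ q • poleDiv Qb (jN M q) :=
  JQ_poleDiv_le (isFF_FB (q * M)) (nsmul_nonneg (dg_poleDiv_nonneg (isFF_FB (q * M)) _) q)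
    (jQ_mem_L M q)

include hqM in
theorem poleDiv_jN_le : poleDiv Qb (jN M q) ≤ q • poleDiv Qb (jQ M q) :=
  JQ_poleDiv_le (isFF_FB (q * M)) (nsmul_nonneg (dg_poleDiv_nonneg (isFF_FB (q * M)) _) q)
    (jN_mem_L M q hqM)

include hqM in
theorem poleDiv_mul : poleDiv Qb (jN M q * jQ M q) = poleDiv Qb (jN M q) + poleDiv Qb (jQ M q) :=
  JQ_poleDiv_mul (isFF_FB (q * M)) (JQ_jN_ne_zero M q) (JQ_jQ_ne_zero M q hqM) q q
    (poleDiv_jN_le M q hqM) (poleDiv_jQ_le M q)

end

end Fermat.Agent.S34Lib
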