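import Fermat.Agent.S34.ModDefs
import Fermat.Agent.S18.RiemannLower

/-!
# S34 MOD (PB): pull-back of `L(n (j)_∞)` along `π₁`
-/

set_option autoImplicit false
set_option synthInstance.maxHeartbeats 400000

open AlgebraicCurve IntermediateField Polynomial ModularCurve CongruenceSubgroup
  Fermat.Agent.S24Lib Fermat.Agent.FFLib Fermat.Agent.S18Lib Fermat.Agent.S28Lib
  Fermat.Agent.ESLib

namespace Fermat.Agent.S34Lib

noncomputable section

/-- pull-back of `L(n (x)_∞)` along a finite extension of function fields -/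
theorem PB_mem_L {K F₁ F₂ : Type*} [Field K] [IsAlgClosed K] [Field F₁] [Field F₂] [Algebra K F₁]
    [Algebra K F₂] [Algebra F₁ F₂] [IsScalarTower K F₁ F₂] [Algebra.IsIntegral F₁ F₂]
    (h₁ : IsFF K F₁) (h₂ : IsFF K F₂) (x z : F₁) (n : ℕ)
    (hz : z ∈ riemannRochSpace (n • poleDiv K x)) :
    algebraMap F₁ F₂ z ∈ riemannRochSpace (n • poleDiv K (algebraMap F₁ F₂ x)) := by
  rw [mem_L_iff] at hz ⊢
  intro w
  rcases hz (w.restrict F₁) with h0 | h
  · left
    rw [h0, map_zero]
  · right
    rw [Finsupp.smul_apply, poleDiv_apply h₁] at h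
    rw [Finsupp.smul_apply, poleDiv_apply h₂, Place.ord_restrict (F := F₁) w z,
      Place.ord_restrict (F := F₁) w x]
    have he : (0 : ℤ) < (Place.ramificationIndex (F := F₁) w : ℤ) := by
      exact_mod_cast w.ramificationIndex_pos (F := F₁)
    set e : ℤ := (Place.ramificationIndex (F := F₁) w : ℤ)
    set a : ℤ := (w.restrict F₁).ord x
    set b : ℤ := (w.restrict F₁).ord z
    have h1 : max (-(e * a)) 0 = e * max (-a) 0 := by
      rw [mul_max_of_nonneg _ _ he.le, mul_zero, mul_neg]
    rw [h1]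
    simp only [nsmul_eq_mul] at h ⊢
    calc -((n : ℤ) * (e * max (-a) 0)) = e * (-((n : ℤ) * max (-a) 0)) := by ring
      _ ≤ e * b := mul_le_mul_of_nonneg_left h he.le

variable (M q : ℕ) [NeZero M] [NeZero q] [hqF : Fact q.Prime] (hqM : ¬ q ∣ M)

theorem pi1_mem_L (n : ℕ) (z : FB M) (hz : z ∈ riemannRochSpace (n • poleDiv Qb (jBar M))) :
    pi1 M q z ∈ riemannRochSpace (n • poleDiv Qb (jN M q)) := by
  let _ := (IntermediateField.inclusion (FB_le M q)).toRingHom.toAlgebra
  have : IsScalarTower Qb (FB M) (FB (q * M)) :=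
    IsScalarTower.of_algebraMap_eq fun a =>
      ((IntermediateField.inclusion (FB_le M q)).commutes a).symm
  have hd := D2_degree (FB_le M q)
  have : FiniteDimensional (FB M) (FB (q * M)) := by
    apply Module.finite_of_finrank_pos
    rcases Nat.eq_zero_or_pos (Module.finrank (FB M) (FB (q * M))) with h0 | h0
    · rw [h0, mul_zero] at hd
      exact absurd hd (D2_index_ne_zero (q * M))
    · exact h0
  exact PB_mem_L (isFF_FB M) (isFF_FB (q * M)) (jBar M) z n hz

end

end Fermat.Agent.S34Lib
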