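import Fermat.Agent.S34.ModDefs
import Fermat.Agent.S34.Frob
import Fermat.Agent.S18.RiemannLower
import Fermat.Agent.S18.RiemannUpper

/-!
# S34 package, MODULAR part, leaf (RC): formal consequences of `IsQRed2`
-/

set_option autoImplicit false
set_option synthInstance.maxHeartbeats 400000

open AlgebraicCurve IntermediateField Polynomial ModularCurve CongruenceSubgroup
  Fermat.Agent.S24Lib Fermat.Agent.FFLib Fermat.Agent.S18Lib Fermat.Agent.S28Lib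
  Fermat.Agent.ESLib

namespace Fermat.Agent.S34Lib

noncomputable section

/-! ### general facts on the Gauss ring -/

theorem RC_qExpand_mem (A : ValuationSubring Qb) (q : ℕ) [NeZero q] (x : gRing A) :
    ∃ h : qExpand Qb q (x : LaurentSeries Qb) ∈ gRing A,
      gRed A ⟨_, h⟩ = qExpand (kk A) q (gRed A x) := by
  have h1 := gNum_spec A x
  have h2 : qExpand Qb q (x : LaurentSeries Qb) * cE A (qExpand A q (gDen A x))
      = cE A (qExpand A q (gNum A x)) := by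
    rw [cE_def, cE_def, coeffMap_qExpand, coeffMap_qExpand, ← cE_def, ← cE_def, ← h1, map_mul]
  have h3 : cR A (qExpand A q (gDen A x)) ≠ 0 := by
    rw [cR_def, coeffMap_qExpand, ← cR_def]
    intro h0
    apply gDen_ne A x
    apply qExpand_injective q
    rw [h0, map_zero]
  have hmem : qExpand Qb q (x : LaurentSeries Qb) ∈ gRing A :=
    ⟨qExpand A q (gNum A x), qExpand A q (gDen A x), h3, h2⟩
  refine ⟨hmem, ?_⟩
  have e1 := gRed_eq A ⟨_, hmem⟩ h3 h2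
  have e2 := gRed_eq A x (gDen_ne A x) h1
  rw [e1, e2, map_div₀, cR_def, cR_def, coeffMap_qExpand, coeffMap_qExpand]
  rfl

theorem RC_inertia_mem (A : ValuationSubring Qb) (σ : GQ) (hσ : σ ∈ A.inertiaSubgroupIn ℚ)
    (x : gRing A) :
    ∃ h : coeffMap (σ : Qb →+* Qb) (x : LaurentSeries Qb) ∈ gRing A,
      gRed A ⟨_, h⟩ = gRed A x := by
  have h1 := gNum_spec A x
  have hd := mem_decomp_of_inertia A hσ
  have h2 : coeffMap (σ : Qb →+* Qb) (x : LaurentSeries Qb)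
      * cE A (coeffMap (actA A σ hd) (gDen A x)) = cE A (coeffMap (actA A σ hd) (gNum A x)) := by
    rw [cE_def, cE_def, coeffMap_subtype_actA, coeffMap_subtype_actA, ← cE_def, ← cE_def, ← h1,
      map_mul]
  have h3 : cR A (coeffMap (actA A σ hd) (gDen A x)) ≠ 0 := by
    rw [cR_def, coeffMap_residue_actA_inertia A hσ]
    exact gDen_ne A x
  have hmem : coeffMap (σ : Qb →+* Qb) (x : LaurentSeries Qb) ∈ gRing A :=
    ⟨coeffMap (actA A σ hd) (gNum A x), coeffMap (actA A σ hd) (gDen A x), h3, h2⟩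
  refine ⟨hmem, ?_⟩
  have e1 := gRed_eq A ⟨_, hmem⟩ h3 h2
  have e2 := gRed_eq A x (gDen_ne A x) h1
  rw [e1, e2, cR_def, cR_def, coeffMap_residue_actA_inertia A hσ,
    coeffMap_residue_actA_inertia A hσ]
  rfl

variable (M q : ℕ) [NeZero M] [NeZero q] [hqF : Fact q.Prime] (hqM : ¬ q ∣ M)
variable (A : ValuationSubring Qb) (hA : A.LiesOverPrime q)

/-! ## (RC) `S34/RedG2Cor.lean` : formal consequences of `IsQRed2` -/

variable {M q hqM A}
variable {R : RedG A (IsLocalRing.residue A) (FB (q * M)) (FT A M × FT A M)}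

omit hqF in
private theorem RC_pi1_eq (z : FB M) :
    pi1 M q z = ⟨(z : LaurentSeries Qb), FB_le M q z.2⟩ := rfl

omit hqF in
private theorem RC_coe_pi1 (z : FB M) :
    ((pi1 M q z : FB (q * M)) : LaurentSeries Qb) = (z : LaurentSeries Qb) :=
  congrArg Subtype.val (RC_pi1_eq z)

private theorem RC_pi1_aux (hR : IsQRed2 M q hqM A R) (s : LaurentSeries Qb) (hs : s ∈ FB M)
    (hs' : s ∈ FB (q * M)) (hO : (⟨s, hs⟩ : FB M) ∈ OC M hqM A hA) :
    ∃ h : (⟨s, hs'⟩ : FB (q * M)) ∈ R.O,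
      R.red ⟨⟨s, hs'⟩, h⟩ = (redC M hqM A hA ⟨⟨s, hs⟩, hO⟩,
        Vq M q A hA (redC M hqM A hA ⟨⟨s, hs⟩, hO⟩)) := by
  have hz : s ∈ gRing A := (mem_OC_iff M hqM A hA (⟨s, hs⟩ : FB M)).1 hO
  obtain ⟨hq, hqr⟩ := RC_qExpand_mem A q ⟨s, hz⟩
  have hc2 := coe_wq M q hqM s hs hs'
  have hq' : ((wq M q hqM ⟨s, hs'⟩ : FB (q * M)) : LaurentSeries Qb) ∈ gRing A := by
    rw [hc2]; exact hq
  have hmem : (⟨s, hs'⟩ : FB (q * M)) ∈ R.O := by
    rw [hR.mem_iff]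
    exact ⟨hz, hq'⟩
  refine ⟨hmem, ?_⟩
  have hcr : (redC M hqM A hA ⟨⟨s, hs⟩, hO⟩ : LaurentSeries (kk A))
      = gRed A ⟨s, hz⟩ := coe_redC M hqM A hA _
  have e1 := hR.red_fst ⟨_, hmem⟩ hz
  have e2 := hR.red_snd ⟨_, hmem⟩ hq'
  have e3 : (⟨((wq M q hqM ⟨s, hs'⟩ : FB (q * M)) : LaurentSeries Qb), hq'⟩ : gRing A)
      = ⟨_, hq⟩ := Subtype.ext hc2
  have e4 : ((Vq M q A hA (redC M hqM A hA ⟨⟨s, hs⟩, hO⟩) : FT A M) : LaurentSeries (kk A))
      = qExpand (kk A) q (redC M hqM A hA ⟨⟨s, hs⟩, hO⟩ : LaurentSeries (kk A)) := rfl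
  apply Prod.ext
  · apply Subtype.ext
    exact e1.trans hcr.symm
  · apply Subtype.ext
    rw [e4, hcr, ← hqr, ← e3]
    exact e2

theorem pi1_mem (hR : IsQRed2 M q hqM A R) (z : OC M hqM A hA) :
    ∃ h : pi1 M q (z : FB M) ∈ R.O,
      R.red ⟨_, h⟩ = (redC M hqM A hA z, Vq M q A hA (redC M hqM A hA z)) := by
  obtain ⟨⟨s, hs⟩, hO⟩ := z
  have h1 := RC_pi1_aux hA hR s hs (FB_le M q hs) hO
  show ∃ h : pi1 M q (⟨s, hs⟩ : FB M) ∈ R.O, R.red ⟨pi1 M q (⟨s, hs⟩ : FB M), h⟩ = _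
  rw [RC_pi1_eq]
  exact h1

theorem wq_mem (hR : IsQRed2 M q hqM A R) (x : R.O) :
    ∃ h : wq M q hqM (x : FB (q * M)) ∈ R.O, R.red ⟨_, h⟩ = ((R.red x).2, (R.red x).1) := by
  have hx := (hR.mem_iff _).1 x.2
  have hmem : wq M q hqM (x : FB (q * M)) ∈ R.O := by
    rw [hR.mem_iff, wq_wq]
    exact ⟨hx.2, hx.1⟩
  refine ⟨hmem, ?_⟩
  apply Prod.ext
  · apply Subtype.ext
    rw [hR.red_fst ⟨_, hmem⟩ hx.2, hR.red_snd x hx.2]
  · apply Subtype.ext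
    have h2 : ((wq M q hqM (wq M q hqM (x : FB (q * M))) : FB (q * M)) : LaurentSeries Qb)
        ∈ gRing A := by rw [wq_wq]; exact hx.1
    rw [hR.red_snd ⟨_, hmem⟩ h2, hR.red_fst x hx.1]
    congr 1
    apply Subtype.ext
    show ((wq M q hqM (wq M q hqM (x : FB (q * M))) : FB (q * M)) : LaurentSeries Qb) = _
    rw [wq_wq]

theorem pi2_mem (hR : IsQRed2 M q hqM A R) (z : OC M hqM A hA) :
    ∃ h : pi2 M q hqM (z : FB M) ∈ R.O,
      R.red ⟨_, h⟩ = (Vq M q A hA (redC M hqM A hA z), redC M hqM A hA z) := by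
  obtain ⟨h1, hr1⟩ := pi1_mem hA hR z
  obtain ⟨h2, hr2⟩ := wq_mem hR ⟨_, h1⟩
  refine ⟨h2, ?_⟩
  rw [hr1] at hr2
  exact hr2

private theorem RC_jBar_mem (hA : A.LiesOverPrime q) :
    ∃ h : jBar M ∈ OC M hqM A hA, redC M hqM A hA ⟨_, h⟩ = jT A M := by
  have hy : cE A (jqModC A) ∈ FB M := by
    have := uj_coe_jBar M A
    change ((jBar M : FB M) : LaurentSeries Qb) = cE A (jqModC A) at this
    rw [← this]
    exact (jBar M).2
  obtain ⟨h, hred⟩ := rd_int M hqM A hA (jqModC A) hy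
  have hx : (⟨cE A (jqModC A), hy⟩ : FB M) = jBar M :=
    Subtype.ext (uj_coe_jBar M A).symm
  have h' : jBar M ∈ OC M hqM A hA := hx ▸ h
  refine ⟨h', ?_⟩
  have e : (⟨jBar M, h'⟩ : OC M hqM A hA) = ⟨⟨cE A (jqModC A), hy⟩, h⟩ := Subtype.ext hx.symm
  rw [e]
  apply Subtype.ext
  refine hred.trans ?_
  change coeffMap (IsLocalRing.residue A) (jqModC A) = _
  rw [coeffMap_jqModC]
  rfl

private theorem RC_Vq_jT (hA : A.LiesOverPrime q) : Vq M q A hA (jT A M) = jT A M ^ q := by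
  have : CharP (kk A) q := charP_kk hqF.out hA
  apply Subtype.ext
  show qExpand (kk A) q (jqModC (kk A)) = ((jT A M ^ q : FT A M) : LaurentSeries (kk A))
  rw [qExpand_jqModC_eq_pow q (kk A)]
  rfl

theorem jN_mem (hR : IsQRed2 M q hqM A R) (hA : A.LiesOverPrime q) :
    ∃ h : jN M q ∈ R.O, R.red ⟨_, h⟩ = (jT A M, jT A M ^ q) := by
  obtain ⟨h0, hr0⟩ := RC_jBar_mem (M := M) (hqM := hqM) hA
  obtain ⟨h1, hr1⟩ := pi1_mem hA hR ⟨_, h0⟩
  have e : pi1 M q (jBar M) = jN M q := by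
    apply Subtype.ext
    rw [RC_coe_pi1]
    rfl
  rw [hr0, RC_Vq_jT hA] at hr1
  have h2 : jN M q ∈ R.O := e ▸ h1
  refine ⟨h2, ?_⟩
  rw [← hr1]
  congr 1

theorem jQ_mem (hR : IsQRed2 M q hqM A R) (hA : A.LiesOverPrime q) :
    ∃ h : jQ M q ∈ R.O, R.red ⟨_, h⟩ = (jT A M ^ q, jT A M) := by
  obtain ⟨h0, hr0⟩ := RC_jBar_mem (M := M) (hqM := hqM) hA
  obtain ⟨h1, hr1⟩ := pi2_mem hA hR ⟨_, h0⟩
  have e : pi2 M q hqM (jBar M) = jQ M q := by
    apply Subtype.ext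
    have h3 : ((pi2 M q hqM (jBar M) : FB (q * M)) : LaurentSeries Qb)
        = qExpand Qb q ((jBar M : FB M) : LaurentSeries Qb) :=
      coe_wq M q hqM _ (jBar M).2 _
    rw [h3]
    show qExpand Qb q (coeffEmb Qb (qExpand ℚ 1 jq)) = coeffEmb Qb (qExpand ℚ q jq)
    rw [qExpand_one_apply, coeffEmb, coeffMap_qExpand]
  rw [hr0, RC_Vq_jT hA] at hr1
  have h2 : jQ M q ∈ R.O := e ▸ h1
  refine ⟨h2, ?_⟩
  rw [← hr1]
  congr 1
  exact Subtype.ext e.symm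

/-- inertia acts trivially on the joint reduction -/
theorem inertia_mem (hR : IsQRed2 M q hqM A R) (σ : GQ) (hσ : σ ∈ A.inertiaSubgroupIn ℚ)
    (x : R.O) :
    ∃ h : gal (q * M) σ (x : FB (q * M)) ∈ R.O, R.red ⟨_, h⟩ = R.red x := by
  have hx := (hR.mem_iff _).1 x.2
  obtain ⟨h1, hr1⟩ := RC_inertia_mem A σ hσ ⟨_, hx.1⟩
  obtain ⟨h2, hr2⟩ := RC_inertia_mem A σ hσ ⟨_, hx.2⟩
  have hc2 : ((wq M q hqM (gal (q * M) σ (x : FB (q * M))) : FB (q * M)) : LaurentSeries Qb)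
      = coeffMap (σ : Qb →+* Qb)
        ((wq M q hqM (x : FB (q * M)) : FB (q * M)) : LaurentSeries Qb) := by
    rw [wq_gal]
    rfl
  have hmem : gal (q * M) σ (x : FB (q * M)) ∈ R.O := by
    rw [hR.mem_iff]
    exact ⟨h1, by rw [hc2]; exact h2⟩
  refine ⟨hmem, ?_⟩
  apply Prod.ext
  · apply Subtype.ext
    rw [hR.red_fst ⟨_, hmem⟩ h1, hR.red_fst x hx.1]
    exact hr1
  · apply Subtype.ext
    rw [hR.red_snd ⟨_, hmem⟩ (by rw [hc2]; exact h2), hR.red_snd x hx.2, ← hr2]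
    congr 1
    exact Subtype.ext hc2

end

end Fermat.Agent.S34Lib
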