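import Fermat.Agent.S34.Defs
import Fermat.Agent.S34.DegLe2
import Fermat.Agent.S18.PoleLemma

/-!
# S34 library, ABSTRACT part, leaf (PL2): reduction does not create poles (two components)
-/

set_option autoImplicit false

open AlgebraicCurve IntermediateField Polynomial Fermat.Agent.S24Lib Fermat.Agent.FFLib
  Fermat.Agent.S18Lib

namespace Fermat.Agent.S34Lib

section PL2

variable {K k F Ft : Type*} [Field K] [Field k] [Field F] [Algebra K F] [Field Ft] [Algebra k Ft]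
  {A : ValuationSubring K} {resK : A →+* k}

/-- the side of `Ft`: the degree of `x ^ M + y` -/
private theorem pl2_deg_ge (hFt : IsFF k Ft) [IsAlgClosed k] {x y : Ft} (hx : Transcendental k x)
    {m M : ℕ} (hm : ∀ Q : Place k Ft, -(m : ℤ) ≤ Q.ord y) (hM : m < M) :
    Transcendental k (x ^ M + y) ∧
      (M : ℤ) * Module.finrank k⟮x⟯ Ft ≤ Module.finrank k⟮x ^ M + y⟯ Ft ∧
      ((∃ Q : Place k Ft, 0 ≤ Q.ord x ∧ Q.ord y < 0) →
        (M : ℤ) * Module.finrank k⟮x⟯ Ft + 1 ≤ Module.finrank k⟮x ^ M + y⟯ Ft) := by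
  classical
  obtain ⟨v₀, hv₀⟩ := exists_place_ord_pos hFt (dg_transcendental_inv hx)
  rw [v₀.ord_inv] at hv₀
  have hzt : Transcendental k (x ^ M + y) := by
    apply transcendental_of_ord_ne_zero v₀
    rw [pl_ord_at_pole v₀ (hm v₀) hM (by omega)]
    have h1 : (0 : ℤ) < M := by
      have : 0 < M := by omega
      exact_mod_cast this
    have h2 : v₀.ord x < 0 := by omega
    exact (mul_neg_of_pos_of_neg h1 h2).ne
  refine ⟨hzt, ?_, ?_⟩
  · have hle : 0 ≤ poleDiv k (x ^ M + y) - M • poleDiv k x := by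
      intro Q'
      rw [Finsupp.zero_apply, Finsupp.sub_apply, Finsupp.smul_apply,
        poleDiv_apply hFt, poleDiv_apply hFt]
      rcases lt_or_ge (Q'.ord x) 0 with h | h
      · have h1 : (M : ℤ) * Q'.ord x ≤ 0 :=
          mul_nonpos_of_nonneg_of_nonpos (by positivity) h.le
        rw [pl_ord_at_pole Q' (hm Q') hM h, max_eq_left (by omega),
          max_eq_left (by omega), nsmul_eq_mul]
        apply le_of_eq
        ring
      · rw [max_eq_right (a := -Q'.ord x) (by omega), smul_zero]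
        have := le_max_right (-Q'.ord (x ^ M + y)) 0
        omega
    have hd := dg_degree_nonneg hFt hle
    rw [AddMonoidHom.map_sub, AddMonoidHom.map_nsmul, degree_poleDiv hFt hzt,
      degree_poleDiv hFt hx, nsmul_eq_mul] at hd
    omega
  · rintro ⟨Q, hQ, hneg⟩
    have hyb0 : y ≠ 0 := by
      intro h
      rw [h, Place.ord_zero] at hneg
      exact lt_irrefl _ hneg
    have hQz : Q.ord (x ^ M + y) = Q.ord y := by
      refine D2.ord_add_eq Q hyb0 (Or.inr ?_)
      rw [pl_ord_pow]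
      have : (0 : ℤ) ≤ M * Q.ord x := by positivity
      omega
    have hle : 0 ≤ poleDiv k (x ^ M + y) - (M • poleDiv k x + Finsupp.single Q 1) := by
      intro Q'
      rw [Finsupp.zero_apply, Finsupp.sub_apply, Finsupp.add_apply, Finsupp.smul_apply,
        poleDiv_apply hFt, poleDiv_apply hFt, Finsupp.single_apply]
      rcases lt_or_ge (Q'.ord x) 0 with h | h
      · have hne : Q ≠ Q' := by
          rintro rfl
          omega
        have h1 : (M : ℤ) * Q'.ord x ≤ 0 :=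
          mul_nonpos_of_nonneg_of_nonpos (by positivity) h.le
        rw [if_neg hne, pl_ord_at_pole Q' (hm Q') hM h, max_eq_left (by omega),
          max_eq_left (by omega), nsmul_eq_mul]
        apply le_of_eq
        ring
      · rw [max_eq_right (a := -Q'.ord x) (by omega), smul_zero]
        split_ifs with hQQ
        · subst hQQ
          rw [hQz]
          have := le_max_left (-Q.ord y) 0
          omega
        · have := le_max_right (-Q'.ord (x ^ M + y)) 0
          omega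
    have hd := dg_degree_nonneg hFt hle
    rw [AddMonoidHom.map_sub, AddMonoidHom.map_add, AddMonoidHom.map_nsmul,
      degree_poleDiv hFt hzt, degree_poleDiv hFt hx, degree_single' hFt, nsmul_eq_mul] at hd
    omega

/-- core: a function of `O` without poles outside the poles of `x` reduces to a pair of functions
without poles outside the poles of `x̄` -/
private theorem pl2_red_ord_nonneg (hF : IsFF K F) (hFt : IsFF k Ft) [IsAlgClosed K]
    [IsAlgClosed k]
    (R : RedG A resK F (Ft × Ft)) (x : R.O) (hx₁ : Transcendental k (R.red x).1)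
    (hx₂ : Transcendental k (R.red x).2)
    (hdeg : Module.finrank K⟮((x : R.O) : F)⟯ F ≤
      Module.finrank k⟮(R.red x).1⟯ Ft + Module.finrank k⟮(R.red x).2⟯ Ft)
    (y : R.O) (hy : ∀ v : Place K F, 0 ≤ v.ord ((x : R.O) : F) → 0 ≤ v.ord ((y : R.O) : F)) :
    (∀ Q : Place k Ft, 0 ≤ Q.ord (R.red x).1 → 0 ≤ Q.ord (R.red y).1) ∧
    (∀ Q : Place k Ft, 0 ≤ Q.ord (R.red x).2 → 0 ≤ Q.ord (R.red y).2) := by
  classical
  have hxK := transcendental_of_red2 R x hx₁
  obtain ⟨m, hm⟩ := pl_exists_bound hF ((y : R.O) : F)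
  obtain ⟨m₁, hm₁⟩ := pl_exists_bound hFt (R.red y).1
  obtain ⟨m₂, hm₂⟩ := pl_exists_bound hFt (R.red y).2
  set M := max m (max m₁ m₂) + 1 with hM
  have hmM : m < M := by omega
  have hm₁M : m₁ < M := by omega
  have hm₂M : m₂ < M := by omega
  set z : R.O := x ^ M + y with hz
  have hzF : ((z : R.O) : F) = ((x : R.O) : F) ^ M + ((y : R.O) : F) := rfl
  have hzb₁ : (R.red z).1 = (R.red x).1 ^ M + (R.red y).1 := by
    rw [hz, map_add, map_pow]; rfl
  have hzb₂ : (R.red z).2 = (R.red x).2 ^ M + (R.red y).2 := by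
    rw [hz, map_add, map_pow]; rfl
  -- the side of `F`
  have hpoleF : poleDiv K ((z : R.O) : F) = M • poleDiv K ((x : R.O) : F) := by
    ext v
    rw [Finsupp.smul_apply, poleDiv_apply hF, poleDiv_apply hF, hzF]
    rcases lt_or_ge (v.ord ((x : R.O) : F)) 0 with h | h
    · have h1 : (M : ℤ) * v.ord ((x : R.O) : F) ≤ 0 :=
        mul_nonpos_of_nonneg_of_nonpos (by positivity) h.le
      rw [pl_ord_at_pole v (hm v) hmM h, max_eq_left (by omega), max_eq_left (by omega),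
        nsmul_eq_mul]
      ring
    · have := pl_ord_nonneg v M h (hy v h)
      rw [max_eq_right (by omega), max_eq_right (by omega), smul_zero]
  obtain ⟨v₀, hv₀⟩ := exists_place_ord_pos hF (dg_transcendental_inv hxK)
  rw [v₀.ord_inv] at hv₀
  have hzK : Transcendental K ((z : R.O) : F) := by
    apply transcendental_of_ord_ne_zero v₀
    rw [hzF, pl_ord_at_pole v₀ (hm v₀) hmM (by omega)]
    have h1 : (0 : ℤ) < M := by positivity
    have h2 : v₀.ord ((x : R.O) : F) < 0 := by omega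
    exact (mul_neg_of_pos_of_neg h1 h2).ne
  have hdF : (Module.finrank K⟮((z : R.O) : F)⟯ F : ℤ)
      = M * Module.finrank K⟮((x : R.O) : F)⟯ F := by
    rw [← degree_poleDiv hF hzK, hpoleF, map_nsmul, degree_poleDiv hF hxK, nsmul_eq_mul]
  -- the side of `Ft`
  obtain ⟨t₁, d₁, e₁⟩ := pl2_deg_ge hFt hx₁ hm₁ hm₁M
  obtain ⟨t₂, d₂, e₂⟩ := pl2_deg_ge hFt hx₂ hm₂ hm₂M
  rw [← hzb₁] at t₁ d₁ e₁
  rw [← hzb₂] at t₂ d₂ e₂
  have h1 := finrank_red_le2 hF hFt R z t₁ t₂
  have h2 : (Module.finrank k⟮(R.red z).1⟯ Ft : ℤ) + Module.finrank k⟮(R.red z).2⟯ Ft ≤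
      Module.finrank K⟮((z : R.O) : F)⟯ F := by
    exact_mod_cast h1
  have h3 : (M : ℤ) * Module.finrank K⟮((x : R.O) : F)⟯ F
      ≤ M * (Module.finrank k⟮(R.red x).1⟯ Ft + Module.finrank k⟮(R.red x).2⟯ Ft) :=
    mul_le_mul_of_nonneg_left (by exact_mod_cast hdeg) (by positivity)
  rw [mul_add] at h3
  constructor
  · intro Q hQ
    by_contra hneg
    push Not at hneg
    have := e₁ ⟨Q, hQ, hneg⟩
    omega
  · intro Q hQ
    by_contra hneg
    push Not at hneg
    have := e₂ ⟨Q, hQ, hneg⟩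
    omega

/-- the side of `Ft`: membership in `L(a (x)_∞ + b (x)_0)` -/
private theorem pl2_mem_L (hFt : IsFF k Ft) [IsAlgClosed k] {x y : Ft} (hxb0 : x ≠ 0) (a b : ℕ)
    (k1 : ∀ Q : Place k Ft, 0 ≤ Q.ord x → 0 ≤ Q.ord (y * x ^ b))
    (k2 : ∀ Q : Place k Ft, 0 ≤ Q.ord x⁻¹ → 0 ≤ Q.ord (y * x ^ b * x⁻¹ ^ (a + b))) :
    y ∈ riemannRochSpace (a • poleDiv k x + b • zeroDiv k x) := by
  rw [mem_L_iff]
  intro Q
  by_cases hyb : y = 0
  · exact Or.inl hyb
  right
  have k1 := k1 Q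
  have k2 := k2 Q
  rw [Q.ord_mul hyb (pow_ne_zero _ hxb0), pl_ord_pow] at k1
  rw [Q.ord_mul (mul_ne_zero hyb (pow_ne_zero _ hxb0)) (pow_ne_zero _ (inv_ne_zero hxb0)),
    Q.ord_mul hyb (pow_ne_zero _ hxb0), pl_ord_pow, pl_ord_pow, Q.ord_inv] at k2
  rw [pl_div_apply hFt]
  rcases le_or_gt 0 (Q.ord x) with h | h
  · have := k1 h
    rw [max_eq_right (a := -Q.ord x) (by omega), max_eq_left h]
    omega
  · have := k2 (by omega)
    rw [max_eq_left (a := -Q.ord x) (by omega),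
      max_eq_right (a := Q.ord x) (by omega)]
    push_cast at this
    nlinarith

theorem red_mem_L_pole_zero2 (hF : IsFF K F) (hFt : IsFF k Ft) [IsAlgClosed K] [IsAlgClosed k]
    (R : RedG A resK F (Ft × Ft)) (x : R.O) (hx₁ : Transcendental k (R.red x).1)
    (hx₂ : Transcendental k (R.red x).2)
    (hdeg : Module.finrank K⟮((x : R.O) : F)⟯ F ≤
      Module.finrank k⟮(R.red x).1⟯ Ft + Module.finrank k⟮(R.red x).2⟯ Ft)
    (a b : ℕ) (y : R.O)
    (hy : ((y : R.O) : F) ∈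
      riemannRochSpace (a • poleDiv K ((x : R.O) : F) + b • zeroDiv K ((x : R.O) : F))) :
    (R.red y).1 ∈ riemannRochSpace (a • poleDiv k (R.red x).1 + b • zeroDiv k (R.red x).1) ∧
    (R.red y).2 ∈ riemannRochSpace (a • poleDiv k (R.red x).2 + b • zeroDiv k (R.red x).2) := by
  classical
  have hxb₁ : (R.red x).1 ≠ 0 := fun h => hx₁ (h ▸ isAlgebraic_zero)
  have hxb₂ : (R.red x).2 ≠ 0 := fun h => hx₂ (h ▸ isAlgebraic_zero)
  have hunit : IsUnit (R.red x) := by
    rw [Prod.isUnit_iff]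
    exact ⟨isUnit_iff_ne_zero.2 hxb₁, isUnit_iff_ne_zero.2 hxb₂⟩
  obtain ⟨ux, hux⟩ := R.isUnit_of_red x hunit
  set xi : R.O := ((ux⁻¹ : R.Oˣ) : R.O) with hxi_def
  have hxi : x * xi = 1 := by rw [← hux, hxi_def]; simp
  have hxiF : ((xi : R.O) : F) = ((x : R.O) : F)⁻¹ :=
    eq_inv_of_mul_eq_one_right (congrArg Subtype.val hxi)
  have hredmul : R.red x * R.red xi = 1 := by rw [← map_mul, hxi, map_one]
  have hxib₁ : (R.red xi).1 = (R.red x).1⁻¹ :=
    eq_inv_of_mul_eq_one_right (congrArg Prod.fst hredmul)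
  have hxib₂ : (R.red xi).2 = (R.red x).2⁻¹ :=
    eq_inv_of_mul_eq_one_right (congrArg Prod.snd hredmul)
  by_cases hy0 : ((y : R.O) : F) = 0
  · have : y = 0 := Subtype.ext hy0
    rw [this, map_zero]
    exact ⟨Submodule.zero_mem _, Submodule.zero_mem _⟩
  rw [mem_L_iff] at hy
  have hx0 : ((x : R.O) : F) ≠ 0 := by
    intro h
    apply hxb₁
    have : x = 0 := Subtype.ext h
    rw [this, map_zero]
    rfl
  have hyv : ∀ v : Place K F, -((a : ℤ) * max (-v.ord ((x : R.O) : F)) 0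
      + b * max (v.ord ((x : R.O) : F)) 0) ≤ v.ord ((y : R.O) : F) := by
    intro v
    rcases hy v with h | h
    · exact absurd h hy0
    · rwa [pl_div_apply hF] at h
  set y' : R.O := y * x ^ b with hy'
  set y'' : R.O := y' * xi ^ (a + b) with hy''
  have hy'F : ((y' : R.O) : F) = ((y : R.O) : F) * ((x : R.O) : F) ^ b := rfl
  have hy''F : ((y'' : R.O) : F)
      = ((y : R.O) : F) * ((x : R.O) : F) ^ b * (((x : R.O) : F)⁻¹) ^ (a + b) := by
    rw [← hxiF]; rfl
  have h1 : ∀ v : Place K F, 0 ≤ v.ord ((x : R.O) : F) → 0 ≤ v.ord ((y' : R.O) : F) := by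
    intro v hv
    rw [hy'F, v.ord_mul hy0 (pow_ne_zero _ hx0), pl_ord_pow]
    have := hyv v
    rw [max_eq_right (a := -v.ord ((x : R.O) : F)) (by omega), max_eq_left hv] at this
    omega
  have h2 : ∀ v : Place K F, 0 ≤ v.ord ((xi : R.O) : F) → 0 ≤ v.ord ((y'' : R.O) : F) := by
    intro v hv
    rw [hxiF, v.ord_inv] at hv
    rw [hy''F, v.ord_mul (mul_ne_zero hy0 (pow_ne_zero _ hx0)) (pow_ne_zero _ (inv_ne_zero hx0)),
      v.ord_mul hy0 (pow_ne_zero _ hx0), pl_ord_pow, pl_ord_pow, v.ord_inv]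
    have := hyv v
    rw [max_eq_left (a := -v.ord ((x : R.O) : F)) (by omega),
      max_eq_right (a := v.ord ((x : R.O) : F)) (by omega)] at this
    push_cast
    nlinarith
  have hxit₁ : Transcendental k (R.red xi).1 := by rw [hxib₁]; exact dg_transcendental_inv hx₁
  have hxit₂ : Transcendental k (R.red xi).2 := by rw [hxib₂]; exact dg_transcendental_inv hx₂
  have hdeg' : Module.finrank K⟮((xi : R.O) : F)⟯ F ≤
      Module.finrank k⟮(R.red xi).1⟯ Ft + Module.finrank k⟮(R.red xi).2⟯ Ft := by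
    rw [hxiF, hxib₁, hxib₂, dg_finrank_inv, dg_finrank_inv, dg_finrank_inv]; exact hdeg
  obtain ⟨k1₁, k1₂⟩ := pl2_red_ord_nonneg hF hFt R x hx₁ hx₂ hdeg y' h1
  obtain ⟨k2₁, k2₂⟩ := pl2_red_ord_nonneg hF hFt R xi hxit₁ hxit₂ hdeg' y'' h2
  have e1₁ : (R.red y').1 = (R.red y).1 * (R.red x).1 ^ b := by
    rw [hy', map_mul, map_pow]; rfl
  have e1₂ : (R.red y').2 = (R.red y).2 * (R.red x).2 ^ b := by
    rw [hy', map_mul, map_pow]; rfl
  have e2₁ : (R.red y'').1 = (R.red y).1 * (R.red x).1 ^ b * (R.red x).1⁻¹ ^ (a + b) := by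
    rw [hy'', map_mul, map_pow, ← hxib₁, ← e1₁]; rfl
  have e2₂ : (R.red y'').2 = (R.red y).2 * (R.red x).2 ^ b * (R.red x).2⁻¹ ^ (a + b) := by
    rw [hy'', map_mul, map_pow, ← hxib₂, ← e1₂]; rfl
  rw [e1₁] at k1₁
  rw [e1₂] at k1₂
  rw [e2₁, hxib₁] at k2₁
  rw [e2₂, hxib₂] at k2₂
  exact ⟨pl2_mem_L hFt hxb₁ a b k1₁ k2₁, pl2_mem_L hFt hxb₂ a b k1₂ k2₂⟩

theorem redSp_le_Lt (hF : IsFF K F) (hFt : IsFF k Ft) [IsAlgClosed K] [IsAlgClosed k]
    (hres : Function.Surjective resK)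
    (R : RedG A resK F (Ft × Ft)) (x : R.O) (hx₁ : Transcendental k (R.red x).1)
    (hx₂ : Transcendental k (R.red x).2)
    (hdeg : Module.finrank K⟮((x : R.O) : F)⟯ F ≤
      Module.finrank k⟮(R.red x).1⟯ Ft + Module.finrank k⟮(R.red x).2⟯ Ft) (n : ℕ) :
    redSp R hres (riemannRochSpace (n • poleDiv K ((x : R.O) : F))) ≤
      Lt k (R.red x).1 (R.red x).2 n := by
  rintro φ ⟨y, hy, rfl⟩
  have h1 := red_mem_L_pole_zero2 hF hFt R x hx₁ hx₂ hdeg n 0 y (by simpa using hy)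
  simp only [zero_smul, add_zero] at h1
  exact Submodule.mem_prod.2 h1

end PL2

end Fermat.Agent.S34Lib
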