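import Fermat.Agent.S34.ModDefs
import Fermat.Agent.S34.Frob
import Fermat.Agent.S34.RedG2Cor
import Fermat.Agent.S34.PoleLemma2
import Fermat.Agent.S34.Pullback
import Fermat.Agent.S34.Degrees
import Fermat.Agent.S18.RiemannLower
import Fermat.Agent.S18.RiemannUpper

/-!
# S34 package, MODULAR part, leaves (XO) + (VB): `x = j j_q` in `R.O`; `V_q` multiplies pole
orders by `q`
-/

set_option autoImplicit false
set_option synthInstance.maxHeartbeats 400000

open AlgebraicCurve IntermediateField Polynomial ModularCurve CongruenceSubgroup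
  Fermat.Agent.S24Lib Fermat.Agent.FFLib Fermat.Agent.S18Lib Fermat.Agent.S28Lib
  Fermat.Agent.ESLib

namespace Fermat.Agent.S34Lib

noncomputable section

variable (M q : ℕ) [NeZero M] [NeZero q] [hqF : Fact q.Prime] (hqM : ¬ q ∣ M)
variable (A : ValuationSubring Qb) (hA : A.LiesOverPrime q)

variable {M q hqM A}
variable {R : RedG A (IsLocalRing.residue A) (FB (q * M)) (FT A M × FT A M)}

/-- `x = j j_q` as an element of `R.O` -/
theorem exists_xO (hR : IsQRed2 M q hqM A R) (hA : A.LiesOverPrime q) :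
    ∃ x : R.O, ((x : R.O) : FB (q * M)) = jN M q * jQ M q ∧
      R.red x = (jT A M ^ (q + 1), jT A M ^ (q + 1)) := by
  obtain ⟨h1, hr1⟩ := jN_mem hR hA
  obtain ⟨h2, hr2⟩ := jQ_mem hR hA
  refine ⟨(⟨jN M q, h1⟩ : R.O) * (⟨jQ M q, h2⟩ : R.O), rfl, ?_⟩
  rw [map_mul, hr1, hr2, Prod.mk_mul_mk, ← pow_succ, ← pow_succ']

/-- (VB) `S34/VqBound.lean` : `V_q` multiplies pole orders by `q` (PL2 with `x' = j`) -/
theorem Vq_mem_L (hR : IsQRed2 M q hqM A R) (hA : A.LiesOverPrime q) (n : ℕ)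
    (z : OC M hqM A hA) (hz : (z : FB M) ∈ riemannRochSpace (n • poleDiv Qb (jBar M))) :
    Vq M q A hA (redC M hqM A hA z) ∈ riemannRochSpace ((q * n) • poleDiv (kk A) (jT A M)) := by
  have hk := isAlgClosed_kk A
  have hFt := isFF_FT A M
  have hF := isFF_bar (q * M)
  have hq0 : 0 < q := hqF.out.pos
  obtain ⟨h1, hr1⟩ := jN_mem hR hA
  obtain ⟨h2, hr2⟩ := pi1_mem hA hR z
  have ht := transcendental_jT A M
  have hx₁ : Transcendental (kk A) (R.red ⟨_, h1⟩).1 := by rw [hr1]; exact ht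
  have hx₂ : Transcendental (kk A) (R.red ⟨_, h1⟩).2 := by
    rw [hr1]; exact DG_transcendental_pow ht hq0
  have hdeg : Module.finrank Qb⟮(((⟨_, h1⟩ : R.O) : R.O) : FB (q * M))⟯ (FB (q * M)) ≤
      Module.finrank (kk A)⟮(R.red ⟨_, h1⟩).1⟯ (FT A M)
        + Module.finrank (kk A)⟮(R.red ⟨_, h1⟩).2⟯ (FT A M) := by
    rw [hr1]
    show Module.finrank Qb⟮jN M q⟯ (FB (q * M)) ≤
      Module.finrank (kk A)⟮jT A M⟯ (FT A M) + Module.finrank (kk A)⟮jT A M ^ q⟯ (FT A M)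
    rw [finrank_jN M q hqM, finrank_jT_pow M A q hq0]
    have := idx_le_finrank_FT M hqM A hA
    nlinarith
  have hy : (((⟨_, h2⟩ : R.O) : R.O) : FB (q * M)) ∈ riemannRochSpace
      (n • poleDiv Qb (((⟨_, h1⟩ : R.O) : R.O) : FB (q * M))
        + 0 • zeroDiv Qb (((⟨_, h1⟩ : R.O) : R.O) : FB (q * M))) := by
    rw [zero_smul, add_zero]
    exact pi1_mem_L M q n _ hz
  have h3 := (red_mem_L_pole_zero2 hF hFt R ⟨_, h1⟩ hx₁ hx₂ hdeg n 0 ⟨_, h2⟩ hy).2
  rw [hr1, hr2, zero_smul, add_zero] at h3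
  change Vq M q A hA (redC M hqM A hA z) ∈ riemannRochSpace (n • poleDiv (kk A) (jT A M ^ q)) at h3
  rw [poleDiv_jT_pow M A q, smul_smul, mul_comm] at h3
  exact h3

end

end Fermat.Agent.S34Lib
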