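import Fermat.Agent.S34.ModDefs
import Fermat.Agent.S34.Frob
import Fermat.Agent.S34.RedG2Cor
import Fermat.Agent.S34.PolesJ
import Fermat.Agent.S34.Pullback
import Fermat.Agent.S34.Degrees
import Fermat.Agent.S34.GoodM
import Fermat.Agent.S34.VqBound
import Fermat.Agent.S18.RiemannLower
import Fermat.Agent.S18.RiemannUpper

/-!
# S34 package, MODULAR part, leaf (PR): both projections of `R̃` are onto
-/

set_option autoImplicit false
set_option synthInstance.maxHeartbeats 400000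

open AlgebraicCurve IntermediateField Polynomial ModularCurve CongruenceSubgroup
  Fermat.Agent.S24Lib Fermat.Agent.FFLib Fermat.Agent.S18Lib Fermat.Agent.S28Lib
  Fermat.Agent.ESLib

namespace Fermat.Agent.S34Lib

noncomputable section

variable (M q : ℕ) [NeZero M] [NeZero q] [hqF : Fact q.Prime] (hqM : ¬ q ∣ M)
variable (A : ValuationSubring Qb) (hA : A.LiesOverPrime q)

variable {M q hqM A}
variable {R : RedG A (IsLocalRing.residue A) (FB (q * M)) (FT A M × FT A M)}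

private theorem PR_smul_le {K F : Type*} [Field K] [IsAlgClosed K] [Field F] [Algebra K F]
    (h : IsFF K F) (x : F) {n m : ℕ} (hnm : n ≤ m) : n • poleDiv K x ≤ m • poleDiv K x := by
  intro v
  rw [Finsupp.smul_apply, Finsupp.smul_apply, poleDiv_apply h, nsmul_eq_mul, nsmul_eq_mul]
  exact mul_le_mul_of_nonneg_right (by exact_mod_cast hnm) (le_max_right _ _)

private theorem PR_red_x (hR : IsQRed2 M q hqM A R) (hA : A.LiesOverPrime q)
    (x : R.O) (hx : ((x : R.O) : FB (q * M)) = jN M q * jQ M q) :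
    R.red x = (jT A M ^ (q + 1), jT A M ^ (q + 1)) := by
  obtain ⟨x', hx', hr⟩ := exists_xO hR hA
  have : x = x' := Subtype.ext (hx.trans hx'.symm)
  rw [this, hr]

/-- lifting an element of `L(n (x̄)_∞)` to level `M` -/
private theorem PR_lift (hbase : 2 ∣ M ∨ 3 ∣ M) (hA : A.LiesOverPrime q) (n : ℕ) (a : FT A M)
    (ha : a ∈ riemannRochSpace (n • poleDiv (kk A) (jT A M ^ (q + 1)))) :
    ∃ (m : ℕ) (z : OC M hqM A hA), (z : FB M) ∈ riemannRochSpace (m • poleDiv Qb (jBar M)) ∧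
      redC M hqM A hA z = a := by
  have hk := isAlgClosed_kk A
  have hFt := isFF_FT A M
  obtain ⟨n₀, hn₀⟩ := exists_lift_L M q hqM hbase A hA
  rw [poleDiv_jT_pow M A (q + 1), smul_smul] at ha
  have ha' : a ∈ riemannRochSpace (max (n * (q + 1)) n₀ • poleDiv (kk A) (jT A M)) :=
    L_mono (PR_smul_le hFt _ (le_max_left _ _)) ha
  obtain ⟨z, hz, hza⟩ := hn₀ _ (le_max_right _ _) a ha'
  exact ⟨_, z, hz, hza⟩

include hqM in
private theorem PR_le₁ (m : ℕ) :
    m • poleDiv Qb (jN M q) ≤ m • poleDiv Qb (jN M q * jQ M q) := by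
  have hF := isFF_bar (q * M)
  rw [poleDiv_mul M q hqM]
  intro v
  rw [Finsupp.smul_apply, Finsupp.smul_apply, Finsupp.add_apply, poleDiv_apply hF,
    poleDiv_apply hF, nsmul_eq_mul, nsmul_eq_mul]
  apply mul_le_mul_of_nonneg_left _ (by positivity)
  have := le_max_right (-v.ord (jQ M q)) 0
  omega

include hqM in
private theorem PR_le₂ (m : ℕ) :
    m • poleDiv Qb (jQ M q) ≤ m • poleDiv Qb (jN M q * jQ M q) := by
  have hF := isFF_bar (q * M)
  rw [poleDiv_mul M q hqM]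
  intro v
  rw [Finsupp.smul_apply, Finsupp.smul_apply, Finsupp.add_apply, poleDiv_apply hF,
    poleDiv_apply hF, nsmul_eq_mul, nsmul_eq_mul]
  apply mul_le_mul_of_nonneg_left _ (by positivity)
  have := le_max_right (-v.ord (jN M q)) 0
  omega

/-- (PR) `S34/Proj.lean` -/
theorem hpr₁_mod (hbase : 2 ∣ M ∨ 3 ∣ M) (hR : IsQRed2 M q hqM A R) (hA : A.LiesOverPrime q)
    (x : R.O) (hx : ((x : R.O) : FB (q * M)) = jN M q * jQ M q) (n : ℕ) (a : FT A M)
    (ha : a ∈ riemannRochSpace (n • poleDiv (kk A) (R.red x).1)) :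
    ∃ (b : FT A M) (m : ℕ), (a, b) ∈ redSp R IsLocalRing.residue_surjective
      (riemannRochSpace (m • poleDiv Qb ((x : R.O) : FB (q * M)))) := by
  rw [PR_red_x hR hA x hx] at ha
  obtain ⟨m, z, hz, hza⟩ := PR_lift (hqM := hqM) hbase hA n a ha
  obtain ⟨h1, hr1⟩ := pi1_mem hA hR z
  refine ⟨Vq M q A hA a, m, ⟨_, h1⟩, ?_, by rw [hr1, hza]⟩
  rw [hx]
  exact L_mono (PR_le₁ (hqM := hqM) m) (pi1_mem_L M q m _ hz)

theorem hpr₂_mod (hbase : 2 ∣ M ∨ 3 ∣ M) (hR : IsQRed2 M q hqM A R) (hA : A.LiesOverPrime q)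
    (x : R.O) (hx : ((x : R.O) : FB (q * M)) = jN M q * jQ M q) (n : ℕ) (b : FT A M)
    (hb : b ∈ riemannRochSpace (n • poleDiv (kk A) (R.red x).2)) :
    ∃ (a : FT A M) (m : ℕ), (a, b) ∈ redSp R IsLocalRing.residue_surjective
      (riemannRochSpace (m • poleDiv Qb ((x : R.O) : FB (q * M)))) := by
  rw [PR_red_x hR hA x hx] at hb
  obtain ⟨m, z, hz, hzb⟩ := PR_lift (hqM := hqM) hbase hA n b hb
  obtain ⟨h1, hr1⟩ := pi2_mem hA hR z
  refine ⟨Vq M q A hA b, m, ⟨_, h1⟩, ?_, by rw [hr1, hzb]⟩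
  rw [hx]
  exact L_mono (PR_le₂ (hqM := hqM) m) (wq_mem_L M q hqM m _ (pi1_mem_L M q m _ hz))

end

end Fermat.Agent.S34Lib
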