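import Fermat.Agent.S34.Defs

/-!
# S34 package, ABSTRACT part, leaf (CN1): Newton iteration for idempotents
-/

set_option autoImplicit false

open AlgebraicCurve IntermediateField Polynomial Fermat.Agent.S24Lib Fermat.Agent.FFLib
  Fermat.Agent.S18Lib

namespace Fermat.Agent.S34Lib

section CN

variable {K k F Ft : Type*} [Field K] [Field k] [Field F] [Algebra K F] [Field Ft] [Algebra k Ft]
  {A : ValuationSubring K} {resK : A →+* k}

theorem CN1_const_mul {Φ : Type*} [CommRing Φ] [Algebra k Φ] (R : RedG A resK F Φ) (a b : A) :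
    R.const (a * b) = R.const a * R.const b := by
  apply Subtype.ext
  show algebraMap K F ((a : K) * (b : K)) = algebraMap K F a * algebraMap K F b
  rw [map_mul]

theorem CN1_const_pow {Φ : Type*} [CommRing Φ] [Algebra k Φ] (R : RedG A resK F Φ) (a : A)
    (n : ℕ) : R.const (a ^ n) = R.const a ^ n := by
  apply Subtype.ext
  show algebraMap K F ((a : K) ^ n) = (algebraMap K F a) ^ n
  rw [map_pow]

/-- (CN1) Newton iteration for idempotents -/
theorem exists_idem_approx (hres : Function.Surjective resK) {Φ : Type*} [CommRing Φ] [Algebra k Φ]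
    (R : RedG A resK F Φ) (B : Subring F) (e : R.O) (heB : ((e : R.O) : F) ∈ B)
    (π : A) (h : R.O) (he : e * e - e = R.const π * h) (m : ℕ) :
    ∃ (e' h' : R.O), ((e' : R.O) : F) ∈ B ∧ (resK π = 0 → R.red e' = R.red e) ∧
      e' * e' - e' = R.const (π ^ m) * h' := by
  rcases Nat.eq_zero_or_pos m with rfl | hm
  · refine ⟨e, e * e - e, heB, fun _ => rfl, ?_⟩
    rw [CN1_const_pow, pow_zero, one_mul]
  obtain ⟨m, rfl⟩ : ∃ m', m = m' + 1 := ⟨m - 1, by omega⟩
  induction m with
  | zero => exact ⟨e, h, heB, fun _ => rfl, by rw [zero_add, pow_one]; exact he⟩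
  | succ m ih =>
      obtain ⟨e', h', he'B, hred, he'⟩ := ih (by omega)
      set t : R.O := e' * e' - e' with ht
      refine ⟨e' - (e' + e' - 1) * t, R.const (π ^ m) * (h' * h' * (4 * t - 3)), ?_, ?_, ?_⟩
      · have h1 : (((e' - (e' + e' - 1) * t : R.O)) : F) =
            (e' : F) - ((e' : F) + (e' : F) - 1) * ((e' : F) * (e' : F) - (e' : F)) := rfl
        rw [h1]
        exact B.sub_mem he'B (B.mul_mem (B.sub_mem (B.add_mem he'B he'B) B.one_mem)
          (B.sub_mem (B.mul_mem he'B he'B) he'B))
      · intro hπ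
        rw [map_sub, map_mul, he', map_mul, R.red_const, map_pow, hπ, zero_pow (by omega),
          map_zero, zero_mul, mul_zero, sub_zero]
        exact hred hπ
      · have key : (e' - (e' + e' - 1) * t) * (e' - (e' + e' - 1) * t) - (e' - (e' + e' - 1) * t)
            = t * t * (4 * t - 3) := by
          rw [ht]; ring
        rw [key, he', CN1_const_pow, CN1_const_pow, CN1_const_pow]
        ring

end CN

end Fermat.Agent.S34Lib
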