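import Fermat.Agent.S34.Defs
import Fermat.Agent.S34.RedSp
import Fermat.Agent.S34.MulX
import Fermat.Agent.S34.GluedDim

/-!
# S34 package, (CN2): the torsion of `H¹` is bounded
-/

set_option autoImplicit false

open AlgebraicCurve IntermediateField Polynomial Fermat.Agent.S24Lib Fermat.Agent.FFLib
  Fermat.Agent.S18Lib

namespace Fermat.Agent.S34Lib

section CN2

variable {K k F Ft : Type*} [Field K] [Field k] [Field F] [Algebra K F] [Field Ft] [Algebra k Ft]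
  {A : ValuationSubring K} {resK : A →+* k}

/-- `L(a (x₁)_∞ + b (x₁)_0) × L(a (x₂)_∞ + b (x₂)_0)` -/
noncomputable def CN2_Mt (k : Type*) {Ft : Type*} [Field k] [Field Ft] [Algebra k Ft] (x₁ x₂ : Ft)
    (a b : ℕ) : Submodule k (Ft × Ft) :=
  (riemannRochSpace (maE k x₁ a b)).prod (riemannRochSpace (maE k x₂ a b))

theorem CN2_isUnit_red {φ : Ft × Ft} (h₁ : Transcendental k φ.1) (h₂ : Transcendental k φ.2) :
    IsUnit φ := by
  have e₁ : φ.1 ≠ 0 := by
    intro h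
    rw [h] at h₁
    exact h₁ isAlgebraic_zero
  have e₂ : φ.2 ≠ 0 := by
    intro h
    rw [h] at h₂
    exact h₂ isAlgebraic_zero
  exact Prod.isUnit_iff.mpr ⟨isUnit_iff_ne_zero.mpr e₁, isUnit_iff_ne_zero.mpr e₂⟩

theorem CN2_redSp_maE (hF : IsFF K F) (hFt : IsFF k Ft) [IsAlgClosed K] [IsAlgClosed k]
    (hres : Function.Surjective resK)
    (R : RedG A resK F (Ft × Ft)) (x : R.O) (hx₁ : Transcendental k (R.red x).1)
    (hx₂ : Transcendental k (R.red x).2) (n₁ : ℕ)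
    (hfull : ∀ n, n₁ ≤ n → redSp R hres (riemannRochSpace (n • poleDiv K ((x : R.O) : F))) =
      Lt k (R.red x).1 (R.red x).2 n) (a b : ℕ) (hab : n₁ ≤ a + b) :
    redSp R hres (riemannRochSpace (maE K ((x : R.O) : F) a b)) =
      CN2_Mt k (R.red x).1 (R.red x).2 a b := by
  have e₁ : (R.red x).1 ≠ 0 := by
    intro h
    rw [h] at hx₁
    exact hx₁ isAlgebraic_zero
  have e₂ : (R.red x).2 ≠ 0 := by
    intro h
    rw [h] at hx₂
    exact hx₂ isAlgebraic_zero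
  ext φ
  have h1 := mem_redSp_maE_iff hF hres R x (CN2_isUnit_red hx₁ hx₂) a b 0 φ
  rw [add_zero, add_zero, hfull _ hab] at h1
  rw [h1]
  have h2 := mem_L_maE_iff hFt e₁ a b 0 φ.1
  have h3 := mem_L_maE_iff hFt e₂ a b 0 φ.2
  rw [add_zero, add_zero] at h2 h3
  unfold CN2_Mt Lt
  rw [Submodule.mem_prod, Submodule.mem_prod, h2, h3]
  rfl

theorem CN2_inf_eq [IsAlgClosed K] (hF : IsFF K F) (x : F) (a b : ℕ) :
    riemannRochSpace (maE K x a 0) ⊓ riemannRochSpace (maE K x 0 b) =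
      riemannRochSpace (0 : Divisor K F) := by
  apply le_antisymm
  · intro f hf
    rw [mem_L_zero_iff hF]
    exact ma_inf_le hF x a b hf.1 hf.2
  · exact le_inf (L_mono (fun v => maE_nonneg hF x a 0 v)) (L_mono (fun v => maE_nonneg hF x 0 b v))

theorem CN2_finrank_inf [IsAlgClosed K] (hF : IsFF K F) (x : F) (a b : ℕ) :
    Module.finrank K ↥(riemannRochSpace (maE K x a 0) ⊓ riemannRochSpace (maE K x 0 b)) = 1 := by
  rw [CN2_inf_eq hF]
  exact ell_zero hF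

theorem CN2_finrank_Mt_inf [IsAlgClosed k] (hFt : IsFF k Ft) (x₁ x₂ : Ft) (a b : ℕ) :
    Module.finrank k ↥(CN2_Mt k x₁ x₂ a 0 ⊓ CN2_Mt k x₁ x₂ 0 b) = 2 := by
  unfold CN2_Mt
  rw [Submodule.prod_inf_prod, CN2_inf_eq hFt, CN2_inf_eq hFt]
  have := ls_finiteDimensional_zero hFt
  rw [(T1b_prodEquiv _ _).finrank_eq, Module.finrank_prod]
  have h := ell_zero hFt
  unfold FFLib.ell at h
  rw [h]

theorem CN2_finiteDimensional_Mt [IsAlgClosed k] (hFt : IsFF k Ft) (x₁ x₂ : Ft) (a b : ℕ) :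
    FiniteDimensional k (CN2_Mt k x₁ x₂ a b) := by
  have h1 := finiteDimensional_L hFt (maE k x₁ a b)
  have h2 := finiteDimensional_L hFt (maE k x₂ a b)
  unfold CN2_Mt
  exact Module.Finite.equiv (T1b_prodEquiv _ _).symm

/-- linear algebra: codimension one -/
theorem CN2_exists_smul {V : Type*} [AddCommGroup V] [Module k V] (P Q : Submodule k V)
    [FiniteDimensional k Q] (hPQ : P ≤ Q) (hdim : Module.finrank k Q = Module.finrank k P + 1)
    {ω : V} (hωQ : ω ∈ Q) (hωP : ω ∉ P) {φ : V} (hφ : φ ∈ Q) :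
    ∃ c : k, φ - c • ω ∈ P := by
  have hle : P ⊔ k ∙ ω ≤ Q := sup_le hPQ ((Submodule.span_singleton_le_iff_mem _ _).mpr hωQ)
  have hfd : FiniteDimensional k ↥(P ⊔ k ∙ ω) := Submodule.finiteDimensional_of_le hle
  have hlt : P < P ⊔ k ∙ ω := by
    apply lt_of_le_of_ne le_sup_left
    intro h
    apply hωP
    rw [h]
    exact Submodule.mem_sup_right (Submodule.mem_span_singleton_self ω)
  have h1 := Submodule.finrank_lt_finrank_of_lt hlt
  have heq : P ⊔ k ∙ ω = Q := Submodule.eq_of_le_of_finrank_le hle (by omega)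
  rw [← heq] at hφ
  obtain ⟨y, hy, z, hz, rfl⟩ := Submodule.mem_sup.mp hφ
  obtain ⟨c, rfl⟩ := Submodule.mem_span_singleton.mp hz
  exact ⟨c, by simpa using hy⟩

/-- the dimension count -/
theorem CN2_dim (hF : IsFF K F) (hFt : IsFF k Ft) [IsAlgClosed K] [IsAlgClosed k]
    (hres : Function.Surjective resK)
    (R : RedG A resK F (Ft × Ft)) (x : R.O) (hx₁ : Transcendental k (R.red x).1)
    (hx₂ : Transcendental k (R.red x).2) (n₁ : ℕ)
    (hfull : ∀ n, n₁ ≤ n → redSp R hres (riemannRochSpace (n • poleDiv K ((x : R.O) : F))) =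
      Lt k (R.red x).1 (R.red x).2 n) (a : ℕ) (ha : n₁ ≤ a) :
    Module.finrank k (redSp R hres (riemannRochSpace (maE K ((x : R.O) : F) a 0) ⊔
        riemannRochSpace (maE K ((x : R.O) : F) 0 a))) =
      Module.finrank k ↥(CN2_Mt k (R.red x).1 (R.red x).2 a 0 ⊔
        CN2_Mt k (R.red x).1 (R.red x).2 0 a) + 1 := by
  have f1 := finiteDimensional_L hF (maE K ((x : R.O) : F) a 0)
  have f2 := finiteDimensional_L hF (maE K ((x : R.O) : F) 0 a)
  have g1 := CN2_finiteDimensional_Mt hFt (R.red x).1 (R.red x).2 a 0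
  have g2 := CN2_finiteDimensional_Mt hFt (R.red x).1 (R.red x).2 0 a
  have e1 := CN2_redSp_maE hF hFt hres R x hx₁ hx₂ n₁ hfull a 0 (by omega)
  have e2 := CN2_redSp_maE hF hFt hres R x hx₁ hx₂ n₁ hfull 0 a (by omega)
  have d1 := finrank_redSp R hres (riemannRochSpace (maE K ((x : R.O) : F) a 0))
  have d2 := finrank_redSp R hres (riemannRochSpace (maE K ((x : R.O) : F) 0 a))
  rw [e1] at d1
  rw [e2] at d2
  rw [finrank_redSp R hres]
  have s1 := Submodule.finrank_sup_add_finrank_inf_eq (riemannRochSpace (maE K ((x : R.O) : F) a 0))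
    (riemannRochSpace (maE K ((x : R.O) : F) 0 a))
  have s2 := Submodule.finrank_sup_add_finrank_inf_eq (CN2_Mt k (R.red x).1 (R.red x).2 a 0)
    (CN2_Mt k (R.red x).1 (R.red x).2 0 a)
  rw [CN2_finrank_inf hF] at s1
  rw [CN2_finrank_Mt_inf hFt] at s2
  omega

theorem CN2_clear {Φ : Type*} [CommRing Φ] [Algebra k Φ] (R : RedG A resK F Φ) (t : F) :
    ∃ π : A, π ≠ 0 ∧ algebraMap K F (π : K) * t ∈ R.O := by
  by_cases ht : t = 0
  · exact ⟨1, one_ne_zero, by rw [ht, mul_zero]; exact R.O.zero_mem⟩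
  obtain ⟨c, hc, y, -, hy⟩ := R.exists_scale t ht
  rcases A.mem_or_inv_mem c with h | h
  · refine ⟨1, one_ne_zero, ?_⟩
    rw [hy]
    simp only [OneMemClass.coe_one, map_one, one_mul]
    exact R.O.mul_mem ((R.algebraMap_mem_iff c).mpr h) y.2
  · refine ⟨⟨c⁻¹, h⟩, ?_, ?_⟩
    · intro h0
      have := congrArg Subtype.val h0
      simp only [ZeroMemClass.coe_zero, inv_eq_zero] at this
      exact hc this
    · rw [hy, ← mul_assoc, ← map_mul]
      simp only [inv_mul_cancel₀ hc, map_one, one_mul]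
      exact y.2

theorem CN2_maE_mono [IsAlgClosed K] (hF : IsFF K F) (x : F) {a a' b b' : ℕ} (ha : a ≤ a')
    (hb : b ≤ b') : maE K x a b ≤ maE K x a' b' := by
  intro v
  rw [maE_apply hF, maE_apply hF]
  have h1 : (a : ℤ) ≤ a' := by exact_mod_cast ha
  have h2 : (b : ℤ) ≤ b' := by exact_mod_cast hb
  have h3 : (0 : ℤ) ≤ max (-v.ord x) 0 := le_max_right _ _
  have h4 : (0 : ℤ) ≤ max (v.ord x) 0 := le_max_right _ _
  nlinarith [mul_le_mul_of_nonneg_right h1 h3, mul_le_mul_of_nonneg_right h2 h4]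

theorem CN2_const_add {Φ : Type*} [CommRing Φ] [Algebra k Φ] (R : RedG A resK F Φ) (a b : A) :
    R.const (a + b) = R.const a + R.const b := by
  apply Subtype.ext
  simp

theorem CN2_const_neg {Φ : Type*} [CommRing Φ] [Algebra k Φ] (R : RedG A resK F Φ) (a : A) :
    R.const (-a) = -R.const a := by
  apply Subtype.ext
  simp

theorem CN2_const_zero {Φ : Type*} [CommRing Φ] [Algebra k Φ] (R : RedG A resK F Φ) :
    R.const 0 = 0 := by
  apply Subtype.ext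
  simp

theorem CN2_const_mul {Φ : Type*} [CommRing Φ] [Algebra k Φ] (R : RedG A resK F Φ) (a b : A) :
    R.const (a * b) = R.const a * R.const b := by
  apply Subtype.ext
  simp

theorem CN2_const_mul_mem {Φ : Type*} [CommRing Φ] [Algebra k Φ] (R : RedG A resK F Φ)
    (U : Submodule K F) (a : A) {y : R.O} (hy : ((y : R.O) : F) ∈ U) :
    ((R.const a * y : R.O) : F) ∈ U := by
  have := U.smul_mem (a : K) hy
  rwa [Algebra.smul_def] at this

/-- (CN2) the torsion of `H¹` is bounded -/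
theorem exists_kill (hF : IsFF K F) (hFt : IsFF k Ft) [IsAlgClosed K] [IsAlgClosed k]
    (hres : Function.Surjective resK)
    (R : RedG A resK F (Ft × Ft)) (x : R.O) (hx₁ : Transcendental k (R.red x).1)
    (hx₂ : Transcendental k (R.red x).2) (n₁ : ℕ)
    (hfull : ∀ n, n₁ ≤ n → redSp R hres (riemannRochSpace (n • poleDiv K ((x : R.O) : F))) =
      Lt k (R.red x).1 (R.red x).2 n) :
    ∃ π₀ : A, π₀ ≠ 0 ∧ ∀ a, n₁ ≤ a → ∀ w : R.O,
      ((w : R.O) : F) ∈ riemannRochSpace (maE K ((x : R.O) : F) a 0) ⊔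
        riemannRochSpace (maE K ((x : R.O) : F) 0 a) →
      ∃ f₁ f₂ : R.O, ((f₁ : R.O) : F) ∈ riemannRochSpace (maE K ((x : R.O) : F) a 0) ∧
        ((f₂ : R.O) : F) ∈ riemannRochSpace (maE K ((x : R.O) : F) 0 a) ∧
        R.const π₀ * w = f₁ + f₂ := by
  classical
  set U1 : ℕ → Submodule K F := fun a => riemannRochSpace (maE K ((x : R.O) : F) a 0) with hU1
  set U2 : ℕ → Submodule K F := fun a => riemannRochSpace (maE K ((x : R.O) : F) 0 a) with hU2
  set M1 : ℕ → Submodule k (Ft × Ft) := fun a => CN2_Mt k (R.red x).1 (R.red x).2 a 0 with hM1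
  set M2 : ℕ → Submodule k (Ft × Ft) := fun a => CN2_Mt k (R.red x).1 (R.red x).2 0 a with hM2
  have hfd1 : ∀ a, FiniteDimensional K (U1 a) := fun a => finiteDimensional_L hF _
  have hfd2 : ∀ a, FiniteDimensional K (U2 a) := fun a => finiteDimensional_L hF _
  have hV1 : ∀ a, n₁ ≤ a → redSp R hres (U1 a) = M1 a := fun a ha =>
    CN2_redSp_maE hF hFt hres R x hx₁ hx₂ n₁ hfull a 0 (by omega)
  have hV2 : ∀ a, n₁ ≤ a → redSp R hres (U2 a) = M2 a := fun a ha =>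
    CN2_redSp_maE hF hFt hres R x hx₁ hx₂ n₁ hfull 0 a (by omega)
  have hle : ∀ a, n₁ ≤ a → M1 a ⊔ M2 a ≤ redSp R hres (U1 a ⊔ U2 a) := by
    intro a ha
    rw [← hV1 a ha, ← hV2 a ha]
    exact sup_le (redSp_mono hres le_sup_left) (redSp_mono hres le_sup_right)
  have hdim : ∀ a, n₁ ≤ a → Module.finrank k (redSp R hres (U1 a ⊔ U2 a)) =
      Module.finrank k ↥(M1 a ⊔ M2 a) + 1 := fun a ha =>
    CN2_dim hF hFt hres R x hx₁ hx₂ n₁ hfull a ha
  have hU1mono : ∀ {a b}, a ≤ b → U1 a ≤ U1 b := fun h =>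
    L_mono (CN2_maE_mono hF _ h le_rfl)
  have hU2mono : ∀ {a b}, a ≤ b → U2 a ≤ U2 b := fun h =>
    L_mono (CN2_maE_mono hF _ le_rfl h)
  obtain ⟨ω, hωQ, hωP⟩ : ∃ ω ∈ redSp R hres (U1 n₁ ⊔ U2 n₁), ω ∉ M1 n₁ ⊔ M2 n₁ := by
    by_contra hcon
    push Not at hcon
    have h1 : redSp R hres (U1 n₁ ⊔ U2 n₁) = M1 n₁ ⊔ M2 n₁ :=
      le_antisymm hcon (hle n₁ le_rfl)
    have h2 := hdim n₁ le_rfl
    rw [h1] at h2
    omega
  obtain ⟨w₀, hw₀U, rfl⟩ := hωQ
  obtain ⟨t1, ht1, t2, ht2, ht⟩ := Submodule.mem_sup.mp hw₀U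
  obtain ⟨π1, hπ1, h1⟩ := CN2_clear R t1
  obtain ⟨π2, hπ2, h2⟩ := CN2_clear R t2
  set G1 : R.O := R.const π2 * ⟨algebraMap K F (π1 : K) * t1, h1⟩ with hG1
  set G2 : R.O := R.const π1 * ⟨algebraMap K F (π2 : K) * t2, h2⟩ with hG2
  have hG1U : ((G1 : R.O) : F) ∈ U1 n₁ := by
    apply CN2_const_mul_mem
    have := (U1 n₁).smul_mem (π1 : K) ht1
    rwa [Algebra.smul_def] at this
  have hG2U : ((G2 : R.O) : F) ∈ U2 n₁ := by
    apply CN2_const_mul_mem
    have := (U2 n₁).smul_mem (π2 : K) ht2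
    rwa [Algebra.smul_def] at this
  have hG : R.const (π1 * π2) * w₀ = G1 + G2 := by
    apply Subtype.ext
    simp only [hG1, hG2, Subring.coe_add, RedG.coe_const, ← ht,
      MulMemClass.coe_mul, map_mul]
    ring
  refine ⟨π1 * π2, mul_ne_zero hπ1 hπ2, fun a ha w hw => ?_⟩
  -- persistence
  have hωa : R.red w₀ ∉ M1 a ⊔ M2 a := by
    intro hmem
    obtain ⟨y1, hy1, y2, hy2, hy⟩ := Submodule.mem_sup.mp hmem
    have hnn : R.red w₀ ∈ CN2_Mt k (R.red x).1 (R.red x).2 n₁ n₁ := by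
      rw [← CN2_redSp_maE hF hFt hres R x hx₁ hx₂ n₁ hfull n₁ n₁ (by omega)]
      refine red_mem_redSp hres ?_
      have hsup : U1 n₁ ⊔ U2 n₁ ≤ riemannRochSpace (maE K ((x : R.O) : F) n₁ n₁) :=
        sup_le (L_mono (CN2_maE_mono hF _ le_rfl (Nat.zero_le _)))
          (L_mono (CN2_maE_mono hF _ (Nat.zero_le _) le_rfl))
      exact hsup hw₀U
    rw [← hy] at hnn
    have hy1' := Submodule.mem_prod.mp hy1
    have hy2' := Submodule.mem_prod.mp hy2
    have hnn' := Submodule.mem_prod.mp hnn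
    obtain ⟨p1, p2⟩ := ma_split hFt (R.red x).1 n₁ a hy1'.1 hy2'.1 hnn'.1
    obtain ⟨q1, q2⟩ := ma_split hFt (R.red x).2 n₁ a hy1'.2 hy2'.2 hnn'.2
    apply hωP
    rw [← hy]
    exact Submodule.add_mem_sup (Submodule.mem_prod.mpr ⟨p1, q1⟩) (Submodule.mem_prod.mpr ⟨p2, q2⟩)
  let Λ : AddSubgroup R.O :=
    { carrier := {y | ∃ (f1 f2 : R.O) (c : A), ((f1 : R.O) : F) ∈ U1 a ∧ ((f2 : R.O) : F) ∈ U2 a ∧
        y = f1 + f2 + R.const c * w₀}
      zero_mem' := ⟨0, 0, 0, (U1 a).zero_mem, (U2 a).zero_mem, by rw [CN2_const_zero]; ring⟩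
      add_mem' := by
        rintro _ _ ⟨f1, f2, c, hf1, hf2, rfl⟩ ⟨g1, g2, d, hg1, hg2, rfl⟩
        exact ⟨f1 + g1, f2 + g2, c + d, (U1 a).add_mem hf1 hg1, (U2 a).add_mem hf2 hg2,
          by rw [CN2_const_add]; ring⟩
      neg_mem' := by
        rintro _ ⟨f1, f2, c, hf1, hf2, rfl⟩
        exact ⟨-f1, -f2, -c, (U1 a).neg_mem hf1, (U2 a).neg_mem hf2,
          by rw [CN2_const_neg]; ring⟩ }
  have hw₀a : ((w₀ : R.O) : F) ∈ U1 a ⊔ U2 a :=
    (sup_le_sup (hU1mono ha) (hU2mono ha)) hw₀U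
  have hfdQ : FiniteDimensional k (redSp R hres (U1 a ⊔ U2 a)) :=
    finiteDimensional_redSp R hres _
  have hmemΛ : w ∈ Λ := by
    refine mem_of_red_surj R hres (U1 a ⊔ U2 a) Λ ?_ ?_ ?_ w hw
    · rintro b _ ⟨f1, f2, c, hf1, hf2, rfl⟩
      exact ⟨R.const b * f1, R.const b * f2, b * c, CN2_const_mul_mem R _ b hf1,
        CN2_const_mul_mem R _ b hf2, by rw [CN2_const_mul]; ring⟩
    · rintro _ ⟨f1, f2, c, hf1, hf2, rfl⟩
      exact (U1 a ⊔ U2 a).add_mem (Submodule.add_mem_sup hf1 hf2)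
        (CN2_const_mul_mem R _ c hw₀a)
    · intro φ hφ
      obtain ⟨c, hc⟩ := CN2_exists_smul (M1 a ⊔ M2 a) (redSp R hres (U1 a ⊔ U2 a)) (hle a ha)
        (hdim a ha) (red_mem_redSp hres hw₀a) hωa hφ
      obtain ⟨y1, hy1, y2, hy2, hy⟩ := Submodule.mem_sup.mp hc
      rw [← hV1 a ha] at hy1
      rw [← hV2 a ha] at hy2
      obtain ⟨f1, hf1, rfl⟩ := hy1
      obtain ⟨f2, hf2, rfl⟩ := hy2
      obtain ⟨c', rfl⟩ := hres c
      refine ⟨f1 + f2 + R.const c' * w₀, ⟨f1, f2, c', hf1, hf2, rfl⟩, ?_⟩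
      rw [map_add, map_add, map_mul, R.red_const, hy, ← Algebra.smul_def]
      abel
  obtain ⟨f1, f2, c, hf1, hf2, rfl⟩ := hmemΛ
  refine ⟨R.const (π1 * π2) * f1 + R.const c * G1, R.const (π1 * π2) * f2 + R.const c * G2,
    ?_, ?_, ?_⟩
  · exact (U1 a).add_mem (CN2_const_mul_mem R _ _ hf1)
      (CN2_const_mul_mem R _ _ (hU1mono ha hG1U))
  · exact (U2 a).add_mem (CN2_const_mul_mem R _ _ hf2)
      (CN2_const_mul_mem R _ _ (hU2mono ha hG2U))
  · linear_combination (R.const c) * hG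

end CN2

end Fermat.Agent.S34Lib
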