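import Fermat.Agent.S34.Defs
import Fermat.Agent.S34.RedSp
import Fermat.Agent.S34.EvP
import Fermat.Agent.S34.FFSup
import Fermat.Agent.S34.MulX
import Fermat.Agent.S34.DegLe2
import Fermat.Agent.S34.Connected1
import Fermat.Agent.S34.Connected2

/-!
# S34 package, ABSTRACT part, leaf (CN3): the special fibre is connected
-/

set_option autoImplicit false

open AlgebraicCurve IntermediateField Polynomial Fermat.Agent.S24Lib Fermat.Agent.FFLib
  Fermat.Agent.S18Lib

namespace Fermat.Agent.S34Lib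

section CN

variable {K k F Ft : Type*} [Field K] [Field k] [Field F] [Algebra K F] [Field Ft] [Algebra k Ft]
  {A : ValuationSubring K} {resK : A →+* k}

/-- the ring of functions regular at the places where `x` is regular -/
def CN3_reg (K : Type*) {F : Type*} [Field K] [Field F] [Algebra K F] (x : F) : Subring F where
  carrier := {f | ∀ P : Place K F, 0 ≤ P.ord x → D2_ge P 0 f}
  mul_mem' := by
    intro a b ha hb P hP
    simpa using D2.ge_mul P (ha P hP) (hb P hP)
  one_mem' := fun P _ => Or.inr (by rw [P.ord_one])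
  add_mem' := fun ha hb P hP => D2.ge_add P (ha P hP) (hb P hP)
  zero_mem' := fun P _ => D2.ge_zero P 0
  neg_mem' := fun ha P hP => D2.ge_neg P (ha P hP)

theorem CN3_maE_left (x : F) (n : ℕ) : maE K x n 0 = n • poleDiv K x := by
  simp [maE]

theorem CN3_maE_right [IsAlgClosed K] (hF : IsFF K F) (x : F) (n : ℕ) :
    maE K x 0 n = n • poleDiv K x⁻¹ := by
  rw [maE, zero_smul, zero_add, dg_zeroDiv_eq hF]

theorem CN3_mono_left [IsAlgClosed K] (hF : IsFF K F) (x : F) {a b : ℕ} (h : a ≤ b) :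
    riemannRochSpace (maE K x a 0) ≤ riemannRochSpace (maE K x b 0) := by
  apply L_mono
  intro v
  rw [maE_apply hF, maE_apply hF]
  have h1 : (a : ℤ) ≤ b := by exact_mod_cast h
  have h2 : (0 : ℤ) ≤ max (-v.ord x) 0 := le_max_right _ _
  nlinarith

theorem CN3_mono_right [IsAlgClosed K] (hF : IsFF K F) (x : F) {a b : ℕ} (h : a ≤ b) :
    riemannRochSpace (maE K x 0 a) ≤ riemannRochSpace (maE K x 0 b) := by
  apply L_mono
  intro v
  rw [maE_apply hF, maE_apply hF]
  have h1 : (a : ℤ) ≤ b := by exact_mod_cast h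
  have h2 : (0 : ℤ) ≤ max (v.ord x) 0 := le_max_right _ _
  nlinarith

theorem CN3_pow_mem [IsAlgClosed k] (h : IsFF k Ft) (x : Ft) (n : ℕ) :
    x ^ n ∈ riemannRochSpace (n • poleDiv k x) := by
  rw [mem_L_iff]
  intro v
  by_cases hx : x = 0
  · rcases Nat.eq_zero_or_pos n with rfl | hn
    · right
      simp
    · left
      rw [hx, zero_pow hn.ne']
  right
  rw [Finsupp.smul_apply, poleDiv_apply h, ma_ord_pow, nsmul_eq_mul]
  have h2 : -v.ord x ≤ max (-v.ord x) 0 := le_max_left _ _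
  have h1 : (0 : ℤ) ≤ n := by positivity
  nlinarith

/-- the final contradiction: a function in both charts reducing to `(1, 0)` -/
theorem CN3_false [IsAlgClosed K] (hF : IsFF K F) (R : RedG A resK F (Ft × Ft)) (x : F)
    (a : ℕ) (κ : R.O) (h1 : ((κ : R.O) : F) ∈ riemannRochSpace (maE K x a 0))
    (h2 : ((κ : R.O) : F) ∈ riemannRochSpace (maE K x 0 a)) (hκ : R.red κ = (1, 0)) : False := by
  obtain ⟨c, hc⟩ := ma_inf_le hF x a a h1 h2
  have hcO : algebraMap K F c ∈ R.O := by rw [hc]; exact κ.2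
  have hcA : c ∈ A := (R.algebraMap_mem_iff c).1 hcO
  have e : κ = R.const ⟨c, hcA⟩ := Subtype.ext hc.symm
  rw [e, R.red_const] at hκ
  have e1 : algebraMap k Ft (resK ⟨c, hcA⟩) = 1 := congrArg Prod.fst hκ
  have e2 : algebraMap k Ft (resK ⟨c, hcA⟩) = 0 := congrArg Prod.snd hκ
  rw [e1] at e2
  exact one_ne_zero e2

/-- (CN3) -/
theorem not_full (hF : IsFF K F) (hFt : IsFF k Ft) [IsAlgClosed K] [IsAlgClosed k]
    (hres : Function.Surjective resK) (harch : IsArch A)
    (R : RedG A resK F (Ft × Ft)) (x : R.O) (hx₁ : Transcendental k (R.red x).1)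
    (hx₂ : Transcendental k (R.red x).2) (n₁ : ℕ)
    (hfull : ∀ n, n₁ ≤ n → redSp R hres (riemannRochSpace (n • poleDiv K ((x : R.O) : F))) =
      Lt k (R.red x).1 (R.red x).2 n) : False := by
  classical
  set xF : F := ((x : R.O) : F) with hxF
  have hx10 : (R.red x).1 ≠ 0 := fun h => hx₁ (h ▸ isAlgebraic_zero)
  have hx20 : (R.red x).2 ≠ 0 := fun h => hx₂ (h ▸ isAlgebraic_zero)
  have hxu : IsUnit (R.red x) := by
    rw [Prod.isUnit_iff]
    exact ⟨isUnit_iff_ne_zero.2 hx10, isUnit_iff_ne_zero.2 hx20⟩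
  have hxK : Transcendental K xF := transcendental_of_red2 R x hx₁
  have hxiK : Transcendental K xF⁻¹ := dg_transcendental_inv hxK
  -- the two lifts of `(1, 0)`
  obtain ⟨e, heL, hered⟩ : ∃ e : R.O, ((e : R.O) : F) ∈ riemannRochSpace (n₁ • poleDiv K xF) ∧
      R.red e = (1, 0) := by
    have h1 : ((1 : Ft), (0 : Ft)) ∈ Lt k (R.red x).1 (R.red x).2 n₁ := by
      refine ⟨?_, Submodule.zero_mem _⟩
      have := ma_one_mem hFt (R.red x).1 n₁ 0
      rwa [CN3_maE_left] at this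
    rw [← hfull n₁ le_rfl] at h1
    exact h1
  obtain ⟨e', he'L, he'red⟩ : ∃ e' : R.O, ((e' : R.O) : F) ∈ riemannRochSpace (maE K xF 0 n₁) ∧
      R.red e' = (1, 0) := by
    have h1 : R.red x ^ n₁ * ((1 : Ft), (0 : Ft)) ∈ Lt k (R.red x).1 (R.red x).2 n₁ := by
      refine ⟨?_, ?_⟩
      · show (R.red x ^ n₁ * ((1 : Ft), (0 : Ft))).1 ∈ _
        rw [Prod.fst_mul, Prod.pow_fst, mul_one]
        exact CN3_pow_mem hFt _ _
      · show (R.red x ^ n₁ * ((1 : Ft), (0 : Ft))).2 ∈ _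
        rw [Prod.snd_mul, mul_zero]
        exact Submodule.zero_mem _
    rw [← hfull n₁ le_rfl] at h1
    have h2 := (mem_redSp_maE_iff hF hres R x hxu 0 n₁ 0 ((1 : Ft), (0 : Ft))).2 (by
      rw [zero_add, add_zero]; exact h1)
    rw [add_zero] at h2
    exact h2
  -- `e`, `e'` are idempotent modulo a common `π`
  obtain ⟨π1, g1, hπ1, hg1⟩ := (red_eq_zero_iff_exists R hres (e * e - e)).1 (by
    rw [map_sub, map_mul, hered]; ext <;> simp)
  obtain ⟨π2, g2, hπ2, hg2⟩ := (red_eq_zero_iff_exists R hres (e' * e' - e')).1 (by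
    rw [map_sub, map_mul, he'red]; ext <;> simp)
  obtain ⟨π, hπ, h1, h2, hh1, hh2⟩ : ∃ (π : A) (_ : resK π = 0) (h1 h2 : R.O),
      e * e - e = R.const π * h1 ∧ e' * e' - e' = R.const π * h2 := by
    rcases ValuationRing.dvd_total π1 π2 with ⟨c, hc⟩ | ⟨c, hc⟩
    · exact ⟨π1, hπ1, g1, R.const c * g2, hg1, by rw [hg2, hc, CN1_const_mul, mul_assoc]⟩
    · exact ⟨π2, hπ2, R.const c * g1, g2, by rw [hg1, hc, CN1_const_mul, mul_assoc], hg2⟩
  have hπu : ¬ IsUnit π := by
    intro hu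
    have := hu.map resK
    rw [hπ] at this
    exact not_isUnit_zero this
  obtain ⟨π₀, hπ₀, hkill⟩ := exists_kill hF hFt hres R x hx₁ hx₂ n₁ hfull
  obtain ⟨m0, c0, hm0⟩ := harch π₀ π hπ₀ hπu
  set m := m0 + 1 with hm
  set π' : A := c0 * π with hπ'
  have hπm : π ^ m = π₀ * π' := by rw [hm, pow_succ, hm0, hπ', mul_assoc]
  have hπ'0 : resK π' = 0 := by rw [hπ', map_mul, hπ, mul_zero]
  -- Newton
  have heB : ((e : R.O) : F) ∈ CN3_reg K xF := fun P hP => ge_zero_of_mem_L hF heL P hP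
  have he'B : ((e' : R.O) : F) ∈ CN3_reg K xF⁻¹ := by
    intro P hP
    rw [CN3_maE_right hF] at he'L
    exact ge_zero_of_mem_L hF he'L P hP
  obtain ⟨E, H, hEB, hEred, hE⟩ := exists_idem_approx hres R (CN3_reg K xF) e heB π h1 hh1 m
  obtain ⟨E', H', hE'B, hE'red, hE'⟩ :=
    exists_idem_approx hres R (CN3_reg K xF⁻¹) e' he'B π h2 hh2 m
  have hEr : R.red E = (1, 0) := by rw [hEred hπ, hered]
  have hE'r : R.red E' = (1, 0) := by rw [hE'red hπ, he'red]
  obtain ⟨a1, ha1⟩ := exists_mem_L_of_regular hF hxK (E : F) hEB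
  obtain ⟨a2, ha2⟩ := exists_mem_L_of_regular hF hxiK (E' : F) hE'B
  rw [← CN3_maE_left] at ha1
  rw [← CN3_maE_right hF] at ha2
  set a := max (max a1 a2) n₁ with ha
  have hEa : ((E : R.O) : F) ∈ riemannRochSpace (maE K xF a 0) :=
    CN3_mono_left hF xF (by omega) ha1
  have hE'a : ((E' : R.O) : F) ∈ riemannRochSpace (maE K xF 0 a) :=
    CN3_mono_right hF xF (by omega) ha2
  -- `d = E - E'`
  set d : R.O := E - E' with hd
  have hdd : d * (d * d - 1) = R.const (π ^ m) * (H * (1 + E - 3 * E') + H' * (3 * E - 1 - E')) := by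
    have : d * (d * d - 1) = (E * E - E) * (1 + E - 3 * E') + (E' * E' - E') * (3 * E - 1 - E') := by
      rw [hd]; ring
    rw [this, hE, hE']
    ring
  obtain ⟨v, hv⟩ := R.isUnit_of_red (d * d - 1) (by
    rw [map_sub, map_mul, hd, map_sub, hEr, hE'r, sub_self, mul_zero, map_one, zero_sub]
    exact isUnit_one.neg)
  set w : R.O := (H * (1 + E - 3 * E') + H' * (3 * E - 1 - E')) * ((v⁻¹ : R.Oˣ) : R.O) with hw
  have hdw : d = R.const (π ^ m) * w := by
    have h3 : d = d * (d * d - 1) * ((v⁻¹ : R.Oˣ) : R.O) := by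
      rw [← hv, mul_assoc]; simp
    rw [h3, hdd, hw, mul_assoc]
  by_cases hπ0 : π = 0
  · -- then `E = E'`
    have h0 : d = 0 := by
      rw [hdw, hπ0, zero_pow (by omega)]
      have : R.const (0 : A) = 0 := Subtype.ext (map_zero _)
      rw [this, zero_mul]
    have hEE : E = E' := sub_eq_zero.1 h0
    exact CN3_false hF R xF a E hEa (hEE ▸ hE'a) hEr
  have hπmK : ((π ^ m : A) : K) ≠ 0 := by
    intro h
    exact pow_ne_zero m hπ0 (Subtype.ext h)
  have hwmem : ((w : R.O) : F) ∈ riemannRochSpace (maE K xF a 0) ⊔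
      riemannRochSpace (maE K xF 0 a) := by
    have h3 : ((π ^ m : A) : K) • ((w : R.O) : F) = (E : F) - (E' : F) := by
      rw [Algebra.smul_def]
      exact (congrArg Subtype.val hdw).symm
    rw [← Submodule.smul_mem_iff _ hπmK, h3]
    exact Submodule.sub_mem _ (Submodule.mem_sup_left hEa) (Submodule.mem_sup_right hE'a)
  obtain ⟨f₁, f₂, hf₁, hf₂, hf⟩ := hkill a (by omega) w hwmem
  have hπ₀c : R.const π₀ ≠ 0 := by
    intro h
    apply hπ₀
    have h4 : algebraMap K F (π₀ : K) = 0 := congrArg Subtype.val h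
    exact Subtype.ext (by simpa using h4)
  have hd2 : d = R.const π' * (f₁ + f₂) := by
    apply mul_left_cancel₀ hπ₀c
    rw [hdw, hπm, CN1_const_mul, ← hf]
    ring
  set κ : R.O := E - R.const π' * f₁ with hκ
  have hκ2 : κ = E' + R.const π' * f₂ := by
    have : E = d + E' := by rw [hd]; ring
    rw [hκ, this, hd2]
    ring
  refine CN3_false hF R xF a κ ?_ ?_ ?_
  · have : ((κ : R.O) : F) = (E : F) - (π' : K) • (f₁ : F) := by
      rw [Algebra.smul_def]; rfl
    rw [this]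
    exact Submodule.sub_mem _ hEa (Submodule.smul_mem _ _ hf₁)
  · rw [hκ2]
    have : (((E' + R.const π' * f₂ : R.O)) : F) = (E' : F) + (π' : K) • (f₂ : F) := by
      rw [Algebra.smul_def]; rfl
    rw [this]
    exact Submodule.add_mem _ hE'a (Submodule.smul_mem _ _ hf₂)
  · rw [hκ, map_sub, map_mul, R.red_const, hπ'0, map_zero, zero_mul, sub_zero, hEr]

end CN

end Fermat.Agent.S34Lib
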