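import Fermat.Agent.S34.ModDefs
import Fermat.Agent.S34.Frob
import Fermat.Agent.S34.FFSup
import Fermat.Agent.S34.Twist
import Fermat.Agent.S34.Diff
import Fermat.Agent.S34.Connected3
import Fermat.Agent.S34.RedG2Cor
import Fermat.Agent.S34.PolesJ
import Fermat.Agent.S34.Pullback
import Fermat.Agent.S34.Degrees
import Fermat.Agent.S34.GoodM
import Fermat.Agent.S34.VqBound
import Fermat.Agent.S18.RiemannLower
import Fermat.Agent.S18.RiemannUpper

/-! # S34 (RAD): the ideal `{b : (0,b) ∈ R̃}` is radical -/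

set_option autoImplicit false
set_option synthInstance.maxHeartbeats 400000

open AlgebraicCurve IntermediateField Polynomial ModularCurve CongruenceSubgroup
  Fermat.Agent.S24Lib Fermat.Agent.FFLib Fermat.Agent.S18Lib Fermat.Agent.S28Lib
  Fermat.Agent.ESLib

namespace Fermat.Agent.S34Lib

noncomputable section

/-- pure function field: `y - β^q` has order `≤ 1` at `P` when `y` is a uniformizer -/
theorem RAD_ord {k Ft : Type*} [Field k] [Field Ft] [Algebra k Ft] [IsAlgClosed k]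
    (h : IsFF k Ft) (q : ℕ) [Fact q.Prime] [CharP k q] (P : Place k Ft) (y β : Ft)
    (hy : P.ord y = 1) (hβ : D2_ge P 0 β) : y - β ^ q ≠ 0 ∧ P.ord (y - β ^ q) ≤ 1 := by
  have hq2 : 2 ≤ q := (Fact.out : q.Prime).two_le
  have : CharP Ft q := charP_of_injective_algebraMap (algebraMap k Ft).injective q
  have hy0 : y ≠ 0 := by
    rintro rfl
    simp at hy
  set c := evP P β with hc
  have h1 : D2_ge P 1 (β - algebraMap k Ft c) := evP_spec h P hβ
  have h2 : D2_ge P (P.ord y + 1) (-(β - algebraMap k Ft c) ^ q) := by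
    apply D2.ge_neg
    have := ma_ge_pow P h1 q (by omega)
    refine D2.ge_mono P ?_ this
    rw [hy]
    have : (2 : ℤ) ≤ q := by exact_mod_cast hq2
    omega
  have hu0 := D2.add_ne_zero_of_ge P hy0 h2
  have hu1 := D2.ord_add_eq P hy0 h2
  rw [hy] at hu1
  set u := -(β - algebraMap k Ft c) ^ q + y with hu
  have e : y - β ^ q = u + algebraMap k Ft (-c ^ q) := by
    rw [hu, sub_pow_char, map_neg, map_pow]
    ring
  rw [e]
  by_cases hc0 : c = 0
  · rw [hc0, zero_pow (by omega), neg_zero, map_zero, add_zero]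
    exact ⟨hu0, hu1.le⟩
  · have hb : algebraMap k Ft (-c ^ q) ≠ 0 := by
      rw [Ne, map_eq_zero, neg_eq_zero]
      exact pow_ne_zero _ hc0
    have hge : D2_ge P (P.ord (algebraMap k Ft (-c ^ q)) + 1) u := by
      right
      rw [ord_algebraMap, hu1]
      norm_num
    refine ⟨D2.add_ne_zero_of_ge P hb hge, ?_⟩
    rw [D2.ord_add_eq P hb hge, ord_algebraMap]
    norm_num

variable (M q : ℕ) [NeZero M] [NeZero q] [hqF : Fact q.Prime] (hqM : ¬ q ∣ M)
variable (A : ValuationSubring Qb) (hA : A.LiesOverPrime q)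
variable {M q hqM A}
variable {R : RedG A (IsLocalRing.residue A) (FB (q * M)) (FT A M × FT A M)}

/-- (RAD) `S34/Rad.lean` -/
theorem hrad_mod (hbase : 2 ∣ M ∨ 3 ∣ M) (hR : IsQRed2 M q hqM A R) (hA : A.LiesOverPrime q)
    (x : R.O) (hx : ((x : R.O) : FB (q * M)) = jN M q * jQ M q)
    (P : Place (kk A) (FT A M)) (hP : 0 ≤ P.ord (R.red x).2) :
    ∃ (b : FT A M) (m : ℕ), b ≠ 0 ∧ ((0 : FT A M), b) ∈ redSp R IsLocalRing.residue_surjective
      (riemannRochSpace (m • poleDiv Qb ((x : R.O) : FB (q * M)))) ∧ P.ord b ≤ 1 := by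
  have hac : IsAlgClosed (kk A) := isAlgClosed_kk A
  have : CharP (kk A) q := Fermat.Agent.S18Lib.charP_kk A hA
  have hFt := isFF_FT A M
  have hF := isFF_FB (q * M)
  have ht := transcendental_jT A M
  have hq0 : 0 < q := hqF.out.pos
  obtain ⟨x', hx', hred⟩ := exists_xO hR hA
  have hxx : x = x' := Subtype.ext (hx.trans hx'.symm)
  rw [hxx, hred] at hP
  simp only at hP
  have hPt : 0 ≤ P.ord (jT A M) := by
    rw [wa_ord_pow] at hP
    have : (0 : ℤ) < ((q + 1 : ℕ) : ℤ) := by positivity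
    by_contra hneg
    push Not at hneg
    nlinarith
  obtain ⟨n₀, hn₀⟩ := exists_lift_L M q hqM hbase A hA
  obtain ⟨n', y, hy', hyP⟩ := exists_mem_L_ord_eq_one hFt ht P hPt
  set n := max n' n₀ with hn
  have hy : y ∈ riemannRochSpace (n • poleDiv (kk A) (jT A M)) :=
    L_mono (nsmul_le_nsmul_left (dg_poleDiv_nonneg hFt _) (le_max_left _ _)) hy'
  obtain ⟨z₁, hz₁, rz₁⟩ := hn₀ n (le_max_right _ _) y hy
  obtain ⟨w, hw, hwq⟩ := exists_pow_eq_qExpand M q A hA (y : LaurentSeries (kk A)) y.2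
  have hwq' : (⟨w, hw⟩ : FT A M) ^ q = Vq M q A hA y := Subtype.ext hwq
  have hVy := Vq_mem_L hR hA n z₁ hz₁
  rw [rz₁, ← hwq'] at hVy
  have hwL : (⟨w, hw⟩ : FT A M) ∈ riemannRochSpace (n • poleDiv (kk A) (jT A M)) :=
    T1a_root_mem hq0 hVy
  obtain ⟨z, hz, rz⟩ := hn₀ n (le_max_right _ _) _ hwL
  obtain ⟨h1, r1⟩ := pi1_mem hA hR z
  obtain ⟨h2, r2⟩ := pi2_mem hA hR z₁
  have hβL := Vq_mem_L hR hA n z hz
  rw [rz] at hβL r1
  rw [rz₁] at r2
  set β : FT A M := Vq M q A hA ⟨w, hw⟩ with hβ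
  have hβP : D2_ge P 0 β := ge_zero_of_mem_L hFt hβL P hPt
  obtain ⟨hb0, hb1⟩ := RAD_ord hFt q P y β hyP hβP
  refine ⟨y - β ^ q, q * n, hb0, ⟨⟨_, h2⟩ - ⟨_, h1⟩ ^ q, ?_, ?_⟩, hb1⟩
  · rw [hx, poleDiv_mul M q hqM]
    have hJ0 := dg_poleDiv_nonneg hF (jN M q)
    have hJ0' := dg_poleDiv_nonneg hF (jQ M q)
    have hq1 : (1 : ℤ) ≤ q := by exact_mod_cast hq0
    have hn0 : (0 : ℤ) ≤ n := Int.natCast_nonneg n
    apply Submodule.sub_mem
    · have e1 := wq_mem_L M q hqM _ _ (pi1_mem_L M q _ _ hz₁)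
      refine L_mono ?_ e1
      intro v
      have h6 := hJ0 v
      have h7 := hJ0' v
      simp only [Finsupp.add_apply, Finsupp.smul_apply, nsmul_eq_mul, Finsupp.coe_zero,
        Pi.zero_apply, Nat.cast_mul] at h6 h7 ⊢
      nlinarith [mul_nonneg hn0 h7, mul_nonneg hn0 h6, mul_nonneg (mul_nonneg (sub_nonneg.mpr hq1) hn0) h7,
        mul_nonneg (mul_nonneg (le_trans zero_le_one hq1) hn0) h6]
    · have e1 := pi1_mem_L M q _ _ hz
      have e2 : (pi1 M q (z : FB M)) ^ q ∈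
          riemannRochSpace ((q * n) • poleDiv Qb (jN M q)) := by
        rw [mem_L_iff] at e1 ⊢
        intro v
        have := ma_ge_pow v (e1 v) q hq0
        refine D2.ge_mono v (le_of_eq ?_) this
        simp only [Finsupp.smul_apply, nsmul_eq_mul, Nat.cast_mul]
        ring
      refine L_mono ?_ e2
      intro v
      have h7 := hJ0' v
      simp only [Finsupp.add_apply, Finsupp.smul_apply, nsmul_eq_mul, Finsupp.coe_zero,
        Pi.zero_apply, Nat.cast_mul] at h7 ⊢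
      nlinarith [mul_nonneg (mul_nonneg (le_trans zero_le_one hq1) hn0) h7]
  · rw [map_sub, map_pow, r1, r2, Prod.pow_mk, Prod.mk_sub_mk, hwq', sub_self]

end

end Fermat.Agent.S34Lib
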