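import Fermat.Agent.S34.RedG2D

/-!
# S34 (RG): the joint reduction datum on `FB (q M)`: no defect, and `exists_red2`
-/

set_option autoImplicit false
set_option synthInstance.maxHeartbeats 400000
set_option maxHeartbeats 1600000

open AlgebraicCurve IntermediateField Polynomial ModularCurve CongruenceSubgroup
  Fermat.Agent.S24Lib Fermat.Agent.FFLib Fermat.Agent.S18Lib Fermat.Agent.S28Lib
  Fermat.Agent.ESLib

namespace Fermat.Agent.S34Lib

noncomputable section

variable (M q : ℕ) [NeZero M] [NeZero q] [hqF : Fact q.Prime] (hqM : ¬ q ∣ M)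
variable (A : ValuationSubring Qb) (hA : A.LiesOverPrime q)

/-- the functions with denominator `e` -/
def rdW2 (e : LaurentSeries Qb) : Submodule Qb (FB (q * M)) where
  carrier := {u | ∃ w, e * (u : LaurentSeries Qb) = S1 M q Qb w}
  zero_mem' := ⟨0, by rw [S1_zero]; simp⟩
  add_mem' := by
    rintro u u' ⟨w, hw⟩ ⟨w', hw'⟩
    refine ⟨w + w', ?_⟩
    rw [S1_add, ← hw, ← hw']
    show e * ((u : LaurentSeries Qb) + (u' : LaurentSeries Qb)) = _
    ring
  smul_mem' := by
    rintro c u ⟨w, hw⟩
    refine ⟨c • w, ?_⟩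
    rw [S1_smul, ← hw, rd_coe_smul]
    ring

include hqM hA in
theorem rd_common_den2 (U : Submodule Qb (FB (q * M))) [FiniteDimensional Qb U] :
    ∃ b : Qb[X], b ≠ 0 ∧ U ≤ rdW2 M q (evJ Qb b) := by
  classical
  obtain ⟨S, hS⟩ := (Submodule.fg_iff_finiteDimensional U).2 inferInstance
  choose bf wf hb hw using fun y : FB (q * M) => span_S1_Qb M q hqM A hA (y : LaurentSeries Qb) y.2
  refine ⟨∏ t ∈ S, bf t, Finset.prod_ne_zero_iff.2 fun t _ => hb t, ?_⟩
  rw [← hS, Submodule.span_le]
  intro t ht
  obtain ⟨w', hw'⟩ := exists_evJ_mul_S1 M q Qb (∏ t' ∈ S.erase t, bf t') (wf t)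
  refine ⟨w', ?_⟩
  rw [← hw', ← hw t, ← Finset.mul_prod_erase S bf ht, map_mul]
  ring

omit [NeZero M] [NeZero q] hqF in
theorem coe_smul_FT (c : kk A) (z : FT A M) :
    ((c • z : FT A M) : LaurentSeries (kk A)) = HahnSeries.C c * (z : LaurentSeries (kk A)) := by
  rw [Algebra.smul_def]
  show ((algebraMap (kk A) (FT A M) c : FT A M) : LaurentSeries (kk A)) * _ = _
  congr 1
  show algebraMap (kk A) (LaurentSeries (kk A)) c = _
  rw [algebraMap_laurentSeries_eq_single]
  rfl

omit [NeZero M] [NeZero q] hqF in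
theorem coe_sum_smul_FT {n : ℕ} (g : Fin n → kk A) (z : Fin n → FT A M) :
    ((∑ i, g i • z i : FT A M) : LaurentSeries (kk A)) =
      ∑ i, HahnSeries.C (g i) * (z i : LaurentSeries (kk A)) := by
  rw [AddSubmonoidClass.coe_finsetSum]
  exact Finset.sum_congr rfl fun i _ => coe_smul_FT M A _ _

theorem exists_orth2 (U : Submodule Qb (FB (q * M))) (hU : FiniteDimensional Qb U) :
    ∃ b : Fin (Module.finrank Qb U) → O2 M q hqM A,
      (∀ i, ((b i : O2 M q hqM A) : FB (q * M)) ∈ U) ∧
      LinearIndependent (kk A) (fun i => red2 M q hqM A hA (b i)) := by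
  classical
  have hchar : CharP (kk A) q := charP_kk A hA
  obtain ⟨b₀, hb₀, hUW⟩ := rd_common_den2 M q hqM A hA U
  obtain ⟨β, b', hβ, hb', hbb⟩ := exists_scale_poly A b₀ hb₀
  have hRb : cR A (evJ A b') ≠ 0 := by
    rw [cR, coeffMap_evJ]
    exact fun h => hb' ((evJ_eq_zero_iff (kk A) _).1 h)
  have hEb := rr_cE_ne_zero A hRb
  have hev : evJ Qb b₀ = HahnSeries.C β * cE A (evJ A b') := by
    rw [hbb, map_mul, cE, coeffMap_evJ, nf_evJ_C]
  have hUW' : U ≤ rdW2 M q (cE A (evJ A b')) := by
    intro u hu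
    obtain ⟨w, hw⟩ := hUW hu
    refine ⟨β⁻¹ • w, ?_⟩
    rw [S1_smul, ← hw, hev, ← mul_assoc, ← mul_assoc, ← map_mul, inv_mul_cancel₀ hβ, map_one,
      one_mul]
  set n := Module.finrank Qb U with hn
  let B := Module.finBasis Qb U
  choose w hw using fun i : Fin n => hUW' (B i).2
  have hwind : LinearIndependent Qb w := by
    rw [Fintype.linearIndependent_iff]
    intro g hg
    have h1 := S1_sum M q Qb Finset.univ g w
    rw [hg, S1_zero] at h1
    have h2 : cE A (evJ A b') * (((∑ i, g i • B i : U) : FB (q * M)) : LaurentSeries Qb) = 0 := by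
      rw [h1]
      have : (((∑ i, g i • B i : U) : FB (q * M)) : LaurentSeries Qb) =
          ∑ i, HahnSeries.C (g i) * (((B i : U) : FB (q * M)) : LaurentSeries Qb) := by
        rw [Submodule.coe_sum]
        rw [← IntermediateField.coe_val, map_sum]
        refine Finset.sum_congr rfl fun i _ => ?_
        rw [IntermediateField.coe_val, Submodule.coe_smul, rd_coe_smul]
      rw [this, Finset.mul_sum]
      refine Finset.sum_congr rfl fun i _ => ?_
      rw [← hw i]
      ring
    have h3 : (∑ i, g i • B i : U) = 0 := by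
      apply Subtype.ext
      apply Subtype.ext
      exact (mul_eq_zero.1 h2).resolve_left hEb
    exact Fintype.linearIndependent_iff.1 B.linearIndependent g h3
  set U' : Submodule Qb (I2 M q →₀ Qb) := Submodule.span Qb (Set.range w) with hU'
  have hfin : FiniteDimensional Qb U' := FiniteDimensional.span_of_finite Qb (Set.finite_range w)
  have hrank : Module.finrank Qb U' = n := by
    rw [hU', finrank_span_eq_card hwind, Fintype.card_fin]
  have hU'U : ∀ v ∈ U', ∃ u ∈ U,
      cE A (evJ A b') * ((u : FB (q * M)) : LaurentSeries Qb) = S1 M q Qb v := by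
    intro v hv
    induction hv using Submodule.span_induction with
    | mem v hv =>
      obtain ⟨i, rfl⟩ := hv
      exact ⟨B i, (B i).2, hw i⟩
    | zero => exact ⟨0, U.zero_mem, by rw [S1_zero]; simp⟩
    | add v v' _ _ h h' =>
      obtain ⟨u, hu, hh⟩ := h
      obtain ⟨u', hu', hh'⟩ := h'
      refine ⟨u + u', U.add_mem hu hu', ?_⟩
      rw [S1_add, ← hh, ← hh']
      show _ * ((u : LaurentSeries Qb) + (u' : LaurentSeries Qb)) = _
      ring
    | smul c v _ h =>
      obtain ⟨u, hu, hh⟩ := h
      refine ⟨c • u, U.smul_mem c hu, ?_⟩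
      rw [S1_smul, ← hh, rd_coe_smul]
      ring
  obtain ⟨v, hvU, hvind⟩ := exists_orth_finsupp A U'
  choose u huU hu using fun i => hU'U _ (hvU i)
  have huO : ∀ i, (u i : LaurentSeries Qb) * cE A (evJ A b') = cE A (S1 M q A (v i)) := by
    intro i
    rw [mul_comm, hu i, cE, coeffMap_S1]
  choose hmem hr1 hr2 using fun i => mem_O2_of_normalForm M q hqM A (u i) b' hRb (v i) (huO i)
  refine ⟨fun i => ⟨u (Fin.cast hrank.symm i), hmem _⟩, fun i => huU _, ?_⟩
  have hind : LinearIndependent (kk A) (fun i => red2 M q hqM A hA ⟨u i, hmem i⟩) := by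
    rw [Fintype.linearIndependent_iff]
    intro g hg
    apply Fintype.linearIndependent_iff.1 hvind g
    have hg1 : ∑ i, g i • (red2 M q hqM A hA ⟨u i, hmem i⟩).1 = 0 := by
      have := congrArg Prod.fst hg
      simpa [Prod.fst_sum] using this
    have hg2 : ∑ i, g i • (red2 M q hqM A hA ⟨u i, hmem i⟩).2 = 0 := by
      have := congrArg Prod.snd hg
      simpa [Prod.snd_sum] using this
    have hs1 : ∑ i, HahnSeries.C (g i) * r1 M q hqM A ⟨u i, hmem i⟩ = 0 := by
      have := congrArg (fun z : FT A M => (z : LaurentSeries (kk A))) hg1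
      simp only [coe_sum_smul_FT, coe_red2_fst] at this
      exact this
    have hs2 : ∑ i, HahnSeries.C (g i) * r2 M q hqM A ⟨u i, hmem i⟩ = 0 := by
      have := congrArg (fun z : FT A M => (z : LaurentSeries (kk A))) hg2
      simp only [coe_sum_smul_FT, coe_red2_snd] at this
      exact this
    apply joint_indep M q (kk A) (indep_charP M hqM (kk A))
    · rw [S1_sum]
      calc _ = (∑ i, HahnSeries.C (g i) * r1 M q hqM A ⟨u i, hmem i⟩) * cR A (evJ A b') := by
            rw [Finset.sum_mul]
            refine Finset.sum_congr rfl fun i _ => ?_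
            rw [← hr1 i]
            ring
        _ = 0 := by rw [hs1, zero_mul]
    · rw [S2_sum]
      calc _ = (∑ i, HahnSeries.C (g i) * r2 M q hqM A ⟨u i, hmem i⟩) *
            cR A (qExpand A q (evJ A b')) := by
            rw [Finset.sum_mul]
            refine Finset.sum_congr rfl fun i _ => ?_
            rw [← hr2 i]
            ring
        _ = 0 := by rw [hs2, zero_mul]
  exact hind.comp _ (Fin.cast_injective _)

/-- the joint reduction datum -/
def R2 : RedG A (IsLocalRing.residue A) (FB (q * M)) (FT A M × FT A M) where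
  O := O2 M q hqM A
  red := red2 M q hqM A hA
  red_surjective := red2_surjective M q hqM A hA
  isUnit_of_red := isUnit_of_red2 M q hqM A hA
  algebraMap_mem_iff := algebraMap_mem_O2_iff M q hqM A hA
  red_algebraMap := red2_algebraMap M q hqM A hA
  exists_scale := exists_scale2 M q hqM A hA
  exists_orth := exists_orth2 M q hqM A hA

theorem isQRed2_R2 : IsQRed2 M q hqM A (R2 M q hqM A hA) where
  mem_iff := mem_O2_iff M q hqM A
  red_fst := fun x _ => coe_red2_fst M q hqM A hA x
  red_snd := fun x _ => coe_red2_snd M q hqM A hA x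

include hA in
/-- **(RG)** -/
theorem exists_red2 :
    ∃ R : RedG A (IsLocalRing.residue A) (FB (q * M)) (FT A M × FT A M),
      IsQRed2 M q hqM A R :=
  ⟨R2 M q hqM A hA, isQRed2_R2 M q hqM A hA⟩

end

end Fermat.Agent.S34Lib
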