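import Fermat.Agent.S34.Defs
import Fermat.Agent.S34.RedSp
import Fermat.Agent.S34.FFSup
import Fermat.Agent.S34.DegLe2
import Fermat.Agent.S34.PoleLemma2
import Fermat.Agent.S34.GluedDim

/-!
# S34 package, (FI): the filtration `V(m J) ∩ Lt n = V(n J)`
-/

set_option autoImplicit false

open AlgebraicCurve IntermediateField Polynomial Fermat.Agent.S24Lib Fermat.Agent.FFLib
  Fermat.Agent.S18Lib

namespace Fermat.Agent.S34Lib

section FI

variable {K k F Ft : Type*} [Field K] [Field k] [Field F] [Algebra K F] [Field Ft] [Algebra k Ft]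
  {A : ValuationSubring K} {resK : A →+* k}

theorem FI_Lt_mono [IsAlgClosed k] (hFt : IsFF k Ft) (x₁ x₂ : Ft) {n m : ℕ} (h : n ≤ m) :
    Lt k x₁ x₂ n ≤ Lt k x₁ x₂ m := by
  unfold Lt
  apply Submodule.prod_mono
  · exact L_mono (nsmul_le_nsmul_left (dg_poleDiv_nonneg hFt x₁) h)
  · exact L_mono (nsmul_le_nsmul_left (dg_poleDiv_nonneg hFt x₂) h)

theorem filtration (hF : IsFF K F) (hFt : IsFF k Ft) [IsAlgClosed K] [IsAlgClosed k]
    (hres : Function.Surjective resK)
    (R : RedG A resK F (Ft × Ft)) (x : R.O) (hx₁ : Transcendental k (R.red x).1)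
    (hx₂ : Transcendental k (R.red x).2)
    (hdeg : Module.finrank K⟮((x : R.O) : F)⟯ F ≤
      Module.finrank k⟮(R.red x).1⟯ Ft + Module.finrank k⟮(R.red x).2⟯ Ft)
    (htop : ∃ n₁ : ℕ, ∀ n, n₁ ≤ n → Lt k (R.red x).1 (R.red x).2 (n + 1) ≤
      redSp R hres (riemannRochSpace ((n + 1) • poleDiv K ((x : R.O) : F))) ⊔
        Lt k (R.red x).1 (R.red x).2 n) :
    ∃ n₂ : ℕ, ∀ n, n₂ ≤ n → ∀ m, n ≤ m →
      redSp R hres (riemannRochSpace (m • poleDiv K ((x : R.O) : F))) ⊓
        Lt k (R.red x).1 (R.red x).2 n ≤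
      redSp R hres (riemannRochSpace (n • poleDiv K ((x : R.O) : F))) := by
  obtain ⟨n₁, hn₁⟩ := htop
  have hx : Transcendental K ((x : R.O) : F) := transcendental_of_red2 R x hx₁
  have hd := finrank_red_le2 hF hFt R x hx₁ hx₂
  obtain ⟨a₀, ha₀⟩ := exists_ell_succ hF hx
  obtain ⟨a₁, ha₁⟩ := exists_ell_succ hFt hx₁
  obtain ⟨a₂, ha₂⟩ := exists_ell_succ hFt hx₂
  set V : ℕ → Submodule k (Ft × Ft) :=
    fun n => redSp R hres (riemannRochSpace (n • poleDiv K ((x : R.O) : F))) with hV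
  set T : ℕ → Submodule k (Ft × Ft) := fun n => Lt k (R.red x).1 (R.red x).2 n with hT
  have hVT : ∀ n, V n ≤ T n := fun n => redSp_le_Lt hF hFt hres R x hx₁ hx₂ hdeg n
  have hTmono : ∀ {n m}, n ≤ m → T n ≤ T m := fun h => FI_Lt_mono hFt _ _ h
  have hVmono : ∀ {n m}, n ≤ m → V n ≤ V m := fun h =>
    redSp_mono hres (L_mono (nsmul_le_nsmul_left (dg_poleDiv_nonneg hF _) h))
  have hfdT : ∀ n, FiniteDimensional k (T n) := fun n => T1b_finiteDimensional_Lt hFt _ _ n
  have hVdim : ∀ n, Module.finrank k (V n) = FFLib.ell (n • poleDiv K ((x : R.O) : F)) := by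
    intro n
    have := finiteDimensional_L hF (n • poleDiv K ((x : R.O) : F))
    exact finrank_redSp R hres _
  have hTdim : ∀ n, Module.finrank k (T n) = FFLib.ell (n • poleDiv k (R.red x).1)
      + FFLib.ell (n • poleDiv k (R.red x).2) := fun n => T1b_finrank_Lt hFt _ _ n
  -- the one-step statement
  have hstep : ∀ n, max (max n₁ a₀) (max a₁ a₂) ≤ n → V (n + 1) ⊓ T n = V n := by
    intro n hn
    have hn1 : n₁ ≤ n := le_trans (le_trans (le_max_left _ _) (le_max_left _ _)) hn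
    have hn0 : a₀ ≤ n := le_trans (le_trans (le_max_right _ _) (le_max_left _ _)) hn
    have hn2 : a₁ ≤ n := le_trans (le_trans (le_max_left _ _) (le_max_right _ _)) hn
    have hn3 : a₂ ≤ n := le_trans (le_trans (le_max_right _ _) (le_max_right _ _)) hn
    have hsup : V (n + 1) ⊔ T n = T (n + 1) :=
      le_antisymm (sup_le (hVT _) (hTmono (Nat.le_succ n))) (hn₁ n hn1)
    have hfd1 : FiniteDimensional k (V (n + 1)) :=
      Submodule.finiteDimensional_of_le (hVT (n + 1))
    have hdim := Submodule.finrank_sup_add_finrank_inf_eq (V (n + 1)) (T n)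
    rw [hsup, hVdim, hTdim, hTdim, ha₀ n hn0, ha₁ n hn2, ha₂ n hn3] at hdim
    have hle : V n ≤ V (n + 1) ⊓ T n := le_inf (hVmono (Nat.le_succ n)) (hVT n)
    have hfd2 : FiniteDimensional k ↥(V (n + 1) ⊓ T n) :=
      Submodule.finiteDimensional_of_le inf_le_right
    symm
    apply Submodule.eq_of_le_of_finrank_le hle
    rw [hVdim]
    omega
  refine ⟨max (max n₁ a₀) (max a₁ a₂), fun n hn m hm => ?_⟩
  change V m ⊓ T n ≤ V n
  induction m, hm using Nat.le_induction with
  | base => exact inf_le_left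
  | succ m hm ih =>
    have h1 : V (m + 1) ⊓ T n ≤ V (m + 1) ⊓ T m := inf_le_inf_left _ (hTmono hm)
    rw [hstep m (le_trans hn hm)] at h1
    exact le_trans (le_inf h1 inf_le_right) ih

end FI

end Fermat.Agent.S34Lib
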