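import Fermat.Agent.S34.Defs
import Fermat.Agent.S34.EvP
import Fermat.Agent.S34.FFSup

/-!
# S34 package, (GO): pure function field statements (ideals of the ring of regular functions,
characters, Goursat)
-/

set_option autoImplicit false

open AlgebraicCurve IntermediateField Polynomial Fermat.Agent.S24Lib Fermat.Agent.FFLib
  Fermat.Agent.S18Lib

namespace Fermat.Agent.S34Lib

section GO

variable {k Ft : Type*} [Field k] [Field Ft] [Algebra k Ft]

/-- regular at all finite places (w.r.t. `x`) -/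
def RegF (k : Type*) {Ft : Type*} [Field k] [Field Ft] [Algebra k Ft] (x a : Ft) : Prop :=
  ∀ P : Place k Ft, 0 ≤ P.ord x → D2_ge P 0 a

theorem go_reg_algebraMap (x : Ft) (c : k) : RegF k x (algebraMap k Ft c) :=
  fun P _ => Or.inr (ord_algebraMap P c).ge

theorem go_reg_zero (x : Ft) : RegF k x 0 := fun _ _ => Or.inl rfl

theorem go_reg_one (x : Ft) : RegF k x 1 := by
  have := go_reg_algebraMap (k := k) x 1
  rwa [map_one] at this

theorem go_reg_add {x a b : Ft} (ha : RegF k x a) (hb : RegF k x b) : RegF k x (a + b) :=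
  fun P hP => D2.ge_add P (ha P hP) (hb P hP)

theorem go_reg_neg {x a : Ft} (ha : RegF k x a) : RegF k x (-a) :=
  fun P hP => D2.ge_neg P (ha P hP)

theorem go_reg_sub {x a b : Ft} (ha : RegF k x a) (hb : RegF k x b) : RegF k x (a - b) :=
  fun P hP => D2.ge_sub P (ha P hP) (hb P hP)

theorem go_reg_mul {x a b : Ft} (ha : RegF k x a) (hb : RegF k x b) : RegF k x (a * b) :=
  fun P hP => by simpa using D2.ge_mul P (ha P hP) (hb P hP)

theorem go_reg_self (x : Ft) : RegF k x x := fun _ hP => Or.inr hP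

/-- the ring of regular functions -/
def goRing (k : Type*) {Ft : Type*} [Field k] [Field Ft] [Algebra k Ft] (x : Ft) : Subring Ft where
  carrier := {a | RegF k x a}
  mul_mem' := go_reg_mul
  one_mem' := go_reg_one x
  add_mem' := go_reg_add
  zero_mem' := go_reg_zero x
  neg_mem' := go_reg_neg

/-- (GO2) a `k`-algebra character of the ring of regular functions is a finite place -/
theorem exists_place_of_char [IsAlgClosed k] (h : IsFF k Ft) {x : Ft} (hx : Transcendental k x)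
    (χ : Ft → k) (hone : χ 1 = 1)
    (hadd : ∀ a b, RegF k x a → RegF k x b → χ (a + b) = χ a + χ b)
    (hmul : ∀ a b, RegF k x a → RegF k x b → χ (a * b) = χ a * χ b)
    (hc : ∀ c : k, χ (algebraMap k Ft c) = c) :
    ∃ P : Place k Ft, 0 ≤ P.ord x ∧ ∀ a, RegF k x a → evP P a = χ a := by
  have hzero : χ 0 = 0 := by
    have := hc 0
    rwa [map_zero] at this
  let I : Ideal (goRing k x) :=
    { carrier := {a | χ (a : Ft) = 0}
      add_mem' := by
        intro a b ha hb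
        show χ ((a : Ft) + (b : Ft)) = 0
        rw [hadd _ _ a.2 b.2, ha, hb, add_zero]
      zero_mem' := hzero
      smul_mem' := by
        intro c a ha
        show χ ((c : Ft) * (a : Ft)) = 0
        rw [hmul _ _ c.2 a.2, ha, mul_zero] }
  have hI : I ≠ ⊤ := by
    intro htop
    have h1 : (1 : goRing k x) ∈ I := htop ▸ Submodule.mem_top
    have h2 : χ 1 = 0 := h1
    rw [hone] at h2
    exact one_ne_zero h2
  obtain ⟨O, hRO, hnon⟩ := Ideal.image_subset_nonunits_valuationSubring I hI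
  have hK : ∀ a : k, algebraMap k Ft a ∈ O := fun a => hRO (go_reg_algebraMap x a)
  -- `a - χ a` is a non unit
  have hsub : ∀ a, RegF k x a → a - algebraMap k Ft (χ a) ∈ O.nonunits := by
    intro a ha
    have hreg : RegF k x (a - algebraMap k Ft (χ a)) := go_reg_sub ha (go_reg_algebraMap x _)
    refine hnon ⟨⟨_, hreg⟩, ?_, rfl⟩
    show χ (a - algebraMap k Ft (χ a)) = 0
    rw [sub_eq_add_neg, ← map_neg, hadd _ _ ha (go_reg_algebraMap x _), hc, add_neg_cancel]
  have hinv : ∀ y : Ft, y ≠ 0 → y ∈ O.nonunits → y⁻¹ ∉ O := by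
    intro y hy0 hy hmem
    have hyv : O.valuation y < 1 := (ValuationSubring.mem_nonunits_iff O).mp hy
    have h3 : O.valuation y⁻¹ ≤ 1 := (O.valuation_le_one_iff _).mpr hmem
    rw [map_inv₀] at h3
    have h4 : O.valuation y ≠ 0 := (Valuation.ne_zero_iff _).mpr hy0
    have h5 : 1 ≤ O.valuation y := (inv_le_one₀ (zero_lt_iff.mpr h4)).mp h3
    exact absurd hyv (not_lt.mpr h5)
  have hx0 : x - algebraMap k Ft (χ x) ≠ 0 := by
    intro h0
    apply hx
    rw [sub_eq_zero.mp h0]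
    exact isAlgebraic_algebraMap _
  have hO : O ≠ ⊤ := fun htop =>
    hinv _ hx0 (hsub x (go_reg_self x)) (htop ▸ ValuationSubring.mem_top _)
  obtain ⟨v, hv⟩ := exists_place_of_valuationSubring h O hK hO
  refine ⟨v, ?_, fun a ha => ?_⟩
  · rw [← mem_valuationSubring_iff, hv]
    exact hRO (go_reg_self x)
  · apply evP_eq_of
    by_cases h0 : a - algebraMap k Ft (χ a) = 0
    · exact Or.inl h0
    · right
      have h1 : ¬ 0 ≤ v.ord (a - algebraMap k Ft (χ a))⁻¹ := by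
        rw [← mem_valuationSubring_iff, hv]
        exact hinv _ h0 (hsub a ha)
      rw [v.ord_inv] at h1
      omega

/-- order at least `E` at the finite places -/
def goJ (k : Type*) {Ft : Type*} [Field k] [Field Ft] [Algebra k Ft] (x : Ft) (E : Divisor k Ft)
    (f : Ft) : Prop :=
  ∀ P : Place k Ft, 0 ≤ P.ord x → D2_ge P (E P) f

theorem go_bound (D : Divisor k Ft) : ∃ M : ℕ, ∀ v, D v ≤ M := by
  obtain ⟨M, hM⟩ := wa_bound D.support (fun v => D v)
  refine ⟨M.toNat, fun v => ?_⟩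
  have h1 := Int.self_le_toNat M
  by_cases hv : v ∈ D.support
  · exact (hM v hv).trans h1
  · rw [Finsupp.notMem_support_iff.mp hv]
    exact Int.natCast_nonneg _

theorem go_mem_L_of_J [IsAlgClosed k] (h : IsFF k Ft) {x : Ft} (E : Divisor k Ft) {f : Ft}
    (hf : goJ k x E f) : ∃ n₀ : ℕ, ∀ n, n₀ ≤ n → f ∈ riemannRochSpace (n • poleDiv k x - E) := by
  obtain ⟨M, hM⟩ := go_bound (E - divOf k f)
  refine ⟨M, fun n hn => ?_⟩
  rw [mem_L_iff]
  intro v
  rw [Finsupp.sub_apply, Finsupp.smul_apply, poleDiv_apply h]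
  by_cases hv : 0 ≤ v.ord x
  · rw [max_eq_right (by omega)]
    simpa using hf v hv
  · right
    rw [max_eq_left (by omega), nsmul_eq_mul]
    have h2 := hM v
    rw [Finsupp.sub_apply, divOf_apply h] at h2
    have h3 : (M : ℤ) ≤ n := by exact_mod_cast hn
    have h4 : (0 : ℤ) ≤ n := Int.natCast_nonneg _
    nlinarith

theorem go_J_of_mem_L [IsAlgClosed k] (h : IsFF k Ft) {x : Ft} (E : Divisor k Ft) {f : Ft} {n : ℕ}
    (hf : f ∈ riemannRochSpace (n • poleDiv k x - E)) : goJ k x E f := by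
  intro P hP
  have h1 := (mem_L_iff.mp hf) P
  rw [Finsupp.sub_apply, Finsupp.smul_apply, poleDiv_apply h, max_eq_right (by omega)] at h1
  simpa using h1

/-- `J(E₁ ⊓ E₂) = J(E₁) + J(E₂)` -/
theorem go_J_inf [IsAlgClosed k] (h : IsFF k Ft) {x : Ft} (hx : Transcendental k x)
    (E₁ E₂ : Divisor k Ft) {f : Ft} (hf : goJ k x (E₁ ⊓ E₂) f) :
    ∃ f₁ f₂, goJ k x E₁ f₁ ∧ goJ k x E₂ f₂ ∧ f = f₁ + f₂ := by
  obtain ⟨c, hc⟩ := L_sup_eq h
  obtain ⟨n₀, hn₀⟩ := go_mem_L_of_J h _ hf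
  set n : ℕ := max n₀ (c + Divisor.degree (E₁ ⊔ E₂)).toNat with hn
  have e1 : (n • poleDiv k x - E₁) ⊓ (n • poleDiv k x - E₂) = n • poleDiv k x - (E₁ ⊔ E₂) := by
    ext v
    simp only [Finsupp.inf_apply, Finsupp.sub_apply, Finsupp.sup_apply]
    omega
  have e2 : (n • poleDiv k x - E₁) ⊔ (n • poleDiv k x - E₂) = n • poleDiv k x - (E₁ ⊓ E₂) := by
    ext v
    simp only [Finsupp.inf_apply, Finsupp.sub_apply, Finsupp.sup_apply]
    omega
  have hdeg : c ≤ Divisor.degree ((n • poleDiv k x - E₁) ⊓ (n • poleDiv k x - E₂)) := by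
    rw [e1, map_sub]
    have h1 := sup_degree_smul h hx n
    have h2 := Int.self_le_toNat (c + Divisor.degree (E₁ ⊔ E₂))
    have h3 : ((c + Divisor.degree (E₁ ⊔ E₂)).toNat : ℤ) ≤ n := by
      exact_mod_cast le_max_right _ _
    omega
  have h1 := hc _ _ hdeg
  rw [e2] at h1
  have h2 := hn₀ n (le_max_left _ _)
  rw [← h1, Submodule.mem_sup] at h2
  obtain ⟨f₁, hf₁, f₂, hf₂, rfl⟩ := h2
  exact ⟨f₁, f₂, go_J_of_mem_L h _ hf₁, go_J_of_mem_L h _ hf₂, rfl⟩

open Classical in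
/-- the finite part of the divisor of `b` -/
noncomputable def goE (k : Type*) {Ft : Type*} [Field k] [Field Ft] [Algebra k Ft] (x b : Ft) :
    Divisor k Ft :=
  (divOf k b).filter (fun P => 0 ≤ P.ord x)

theorem goE_apply [IsAlgClosed k] (h : IsFF k Ft) (x b : Ft) (P : Place k Ft)
    (hP : 0 ≤ P.ord x) : goE k x b P = P.ord b := by
  rw [goE, Finsupp.filter_apply, if_pos hP, divOf_apply h]

theorem goE_apply_of_neg (x b : Ft) (P : Place k Ft)
    (hP : ¬ 0 ≤ P.ord x) : goE k x b P = 0 := by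
  rw [goE, Finsupp.filter_apply, if_neg hP]

/-- (GO1) an "ideal" `I` of the ring of regular functions containing, for every finite place, an
element of order `≤ 1`, is the set of regular functions vanishing on a finite set -/
theorem exists_zero_set [IsAlgClosed k] (h : IsFF k Ft) {x : Ft} (hx : Transcendental k x)
    (I : Submodule k Ft) (hreg : ∀ b ∈ I, RegF k x b)
    (hmul : ∀ a b, RegF k x a → b ∈ I → a * b ∈ I)
    (hrad : ∀ P : Place k Ft, 0 ≤ P.ord x → ∃ b ∈ I, b ≠ 0 ∧ P.ord b ≤ 1) :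
    ∃ Z : Finset (Place k Ft), (∀ P ∈ Z, 0 ≤ P.ord x) ∧
      ∀ b, b ∈ I ↔ RegF k x b ∧ ∀ P ∈ Z, D2_ge P 1 b := by
  classical
  -- principal ideals
  have hprin : ∀ b ∈ I, b ≠ 0 → ∀ f, goJ k x (goE k x b) f → f ∈ I := by
    intro b hb hb0 f hf
    have h1 : RegF k x (f / b) := by
      intro P hP
      have h2 := hf P hP
      rw [goE_apply h x b P hP] at h2
      rcases h2 with rfl | h2
      · left; simp
      by_cases hf0 : f = 0
      · left; simp [hf0]
      right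
      rw [div_eq_mul_inv, P.ord_mul hf0 (inv_ne_zero hb0), P.ord_inv]
      omega
    have h2 := hmul _ _ h1 hb
    rwa [div_mul_cancel₀ _ hb0] at h2
  obtain ⟨P₀, hP₀⟩ := exists_place_ord_pos h hx
  obtain ⟨b₀, hb₀, hb₀0, -⟩ := hrad P₀ hP₀.le
  set T := (goE k x b₀).support with hT
  have hTfin : ∀ P ∈ T, 0 ≤ P.ord x := by
    intro P hP
    by_contra hcon
    exact (Finsupp.mem_support_iff.mp hP) (goE_apply_of_neg x b₀ P hcon)
  set Z := T.filter (fun P => ∀ b ∈ I, D2_ge P 1 b) with hZ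
  -- the induction
  have hind : ∀ T' : Finset (Place k Ft), T' ⊆ T → ∃ E : Divisor k Ft,
      (∀ f, goJ k x E f → f ∈ I) ∧ E ≤ goE k x b₀ ∧
      ∀ P ∈ T', E P ≤ if P ∈ Z then 1 else 0 := by
    intro T'
    induction T' using Finset.induction_on with
    | empty => exact fun _ => ⟨goE k x b₀, hprin b₀ hb₀ hb₀0, le_rfl, by simp⟩
    | insert P T' hP ih =>
      intro hsub
      obtain ⟨E, hE1, hE2, hE3⟩ := ih (fun Q hQ => hsub (Finset.mem_insert_of_mem hQ))
      have hPT : P ∈ T := hsub (Finset.mem_insert_self P T')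
      have hPfin := hTfin P hPT
      obtain ⟨b, hb, hb0, hbP⟩ : ∃ b ∈ I, b ≠ 0 ∧ P.ord b ≤ if P ∈ Z then 1 else 0 := by
        by_cases hPZ : P ∈ Z
        · rw [if_pos hPZ]
          exact hrad P hPfin
        · rw [if_neg hPZ]
          have h1 : ¬ ∀ b ∈ I, D2_ge P 1 b := fun hall =>
            hPZ (Finset.mem_filter.mpr ⟨hPT, hall⟩)
          push Not at h1
          obtain ⟨b, hb, hb1⟩ := h1
          refine ⟨b, hb, fun h0 => hb1 (Or.inl h0), ?_⟩
          by_contra hcon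
          exact hb1 (Or.inr (by omega))
      refine ⟨E ⊓ goE k x b, ?_, inf_le_left.trans hE2, ?_⟩
      · intro f hf
        obtain ⟨f₁, f₂, hf₁, hf₂, rfl⟩ := go_J_inf h hx _ _ hf
        exact I.add_mem (hE1 _ hf₁) (hprin b hb hb0 _ hf₂)
      · intro Q hQ
        rw [Finsupp.inf_apply]
        rcases Finset.mem_insert.mp hQ with rfl | hQ
        · rw [goE_apply h x b Q hPfin]
          exact (min_le_right _ _).trans hbP
        · exact (min_le_left _ _).trans (hE3 Q hQ)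
  obtain ⟨E, hE1, hE2, hE3⟩ := hind T subset_rfl
  refine ⟨Z, fun P hP => hTfin P (Finset.mem_filter.mp hP).1, fun b => ⟨fun hb => ?_, ?_⟩⟩
  · exact ⟨hreg b hb, fun P hP => (Finset.mem_filter.mp hP).2 b hb⟩
  · rintro ⟨hb1, hb2⟩
    apply hE1
    intro P hP
    by_cases hPT : P ∈ T
    · have h3 := hE3 P hPT
      by_cases hPZ : P ∈ Z
      · rw [if_pos hPZ] at h3
        exact D2.ge_mono P h3 (hb2 P hPZ)
      · rw [if_neg hPZ] at h3
        exact D2.ge_mono P h3 (hb1 P hP)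
    · have h3 := hE2 P
      rw [Finsupp.notMem_support_iff.mp hPT] at h3
      exact D2.ge_mono P h3 (hb1 P hP)

/-- (GO3) Goursat -/
theorem exists_nodes_ring [IsAlgClosed k] (h : IsFF k Ft) {x₁ x₂ : Ft}
    (hx₁ : Transcendental k x₁) (hx₂ : Transcendental k x₂)
    (Rt : Subalgebra k (Ft × Ft))
    (hle : ∀ φ ∈ Rt, RegF k x₁ φ.1 ∧ RegF k x₂ φ.2)
    (hpr₁ : ∀ a, RegF k x₁ a → ∃ b, (a, b) ∈ Rt)
    (hpr₂ : ∀ b, RegF k x₂ b → ∃ a, (a, b) ∈ Rt)
    (hrad : ∀ P : Place k Ft, 0 ≤ P.ord x₂ → ∃ b, b ≠ 0 ∧ ((0 : Ft), b) ∈ Rt ∧ P.ord b ≤ 1) :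
    ∃ S : Finset (Place k Ft × Place k Ft),
      (∀ s ∈ S, 0 ≤ s.1.ord x₁) ∧ (∀ s ∈ S, 0 ≤ s.2.ord x₂) ∧
      (∀ s ∈ S, ∀ t ∈ S, s.1 = t.1 → s = t) ∧ (∀ s ∈ S, ∀ t ∈ S, s.2 = t.2 → s = t) ∧
      ∀ φ : Ft × Ft, φ ∈ Rt ↔ RegF k x₁ φ.1 ∧ RegF k x₂ φ.2 ∧ Glued S (fun _ => 1) φ := by
  classical
  -- the ideal `I₂`
  let I : Submodule k Ft :=
    { carrier := {b | ((0 : Ft), b) ∈ Rt}
      add_mem' := by
        intro a b ha hb
        have := Rt.add_mem ha hb
        simpa using this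
      zero_mem' := Rt.zero_mem
      smul_mem' := by
        intro c b hb
        have := Rt.smul_mem hb c
        simpa using this }
  have hImem : ∀ b, b ∈ I ↔ ((0 : Ft), b) ∈ Rt := fun _ => Iff.rfl
  obtain ⟨Z, hZfin, hZ⟩ := exists_zero_set h hx₂ I (fun b hb => (hle _ hb).2)
    (by
      intro a b ha hb
      obtain ⟨a', ha'⟩ := hpr₂ a ha
      have := Rt.mul_mem ha' hb
      rw [hImem]
      simpa using this)
    (by
      intro P hP
      obtain ⟨b, hb0, hb, hbP⟩ := hrad P hP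
      exact ⟨b, hb, hb0, hbP⟩)
  -- the characters
  let χ : Place k Ft → Ft → k := fun Q a =>
    if hex : ∃ b, (a, b) ∈ Rt then evP Q hex.choose else 0
  have hχ : ∀ Q ∈ Z, ∀ a b, (a, b) ∈ Rt → χ Q a = evP Q b := by
    intro Q hQ a b hab
    have hex : ∃ b, (a, b) ∈ Rt := ⟨b, hab⟩
    show (if hex : ∃ b, (a, b) ∈ Rt then evP Q hex.choose else 0) = evP Q b
    rw [dif_pos hex]
    have h1 := Rt.sub_mem hex.choose_spec hab
    have h2 : hex.choose - b ∈ I := by
      rw [hImem]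
      simpa using h1
    have h3 := ((hZ _).mp h2).2 Q hQ
    have r1 : D2_ge Q 0 hex.choose := (hle _ hex.choose_spec).2 Q (hZfin Q hQ)
    have r2 : D2_ge Q 0 b := (hle _ hab).2 Q (hZfin Q hQ)
    have h4 := (evP_eq_zero_iff h Q (D2.ge_sub Q r1 r2)).mpr h3
    have h5 : evP Q (hex.choose - b + b) = evP Q (hex.choose - b) + evP Q b :=
      evP_add h Q (D2.ge_sub Q r1 r2) r2
    rw [sub_add_cancel, h4, zero_add] at h5
    exact h5
  have hplace : ∀ Q ∈ Z, ∃ P : Place k Ft, 0 ≤ P.ord x₁ ∧ ∀ a, RegF k x₁ a → evP P a = χ Q a := by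
    intro Q hQ
    have hQfin := hZfin Q hQ
    apply exists_place_of_char h hx₁ (χ Q)
    · rw [hχ Q hQ 1 1 Rt.one_mem]
      have := evP_algebraMap Q (1 : k)
      rwa [map_one] at this
    · intro a b ha hb
      obtain ⟨a', ha'⟩ := hpr₁ a ha
      obtain ⟨b', hb'⟩ := hpr₁ b hb
      rw [hχ Q hQ _ _ ha', hχ Q hQ _ _ hb', hχ Q hQ (a + b) (a' + b') (Rt.add_mem ha' hb'),
        evP_add h Q ((hle _ ha').2 Q hQfin) ((hle _ hb').2 Q hQfin)]
    · intro a b ha hb
      obtain ⟨a', ha'⟩ := hpr₁ a ha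
      obtain ⟨b', hb'⟩ := hpr₁ b hb
      rw [hχ Q hQ _ _ ha', hχ Q hQ _ _ hb', hχ Q hQ (a * b) (a' * b') (Rt.mul_mem ha' hb'),
        evP_mul h Q ((hle _ ha').2 Q hQfin) ((hle _ hb').2 Q hQfin)]
    · intro c
      rw [hχ Q hQ (algebraMap k Ft c) (algebraMap k Ft c) (Rt.algebraMap_mem c), evP_algebraMap]
  choose! pl hpl1 hpl2 using hplace
  refine ⟨Z.image (fun Q => (pl Q, Q)), ?_, ?_, ?_, ?_, ?_⟩
  · intro s hs
    obtain ⟨Q, hQ, rfl⟩ := Finset.mem_image.mp hs
    exact hpl1 Q hQ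
  · intro s hs
    obtain ⟨Q, hQ, rfl⟩ := Finset.mem_image.mp hs
    exact hZfin Q hQ
  · intro s hs t ht hst
    obtain ⟨Q, hQ, rfl⟩ := Finset.mem_image.mp hs
    obtain ⟨Q', hQ', rfl⟩ := Finset.mem_image.mp ht
    have hst' : pl Q = pl Q' := hst
    by_cases hQQ : Q = Q'
    · rw [hQQ]
    exfalso
    obtain ⟨n₀, hn₀⟩ := exists_mem_L_evP h hx₂ Z hZfin
    obtain ⟨b, hb, hbv⟩ := hn₀ n₀ le_rfl (fun R => if R = Q then 1 else 0)
    have hbreg : RegF k x₂ b := fun P hP => ge_zero_of_mem_L h hb P hP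
    obtain ⟨a, hab⟩ := hpr₂ b hbreg
    have hareg := (hle _ hab).1
    have e1 := hpl2 Q hQ a hareg
    have e2 := hpl2 Q' hQ' a hareg
    rw [hχ Q hQ _ _ hab, hbv Q hQ, if_pos rfl] at e1
    rw [hχ Q' hQ' _ _ hab, hbv Q' hQ', if_neg (Ne.symm hQQ), ← hst', e1] at e2
    exact one_ne_zero e2
  · intro s hs t ht hst
    obtain ⟨Q, hQ, rfl⟩ := Finset.mem_image.mp hs
    obtain ⟨Q', hQ', rfl⟩ := Finset.mem_image.mp ht
    have hst' : Q = Q' := hst
    rw [hst']
  · rintro ⟨a, b⟩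
    constructor
    · intro hab
      refine ⟨(hle _ hab).1, (hle _ hab).2, ?_⟩
      intro s hs
      obtain ⟨Q, hQ, rfl⟩ := Finset.mem_image.mp hs
      show evP (pl Q) a = 1 * evP Q b
      rw [one_mul, hpl2 Q hQ a (hle _ hab).1, hχ Q hQ _ _ hab]
    · rintro ⟨ha, hb, hgl⟩
      have ha' : RegF k x₁ a := ha
      have hb' : RegF k x₂ b := hb
      obtain ⟨b', hab'⟩ := hpr₁ a ha'
      have hb'reg : RegF k x₂ b' := (hle _ hab').2
      have h1 : b - b' ∈ I := by
        rw [hZ]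
        refine ⟨go_reg_sub hb' hb'reg, fun Q hQ => ?_⟩
        have hQfin := hZfin Q hQ
        have h2 : evP (pl Q) a = 1 * evP Q b := hgl (pl Q, Q) (Finset.mem_image.mpr ⟨Q, hQ, rfl⟩)
        rw [one_mul, hpl2 Q hQ a ha', hχ Q hQ _ _ hab'] at h2
        rw [← evP_eq_zero_iff h Q (D2.ge_sub Q (hb' Q hQfin) (hb'reg Q hQfin))]
        have h5 : evP Q (b - b' + b') = evP Q (b - b') + evP Q b' :=
          evP_add h Q (D2.ge_sub Q (hb' Q hQfin) (hb'reg Q hQfin)) (hb'reg Q hQfin)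
        rw [sub_add_cancel, ← h2] at h5
        exact (add_eq_right.mp h5.symm)
      have h2 := Rt.add_mem hab' ((hImem _).mp h1)
      simpa using h2

end GO

end Fermat.Agent.S34Lib
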