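import Fermat.Agent.S34.Defs
import Fermat.Agent.S34.EvP
import Fermat.Agent.S34.FFSup
import Fermat.Agent.S34.PoleLemma2
import Fermat.Agent.S34.Filtration
import Fermat.Agent.S34.Goursat
import Fermat.Agent.S34.Connected3

/-!
# S34 package, ABSTRACT part, leaf (T0): the structure of the special fibre
(assembly of PL2, FI, GO, CN)
-/

set_option autoImplicit false

open AlgebraicCurve IntermediateField Polynomial Fermat.Agent.S24Lib Fermat.Agent.FFLib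
  Fermat.Agent.S18Lib

namespace Fermat.Agent.S34Lib

section T0

variable {K k F Ft : Type*} [Field K] [Field k] [Field F] [Algebra K F] [Field Ft] [Algebra k Ft]
  {A : ValuationSubring K} {resK : A →+* k}

theorem T0_L_mono [IsAlgClosed K] (hF : IsFF K F) (x : F) {a b : ℕ} (h : a ≤ b) :
    riemannRochSpace (a • poleDiv K x) ≤ riemannRochSpace (b • poleDiv K x) := by
  rw [← CN3_maE_left, ← CN3_maE_left]
  exact CN3_mono_left hF x h

theorem T0_L_mul (x : F) {a b : ℕ} {f g : F} (hf : f ∈ riemannRochSpace (a • poleDiv K x))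
    (hg : g ∈ riemannRochSpace (b • poleDiv K x)) :
    f * g ∈ riemannRochSpace ((a + b) • poleDiv K x) := by
  rw [mem_L_iff] at hf hg ⊢
  intro v
  refine D2.ge_mono v (le_of_eq ?_) (D2.ge_mul v (hf v) (hg v))
  rw [add_smul, Finsupp.add_apply]
  ring

/-- `R̃ = ⋃ₙ V(L(n (x)_∞))` -/
def T0_Rt [IsAlgClosed K] (hF : IsFF K F) (hres : Function.Surjective resK)
    (R : RedG A resK F (Ft × Ft)) (x : R.O) : Subalgebra k (Ft × Ft) where
  carrier := {φ | ∃ n : ℕ, φ ∈ redSp R hres (riemannRochSpace (n • poleDiv K ((x : R.O) : F)))}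
  mul_mem' := by
    rintro _ _ ⟨n, f, hf, rfl⟩ ⟨m, g, hg, rfl⟩
    exact ⟨n + m, f * g, T0_L_mul _ hf hg, map_mul _ _ _⟩
  add_mem' := by
    rintro a b ⟨n, ha⟩ ⟨m, hb⟩
    exact ⟨max n m, Submodule.add_mem _
      (redSp_mono hres (T0_L_mono hF _ (le_max_left n m)) ha)
      (redSp_mono hres (T0_L_mono hF _ (le_max_right n m)) hb)⟩
  algebraMap_mem' := by
    intro c
    obtain ⟨c', rfl⟩ := hres c
    refine ⟨0, R.const c', ?_, R.red_const c'⟩
    rw [zero_smul, RedG.coe_const, mem_L_zero_iff hF]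
    exact ⟨_, rfl⟩

theorem T0_mem_Rt [IsAlgClosed K] (hF : IsFF K F) (hres : Function.Surjective resK)
    (R : RedG A resK F (Ft × Ft)) (x : R.O) (φ : Ft × Ft) :
    φ ∈ T0_Rt hF hres R x ↔
      ∃ n : ℕ, φ ∈ redSp R hres (riemannRochSpace (n • poleDiv K ((x : R.O) : F))) := Iff.rfl

theorem exists_nodes (hF : IsFF K F) (hFt : IsFF k Ft) [IsAlgClosed K] [IsAlgClosed k]
    (hres : Function.Surjective resK) (harch : IsArch A)
    (R : RedG A resK F (Ft × Ft)) (x : R.O) (hx₁ : Transcendental k (R.red x).1)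
    (hx₂ : Transcendental k (R.red x).2)
    (hdeg : Module.finrank K⟮((x : R.O) : F)⟯ F ≤
      Module.finrank k⟮(R.red x).1⟯ Ft + Module.finrank k⟮(R.red x).2⟯ Ft)
    (htop : ∃ n₁ : ℕ, ∀ n, n₁ ≤ n → Lt k (R.red x).1 (R.red x).2 (n + 1) ≤
      redSp R hres (riemannRochSpace ((n + 1) • poleDiv K ((x : R.O) : F))) ⊔
        Lt k (R.red x).1 (R.red x).2 n)
    (hpr₁ : ∀ (n : ℕ) (a : Ft), a ∈ riemannRochSpace (n • poleDiv k (R.red x).1) →
      ∃ (b : Ft) (m : ℕ), (a, b) ∈ redSp R hres (riemannRochSpace (m • poleDiv K ((x : R.O) : F))))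
    (hpr₂ : ∀ (n : ℕ) (b : Ft), b ∈ riemannRochSpace (n • poleDiv k (R.red x).2) →
      ∃ (a : Ft) (m : ℕ), (a, b) ∈ redSp R hres (riemannRochSpace (m • poleDiv K ((x : R.O) : F))))
    (hrad : ∀ P : Place k Ft, 0 ≤ P.ord (R.red x).2 → ∃ (b : Ft) (m : ℕ), b ≠ 0 ∧
      ((0 : Ft), b) ∈ redSp R hres (riemannRochSpace (m • poleDiv K ((x : R.O) : F))) ∧
      P.ord b ≤ 1) :
    ∃ (S : Finset (Place k Ft × Place k Ft)) (n₀ : ℕ),
      IsNodeData (R.red x).1 (R.red x).2 S ∧ HW R hres x S n₀ := by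
  classical
  have hLt := redSp_le_Lt hF hFt hres R x hx₁ hx₂ hdeg
  have hregLt : ∀ (n : ℕ) (φ : Ft × Ft), φ ∈ Lt k (R.red x).1 (R.red x).2 n →
      RegF k (R.red x).1 φ.1 ∧ RegF k (R.red x).2 φ.2 := by
    intro n φ hφ
    exact ⟨fun P hP => ge_zero_of_mem_L hFt hφ.1 P hP, fun P hP => ge_zero_of_mem_L hFt hφ.2 P hP⟩
  obtain ⟨S, hf1, hf2, hi1, hi2, hS⟩ := exists_nodes_ring hFt hx₁ hx₂ (T0_Rt hF hres R x)
    (by
      rintro φ ⟨n, hφ⟩
      exact hregLt n φ (hLt n hφ))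
    (by
      intro a ha
      obtain ⟨n, hn⟩ := exists_mem_L_of_regular hFt hx₁ a ha
      obtain ⟨b, m, hb⟩ := hpr₁ n a hn
      exact ⟨b, m, hb⟩)
    (by
      intro b hb
      obtain ⟨n, hn⟩ := exists_mem_L_of_regular hFt hx₂ b hb
      obtain ⟨a, m, ha⟩ := hpr₂ n b hn
      exact ⟨a, m, ha⟩)
    (by
      intro P hP
      obtain ⟨b, m, hb0, hb, hPb⟩ := hrad P hP
      exact ⟨b, hb0, ⟨m, hb⟩, hPb⟩)
  obtain ⟨n₂, hfil⟩ := filtration hF hFt hres R x hx₁ hx₂ hdeg htop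
  have hHW : HW R hres x S n₂ := by
    intro n hn φ
    constructor
    · intro hφ
      exact ⟨hLt n hφ, ((hS φ).1 ⟨n, hφ⟩).2.2⟩
    · rintro ⟨hφ, hgl⟩
      obtain ⟨m, hm⟩ := (hS φ).2 ⟨(hregLt n φ hφ).1, (hregLt n φ hφ).2, hgl⟩
      exact hfil n hn (max n m) (le_max_left n m)
        ⟨redSp_mono hres (T0_L_mono hF _ (le_max_right n m)) hm, hφ⟩
  refine ⟨S, n₂, ⟨?_, hf1, hf2, hi1, hi2⟩, hHW⟩
  by_contra hne
  rw [Finset.not_nonempty_iff_eq_empty] at hne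
  refine not_full hF hFt hres harch R x hx₁ hx₂ n₂ (fun n hn => ?_)
  ext φ
  rw [hHW n hn φ, hne]
  exact ⟨fun h => h.1, fun h => ⟨h, fun s hs => absurd hs (Finset.notMem_empty s)⟩⟩

end T0

end Fermat.Agent.S34Lib
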