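import Fermat.Agent.S34.ModDefs
import Fermat.Agent.S34.Frob
import Fermat.Agent.S34.FFSup
import Fermat.Agent.S34.Diff
import Fermat.Agent.S34.Connected3
import Fermat.Agent.S34.RedG2Cor
import Fermat.Agent.S34.PolesJ
import Fermat.Agent.S34.Pullback
import Fermat.Agent.S34.Degrees
import Fermat.Agent.S34.GoodM
import Fermat.Agent.S34.VqBound
import Fermat.Agent.S18.RiemannLower
import Fermat.Agent.S18.RiemannUpper

/-! # S34 (TOP1) + (TOP): the top of the filtration -/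

set_option autoImplicit false
set_option synthInstance.maxHeartbeats 400000

open AlgebraicCurve IntermediateField Polynomial ModularCurve CongruenceSubgroup
  Fermat.Agent.S24Lib Fermat.Agent.FFLib Fermat.Agent.S18Lib Fermat.Agent.S28Lib
  Fermat.Agent.ESLib

namespace Fermat.Agent.S34Lib

noncomputable section

variable (M q : ℕ) [NeZero M] [NeZero q] [hqF : Fact q.Prime] (hqM : ¬ q ∣ M)
variable (A : ValuationSubring Qb) (hA : A.LiesOverPrime q)
variable {M q hqM A}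
variable {R : RedG A (IsLocalRing.residue A) (FB (q * M)) (FT A M × FT A M)}

/-- (TOP1) `S34/Top.lean`, pure function field -/
theorem top_split {k Ft : Type*} [Field k] [Field Ft] [Algebra k Ft] [IsAlgClosed k]
    (h : IsFF k Ft) {t : Ft} (ht : Transcendental k t) (q : ℕ) :
    ∃ n₁ : ℕ, ∀ n, n₁ ≤ n → ∀ a ∈ riemannRochSpace (((n + 1) * (q + 1)) • poleDiv k t),
      ∃ y ∈ riemannRochSpace ((n + 1 - q) • poleDiv k t),
        a - y * t ^ (q * (n + 2)) ∈ riemannRochSpace ((n * (q + 1)) • poleDiv k t) := by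
  obtain ⟨c, hc⟩ := L_sup_eq h
  have ht0 : t ≠ 0 := by
    rintro rfl
    exact ht isAlgebraic_zero
  refine ⟨2 * q + c.toNat, fun n hn a ha => ?_⟩
  set A : Divisor k Ft := ((n + 1) * (q + 1)) • poleDiv k t - (q * (n + 2)) • zeroDiv k t with hA
  set B : Divisor k Ft := (n * (q + 1)) • poleDiv k t with hB
  have hAv : ∀ v : Place k Ft, A v = ((n : ℤ) + 1) * (q + 1) * max (-v.ord t) 0
      - q * (n + 2) * max (v.ord t) 0 := by
    intro v
    simp [hA, poleDiv_apply h, zeroDiv_apply h]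
  have hBv : ∀ v : Place k Ft, B v = (n : ℤ) * (q + 1) * max (-v.ord t) 0 := by
    intro v
    simp [hB, poleDiv_apply h]
  have hsup : A ⊔ B = ((n + 1) * (q + 1)) • poleDiv k t := by
    ext v
    rw [Finsupp.sup_apply, hAv, hBv]
    simp only [Finsupp.smul_apply, poleDiv_apply h, nsmul_eq_mul, Nat.cast_mul, Nat.cast_add,
      Nat.cast_one]
    have hn0 : (0 : ℤ) ≤ n := Int.natCast_nonneg n
    have hq0 : (0 : ℤ) ≤ q := Int.natCast_nonneg q
    rcases le_total 0 (v.ord t) with ho | ho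
    · rw [max_eq_right (by omega : -v.ord t ≤ 0), max_eq_left ho]
      simp only [mul_zero, zero_sub]
      apply max_eq_right
      have : 0 ≤ (q : ℤ) * (n + 2) * v.ord t := by positivity
      omega
    · rw [max_eq_left (by omega : 0 ≤ -v.ord t), max_eq_right ho]
      simp only [mul_zero, sub_zero]
      apply max_eq_left
      have h1 : (0 : ℤ) ≤ -v.ord t := by omega
      nlinarith [mul_nonneg (add_nonneg hq0 zero_le_one) h1]
  have hinf : (n * (q + 1)) • poleDiv k t - (q * (n + 2)) • zeroDiv k t ≤ A ⊓ B := by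
    intro v
    rw [Finsupp.inf_apply, hAv, hBv]
    simp only [Finsupp.sub_apply, Finsupp.smul_apply, poleDiv_apply h, zeroDiv_apply h,
      nsmul_eq_mul, Nat.cast_mul, Nat.cast_add, Nat.cast_one, Nat.cast_ofNat]
    have hn0 : (0 : ℤ) ≤ n := Int.natCast_nonneg n
    have hq0 : (0 : ℤ) ≤ q := Int.natCast_nonneg q
    have h1 : (0 : ℤ) ≤ max (-v.ord t) 0 := le_max_right _ _
    have h2 : (0 : ℤ) ≤ max (v.ord t) 0 := le_max_right _ _
    apply le_min
    · nlinarith [mul_nonneg (add_nonneg hq0 zero_le_one) h1]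
    · have : 0 ≤ (q : ℤ) * (n + 2) * max (v.ord t) 0 := by positivity
      omega
  have hdeg : c ≤ Divisor.degree (A ⊓ B) := by
    refine le_trans ?_ (sup_degree_mono h hinf)
    rw [map_sub, map_nsmul, map_nsmul, degree_poleDiv h ht, degree_zeroDiv h ht]
    have hd := sup_finrank_pos h ht
    simp only [nsmul_eq_mul, Nat.cast_mul, Nat.cast_add, Nat.cast_one, Nat.cast_ofNat]
    have h1 : (1 : ℤ) ≤ (Module.finrank k⟮t⟯ Ft : ℤ) := by exact_mod_cast hd
    have h2 : c ≤ (n : ℤ) - 2 * q := by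
      have := Int.self_le_toNat c
      have h3 : (2 * q + c.toNat : ℤ) ≤ n := by exact_mod_cast hn
      omega
    have h4 : (0 : ℤ) ≤ (n : ℤ) - 2 * q := by
      have h3 : (2 * q + c.toNat : ℤ) ≤ n := by exact_mod_cast hn
      have := Int.natCast_nonneg c.toNat
      omega
    nlinarith
  rw [← hsup, ← hc A B hdeg] at ha
  obtain ⟨a₁, ha₁, a₂, ha₂, rfl⟩ := Submodule.mem_sup.mp ha
  refine ⟨a₁ * (t ^ (q * (n + 2)))⁻¹, ?_, ?_⟩
  · rw [mem_L_iff] at ha₁ ⊢
    intro v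
    rcases ha₁ v with h0 | h0
    · left; rw [h0, zero_mul]
    by_cases ha0 : a₁ = 0
    · left; rw [ha0, zero_mul]
    right
    rw [v.ord_mul ha0 (inv_ne_zero (pow_ne_zero _ ht0)), v.ord_inv, wa_ord_pow]
    rw [hAv] at h0
    simp only [Finsupp.smul_apply, poleDiv_apply h, nsmul_eq_mul]
    have hqn : q ≤ n + 1 := by omega
    rw [Nat.cast_sub hqn]
    push_cast
    rcases le_total 0 (v.ord t) with ho | ho
    · rw [max_eq_right (by omega : -v.ord t ≤ 0), max_eq_left ho] at h0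
      rw [max_eq_right (by omega : -v.ord t ≤ 0)]
      linarith
    · rw [max_eq_left (by omega : 0 ≤ -v.ord t), max_eq_right ho] at h0
      rw [max_eq_left (by omega : 0 ≤ -v.ord t)]
      linarith
  · have e : a₁ + a₂ - a₁ * (t ^ (q * (n + 2)))⁻¹ * t ^ (q * (n + 2)) = a₂ := by
      rw [mul_assoc, inv_mul_cancel₀ (pow_ne_zero _ ht0)]
      ring
    rw [e]
    exact ha₂

/-- the two lifts -/
theorem TOP_core (hR : IsQRed2 M q hqM A R) (hA : A.LiesOverPrime q) (n : ℕ) (hqn : q ≤ n + 1)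
    (z : OC M hqM A hA)
    (hz : (z : FB M) ∈ riemannRochSpace ((n + 1 - q) • poleDiv Qb (jBar M))) :
    (∃ f : R.O, ((f : R.O) : FB (q * M)) ∈
        riemannRochSpace ((n + 1) • poleDiv Qb (jN M q * jQ M q)) ∧
      R.red f = (redC M hqM A hA z * jT A M ^ (q * (n + 2)),
        Vq M q A hA (redC M hqM A hA z) * jT A M ^ (n + 2))) ∧
    (∃ f : R.O, ((f : R.O) : FB (q * M)) ∈
        riemannRochSpace ((n + 1) • poleDiv Qb (jN M q * jQ M q)) ∧
      R.red f = (Vq M q A hA (redC M hqM A hA z) * jT A M ^ (n + 2),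
        redC M hqM A hA z * jT A M ^ (q * (n + 2)))) ∧
    Vq M q A hA (redC M hqM A hA z) * jT A M ^ (n + 2) ∈
      riemannRochSpace ((n * (q + 1)) • poleDiv (kk A) (jT A M)) := by
  have hac : IsAlgClosed (kk A) := isAlgClosed_kk A
  have hFt := isFF_FT A M
  have hF := isFF_FB (q * M)
  have hq2 : 2 ≤ q := hqF.out.two_le
  obtain ⟨h1, r1⟩ := pi1_mem hA hR z
  obtain ⟨h2, r2⟩ := pi2_mem hA hR z
  obtain ⟨h3, r3⟩ := jN_mem hR hA
  obtain ⟨h4, r4⟩ := jQ_mem hR hA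
  have hJ0 := dg_poleDiv_nonneg hF (jN M q)
  have hJ0' := dg_poleDiv_nonneg hF (jQ M q)
  refine ⟨⟨⟨_, h1⟩ * ⟨_, h4⟩ ^ (n + 2), ?_, ?_⟩, ⟨⟨_, h2⟩ * ⟨_, h3⟩ ^ (n + 2), ?_, ?_⟩, ?_⟩
  · have e1 := pi1_mem_L M q _ _ hz
    have e2 := CN3_pow_mem hF (jQ M q) (n + 2)
    have e3 := T1d_mul_mem e1 e2
    refine L_mono ?_ e3
    rw [poleDiv_mul M q hqM]
    intro v
    have h5 := poleDiv_jQ_le M q v
    have h6 := hJ0 v
    have h7 := hJ0' v
    simp only [Finsupp.add_apply, Finsupp.smul_apply, nsmul_eq_mul, Finsupp.coe_zero,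
      Pi.zero_apply] at h5 h6 h7 ⊢
    rw [Nat.cast_sub hqn]
    push_cast
    nlinarith
  · rw [map_mul, map_pow, r1, r4]
    ext
    · simp only [Prod.pow_mk, Prod.mk_mul_mk, ← pow_mul]
    · simp only [Prod.pow_mk, Prod.mk_mul_mk]
  · have e1 := wq_mem_L M q hqM _ _ (pi1_mem_L M q _ _ hz)
    have e2 := CN3_pow_mem hF (jN M q) (n + 2)
    have e3 := T1d_mul_mem e1 e2
    refine L_mono ?_ e3
    rw [poleDiv_mul M q hqM]
    intro v
    have h5 := poleDiv_jN_le M q hqM v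
    have h6 := hJ0 v
    have h7 := hJ0' v
    simp only [Finsupp.add_apply, Finsupp.smul_apply, nsmul_eq_mul, Finsupp.coe_zero,
      Pi.zero_apply] at h5 h6 h7 ⊢
    rw [Nat.cast_sub hqn]
    push_cast
    nlinarith
  · rw [map_mul, map_pow, r2, r3]
    ext
    · simp only [Prod.pow_mk, Prod.mk_mul_mk]
    · simp only [Prod.pow_mk, Prod.mk_mul_mk, ← pow_mul]
  · have e1 := Vq_mem_L hR hA _ z hz
    have e2 := CN3_pow_mem hFt (jT A M) (n + 2)
    have e3 := T1d_mul_mem e1 e2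
    refine L_mono ?_ e3
    rw [← add_nsmul]
    apply nsmul_le_nsmul_left (dg_poleDiv_nonneg hFt _)
    obtain ⟨m, hm⟩ : ∃ m, n + 1 = q + m := ⟨n + 1 - q, by omega⟩
    have : n + 1 - q = m := by omega
    rw [this]
    have hn : n = q + m - 1 := by omega
    have hq1 : 1 ≤ q := by omega
    obtain ⟨q', rfl⟩ : ∃ q', q = q' + 2 := ⟨q - 2, by omega⟩
    have hn' : n = q' + 1 + m := by omega
    subst hn'
    nlinarith

/-- (TOP) `S34/Top.lean` -/
theorem htop_mod (hbase : 2 ∣ M ∨ 3 ∣ M) (hR : IsQRed2 M q hqM A R) (hA : A.LiesOverPrime q)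
    (x : R.O) (hx : ((x : R.O) : FB (q * M)) = jN M q * jQ M q) :
    ∃ n₁ : ℕ, ∀ n, n₁ ≤ n → Lt (kk A) (R.red x).1 (R.red x).2 (n + 1) ≤
      redSp R IsLocalRing.residue_surjective
        (riemannRochSpace ((n + 1) • poleDiv Qb ((x : R.O) : FB (q * M)))) ⊔
        Lt (kk A) (R.red x).1 (R.red x).2 n := by
  have hac : IsAlgClosed (kk A) := isAlgClosed_kk A
  have hFt := isFF_FT A M
  have ht := transcendental_jT A M
  obtain ⟨x', hx', hred⟩ := exists_xO hR hA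
  have hxx : x = x' := Subtype.ext (hx.trans hx'.symm)
  obtain ⟨n₁, hn₁⟩ := top_split hFt ht q
  obtain ⟨n₀, hn₀⟩ := exists_lift_L M q hqM hbase A hA
  refine ⟨max n₁ (n₀ + q), fun n hn => ?_⟩
  have hn1 : n₁ ≤ n := le_trans (le_max_left _ _) hn
  have hn2 : n₀ + q ≤ n := le_trans (le_max_right _ _) hn
  rw [hx, hxx, hred]
  have hLt : ∀ m : ℕ, Lt (kk A) (jT A M ^ (q + 1)) (jT A M ^ (q + 1)) m =
      (riemannRochSpace ((m * (q + 1)) • poleDiv (kk A) (jT A M))).prod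
        (riemannRochSpace ((m * (q + 1)) • poleDiv (kk A) (jT A M))) := by
    intro m
    unfold Lt
    rw [poleDiv_jT_pow, ← mul_nsmul']
  simp only [hLt]
  rintro ⟨a, b⟩ hab
  obtain ⟨ha, hb⟩ := Submodule.mem_prod.mp hab
  simp only at ha hb
  obtain ⟨y₁, hy₁, hay⟩ := hn₁ n hn1 a ha
  obtain ⟨y₂, hy₂, hby⟩ := hn₁ n hn1 b hb
  obtain ⟨z₁, hz₁, rfl⟩ := hn₀ (n + 1 - q) (by omega) y₁ hy₁
  obtain ⟨z₂, hz₂, rfl⟩ := hn₀ (n + 1 - q) (by omega) y₂ hy₂
  obtain ⟨⟨f₁, hf₁, rf₁⟩, -, hv₁⟩ := TOP_core hR hA n (by omega) z₁ hz₁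
  obtain ⟨-, ⟨f₂, hf₂, rf₂⟩, hv₂⟩ := TOP_core hR hA n (by omega) z₂ hz₂
  have e : ((a, b) : FT A M × FT A M) = R.red (f₁ + f₂) +
      (a - redC M hqM A hA z₁ * jT A M ^ (q * (n + 2))
          - Vq M q A hA (redC M hqM A hA z₂) * jT A M ^ (n + 2),
        b - redC M hqM A hA z₂ * jT A M ^ (q * (n + 2))
          - Vq M q A hA (redC M hqM A hA z₁) * jT A M ^ (n + 2)) := by
    rw [map_add, rf₁, rf₂]
    rw [Prod.mk_add_mk, Prod.mk_add_mk]
    refine Prod.ext ?_ ?_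
    · show a = _
      ring
    · show b = _
      ring
  rw [e]
  apply Submodule.add_mem_sup
  · exact red_mem_redSp _ (Submodule.add_mem _ hf₁ hf₂)
  · exact Submodule.mem_prod.mpr ⟨Submodule.sub_mem _ hay hv₂, Submodule.sub_mem _ hby hv₁⟩

end

end Fermat.Agent.S34Lib
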