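import Fermat.Agent.S34.ModDefs
import Fermat.Agent.S34.Frob
import Fermat.Agent.S34.RedG2
import Fermat.Agent.S34.RedG2Cor
import Fermat.Agent.S34.Arch
import Fermat.Agent.S34.Degrees
import Fermat.Agent.S34.VqBound
import Fermat.Agent.S34.Top
import Fermat.Agent.S34.Proj
import Fermat.Agent.S34.Rad
import Fermat.Agent.S34.Structure
import Fermat.Agent.S34.AbsGalois

/-! # S34 (UK): unipotence of inertia on Kummer generators, base level (`2 ∣ M` or `3 ∣ M`) -/

set_option autoImplicit false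
set_option synthInstance.maxHeartbeats 400000

open AlgebraicCurve IntermediateField Polynomial ModularCurve CongruenceSubgroup
  Fermat.Agent.S24Lib Fermat.Agent.FFLib Fermat.Agent.S18Lib Fermat.Agent.S28Lib
  Fermat.Agent.ESLib

namespace Fermat.Agent.S34Lib

noncomputable section

variable (M q : ℕ) [NeZero M] [NeZero q] [hqF : Fact q.Prime] (hqM : ¬ q ∣ M)

/-- the nodes of the reduction of `X₀(q M)` at `q` -/
theorem UK_exists_nodes (hbase : 2 ∣ M ∨ 3 ∣ M) (A : ValuationSubring Qb)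
    (hA : A.LiesOverPrime q)
    (R : RedG A (IsLocalRing.residue A) (FB (q * M)) (FT A M × FT A M))
    (hR : IsQRed2 M q hqM A R) (x : R.O)
    (hx : ((x : R.O) : FB (q * M)) = jN M q * jQ M q)
    (hxr : R.red x = (jT A M ^ (q + 1), jT A M ^ (q + 1))) :
    Transcendental (kk A) (R.red x).1 ∧ Transcendental (kk A) (R.red x).2 ∧
    ∃ (S : Finset (Place (kk A) (FT A M) × Place (kk A) (FT A M))) (n₀ : ℕ),
      IsNodeData (R.red x).1 (R.red x).2 S ∧ HW R IsLocalRing.residue_surjective x S n₀ := by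
  have := isAlgClosed_kk A
  have hT : Transcendental (kk A) (jT A M ^ (q + 1)) :=
    DG_transcendental_pow (transcendental_jT A M) (Nat.succ_pos q)
  have hx₁ : Transcendental (kk A) (R.red x).1 := by rw [hxr]; exact hT
  have hx₂ : Transcendental (kk A) (R.red x).2 := by rw [hxr]; exact hT
  refine ⟨hx₁, hx₂, ?_⟩
  refine exists_nodes (isFF_FB (q * M)) (isFF_FT A M) IsLocalRing.residue_surjective
    (isArch A hA) R x hx₁ hx₂ ?_ (htop_mod hbase hR hA x hx)
    (fun n a ha => hpr₁_mod hbase hR hA x hx n a ha)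
    (fun n b hb => hpr₂_mod hbase hR hA x hx n b hb)
    (fun P hP => hrad_mod hbase hR hA x hx P hP)
  rw [hx, hxr]
  have h1 := finrank_x_le M q hqM
  have h2 := finrank_jT_pow M A (q + 1) (Nat.succ_pos q)
  have h3 := idx_le_finrank_FT M hqM A hA
  show _ ≤ Module.finrank (kk A)⟮jT A M ^ (q + 1)⟯ (FT A M) +
    Module.finrank (kk A)⟮jT A M ^ (q + 1)⟯ (FT A M)
  rw [h2]
  have h4 : (q + 1) * idx M ≤ (q + 1) * Module.finrank (kk A)⟮jT A M⟯ (FT A M) :=
    Nat.mul_le_mul_left _ h3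
  omega

/-- inertia acts trivially on the joint reduction -/
theorem UK_actsTrivially {A : ValuationSubring Qb}
    {R : RedG A (IsLocalRing.residue A) (FB (q * M)) (FT A M × FT A M)}
    (hR : IsQRed2 M q hqM A R) (σ : GQ) (hσ : σ ∈ A.inertiaSubgroupIn ℚ) :
    ActsTrivially R (arithmeticGalois (modularFunctionFieldFull (q * M)) σ) where
  mem y := (inertia_mem hR σ hσ y).choose
  red y _ := (inertia_mem hR σ hσ y).choose_spec

theorem UK_gal_jBarD (N d : ℕ) [NeZero d] (hd : d ∣ N) (σ : GQ) :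
    gal N σ (jBarD N d hd) = jBarD N d hd := by
  apply Subtype.ext
  rw [coe_gal]
  exact coeffMap_coeffEmb σ _

include hqM in
theorem unip_kummer_base (hbase : 2 ∣ M ∨ 3 ∣ M) (A : ValuationSubring Qb)
    (hA : A.LiesOverPrime q) (σ τ : GQ) (hσ : σ ∈ A.inertiaSubgroupIn ℚ)
    (hτ : τ ∈ A.inertiaSubgroupIn ℚ) (m : ℕ) (hm : ¬ q ∣ m) (f : FB (q * M))
    (hf : IsKum (q * M) m f) :
    ∃ w : FB (q * M), gal (q * M) τ (gal (q * M) σ f) * f
      = w ^ m * (gal (q * M) σ f * gal (q * M) τ f) := by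
  have := isAlgClosed_kk A
  have : CharP (kk A) q := charP_kk hqF.out hA
  obtain ⟨R, hR⟩ := exists_red2 M q hqM A hA
  obtain ⟨x, hx, hxr⟩ := exists_xO hR hA
  obtain ⟨hx₁, hx₂, S, n₀, hS, hW⟩ := UK_exists_nodes M q hqM hbase A hA R hR x hx hxr
  have hmk : (m : kk A) ≠ 0 := by
    rw [Ne, CharP.cast_eq_zero_iff (kk A) q]
    exact hm
  have hτ' : τ⁻¹ ∈ A.inertiaSubgroupIn ℚ := inv_mem hτ
  have h := unip_abstract (isFF_FB (q * M)) (isFF_FT A M) IsLocalRing.residue_surjective R x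
    hx₁ hx₂ S n₀ hS hW m hmk
    (arithmeticGalois (modularFunctionFieldFull (q * M)) σ)
    (arithmeticGalois (modularFunctionFieldFull (q * M)) τ)
    (UK_actsTrivially M q hqM hR σ hσ) (UK_actsTrivially M q hqM hR τ hτ)
    (by rw [← map_inv]; exact UK_actsTrivially M q hqM hR τ⁻¹ hτ')
    (by
      rw [hx]
      show gal (q * M) τ (jN M q * jQ M q) = _
      rw [map_mul]
      congr 1
      · exact UK_gal_jBarD (q * M) 1 (one_dvd _) τ
      · exact UK_gal_jBarD (q * M) q (dvd_mul_right q M) τ)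
    f hf.1 hf.2
  exact h

end

end Fermat.Agent.S34Lib
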