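import Fermat.Agent.S34.Wq
import Fermat.Agent.S18.RedDataC
import Fermat.Agent.S18.JRed
import Fermat.Agent.S18.Level
import Fermat.Agent.ES.KDefs
import Fermat.Agent.ES.Integral

/-! # S34, modular part: definitions (`wq`, `pi1`, `pi2`, `jN`, `jQ`, `RM`, `IsQRed2`) -/

set_option autoImplicit false
set_option synthInstance.maxHeartbeats 400000

open AlgebraicCurve IntermediateField Polynomial ModularCurve CongruenceSubgroup
  Fermat.Agent.S24Lib Fermat.Agent.FFLib Fermat.Agent.S18Lib Fermat.Agent.S28Lib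
  Fermat.Agent.ESLib

namespace Fermat.Agent.S34Lib

noncomputable section

/-! shortcut instances (typeclass inference is very slow without them) -/
instance instAlgFt (A : ValuationSubring Qb) (M : ℕ) : Algebra (kk A) (FT A M) := inferInstance
instance instAlgFt2 (A : ValuationSubring Qb) (M : ℕ) : Algebra (kk A) (FT A M × FT A M) :=
  Prod.algebra (kk A) (FT A M) (FT A M)
instance instModFt2 (A : ValuationSubring Qb) (M : ℕ) : Module (kk A) (FT A M × FT A M) :=
  Algebra.toModule
instance instAlgFB (N : ℕ) : Algebra Qb (FB N) := inferInstance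

/-! ## `S34/ModDefs.lean` (helper1 lands it; imports Wq.lean) -/

variable (M q : ℕ) [NeZero M] [NeZero q] [hqF : Fact q.Prime] (hqM : ¬ q ∣ M)

/-- `w_q` -/
def wq : FB (q * M) ≃ₐ[Qb] FB (q * M) := (exists_wq M q hqF.out hqM).choose

theorem coe_wq (z : LaurentSeries Qb) (hz : z ∈ FB M) (hz' : z ∈ FB (q * M)) :
    ((wq M q hqM ⟨z, hz'⟩ : FB (q * M)) : LaurentSeries Qb) = qExpand Qb q z :=
  (exists_wq M q hqF.out hqM).choose_spec.1 z hz hz'

theorem wq_wq (x : FB (q * M)) : wq M q hqM (wq M q hqM x) = x :=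
  (exists_wq M q hqF.out hqM).choose_spec.2.1 x

theorem wq_gal (σ : GQ) (x : FB (q * M)) :
    wq M q hqM (gal (q * M) σ x) = gal (q * M) σ (wq M q hqM x) :=
  (exists_wq M q hqF.out hqM).choose_spec.2.2 σ x

omit hqF in
theorem FB_le : FB M ≤ FB (q * M) := FB_le_of_dvd (dvd_mul_left M q)

/-- `π₁^* : FB M → FB (q M)` -/
def pi1 : FB M →ₐ[Qb] FB (q * M) := IntermediateField.inclusion (FB_le M q)

/-- `π₂^* = w_q ∘ π₁^*`, `z ↦ z(q^q)` -/
def pi2 : FB M →ₐ[Qb] FB (q * M) := (wq M q hqM : FB (q * M) →ₐ[Qb] FB (q * M)).comp (pi1 M q)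

/-- `j` and `j_q = j(q τ)` at level `q M` -/
def jN : FB (q * M) := jBar (q * M)
def jQ : FB (q * M) := jBarD (q * M) q (dvd_mul_right q M)

variable (A : ValuationSubring Qb) (hA : A.LiesOverPrime q)

/-- the reduction datum of level `M` (concrete form of `S18Lib.exists_redData`) -/
def RM : RedData A (IsLocalRing.residue A) (FB M) (FT A M) where
  O := OC M hqM A hA
  red := redC M hqM A hA
  red_surjective := rd_surjective M hqM A hA
  isUnit_of_red_ne_zero := isUnit_of_redC_ne_zero M hqM A hA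
  algebraMap_mem_iff := algebraMap_mem_OC_iff M hqM A hA
  red_algebraMap := redC_algebraMap M hqM A hA
  exists_scale := rd_exists_scale M hqM A hA
  exists_orth := rd_exists_orth M hqM A hA

/-- compatibility of a joint reduction datum on `FB (q M)` with the two `q`-expansions -/
structure IsQRed2 (R : RedG A (IsLocalRing.residue A) (FB (q * M)) (FT A M × FT A M)) : Prop where
  mem_iff : ∀ x : FB (q * M), x ∈ R.O ↔
    (x : LaurentSeries Qb) ∈ gRing A ∧ ((wq M q hqM x : FB (q * M)) : LaurentSeries Qb) ∈ gRing A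
  red_fst : ∀ (x : R.O) (h : (((x : R.O) : FB (q * M)) : LaurentSeries Qb) ∈ gRing A),
    (((R.red x).1 : FT A M) : LaurentSeries (kk A)) = gRed A ⟨_, h⟩
  red_snd : ∀ (x : R.O)
    (h : ((wq M q hqM ((x : R.O) : FB (q * M)) : FB (q * M)) : LaurentSeries Qb) ∈ gRing A),
    (((R.red x).2 : FT A M) : LaurentSeries (kk A)) = gRed A ⟨_, h⟩

end

end Fermat.Agent.S34Lib
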