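import Fermat.Agent.S34.UnipKummer

/-!
# S34 MOD (LV): descent from the auxiliary level
-/

set_option autoImplicit false
set_option synthInstance.maxHeartbeats 400000

open AlgebraicCurve IntermediateField Polynomial ModularCurve CongruenceSubgroup
  Fermat.Agent.S24Lib Fermat.Agent.FFLib Fermat.Agent.S18Lib Fermat.Agent.S28Lib
  Fermat.Agent.ESLib

namespace Fermat.Agent.S34Lib

/-- the choice of the auxiliary prime -/
theorem LV_exists_prime {q p : ℕ} (hq : q.Prime) (hp : p.Prime) (hpq : p ≠ q) :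
    ∃ p0 : ℕ, p0.Prime ∧ p0 ≠ q ∧ ¬ p ∣ p0 + 1 ∧ (p0 = 2 ∨ p0 = 3) := by
  by_cases h : q ≠ 2 ∧ p ≠ 3
  · refine ⟨2, Nat.prime_two, h.1.symm, ?_, Or.inl rfl⟩
    intro hd
    exact h.2 ((Nat.prime_dvd_prime_iff_eq hp Nat.prime_three).mp hd)
  · refine ⟨3, Nat.prime_three, ?_, ?_, Or.inr rfl⟩
    · rintro rfl
      apply h
      refine ⟨by norm_num, hpq⟩
    · intro hd
      have h4 : p ∣ 2 ^ 2 := by simpa using hd
      have h2 : p = 2 := (Nat.prime_dvd_prime_iff_eq hp Nat.prime_two).mp (hp.dvd_of_dvd_pow h4)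
      apply h
      subst h2
      exact ⟨fun h' => hpq h'.symm, by norm_num⟩

/-- pure algebra: `X^d = u^m Y^d` with `gcd(d,m) = 1` implies `X = w^m Y` -/
theorem LV_descent {F : Type*} [Field F] {X Y u : F} (hX : X ≠ 0) (hY : Y ≠ 0) {d m : ℕ}
    (hdm : Nat.Coprime d m) (h : X ^ d = u ^ m * Y ^ d) : ∃ w : F, X = w ^ m * Y := by
  have hu : u ^ m ≠ 0 := by
    intro h0
    rw [h0, zero_mul] at h
    exact pow_ne_zero d hX h
  have hg : (X / Y) ^ d = u ^ m := by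
    rw [div_pow, h, mul_div_assoc, div_self (pow_ne_zero d hY), mul_one]
  have hXY : X / Y ≠ 0 := div_ne_zero hX hY
  have hbez : (d : ℤ) * Nat.gcdA d m + (m : ℤ) * Nat.gcdB d m = 1 := by
    have := Nat.gcd_eq_gcd_ab d m
    rw [hdm] at this
    exact_mod_cast this.symm
  set a := Nat.gcdA d m
  set b := Nat.gcdB d m
  refine ⟨u ^ a * (X / Y) ^ b, ?_⟩
  have h1 : X / Y = (u ^ a * (X / Y) ^ b) ^ m := by
    calc X / Y = (X / Y) ^ ((d : ℤ) * a + (m : ℤ) * b) := by rw [hbez, zpow_one]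
      _ = ((X / Y) ^ d) ^ a * ((X / Y) ^ b) ^ m := by
        rw [zpow_add₀ hXY, zpow_mul, zpow_natCast, mul_comm (m : ℤ) b, zpow_mul, zpow_natCast]
      _ = (u ^ a * (X / Y) ^ b) ^ m := by
        rw [hg, mul_pow, ← zpow_natCast (u ^ a) m, ← zpow_mul, mul_comm a (m : ℤ), zpow_mul,
          zpow_natCast]
  rw [← h1, div_mul_cancel₀ _ hY]

/-- norm descent of an `m`-th power relation along an extension of degree prime to `m` -/
theorem LV_norm_descent {F₁ F₂ : Type*} [Field F₁] [Field F₂] [Algebra F₁ F₂] {X Y : F₁}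
    (hX : X ≠ 0) (hY : Y ≠ 0) {m : ℕ} (hdm : Nat.Coprime (Module.finrank F₁ F₂) m) (w' : F₂)
    (h : algebraMap F₁ F₂ X = w' ^ m * algebraMap F₁ F₂ Y) : ∃ w : F₁, X = w ^ m * Y := by
  have hnorm := congrArg (Algebra.norm F₁) h
  rw [map_mul, map_pow, Algebra.norm_algebraMap, Algebra.norm_algebraMap] at hnorm
  exact LV_descent hX hY hdm hnorm

/-- divisibility of orders pulls back -/
theorem LV_dvd_ord {K F₁ F₂ : Type*} [Field K] [Field F₁] [Field F₂] [Algebra K F₁]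
    [Algebra K F₂] [Algebra F₁ F₂] [IsScalarTower K F₁ F₂] [Algebra.IsIntegral F₁ F₂]
    (m : ℤ) (f : F₁) (hf : ∀ P : Place K F₁, m ∣ P.ord f) (P' : Place K F₂) :
    m ∣ P'.ord (algebraMap F₁ F₂ f) := by
  rw [Place.ord_restrict (F := F₁) P' f]
  exact Dvd.dvd.mul_left (hf _) _

theorem LV_gal_inclusion {N N' : ℕ} (hle : FB N ≤ FB N') (ρ : GQ) (x : FB N) :
    IntermediateField.inclusion hle (gal N ρ x) = gal N' ρ (IntermediateField.inclusion hle x) := by
  apply Subtype.ext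
  rw [IntermediateField.coe_inclusion, coe_gal, coe_gal, IntermediateField.coe_inclusion]

/-- one step of level raising -/
theorem LV_step {N N' : ℕ} [NeZero N] [NeZero N'] (hle : FB N ≤ FB N') (m : ℕ)
    (hfin : letI := (IntermediateField.inclusion hle).toRingHom.toAlgebra
      FiniteDimensional (FB N) (FB N') ∧ Nat.Coprime (Module.finrank (FB N) (FB N')) m)
    (σ τ : GQ)
    (H : ∀ f' : FB N', IsKum N' m f' → ∃ w : FB N', gal N' τ (gal N' σ f') * f'
      = w ^ m * (gal N' σ f' * gal N' τ f'))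
    (f : FB N) (hf : IsKum N m f) :
    ∃ w : FB N, gal N τ (gal N σ f) * f = w ^ m * (gal N σ f * gal N τ f) := by
  let _ := (IntermediateField.inclusion hle).toRingHom.toAlgebra
  have : IsScalarTower Qb (FB N) (FB N') :=
    IsScalarTower.of_algebraMap_eq fun a => ((IntermediateField.inclusion hle).commutes a).symm
  have : FiniteDimensional (FB N) (FB N') := hfin.1
  have hι : ∀ x : FB N, algebraMap (FB N) (FB N') x = IntermediateField.inclusion hle x :=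
    fun _ => rfl
  have hf' : IsKum N' m (IntermediateField.inclusion hle f) := by
    refine ⟨(map_ne_zero_iff _ (IntermediateField.inclusion hle).toRingHom.injective).2 hf.1,
      fun P' => ?_⟩
    rw [← hι]
    exact LV_dvd_ord (K := Qb) (m : ℤ) f hf.2 P'
  obtain ⟨w', hw'⟩ := H _ hf'
  have hf0 := hf.1
  have hgne : ∀ (ρ : GQ) (x : FB N), x ≠ 0 → gal N ρ x ≠ 0 := fun ρ x hx =>
    (map_ne_zero_iff _ (gal N ρ).injective).2 hx
  have hX : gal N τ (gal N σ f) * f ≠ 0 := mul_ne_zero (hgne _ _ (hgne _ _ hf0)) hf0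
  have hY : gal N σ f * gal N τ f ≠ 0 := mul_ne_zero (hgne _ _ hf0) (hgne _ _ hf0)
  refine LV_norm_descent (F₂ := FB N') hX hY hfin.2 w' ?_
  simp only [hι, map_mul, LV_gal_inclusion]
  exact hw'

theorem unip_kummer (N : ℕ) [NeZero N] {q p : ℕ} [Fact q.Prime] (hp : p.Prime) (hpq : p ≠ q)
    (hqN : q ∣ N) (hq2 : ¬ q ^ 2 ∣ N) (A : ValuationSubring Qb) (hA : A.LiesOverPrime q)
    (σ τ : GQ) (hσ : σ ∈ A.inertiaSubgroupIn ℚ) (hτ : τ ∈ A.inertiaSubgroupIn ℚ) (n : ℕ)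
    (f : FB N) (hf : IsKum N (p ^ n) f) :
    ∃ w : FB N, gal N τ (gal N σ f) * f = w ^ (p ^ n) * (gal N σ f * gal N τ f) := by
  have hq : q.Prime := Fact.out
  obtain ⟨M₀, rfl⟩ := hqN
  have hM₀ : M₀ ≠ 0 := by
    rintro rfl
    exact NeZero.ne (q * 0) (mul_zero q)
  have : NeZero M₀ := ⟨hM₀⟩
  have : NeZero q := ⟨hq.ne_zero⟩
  have hqM : ¬ q ∣ M₀ := by
    intro hd
    apply hq2
    rw [pow_two]
    exact Nat.mul_dvd_mul_left q hd
  have hm : ¬ q ∣ p ^ n := by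
    intro hd
    exact hpq ((Nat.prime_dvd_prime_iff_eq hq hp).mp (hq.dvd_of_dvd_pow hd)).symm
  obtain ⟨p0, hp0, hp0q, hpp0, hp23⟩ := LV_exists_prime hq hp hpq
  by_cases hpM : p0 ∣ M₀
  · have hbase : 2 ∣ M₀ ∨ 3 ∣ M₀ := by
      rcases hp23 with rfl | rfl
      · exact Or.inl hpM
      · exact Or.inr hpM
    exact unip_kummer_base M₀ q hqM hbase A hA σ τ hσ hτ (p ^ n) hm f hf
  · -- auxiliary level
    have hM1 : p0 * M₀ ≠ 0 := Nat.mul_ne_zero hp0.ne_zero hM₀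
    have : NeZero (p0 * M₀) := ⟨hM1⟩
    have : NeZero (q * (p0 * M₀)) := ⟨Nat.mul_ne_zero hq.ne_zero hM1⟩
    have hqM1 : ¬ q ∣ p0 * M₀ := by
      intro h
      rcases (Nat.Prime.dvd_mul hq).mp h with h | h
      · exact hp0q ((Nat.prime_dvd_prime_iff_eq hq hp0).mp h).symm
      · exact hqM h
    have hbase : 2 ∣ p0 * M₀ ∨ 3 ∣ p0 * M₀ := by
      rcases hp23 with rfl | rfl
      · exact Or.inl (dvd_mul_right _ _)
      · exact Or.inr (dvd_mul_right _ _)
    have hdvd : q * M₀ ∣ q * (p0 * M₀) := Nat.mul_dvd_mul_left q (dvd_mul_left M₀ p0)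
    have hle : FB (q * M₀) ≤ FB (q * (p0 * M₀)) := FB_le_of_dvd hdvd
    have hp0N : ¬ p0 ∣ q * M₀ := by
      intro h
      rcases (Nat.Prime.dvd_mul hp0).mp h with h | h
      · exact hp0q ((Nat.prime_dvd_prime_iff_eq hp0 hq).mp h)
      · exact hpM h
    have hidx : (Gamma0 (q * (p0 * M₀))).index = (Gamma0 (q * M₀)).index * (p0 + 1) := by
      have e : q * (p0 * M₀) = p0 * (q * M₀) := by ring
      have : NeZero (p0 * (q * M₀)) := ⟨e ▸ NeZero.ne (q * (p0 * M₀))⟩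
      rw [e, Fermat.Agent.S20Lib.index_Gamma0 (p0 * (q * M₀)),
        Fermat.Agent.S20Lib.dedekindPsi_mul_of_not_dvd (NeZero.ne (q * M₀)) hp0 hp0N,
        ← Fermat.Agent.S20Lib.index_Gamma0 (q * M₀), mul_comm]
    have hD := D2_finish hle (p0 + 1) p (Nat.succ_pos _) hidx hpp0
    exact LV_step hle (p ^ n)
      ⟨hD.1, Nat.Coprime.pow_right n ((Nat.Prime.coprime_iff_not_dvd hp).2 hD.2).symm⟩ σ τ
      (fun f' hf' => unip_kummer_base (p0 * M₀) q hqM1 hbase A hA σ τ hσ hτ (p ^ n) hm f' hf')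
      f hf

end Fermat.Agent.S34Lib
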