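import Fermat.Agent.S34.Defs
import Fermat.Agent.S18.Level
import Fermat.Agent.ES.KDefs
import Fermat.Agent.ES.Formal
import Fermat.Agent.S24.Theta

/-! # S34 (W): the Atkin-Lehner involution `w_q` on `FB (q * M)`

General version: `exists_wQ` gives `w_Q` on `FB (Q * M)` for coprime `Q`, `M`
(`j(q^{de}) ↦ j(q^{(Q/d)e})` for `d ∣ Q`, `e ∣ M`), `wQ_eq_qExpand` its restriction to `FB M`. -/

set_option autoImplicit false
set_option synthInstance.maxHeartbeats 400000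

open AlgebraicCurve IntermediateField Polynomial ModularCurve CongruenceSubgroup
  Fermat.Agent.S24Lib Fermat.Agent.FFLib Fermat.Agent.S18Lib Fermat.Agent.S28Lib
  Fermat.Agent.ESLib
open UpperHalfPlane ModularForm Matrix.SpecialLinearGroup
open scoped MatrixGroups Manifold

namespace Fermat.Agent.S34Lib

noncomputable section

open scoped IntermediateField.algebraAdjoinAdjoin in
theorem Wq_exists_algHom_adjoin {K E ι : Type*} [Field K] [Field E] [Algebra K E] (J J' : ι → E)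
    (h : ∀ P : MvPolynomial ι K, MvPolynomial.aeval J P = 0 ↔ MvPolynomial.aeval J' P = 0) :
    ∃ φ : IntermediateField.adjoin K (Set.range J) →ₐ[K] E,
      ∀ i, φ ⟨J i, IntermediateField.subset_adjoin _ _ ⟨i, rfl⟩⟩ = J' i := by
  classical
  let f : MvPolynomial ι K →ₐ[K] Algebra.adjoin K (Set.range J) :=
    (MvPolynomial.aeval J).codRestrict _ (fun P => by
      rw [Algebra.adjoin_range_eq_range_aeval]; exact ⟨P, rfl⟩)
  have hfc : ∀ P, ((f P : Algebra.adjoin K (Set.range J)) : E) = MvPolynomial.aeval J P :=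
    fun P => rfl
  have hf : Function.Surjective f := by
    rintro ⟨x, hx⟩
    have hx' := hx
    rw [Algebra.adjoin_range_eq_range_aeval] at hx'
    obtain ⟨P, hP⟩ := hx'
    exact ⟨P, Subtype.ext hP⟩
  let g : Algebra.adjoin K (Set.range J) →ₐ[K] E :=
    AlgHom.liftOfSurjective f hf (MvPolynomial.aeval J') (fun P hP => by
      rw [RingHom.mem_ker] at hP ⊢
      have h1 : MvPolynomial.aeval J P = 0 := by
        have := congrArg Subtype.val hP
        exact this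
      exact (h P).mp h1)
  have hgf : ∀ P, g (f P) = MvPolynomial.aeval J' P := fun P =>
    AlgHom.liftOfSurjective_apply f hf _ _ P
  have hg : Function.Injective g := by
    rw [injective_iff_map_eq_zero]
    intro a ha
    obtain ⟨P, rfl⟩ := hf a
    rw [hgf] at ha
    exact Subtype.ext ((h P).mpr ha)
  refine ⟨IsFractionRing.liftAlgHom hg, fun i => ?_⟩
  have h1 : (⟨J i, IntermediateField.subset_adjoin _ _ ⟨i, rfl⟩⟩ :
      IntermediateField.adjoin K (Set.range J)) =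
      algebraMap (Algebra.adjoin K (Set.range J)) _ (f (MvPolynomial.X i)) := by
    apply Subtype.ext
    show J i = ((f (MvPolynomial.X i) : Algebra.adjoin K (Set.range J)) : E)
    rw [hfc, MvPolynomial.aeval_X]
  rw [h1, IsFractionRing.liftAlgHom_apply, IsFractionRing.lift_algebraMap]
  show g (f (MvPolynomial.X i)) = _
  rw [hgf, MvPolynomial.aeval_X]



lemma Wq_jan_smul (γ : SL(2, ℤ)) (τ : ℍ) : jan (γ • τ) = jan τ := by
  have := congrFun (W3.jan_slash γ) τ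
  rw [ModularForm.SL_slash_apply] at this
  simpa using this

theorem Wq_exists_point (Q M : ℕ) (hQ : 0 < Q) (hM : 0 < M) (hQM : Nat.Coprime Q M) :
    ∃ W : ℍ → ℍ, ∀ d e : ℕ, d ∣ Q → e ∣ M → ∀ τ, janD (d * e) (W τ) = janD (Q / d * e) τ := by
  obtain ⟨u, v, huv⟩ : ∃ u v : ℤ, u * Q + v * M = 1 := by
    have := (Nat.isCoprime_iff_coprime.mpr hQM)
    exact this
  let γ1 : SL(2, ℤ) := ⟨!![1, -v; M, Q * u], by rw [Matrix.det_fin_two_of]; linarith⟩
  refine ⟨fun τ => γ1 • utr Q 0 1 τ, ?_⟩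
  rintro d e ⟨Q', rfl⟩ ⟨M', rfl⟩ τ
  have hd : 0 < d := Nat.pos_of_mul_pos_right hQ |> fun h => by
    rcases Nat.eq_zero_or_pos d with h0 | h0
    · simp [h0] at hQ
    · exact h0
  have hQ' : 0 < Q' := by
    rcases Nat.eq_zero_or_pos Q' with h0 | h0
    · simp [h0] at hQ
    · exact h0
  have he : 0 < e := by
    rcases Nat.eq_zero_or_pos e with h0 | h0
    · simp [h0] at hM
    · exact h0
  rw [Nat.mul_div_cancel_left _ hd]
  let γ : SL(2, ℤ) := ⟨!![d, -(e * v); M', Q' * u], by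
    rw [Matrix.det_fin_two_of]; push_cast at huv; linarith⟩
  have key : utr (d * e) 0 1 (γ1 • utr (d * Q') 0 1 τ) = γ • utr (Q' * e) 0 1 τ := by
    apply UpperHalfPlane.ext
    have hM' : 0 < M' := by
      rcases Nat.eq_zero_or_pos M' with h0 | h0
      · simp [h0] at hM
      · exact h0
    have hD : ∀ (a : ℕ) (b : ℤ), 0 < a → ((a : ℂ) * (τ : ℂ) + (b : ℂ)) ≠ 0 := by
      intro a b ha h
      have h1 := congrArg Complex.im h
      simp only [Complex.add_im, Complex.mul_im, Complex.natCast_re, Complex.natCast_im,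
        Complex.intCast_im, zero_mul, add_zero, Complex.zero_im, UpperHalfPlane.coe_im] at h1
      have h2 := τ.im_pos
      have h3 : (0 : ℝ) < a := by exact_mod_cast ha
      nlinarith
    rw [coe_utr (Nat.mul_pos hd he) one_pos, coe_specialLinearGroup_apply,
      coe_specialLinearGroup_apply, coe_utr hQ one_pos, coe_utr (Nat.mul_pos hQ' he) one_pos]
    have e1 : (γ1 : Matrix (Fin 2) (Fin 2) ℤ) 0 0 = 1 := rfl
    have e2 : (γ1 : Matrix (Fin 2) (Fin 2) ℤ) 0 1 = -v := rfl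
    have e3 : (γ1 : Matrix (Fin 2) (Fin 2) ℤ) 1 0 = ((e * M' : ℕ) : ℤ) := rfl
    have e4 : (γ1 : Matrix (Fin 2) (Fin 2) ℤ) 1 1 = ((d * Q' : ℕ) : ℤ) * u := rfl
    have f1 : (γ : Matrix (Fin 2) (Fin 2) ℤ) 0 0 = d := rfl
    have f2 : (γ : Matrix (Fin 2) (Fin 2) ℤ) 0 1 = -(e * v) := rfl
    have f3 : (γ : Matrix (Fin 2) (Fin 2) ℤ) 1 0 = M' := rfl
    have f4 : (γ : Matrix (Fin 2) (Fin 2) ℤ) 1 1 = Q' * u := rfl
    rw [e1, e2, e3, e4, f1, f2, f3, f4]
    have h1 := hD (M' * Q' * e) (Q' * u) (Nat.mul_pos (Nat.mul_pos hM' hQ') he)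
    have hdC : (d : ℂ) ≠ 0 := by exact_mod_cast hd.ne'
    simp only [eq_intCast]
    push_cast at h1 ⊢
    have h2 : ((e : ℂ) * M' * ((d * Q' * (τ : ℂ) + 0) / 1) + d * Q' * u) =
        d * (M' * Q' * e * (τ : ℂ) + Q' * u) := by ring
    have h3 : ((M' : ℂ) * ((Q' * e * (τ : ℂ) + 0) / 1) + Q' * u) =
        (M' * Q' * e * (τ : ℂ) + Q' * u) := by ring
    rw [h2, h3]
    field_simp
    ring
  show jan (utr (d * e) 0 1 (γ1 • utr (d * Q') 0 1 τ)) = jan (utr (Q' * e) 0 1 τ)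
  rw [key, Wq_jan_smul]



/-- `j(q^n)` in `Qb((q))` (junk `0` for `n = 0`) -/
def Wq_J (n : ℕ) : LaurentSeries Qb :=
  if h : n = 0 then 0 else haveI : NeZero n := ⟨h⟩; coeffEmb Qb (qExpand ℚ n jq)

lemma Wq_J_eq (n : ℕ) [NeZero n] : Wq_J n = coeffEmb Qb (qExpand ℚ n jq) := by
  rw [Wq_J, dif_neg (NeZero.ne n)]

lemma Wq_J_mem {N n : ℕ} [NeZero N] (hn : n ∣ N) : Wq_J n ∈ FB N := by
  have : NeZero n := ⟨by rintro rfl; exact NeZero.ne N (Nat.eq_zero_of_zero_dvd hn)⟩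
  rw [Wq_J_eq]
  exact (jBarD N n hn).2

theorem Wq_abs_mem_subfield {K E : Type*} [Field K] [Field E] [Algebra K E] (s : Set E)
    (F : IntermediateField K E) (hF : F = IntermediateField.adjoin K s) (S : Subfield F)
    (hc : ∀ c : K, algebraMap K F c ∈ S)
    (hs : ∀ (y : E) (_ : y ∈ s) (hy' : y ∈ F), (⟨y, hy'⟩ : F) ∈ S) (x : F) : x ∈ S := by
  subst hF
  obtain ⟨x, hx⟩ := x
  induction hx using IntermediateField.adjoin_induction with
  | mem y hy => exact hs y hy _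
  | algebraMap c => exact hc c
  | add y z hy hz ihy ihz => exact S.add_mem ihy ihz
  | inv y hy ihy => exact S.inv_mem ihy
  | mul y z hy hz ihy ihz => exact S.mul_mem ihy ihz

/-- a subfield of `FB N` containing the constants and the `j(q^d)` is everything -/
theorem Wq_mem_subfield {N : ℕ} [NeZero N] (S : Subfield (FB N))
    (hc : ∀ c : Qb, algebraMap Qb (FB N) c ∈ S)
    (hJ : ∀ (d : ℕ) (hd : d ∣ N), (⟨Wq_J d, Wq_J_mem hd⟩ : FB N) ∈ S) (x : FB N) : x ∈ S := by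
  refine Wq_abs_mem_subfield (gensBar N) (FB N) (bar_eq_adjoin N) S hc ?_ x
  intro y hy hy'
  obtain ⟨z, ⟨d, hne, hd, rfl⟩, rfl⟩ := hy
  have := hJ d hd
  convert this using 2
  rw [Wq_J_eq]

theorem Wq_ringHom_ext {N : ℕ} [NeZero N] {L : Type*} [Field L] (f g : FB N →+* L)
    (hc : ∀ c : Qb, f (algebraMap Qb (FB N) c) = g (algebraMap Qb (FB N) c))
    (hJ : ∀ (d : ℕ) (hd : d ∣ N), f ⟨Wq_J d, Wq_J_mem hd⟩ = g ⟨Wq_J d, Wq_J_mem hd⟩) :
    f = g :=
  RingHom.ext fun x => Wq_mem_subfield (RingHom.eqLocusField f g) hc hJ x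

/-- polynomial relations between the `j(q^d)` can be tested on the analytic functions -/
theorem Wq_aeval_eq_zero_iff (N : ℕ) [NeZero N] {ι : Type*} (n : ι → ℕ) (hn : ∀ i, n i ∣ N)
    (P : MvPolynomial ι Qb) :
    MvPolynomial.aeval (fun i => Wq_J (n i)) P = 0 ↔
      MvPolynomial.eval₂ ((Pi.constRingHom ℍ ℂ).comp iotaC) (fun i => janD (n i)) P = 0 := by
  set E : WH (Gamma0 N) := MvPolynomial.eval₂ ((whConst (Gamma0 N)).comp iotaC)
    (fun i => (⟨janD (n i), isWH_janD (hn i)⟩ : WH (Gamma0 N))) P with hE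
  have h1 : W6_laurHom N E = coeffMap iotaC (MvPolynomial.aeval (fun i => Wq_J (n i)) P) := by
    rw [hE, MvPolynomial.eval₂_comp_left, MvPolynomial.aeval_def, MvPolynomial.eval₂_comp_left]
    congr 1
    · ext c : 1
      show laurentFun 1 (Function.const ℍ (iotaC c)) = coeffMap iotaC (algebraMap Qb _ c)
      rw [laurentFun_const one_pos, W6_coeffMap_iotaC_algebraMap]
    · funext i
      have : NeZero (n i) :=
        ⟨by intro h; exact NeZero.ne N (Nat.eq_zero_of_zero_dvd (h ▸ hn i))⟩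
      show laurentFun 1 (janD (n i)) = coeffMap iotaC (Wq_J (n i))
      rw [laurentFun_janD, Wq_J_eq, W6_coeffMap_iotaC_coeffEmb]
  have h2 : (WH (Gamma0 N)).subtype E =
      MvPolynomial.eval₂ ((Pi.constRingHom ℍ ℂ).comp iotaC) (fun i => janD (n i)) P := by
    rw [hE, MvPolynomial.eval₂_comp_left]
    rfl
  rw [← h2, ← map_eq_zero_iff (coeffMap iotaC) (coeffMap iotaC).injective, ← h1,
    map_eq_zero_iff _ (W6_laurHom_injective N),
    map_eq_zero_iff _ (Subring.subtype_injective (WH (Gamma0 N)))]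


/-- the relations between the `j(q^{de})` are stable under `d ↦ Q / d` -/
theorem Wq_rel (Q M : ℕ) [NeZero Q] [NeZero M] (hQM : Nat.Coprime Q M) {ι : Type*}
    (d e : ι → ℕ) (hd : ∀ i, d i ∣ Q) (he : ∀ i, e i ∣ M) (P : MvPolynomial ι Qb)
    (h : MvPolynomial.aeval (fun i => Wq_J (d i * e i)) P = 0) :
    MvPolynomial.aeval (fun i => Wq_J (Q / d i * e i)) P = 0 := by
  obtain ⟨W, hW⟩ := Wq_exists_point Q M (Nat.pos_of_ne_zero (NeZero.ne Q))
    (Nat.pos_of_ne_zero (NeZero.ne M)) hQM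
  rw [Wq_aeval_eq_zero_iff (Q * M) _ (fun i => Nat.mul_dvd_mul (hd i) (he i))] at h
  rw [Wq_aeval_eq_zero_iff (Q * M) _
    (fun i => Nat.mul_dvd_mul (Nat.div_dvd_of_dvd (hd i)) (he i))]
  let cW : (ℍ → ℂ) →+* (ℍ → ℂ) := RingHom.pi (fun τ => Pi.evalRingHom (fun _ => ℂ) (W τ))
  have h1 := congrArg cW h
  rw [map_zero, MvPolynomial.eval₂_comp_left] at h1
  rw [← h1]
  congr 1
  funext i
  funext τ
  exact (hW (d i) (e i) (hd i) (he i) τ).symm

theorem Wq_rel_iff (Q M : ℕ) [NeZero Q] [NeZero M] (hQM : Nat.Coprime Q M) {ι : Type*}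
    (d e : ι → ℕ) (hd : ∀ i, d i ∣ Q) (he : ∀ i, e i ∣ M) (P : MvPolynomial ι Qb) :
    MvPolynomial.aeval (fun i => Wq_J (d i * e i)) P = 0 ↔
    MvPolynomial.aeval (fun i => Wq_J (Q / d i * e i)) P = 0 := by
  refine ⟨Wq_rel Q M hQM d e hd he P, fun h => ?_⟩
  have h1 := Wq_rel Q M hQM (fun i => Q / d i) e (fun i => Nat.div_dvd_of_dvd (hd i)) he P h
  have h2 : (fun i => Wq_J (Q / (Q / d i) * e i)) = fun i => Wq_J (d i * e i) := by
    funext i
    rw [Nat.div_div_self (hd i) (NeZero.ne Q)]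
  rwa [h2] at h1

theorem Wq_abs_ringHom_ext {K E L : Type*} [Field K] [Field E] [Algebra K E] [Field L]
    (s : Set E) (F : IntermediateField K E) (hF : F = IntermediateField.adjoin K s)
    (f g : F →+* L) (hc : ∀ c : K, f (algebraMap K F c) = g (algebraMap K F c))
    (hs : ∀ (y : E) (_ : y ∈ s) (hy' : y ∈ F), f ⟨y, hy'⟩ = g ⟨y, hy'⟩) : f = g :=
  RingHom.ext fun x => Wq_abs_mem_subfield s F hF (RingHom.eqLocusField f g) hc hs x

theorem Wq_abs_exists_equiv {K E ι : Type*} [Field K] [Field E] [Algebra K E] (J : ι → E)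
    (star : ι → ι) (hstar : ∀ i, J (star (star i)) = J i)
    (h : ∀ P : MvPolynomial ι K,
      MvPolynomial.aeval J P = 0 ↔ MvPolynomial.aeval (fun i => J (star i)) P = 0)
    (F : IntermediateField K E) (hF : F = IntermediateField.adjoin K (Set.range J)) :
    ∃ w : F ≃ₐ[K] F, (∀ i (hi : J i ∈ F), ((w ⟨J i, hi⟩ : F) : E) = J (star i)) ∧
      ∀ x, w (w x) = x := by
  obtain ⟨φ, hφ⟩ := Wq_exists_algHom_adjoin (K := K) J (fun i => J (star i)) h
  have hmemJ : ∀ i, J i ∈ F := fun i => by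
    rw [hF]; exact IntermediateField.subset_adjoin _ _ ⟨i, rfl⟩
  subst hF
  have hmem : ∀ x, φ x ∈ IntermediateField.adjoin K (Set.range J) := by
    intro x
    refine Wq_abs_mem_subfield (Set.range J) _ rfl
      ((IntermediateField.adjoin K (Set.range J)).toSubfield.comap (φ : _ →+* E)) ?_ ?_ x
    · intro c
      show φ (algebraMap K _ c) ∈ IntermediateField.adjoin K (Set.range J)
      rw [φ.commutes]
      exact IntermediateField.algebraMap_mem _ c
    · rintro _ ⟨i, rfl⟩ hy'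
      show φ ⟨J i, hy'⟩ ∈ IntermediateField.adjoin K (Set.range J)
      rw [hφ i]
      exact hmemJ _
  let w : IntermediateField.adjoin K (Set.range J) →ₐ[K] IntermediateField.adjoin K (Set.range J) :=
    φ.codRestrict (IntermediateField.adjoin K (Set.range J)).toSubalgebra hmem
  have hw : ∀ i (hi : J i ∈ IntermediateField.adjoin K (Set.range J)),
      ((w ⟨J i, hi⟩ : IntermediateField.adjoin K (Set.range J)) : E) = J (star i) :=
    fun i hi => hφ i
  have hww : (w.comp w : _ →ₐ[K] _) = AlgHom.id K _ := by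
    apply AlgHom.coe_ringHom_injective
    refine Wq_abs_ringHom_ext (Set.range J) _ rfl _ _ ?_ ?_
    · intro c
      show w (w (algebraMap K _ c)) = algebraMap K _ c
      rw [w.commutes, w.commutes]
    · rintro _ ⟨i, rfl⟩ hy'
      show w (w ⟨J i, hy'⟩) = ⟨J i, hy'⟩
      have h1 : w ⟨J i, hy'⟩ = ⟨J (star i), hmemJ _⟩ := Subtype.ext (hw i hy')
      rw [h1]
      apply Subtype.ext
      rw [hw (star i)]
      exact hstar i
  exact ⟨AlgEquiv.ofAlgHom w w hww hww, hw, fun x => AlgHom.congr_fun hww x⟩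

/-- the Atkin-Lehner involution `w_Q` on `FB (Q * M)`, `(Q, M) = 1` -/
theorem exists_wQ (Q M : ℕ) [NeZero Q] [NeZero M] (hQM : Nat.Coprime Q M) :
    ∃ w : FB (Q * M) ≃ₐ[Qb] FB (Q * M),
      (∀ d e : ℕ, d ∣ Q → e ∣ M → ∀ h : Wq_J (d * e) ∈ FB (Q * M),
        ((w ⟨Wq_J (d * e), h⟩ : FB (Q * M)) : LaurentSeries Qb) = Wq_J (Q / d * e)) ∧
      (∀ x, w (w x) = x) ∧
      (∀ (σ : GQ) (x : FB (Q * M)), w (gal (Q * M) σ x) = gal (Q * M) σ (w x)) := by
  classical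
  let ι : Type := {d // d ∣ Q} × {e // e ∣ M}
  let J : ι → LaurentSeries Qb := fun i => Wq_J (i.1.1 * i.2.1)
  let star : ι → ι := fun i => (⟨Q / i.1.1, Nat.div_dvd_of_dvd i.1.2⟩, i.2)
  have hrange : Set.range J = gensBar (Q * M) := by
    ext y
    constructor
    · rintro ⟨⟨⟨d, hd⟩, ⟨e, he⟩⟩, rfl⟩
      have hde : d * e ∣ Q * M := Nat.mul_dvd_mul hd he
      have : NeZero (d * e) :=
        ⟨by intro h; exact NeZero.ne (Q * M) (Nat.eq_zero_of_zero_dvd (h ▸ hde))⟩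
      exact ⟨_, ⟨d * e, this, hde, rfl⟩, (Wq_J_eq (d * e)).symm⟩
    · rintro ⟨_, ⟨n, hne, hn, rfl⟩, rfl⟩
      obtain ⟨d, e, hd, he, rfl⟩ := (Nat.dvd_mul).mp hn
      exact ⟨(⟨d, hd⟩, ⟨e, he⟩), Wq_J_eq (d * e)⟩
  obtain ⟨w, hw, hww⟩ := Wq_abs_exists_equiv (K := Qb) J star
    (fun i => by
      show Wq_J (Q / (Q / i.1.1) * i.2.1) = Wq_J (i.1.1 * i.2.1)
      rw [Nat.div_div_self i.1.2 (NeZero.ne Q)])
    (fun P => Wq_rel_iff Q M hQM (fun i : ι => i.1.1) (fun i : ι => i.2.1) (fun i => i.1.2)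
      (fun i => i.2.2) P)
    (FB (Q * M)) (by rw [hrange]; exact bar_eq_adjoin (Q * M))
  have hw' : ∀ d e : ℕ, d ∣ Q → e ∣ M → ∀ h : Wq_J (d * e) ∈ FB (Q * M),
      ((w ⟨Wq_J (d * e), h⟩ : FB (Q * M)) : LaurentSeries Qb) = Wq_J (Q / d * e) :=
    fun d e hd he h => hw (⟨d, hd⟩, ⟨e, he⟩) h
  refine ⟨w, hw', hww, fun σ x => ?_⟩
  have hgalJ : ∀ (n : ℕ) (h : Wq_J n ∈ FB (Q * M)),
      gal (Q * M) σ ⟨Wq_J n, h⟩ = ⟨Wq_J n, h⟩ := by
    intro n h
    apply Subtype.ext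
    rw [coe_gal]
    show coeffMap (σ : Qb →+* Qb) (Wq_J n) = Wq_J n
    by_cases hn : n = 0
    · rw [Wq_J, dif_pos hn, map_zero]
    · have : NeZero n := ⟨hn⟩
      rw [Wq_J_eq, coeffMap_coeffEmb]
  have key : ((w : FB (Q * M) →+* FB (Q * M)).comp (gal (Q * M) σ : FB (Q * M) →+* FB (Q * M))) =
      ((gal (Q * M) σ : FB (Q * M) →+* FB (Q * M)).comp (w : FB (Q * M) →+* FB (Q * M))) := by
    refine Wq_ringHom_ext _ _ ?_ ?_
    · intro c
      show w (gal (Q * M) σ (algebraMap Qb _ c)) = gal (Q * M) σ (w (algebraMap Qb _ c))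
      rw [w.commutes]
      have h1 : gal (Q * M) σ (algebraMap Qb (FB (Q * M)) c) = algebraMap Qb (FB (Q * M)) (σ c) :=
        arithmeticRingAut_algebraMap _ σ c
      rw [h1, w.commutes]
    · intro n hn
      obtain ⟨d, e, hd, he, rfl⟩ := (Nat.dvd_mul).mp hn
      show w (gal (Q * M) σ ⟨Wq_J (d * e), _⟩) = gal (Q * M) σ (w ⟨Wq_J (d * e), _⟩)
      rw [hgalJ]
      have h2 : w ⟨Wq_J (d * e), Wq_J_mem hn⟩ = ⟨Wq_J (Q / d * e),
          Wq_J_mem (Nat.mul_dvd_mul (Nat.div_dvd_of_dvd hd) he)⟩ := Subtype.ext (hw' d e hd he _)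
      rw [h2, hgalJ]
  exact RingHom.congr_fun key x

theorem Wq_qExpand_J (Q e : ℕ) [NeZero Q] : qExpand Qb Q (Wq_J e) = Wq_J (Q * e) := by
  by_cases he : e = 0
  · subst he
    rw [mul_zero, Wq_J, dif_pos rfl, map_zero]
  · have : NeZero e := ⟨he⟩
    rw [Wq_J_eq, Wq_J_eq, coeffEmb, ← coeffMap_qExpand'', qExpand_qExpand]

/-- `w_Q` is `z ↦ z(q^Q)` on `FB M` -/
theorem wQ_eq_qExpand (Q M : ℕ) [NeZero Q] [NeZero M] (w : FB (Q * M) ≃ₐ[Qb] FB (Q * M))
    (hw : ∀ d e : ℕ, d ∣ Q → e ∣ M → ∀ h : Wq_J (d * e) ∈ FB (Q * M),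
        ((w ⟨Wq_J (d * e), h⟩ : FB (Q * M)) : LaurentSeries Qb) = Wq_J (Q / d * e))
    (z : LaurentSeries Qb) (hz : z ∈ FB M) (hz' : z ∈ FB (Q * M)) :
    ((w ⟨z, hz'⟩ : FB (Q * M)) : LaurentSeries Qb) = qExpand Qb Q z := by
  have hle : FB M ≤ FB (Q * M) := FB_le_of_dvd (dvd_mul_left M Q)
  have key : ((FB (Q * M)).val : FB (Q * M) →+* LaurentSeries Qb).comp
      ((w : FB (Q * M) →+* FB (Q * M)).comp
        (IntermediateField.inclusion hle : FB M →+* FB (Q * M))) =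
      (qExpand Qb Q).comp ((FB M).val : FB M →+* LaurentSeries Qb) := by
    refine Wq_ringHom_ext _ _ ?_ ?_
    · intro c
      show ((w (IntermediateField.inclusion hle (algebraMap Qb (FB M) c)) : FB (Q * M)) :
        LaurentSeries Qb) = qExpand Qb Q (algebraMap Qb (LaurentSeries Qb) c)
      have h1 : IntermediateField.inclusion hle (algebraMap Qb (FB M) c) =
          algebraMap Qb (FB (Q * M)) c := rfl
      rw [h1, w.commutes, algebraMap_laurentSeries_eq_single, qExpand_single, mul_zero]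
      exact algebraMap_laurentSeries_eq_single Qb c
    · intro e he
      show ((w (IntermediateField.inclusion hle ⟨Wq_J e, _⟩) : FB (Q * M)) :
        LaurentSeries Qb) = qExpand Qb Q (Wq_J e)
      have h1 := hw 1 e (one_dvd Q) he (by rw [one_mul]; exact hle (Wq_J_mem he))
      rw [Nat.div_one] at h1
      rw [Wq_qExpand_J, ← h1]
      congr 2
      apply Subtype.ext
      show Wq_J e = Wq_J (1 * e)
      rw [one_mul]
  exact RingHom.congr_fun key ⟨z, hz⟩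

theorem exists_wq (M q : ℕ) [NeZero M] [NeZero q] (hq : q.Prime) (hqM : ¬ q ∣ M) :
    ∃ w : FB (q * M) ≃ₐ[Qb] FB (q * M),
      (∀ (z : LaurentSeries Qb) (_ : z ∈ FB M) (hz' : z ∈ FB (q * M)),
        ((w ⟨z, hz'⟩ : FB (q * M)) : LaurentSeries Qb) = qExpand Qb q z) ∧
      (∀ x, w (w x) = x) ∧
      (∀ (σ : GQ) (x : FB (q * M)), w (gal (q * M) σ x) = gal (q * M) σ (w x)) := by
  obtain ⟨w, h1, h2, h3⟩ := exists_wQ q M ((Nat.Prime.coprime_iff_not_dvd hq).mpr hqM)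
  exact ⟨w, fun z hz hz' => wQ_eq_qExpand q M w h1 z hz hz', h2, h3⟩

end

end Fermat.Agent.S34Lib
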