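import Fermat.Agent.S18.GoodReduction

/-!
# S34 library: basic definitions of the two-component reduction theory

* `RedG A resK F Φ` : a subring `O ⊆ F` of a function field over a valued field `(K, A)` with a
  reduction map `red : O → Φ` onto a `k`-algebra `Φ` (for us `Φ = Ft × Ft`), *jointly* without
  defect.
* `redSp R hres U = red (U ∩ O)`.
* `evP P a` : the value of `a` at the place `P`.
* `Lt x₁ x₂ n = L(n (x₁)_∞) × L(n (x₂)_∞)`.
* `IsNodeData`, `HW` : the description of `V(L(n (x)_∞))` as glued pairs.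
-/

set_option autoImplicit false

open AlgebraicCurve IntermediateField Polynomial Fermat.Agent.S24Lib Fermat.Agent.FFLib
  Fermat.Agent.S18Lib

namespace Fermat.Agent.S34Lib

/-- A function field `F` over a valued field `(K, A)` with a subring `O`, a reduction map onto a
`k`-algebra `Φ`, same value group and no defect (jointly). -/
structure RedG {K k : Type*} [Field K] [Field k] (A : ValuationSubring K) (resK : A →+* k)
    (F Φ : Type*) [Field F] [Algebra K F] [CommRing Φ] [Algebra k Φ] where
  /-- the ring of integral functions -/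
  O : Subring F
  /-- the reduction map -/
  red : O →+* Φ
  red_surjective : Function.Surjective red
  /-- the kernel of `red` lies in the Jacobson radical -/
  isUnit_of_red : ∀ x : O, IsUnit (red x) → IsUnit x
  /-- `O ∩ K = A` -/
  algebraMap_mem_iff : ∀ a : K, algebraMap K F a ∈ O ↔ a ∈ A
  red_algebraMap : ∀ (a : A) (h : algebraMap K F (a : K) ∈ O),
    red ⟨algebraMap K F (a : K), h⟩ = algebraMap k Φ (resK a)
  /-- every nonzero function is a constant times an integral function with nonzero reduction -/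
  exists_scale : ∀ x : F, x ≠ 0 → ∃ c : K, c ≠ 0 ∧ ∃ y : O, red y ≠ 0 ∧
    x = algebraMap K F c * ((y : O) : F)
  /-- no defect -/
  exists_orth : ∀ U : Submodule K F, FiniteDimensional K U →
    ∃ b : Fin (Module.finrank K U) → O, (∀ i, ((b i : O) : F) ∈ U) ∧
      LinearIndependent k (fun i => red (b i))

section RedG

variable {K k F Φ : Type*} [Field K] [Field k] [Field F] [Algebra K F] [CommRing Φ] [Algebra k Φ]
  {A : ValuationSubring K} {resK : A →+* k}

/-- a constant of `A`, as an element of `O` -/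
def RedG.const (R : RedG A resK F Φ) (a : A) : R.O :=
  ⟨algebraMap K F (a : K), (R.algebraMap_mem_iff _).2 a.2⟩

@[simp] theorem RedG.coe_const (R : RedG A resK F Φ) (a : A) :
    ((R.const a : R.O) : F) = algebraMap K F (a : K) := rfl

@[simp] theorem RedG.red_const (R : RedG A resK F Φ) (a : A) :
    R.red (R.const a) = algebraMap k Φ (resK a) := R.red_algebraMap a _

/-- `V(U) = red (U ∩ O)`, a `k`-subspace of `Φ` -/
def redSp (R : RedG A resK F Φ) (hres : Function.Surjective resK) (U : Submodule K F) :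
    Submodule k Φ where
  carrier := {a | ∃ x : R.O, ((x : R.O) : F) ∈ U ∧ R.red x = a}
  zero_mem' := ⟨0, by simp, map_zero _⟩
  add_mem' := by
    rintro a b ⟨x, hx, rfl⟩ ⟨y, hy, rfl⟩
    exact ⟨x + y, by simpa using U.add_mem hx hy, map_add _ _ _⟩
  smul_mem' := by
    rintro c a ⟨x, hx, rfl⟩
    obtain ⟨c', rfl⟩ := hres c
    refine ⟨R.const c' * x, ?_, ?_⟩
    · have := U.smul_mem (c' : K) hx
      rwa [Algebra.smul_def] at this
    · rw [map_mul, R.red_const, Algebra.smul_def]

theorem mem_redSp {R : RedG A resK F Φ} {hres : Function.Surjective resK}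
    {U : Submodule K F} {a : Φ} :
    a ∈ redSp R hres U ↔ ∃ x : R.O, ((x : R.O) : F) ∈ U ∧ R.red x = a := Iff.rfl

theorem red_mem_redSp {R : RedG A resK F Φ} (hres : Function.Surjective resK)
    {U : Submodule K F} {x : R.O} (hx : ((x : R.O) : F) ∈ U) : R.red x ∈ redSp R hres U :=
  ⟨x, hx, rfl⟩

theorem redSp_mono {R : RedG A resK F Φ} (hres : Function.Surjective resK)
    {U U' : Submodule K F} (h : U ≤ U') : redSp R hres U ≤ redSp R hres U' := by
  rintro a ⟨x, hx, rfl⟩
  exact ⟨x, h hx, rfl⟩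

end RedG

section Places

variable {k Ft : Type*} [Field k] [Field Ft] [Algebra k Ft]

open Classical in
/-- the value of `a` at the place `P` (junk value `0` if `a` has a pole) -/
noncomputable def evP (P : Place k Ft) (a : Ft) : k :=
  if h : ∃ c : k, D2_ge P 1 (a - algebraMap k Ft c) then h.choose else 0

/-- `L(n (x₁)_∞) × L(n (x₂)_∞)` -/
noncomputable def Lt (k : Type*) {Ft : Type*} [Field k] [Field Ft] [Algebra k Ft] (x₁ x₂ : Ft)
    (n : ℕ) : Submodule k (Ft × Ft) :=
  (riemannRochSpace (n • poleDiv k x₁)).prod (riemannRochSpace (n • poleDiv k x₂))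

/-- a finite non-empty set of pairs of finite places, the graph of a bijection -/
structure IsNodeData (x₁ x₂ : Ft) (S : Finset (Place k Ft × Place k Ft)) : Prop where
  nonempty : S.Nonempty
  fin₁ : ∀ s ∈ S, 0 ≤ s.1.ord x₁
  fin₂ : ∀ s ∈ S, 0 ≤ s.2.ord x₂
  inj₁ : ∀ s ∈ S, ∀ t ∈ S, s.1 = t.1 → s = t
  inj₂ : ∀ s ∈ S, ∀ t ∈ S, s.2 = t.2 → s = t

/-- `φ₁(P) = c_s φ₂(P')` for all `s = (P, P') ∈ S` -/
def Glued (S : Finset (Place k Ft × Place k Ft)) (c : Place k Ft × Place k Ft → k)
    (φ : Ft × Ft) : Prop :=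
  ∀ s ∈ S, evP s.1 φ.1 = c s * evP s.2 φ.2

end Places

section HW

variable {K k F Ft : Type*} [Field K] [Field k] [Field F] [Algebra K F] [Field Ft] [Algebra k Ft]
  {A : ValuationSubring K} {resK : A →+* k}

/-- **(HW)** `V(L(n (x)_∞))` = pairs in `Lt n` glued along `S`, for `n ≥ n₀` -/
def HW (R : RedG A resK F (Ft × Ft)) (hres : Function.Surjective resK) (x : R.O)
    (S : Finset (Place k Ft × Place k Ft)) (n₀ : ℕ) : Prop :=
  ∀ n, n₀ ≤ n → ∀ φ : Ft × Ft,
    φ ∈ redSp R hres (riemannRochSpace (n • poleDiv K ((x : R.O) : F))) ↔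
      φ ∈ Lt k (R.red x).1 (R.red x).2 n ∧ Glued S (fun _ => 1) φ

/-- the valuation ring `A` has rank one -/
def IsArch (A : ValuationSubring K) : Prop :=
  ∀ a b : A, a ≠ 0 → ¬ IsUnit b → ∃ n : ℕ, a ∣ b ^ n

end HW

end Fermat.Agent.S34Lib
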