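import Fermat.Agent.S34.Frob

/-!
# S34 (RG), part A: the family `j^a H^i j_q^l`, `l ≤ q`; joint independence in characteristic `q`
-/

set_option autoImplicit false
set_option synthInstance.maxHeartbeats 400000

open AlgebraicCurve IntermediateField Polynomial ModularCurve CongruenceSubgroup
  Fermat.Agent.S24Lib Fermat.Agent.FFLib Fermat.Agent.S18Lib Fermat.Agent.S28Lib
  Fermat.Agent.ESLib

namespace Fermat.Agent.S34Lib

noncomputable section

/-- index set of the family `j^a H^i j_q^l` -/
abbrev I2 (M q : ℕ) : Type := Fin (q + 1) × (Fin (idx M) × ℕ)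

section Formal

variable (M q : ℕ) [NeZero q]

/-- assemble slices -/
def asm {κ : Type} [Zero κ] (v : Fin (q + 1) → (Fin (idx M) × ℕ →₀ κ)) : I2 M q →₀ κ :=
  (Finsupp.equivFunOnFinite.symm v).uncurry

omit [NeZero q] in
theorem curry_asm {κ : Type} [Zero κ] (v : Fin (q + 1) → (Fin (idx M) × ℕ →₀ κ))
    (l : Fin (q + 1)) : (asm M q v).curry l = v l := by
  ext p
  simp [asm]

/-- first expansion: `∑_l (∑ w j^a H^i) j_q^l` -/
def S1 (κ : Type) [CommRing κ] (w : I2 M q →₀ κ) : LaurentSeries κ :=
  ∑ l : Fin (q + 1), lcF M κ (w.curry l) * qExpand κ q (jqModC κ) ^ (l : ℕ)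

/-- second expansion (after `w_q`): `∑_l V_q(∑ w j^a H^i) j^l` -/
def S2 (κ : Type) [CommRing κ] (w : I2 M q →₀ κ) : LaurentSeries κ :=
  ∑ l : Fin (q + 1), qExpand κ q (lcF M κ (w.curry l)) * jqModC κ ^ (l : ℕ)

omit [NeZero q] in
theorem curry_add' {κ : Type} [AddCommMonoid κ] (w w' : I2 M q →₀ κ) (l : Fin (q + 1)) :
    (w + w').curry l = w.curry l + w'.curry l := by
  ext p; simp

omit [NeZero q] in
theorem curry_smul' {κ : Type} [CommRing κ] (c : κ) (w : I2 M q →₀ κ) (l : Fin (q + 1)) :
    (c • w).curry l = c • w.curry l := by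
  ext p; simp

omit [NeZero q] in
theorem curry_mapRange' {κ κ' : Type} [CommRing κ] [CommRing κ'] (f : κ →+* κ')
    (w : I2 M q →₀ κ) (l : Fin (q + 1)) :
    (w.mapRange f (map_zero f)).curry l = (w.curry l).mapRange f (map_zero f) := by
  ext p; simp

omit [NeZero q] in
theorem eq_zero_of_curry {κ : Type} [Zero κ] (w : I2 M q →₀ κ) (h : ∀ l, w.curry l = 0) :
    w = 0 := by
  ext ⟨l, p⟩
  have := DFunLike.congr_fun (h l) p
  simpa using this

theorem S1_zero (κ : Type) [CommRing κ] : S1 M q κ 0 = 0 := by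
  unfold S1
  refine Finset.sum_eq_zero fun l _ => ?_
  have : (0 : I2 M q →₀ κ).curry l = 0 := by ext p; simp
  rw [this, rd_lcF_zero, zero_mul]

theorem S2_zero (κ : Type) [CommRing κ] : S2 M q κ 0 = 0 := by
  unfold S2
  refine Finset.sum_eq_zero fun l _ => ?_
  have : (0 : I2 M q →₀ κ).curry l = 0 := by ext p; simp
  rw [this, rd_lcF_zero, map_zero, zero_mul]

theorem S1_add (κ : Type) [CommRing κ] (w w' : I2 M q →₀ κ) :
    S1 M q κ (w + w') = S1 M q κ w + S1 M q κ w' := by
  unfold S1
  rw [← Finset.sum_add_distrib]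
  refine Finset.sum_congr rfl fun l _ => ?_
  rw [curry_add', lcF_add, add_mul]

theorem S2_add (κ : Type) [CommRing κ] (w w' : I2 M q →₀ κ) :
    S2 M q κ (w + w') = S2 M q κ w + S2 M q κ w' := by
  unfold S2
  rw [← Finset.sum_add_distrib]
  refine Finset.sum_congr rfl fun l _ => ?_
  rw [curry_add', lcF_add, map_add, add_mul]

theorem S1_smul (κ : Type) [CommRing κ] (c : κ) (w : I2 M q →₀ κ) :
    S1 M q κ (c • w) = HahnSeries.C c * S1 M q κ w := by
  unfold S1
  rw [Finset.mul_sum]
  refine Finset.sum_congr rfl fun l _ => ?_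
  rw [curry_smul', lcF_smul, mul_assoc]

theorem S2_smul (κ : Type) [CommRing κ] (c : κ) (w : I2 M q →₀ κ) :
    S2 M q κ (c • w) = HahnSeries.C c * S2 M q κ w := by
  unfold S2
  rw [Finset.mul_sum]
  refine Finset.sum_congr rfl fun l _ => ?_
  rw [curry_smul', lcF_smul, map_mul, qExpand_C, mul_assoc]

theorem S1_sum (κ : Type) [CommRing κ] {ι : Type} (s : Finset ι) (c : ι → κ)
    (w : ι → (I2 M q →₀ κ)) :
    S1 M q κ (∑ i ∈ s, c i • w i) = ∑ i ∈ s, HahnSeries.C (c i) * S1 M q κ (w i) := by
  classical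
  induction s using Finset.induction_on with
  | empty => simp [S1_zero]
  | insert a s ha ih => rw [Finset.sum_insert ha, Finset.sum_insert ha, S1_add, S1_smul, ih]

theorem S2_sum (κ : Type) [CommRing κ] {ι : Type} (s : Finset ι) (c : ι → κ)
    (w : ι → (I2 M q →₀ κ)) :
    S2 M q κ (∑ i ∈ s, c i • w i) = ∑ i ∈ s, HahnSeries.C (c i) * S2 M q κ (w i) := by
  classical
  induction s using Finset.induction_on with
  | empty => simp [S2_zero]
  | insert a s ha ih => rw [Finset.sum_insert ha, Finset.sum_insert ha, S2_add, S2_smul, ih]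

theorem coeffMap_S1 [NeZero M] {κ κ' : Type} [CommRing κ] [CommRing κ'] (f : κ →+* κ')
    (w : I2 M q →₀ κ) :
    coeffMap f (S1 M q κ w) = S1 M q κ' (w.mapRange f (map_zero f)) := by
  unfold S1
  rw [map_sum]
  refine Finset.sum_congr rfl fun l _ => ?_
  rw [map_mul, map_pow, coeffMap_lcF, coeffMap_qExpand, coeffMap_jqModC, curry_mapRange']

theorem coeffMap_S2 [NeZero M] {κ κ' : Type} [CommRing κ] [CommRing κ'] (f : κ →+* κ')
    (w : I2 M q →₀ κ) :
    coeffMap f (S2 M q κ w) = S2 M q κ' (w.mapRange f (map_zero f)) := by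
  unfold S2
  rw [map_sum]
  refine Finset.sum_congr rfl fun l _ => ?_
  rw [map_mul, map_pow, coeffMap_qExpand, coeffMap_lcF, coeffMap_jqModC, curry_mapRange']

/-- multiplication by a polynomial in `j` -/
theorem exists_evJ_mul_S1 (κ : Type) [CommRing κ] (b : κ[X]) (w : I2 M q →₀ κ) :
    ∃ w' : I2 M q →₀ κ, evJ κ b * S1 M q κ w = S1 M q κ w' := by
  choose v hv using fun l : Fin (q + 1) => exists_evJ_mul_lcF M κ b (w.curry l)
  refine ⟨asm M q v, ?_⟩
  unfold S1
  rw [Finset.mul_sum]
  refine Finset.sum_congr rfl fun l _ => ?_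
  rw [curry_asm, ← hv, mul_assoc]

end Formal

/-! ### independence of `1, j, …, j^(q-1)` over `κ((t^q))` -/

theorem dvd_order_qExpand {κ : Type} [CommRing κ] (q : ℕ) [NeZero q] (f : LaurentSeries κ) :
    (q : ℤ) ∣ (qExpand κ q f).order := by
  by_cases h0 : qExpand κ q f = 0
  · rw [h0, HahnSeries.order_zero]; exact dvd_zero _
  · by_contra h
    exact h0 (HahnSeries.coeff_order_eq_zero.1 (qExpand_coeff_of_not_dvd q f h))

theorem ind_Vq {κ : Type} [Field κ] (q : ℕ) [NeZero q] (j : LaurentSeries κ) (hj : j.order = -1)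
    (c : Fin q → LaurentSeries κ) (h : ∑ i : Fin q, qExpand κ q (c i) * j ^ (i : ℕ) = 0) :
    ∀ i, c i = 0 := by
  classical
  by_contra hcon
  push Not at hcon
  obtain ⟨i1, hi1⟩ := hcon
  have hj0 : j ≠ 0 := by
    rintro rfl
    rw [HahnSeries.order_zero] at hj
    omega
  set T : Fin q → LaurentSeries κ := fun i => qExpand κ q (c i) * j ^ (i : ℕ) with hT
  have hT0 : ∀ i, c i ≠ 0 → T i ≠ 0 := fun i hi =>
    mul_ne_zero (fun h0 => hi (qExpand_injective q (by rw [h0, map_zero]))) (pow_ne_zero _ hj0)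
  have hord : ∀ i, c i ≠ 0 → (T i).order = (qExpand κ q (c i)).order - (i : ℤ) := by
    intro i hi
    rw [hT]
    simp only
    rw [HahnSeries.order_mul (fun h0 => hi (qExpand_injective q (by rw [h0, map_zero])))
      (pow_ne_zero _ hj0), HahnSeries.order_pow, hj]
    simp
    ring
  obtain ⟨i0, hi0, hmin⟩ := Finset.exists_min_image (Finset.univ.filter fun i => c i ≠ 0)
    (fun i => (T i).order) ⟨i1, by simp [hi1]⟩
  have hi0' : c i0 ≠ 0 := (Finset.mem_filter.1 hi0).2
  have h1 := congrArg (fun z => HahnSeries.coeff z (T i0).order) h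
  simp only [HahnSeries.coeff_sum, HahnSeries.coeff_zero] at h1
  rw [Finset.sum_eq_single i0] at h1
  · exact hT0 i0 hi0' (HahnSeries.coeff_order_eq_zero.1 h1)
  · intro i _ hne
    by_cases hi : c i = 0
    · have : T i = 0 := by rw [hT]; simp only; rw [hi, map_zero, zero_mul]
      rw [this, HahnSeries.coeff_zero]
    · apply HahnSeries.coeff_eq_zero_of_lt_order
      refine lt_of_le_of_ne (hmin i (by simp [hi])) ?_
      intro heq
      rw [hord i0 hi0', hord i hi] at heq
      obtain ⟨a, ha⟩ := dvd_order_qExpand q (c i0)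
      obtain ⟨b, hb⟩ := dvd_order_qExpand q (c i)
      rw [ha, hb] at heq
      apply hne
      have h2 : ((i : ℕ) : ℤ) - (i0 : ℕ) = q * (b - a) := by linarith
      have h3 : ((i : ℕ) : ℤ) < q := by exact_mod_cast i.2
      have h4 : ((i0 : ℕ) : ℤ) < q := by exact_mod_cast i0.2
      have h5 : b - a = 0 := by
        by_contra hne0
        rcases lt_or_gt_of_ne hne0 with hlt | hgt
        · have : (q : ℤ) * (b - a) ≤ q * (-1) :=
            mul_le_mul_of_nonneg_left (by omega) (by positivity)
          have h6 : (0 : ℤ) ≤ (i : ℕ) := by positivity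
          linarith
        · have : (q : ℤ) * 1 ≤ q * (b - a) :=
            mul_le_mul_of_nonneg_left (by omega) (by positivity)
          have h6 : (0 : ℤ) ≤ (i0 : ℕ) := by positivity
          linarith
      rw [h5, mul_zero] at h2
      apply Fin.ext
      omega
  · intro hn
    exact absurd (Finset.mem_univ _) hn

/-- **(RG1)** joint independence in characteristic `q` -/
theorem joint_indep (M q : ℕ) [NeZero M] [NeZero q] [hqF : Fact q.Prime] (κ : Type) [Field κ]
    [CharP κ q] (hind : ∀ p : κ[X][X], p ≠ 0 → ev2 M κ p = 0 → idx M ≤ p.natDegree)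
    (w : I2 M q →₀ κ) (h1 : S1 M q κ w = 0) (h2 : S2 M q κ w = 0) : w = 0 := by
  classical
  set a : Fin (q + 1) → LaurentSeries κ := fun l => lcF M κ (w.curry l) with ha
  set j := jqModC κ with hj
  have hV : qExpand κ q j = j ^ q := qExpand_jqModC_eq_pow q κ
  have hord : j.order = -1 := order_jqModC κ
  set c : Fin q → LaurentSeries κ :=
    fun i => a i.castSucc + if i = 0 then a (Fin.last q) * j else 0 with hc
  have hc0 : ∀ i, c i = 0 := by
    apply ind_Vq q j hord c
    unfold S2 at h2
    rw [Fin.sum_univ_castSucc] at h2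
    rw [← h2]
    simp only [hc, map_add, add_mul, Finset.sum_add_distrib, Fin.val_castSucc, Fin.val_last]
    congr 1
    rw [Finset.sum_eq_single (0 : Fin q)]
    · rw [if_pos rfl, map_mul, hV]
      simp
      rfl
    · intro i _ hi
      rw [if_neg hi, map_zero, zero_mul]
    · intro hn
      exact absurd (Finset.mem_univ _) hn
  have hmid : ∀ i : Fin q, i ≠ 0 → a i.castSucc = 0 := by
    intro i hi
    have := hc0 i
    simpa [hc, hi] using this
  have h00 : a (Fin.castSucc 0) + a (Fin.last q) * j = 0 := by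
    have := hc0 0
    simpa [hc] using this
  have h01 : a (Fin.castSucc 0) + a (Fin.last q) * (j ^ q) ^ q = 0 := by
    unfold S1 at h1
    rw [Fin.sum_univ_castSucc, Finset.sum_eq_single (0 : Fin q)] at h1
    · rw [← h1, hV]
      simp [ha]
    · intro i _ hi
      have := hmid i hi
      simp only [ha] at this
      rw [this, zero_mul]
    · intro hn
      exact absurd (Finset.mem_univ _) hn
  have hne : (j ^ q) ^ q - j ≠ 0 := by
    intro h
    have h3 : (j ^ q) ^ q = j := sub_eq_zero.1 h
    have h4 := congrArg HahnSeries.order h3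
    rw [HahnSeries.order_pow, HahnSeries.order_pow, hord] at h4
    have hq2 := hqF.out.two_le
    simp only [nsmul_eq_mul] at h4
    have h5 : (q : ℤ) * q = 1 := by linarith
    have h6 : (2 : ℤ) ≤ q := by exact_mod_cast hq2
    nlinarith
  have hlast : a (Fin.last q) = 0 := by
    have h3 : a (Fin.last q) * ((j ^ q) ^ q - j) = 0 := by
      rw [mul_sub]
      linear_combination h01 - h00
    exact (mul_eq_zero.1 h3).resolve_right hne
  have hfirst : a (Fin.castSucc 0) = 0 := by
    rw [hlast, zero_mul, add_zero] at h00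
    exact h00
  apply eq_zero_of_curry
  intro l
  rw [← lcF_eq_zero_iff M κ hind]
  induction l using Fin.lastCases with
  | last => exact hlast
  | cast i =>
    by_cases hi : i = 0
    · rw [hi]; exact hfirst
    · exact hmid i hi

end

end Fermat.Agent.S34Lib
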