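import Fermat.Agent.S34.RedG2B

/-!
# S34 (RG), part C: the ring `O₂ = {x | x, w_q x ∈ gRing A}` and the joint reduction map
-/

set_option autoImplicit false
set_option synthInstance.maxHeartbeats 400000
set_option maxHeartbeats 400000

open AlgebraicCurve IntermediateField Polynomial ModularCurve CongruenceSubgroup
  Fermat.Agent.S24Lib Fermat.Agent.FFLib Fermat.Agent.S18Lib Fermat.Agent.S28Lib
  Fermat.Agent.ESLib

namespace Fermat.Agent.S34Lib

noncomputable section

/-! ### `V_q` on the Gauss ring -/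

theorem cE_qExpand (A : ValuationSubring Qb) (q : ℕ) [NeZero q] (y : LaurentSeries A) :
    cE A (qExpand A q y) = qExpand Qb q (cE A y) := by
  rw [cE_def, cE_def, coeffMap_qExpand]

theorem cR_qExpand (A : ValuationSubring Qb) (q : ℕ) [NeZero q] (y : LaurentSeries A) :
    cR A (qExpand A q y) = qExpand (kk A) q (cR A y) := by
  rw [cR_def, cR_def, coeffMap_qExpand]

theorem cR_qExpand_ne_zero (A : ValuationSubring Qb) (q : ℕ) [NeZero q] {y : LaurentSeries A}
    (h : cR A y ≠ 0) : cR A (qExpand A q y) ≠ 0 := by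
  rw [cR_qExpand]
  exact fun h0 => h (qExpand_injective q (by rw [h0, map_zero]))

theorem qExpand_mem_gRing (A : ValuationSubring Qb) (q : ℕ) [NeZero q] (x : gRing A) :
    ∃ h : qExpand Qb q (x : LaurentSeries Qb) ∈ gRing A,
      gRed A ⟨_, h⟩ = qExpand (kk A) q (gRed A x) := by
  have h1 := gNum_spec A x
  have h2 : qExpand Qb q (x : LaurentSeries Qb) * cE A (qExpand A q (gDen A x)) =
      cE A (qExpand A q (gNum A x)) := by
    rw [cE_qExpand, cE_qExpand, ← map_mul, h1]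
  have h3 := cR_qExpand_ne_zero A q (gDen_ne A x)
  have hmem : qExpand Qb q (x : LaurentSeries Qb) ∈ gRing A :=
    (mem_gRing_iff A).2 ⟨_, _, h3, h2⟩
  refine ⟨hmem, ?_⟩
  have h4 := gRed_mul_eq A ⟨_, hmem⟩ h2
  have h5 := congrArg (qExpand (kk A) q) (gRed_mul_eq A x h1)
  rw [map_mul, ← cR_qExpand, ← cR_qExpand] at h5
  exact mul_right_cancel₀ h3 (h4.trans h5.symm)

variable (M q : ℕ) [NeZero M] [NeZero q] [hqF : Fact q.Prime] (hqM : ¬ q ∣ M)
variable (A : ValuationSubring Qb) (hA : A.LiesOverPrime q)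

/-! ### membership in `FT A M` -/

include hqM hA in
theorem S1_mem_FT (w : I2 M q →₀ kk A) : S1 M q (kk A) w ∈ FT A M :=
  sum_mem fun _ _ => mul_mem
    (MB_lcF_mem M _ (jqModC_mem_full (kk A) M) (HH_mem_FT M hqM A hA) _)
    (pow_mem (qExpand_mem_FT M q A hA _ (jqModC_mem_full (kk A) M)) _)

include hqM hA in
theorem S2_mem_FT (w : I2 M q →₀ kk A) : S2 M q (kk A) w ∈ FT A M :=
  sum_mem fun _ _ => mul_mem
    (qExpand_mem_FT M q A hA _
      (MB_lcF_mem M _ (jqModC_mem_full (kk A) M) (HH_mem_FT M hqM A hA) _))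
    (pow_mem (jqModC_mem_full (kk A) M) _)

/-! ### transport of a normal form by `w_q` -/

omit hqF in
theorem cE_S1_mem (w : I2 M q →₀ A) : cE A (S1 M q A w) ∈ FB (q * M) := by
  rw [cE_def, coeffMap_S1]
  exact S1_mem M q _

theorem wqS_algebraMap (c : Qb) :
    wqS M q hqM (algebraMap Qb (FB (q * M)) c) = HahnSeries.C c := by
  rw [wqS_apply, AlgEquiv.commutes, rr_coe_algebraMap]

theorem wqS_normalForm (x : FB (q * M)) (c : Qb) (b : A[X]) (w : I2 M q →₀ A)
    (h : (x : LaurentSeries Qb) * cE A (evJ A b) = HahnSeries.C c * cE A (S1 M q A w)) :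
    wqS M q hqM x * cE A (qExpand A q (evJ A b)) = HahnSeries.C c * cE A (S2 M q A w) := by
  have hb : cE A (evJ A b) ∈ FB M := cE_evJ_mem_FB M A b
  have h1 : x * (⟨cE A (evJ A b), FB_le M q hb⟩ : FB (q * M)) =
      algebraMap Qb (FB (q * M)) c * ⟨cE A (S1 M q A w), cE_S1_mem M q A w⟩ := by
    apply Subtype.ext
    show (x : LaurentSeries Qb) * cE A (evJ A b) =
      ((algebraMap Qb (FB (q * M)) c : FB (q * M)) : LaurentSeries Qb) * cE A (S1 M q A w)
    rw [rr_coe_algebraMap, h]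
  have h2 := congrArg (wqS M q hqM) h1
  rw [map_mul, map_mul, wqS_algebraMap, wqS_of_mem M q hqM _ hb] at h2
  rw [cE_qExpand, h2]
  congr 1
  have h3 : (⟨cE A (S1 M q A w), cE_S1_mem M q A w⟩ : FB (q * M)) =
      ⟨S1 M q Qb (w.mapRange A.subtype (map_zero _)), S1_mem M q _⟩ := by
    apply Subtype.ext
    show cE A (S1 M q A w) = _
    rw [cE_def, coeffMap_S1]
  rw [h3, wqS_S1, cE_def, coeffMap_S2]

/-! ### the ring -/

/-- `O₂ = {x | x, w_q x ∈ gRing A}` -/
def O2 : Subring (FB (q * M)) :=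
  (gRing A).comap (algebraMap (FB (q * M)) (LaurentSeries Qb)) ⊓ (gRing A).comap (wqS M q hqM)

theorem mem_O2_iff (x : FB (q * M)) : x ∈ O2 M q hqM A ↔
    (x : LaurentSeries Qb) ∈ gRing A ∧
      ((wq M q hqM x : FB (q * M)) : LaurentSeries Qb) ∈ gRing A := Iff.rfl

/-- first expansion -/
def O2g1 : O2 M q hqM A →+* gRing A :=
  RingHom.codRestrict ((algebraMap (FB (q * M)) (LaurentSeries Qb)).comp (O2 M q hqM A).subtype)
    (gRing A) (fun x => x.2.1)

/-- second expansion -/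
def O2g2 : O2 M q hqM A →+* gRing A :=
  RingHom.codRestrict ((wqS M q hqM).comp (O2 M q hqM A).subtype) (gRing A) (fun x => x.2.2)

/-- first reduction, as a series -/
def r1 : O2 M q hqM A →+* LaurentSeries (kk A) := (gRed A).comp (O2g1 M q hqM A)
/-- second reduction, as a series -/
def r2 : O2 M q hqM A →+* LaurentSeries (kk A) := (gRed A).comp (O2g2 M q hqM A)

theorem r1_mul_eq (x : O2 M q hqM A) {a s : LaurentSeries A}
    (h : ((x : FB (q * M)) : LaurentSeries Qb) * cE A s = cE A a) :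
    r1 M q hqM A x * cR A s = cR A a := gRed_mul_eq A (O2g1 M q hqM A x) h

theorem r2_mul_eq (x : O2 M q hqM A) {a s : LaurentSeries A}
    (h : wqS M q hqM (x : FB (q * M)) * cE A s = cE A a) :
    r2 M q hqM A x * cR A s = cR A a := gRed_mul_eq A (O2g2 M q hqM A x) h

include hA in
/-- integral joint normal form of an element of `O₂` -/
theorem O2_normalForm (x : O2 M q hqM A) :
    ∃ (c : A) (b : A[X]) (w : I2 M q →₀ A), cR A (evJ A b) ≠ 0 ∧
      ((x : FB (q * M)) : LaurentSeries Qb) * cE A (evJ A b) =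
        cE A (HahnSeries.C c * S1 M q A w) ∧
      wqS M q hqM (x : FB (q * M)) * cE A (qExpand A q (evJ A b)) =
        cE A (HahnSeries.C c * S2 M q A w) := by
  by_cases hx0 : ((x : FB (q * M)) : LaurentSeries Qb) = 0
  · have hx1 : (x : FB (q * M)) = 0 := Subtype.ext hx0
    refine ⟨0, 1, 0, by simp, ?_, ?_⟩
    · rw [hx0]; simp
    · rw [hx1]; simp
  obtain ⟨c, b, w, hc, hb, hw, h⟩ := exists_normalForm2 M q hqM A hA _ (x : FB (q * M)).2 hx0
  have h' := wqS_normalForm M q hqM A _ c b w h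
  have hchar : CharP (kk A) q := charP_kk A hA
  have hcA : c ∈ A := by
    by_cases h1 : cR A (S1 M q A w) = 0
    · have h2 : cR A (S2 M q A w) ≠ 0 := by
        intro h2
        apply hw
        apply joint_indep M q (kk A) (indep_charP M hqM (kk A))
        · rw [← coeffMap_S1]; exact h1
        · rw [← coeffMap_S2]; exact h2
      exact rr_c_mem A x.2.2 h2 h'
    · exact rr_c_mem A x.2.1 h1 h
  refine ⟨⟨c, hcA⟩, b, w, hb, ?_, ?_⟩
  · rw [h, map_mul, rr_cE_C]
  · rw [h', map_mul, rr_cE_C]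

omit [NeZero M] [NeZero q] hqF in
theorem C_mem_FT (c : kk A) : (HahnSeries.C c : LaurentSeries (kk A)) ∈ FT A M :=
  MB_C_mem _ c

include hA in
theorem r1_mem_FT (x : O2 M q hqM A) : r1 M q hqM A x ∈ FT A M := by
  obtain ⟨c, b, w, hb, h1, -⟩ := O2_normalForm M q hqM A hA x
  have h2 := r1_mul_eq M q hqM A x h1
  rw [eq_div_of_mul_eq hb h2, map_mul, rr_cR_C]
  refine (FT A M).div_mem ((FT A M).mul_mem (C_mem_FT M A _) ?_) (cR_evJ_mem_FT M A b)
  rw [cR_def, coeffMap_S1]
  exact S1_mem_FT M q hqM A hA _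

include hA in
theorem r2_mem_FT (x : O2 M q hqM A) : r2 M q hqM A x ∈ FT A M := by
  obtain ⟨c, b, w, hb, -, h1⟩ := O2_normalForm M q hqM A hA x
  have h2 := r2_mul_eq M q hqM A x h1
  rw [eq_div_of_mul_eq (cR_qExpand_ne_zero A q hb) h2, map_mul, rr_cR_C]
  refine (FT A M).div_mem ((FT A M).mul_mem (C_mem_FT M A _) ?_) ?_
  · rw [cR_def, coeffMap_S2]
    exact S2_mem_FT M q hqM A hA _
  · rw [cR_qExpand]
    exact qExpand_mem_FT M q A hA _ (cR_evJ_mem_FT M A b)

/-- the joint reduction map -/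
def red2 : O2 M q hqM A →+* FT A M × FT A M :=
  RingHom.prod
    (RingHom.codRestrict (r1 M q hqM A) (FT A M) (r1_mem_FT M q hqM A hA))
    (RingHom.codRestrict (r2 M q hqM A) (FT A M) (r2_mem_FT M q hqM A hA))

theorem coe_red2_fst (x : O2 M q hqM A) :
    (((red2 M q hqM A hA x).1 : FT A M) : LaurentSeries (kk A)) = r1 M q hqM A x := rfl

theorem coe_red2_snd (x : O2 M q hqM A) :
    (((red2 M q hqM A hA x).2 : FT A M) : LaurentSeries (kk A)) = r2 M q hqM A x := rfl

theorem red2_ext {x : O2 M q hqM A} {a b : FT A M}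
    (h1 : r1 M q hqM A x = (a : LaurentSeries (kk A)))
    (h2 : r2 M q hqM A x = (b : LaurentSeries (kk A))) : red2 M q hqM A hA x = (a, b) :=
  Prod.ext (Subtype.ext h1) (Subtype.ext h2)

/-! ### units -/

theorem isUnit_of_red2 (x : O2 M q hqM A) (hx : IsUnit (red2 M q hqM A hA x)) : IsUnit x := by
  rw [Prod.isUnit_iff] at hx
  have h1 : r1 M q hqM A x ≠ 0 := by
    intro h
    apply hx.1.ne_zero
    apply Subtype.ext
    rw [coe_red2_fst, h]
    rfl
  have h2 : r2 M q hqM A x ≠ 0 := by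
    intro h
    apply hx.2.ne_zero
    apply Subtype.ext
    rw [coe_red2_snd, h]
    rfl
  have hx0 : (x : FB (q * M)) ≠ 0 := by
    intro h0
    apply h1
    have : x = 0 := Subtype.ext h0
    rw [this, map_zero]
  have h3 : (x : FB (q * M))⁻¹ ∈ O2 M q hqM A := by
    refine ⟨?_, ?_⟩
    · show algebraMap (FB (q * M)) (LaurentSeries Qb) (x : FB (q * M))⁻¹ ∈ gRing A
      rw [map_inv₀]
      exact inv_mem_gRing A (O2g1 M q hqM A x) h1
    · show wqS M q hqM (x : FB (q * M))⁻¹ ∈ gRing A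
      rw [map_inv₀]
      exact inv_mem_gRing A (O2g2 M q hqM A x) h2
  exact IsUnit.of_mul_eq_one ⟨_, h3⟩ (Subtype.ext (mul_inv_cancel₀ hx0))

/-! ### constants -/

include hqM hA in
omit [NeZero q] in
theorem C_mem_gRing_iff (a : Qb) : (HahnSeries.C a : LaurentSeries Qb) ∈ gRing A ↔ a ∈ A := by
  rw [← algebraMap_mem_OC_iff M hqM A hA a, mem_OC_iff, rr_coe_algebraMap]

include hA in
theorem algebraMap_mem_O2_iff (a : Qb) : algebraMap Qb (FB (q * M)) a ∈ O2 M q hqM A ↔ a ∈ A := by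
  rw [mem_O2_iff, AlgEquiv.commutes, rr_coe_algebraMap, and_self, C_mem_gRing_iff M q hqM A hA]

theorem red2_algebraMap (a : A) (h : algebraMap Qb (FB (q * M)) (a : Qb) ∈ O2 M q hqM A) :
    red2 M q hqM A hA ⟨algebraMap Qb (FB (q * M)) (a : Qb), h⟩ =
      algebraMap (kk A) (FT A M × FT A M) (resA A a) := by
  have hC : ((algebraMap (kk A) (FT A M) (resA A a) : FT A M) : LaurentSeries (kk A)) =
      HahnSeries.C (resA A a) := by
    have : ((algebraMap (kk A) (FT A M) (resA A a) : FT A M) : LaurentSeries (kk A)) =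
      algebraMap (kk A) (LaurentSeries (kk A)) (resA A a) := rfl
    rw [this, algebraMap_laurentSeries_eq_single]
    rfl
  have hP : algebraMap (kk A) (FT A M × FT A M) (resA A a) =
      (algebraMap (kk A) (FT A M) (resA A a), algebraMap (kk A) (FT A M) (resA A a)) := rfl
  rw [hP]
  apply red2_ext
  · have h1 := r1_mul_eq M q hqM A ⟨algebraMap Qb (FB (q * M)) (a : Qb), h⟩
      (a := HahnSeries.C a) (s := 1) (by rw [map_one, mul_one, rr_cE_C, rr_coe_algebraMap])
    rw [map_one, mul_one, rr_cR_C] at h1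
    rw [h1, hC]
  · have h1 := r2_mul_eq M q hqM A ⟨algebraMap Qb (FB (q * M)) (a : Qb), h⟩
      (a := HahnSeries.C a) (s := 1) (by rw [map_one, mul_one, rr_cE_C, wqS_algebraMap])
    rw [map_one, mul_one, rr_cR_C] at h1
    rw [h1, hC]

end

end Fermat.Agent.S34Lib
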