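import Fermat.Agent.S34.RedG2C

/-!
# S34 (RG), part D: scaling and surjectivity of the joint reduction
-/

set_option autoImplicit false
set_option synthInstance.maxHeartbeats 400000
set_option maxHeartbeats 400000

open AlgebraicCurve IntermediateField Polynomial ModularCurve CongruenceSubgroup
  Fermat.Agent.S24Lib Fermat.Agent.FFLib Fermat.Agent.S18Lib Fermat.Agent.S28Lib
  Fermat.Agent.ESLib

namespace Fermat.Agent.S34Lib

noncomputable section

variable (M q : ℕ) [NeZero M] [NeZero q] [hqF : Fact q.Prime] (hqM : ¬ q ∣ M)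
variable (A : ValuationSubring Qb) (hA : A.LiesOverPrime q)

/-- an element with an integral normal form lies in `O₂` -/
theorem mem_O2_of_normalForm (u : FB (q * M)) (b : A[X]) (hb : cR A (evJ A b) ≠ 0)
    (w : I2 M q →₀ A) (h : (u : LaurentSeries Qb) * cE A (evJ A b) = cE A (S1 M q A w)) :
    ∃ hu : u ∈ O2 M q hqM A,
      r1 M q hqM A ⟨u, hu⟩ * cR A (evJ A b) =
        S1 M q (kk A) (w.mapRange (resA A) (map_zero _)) ∧
      r2 M q hqM A ⟨u, hu⟩ * cR A (qExpand A q (evJ A b)) =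
        S2 M q (kk A) (w.mapRange (resA A) (map_zero _)) := by
  have h' : wqS M q hqM u * cE A (qExpand A q (evJ A b)) = cE A (S2 M q A w) := by
    have := wqS_normalForm M q hqM A u 1 b w (by rw [h, map_one, one_mul])
    rwa [map_one, one_mul] at this
  have hu : u ∈ O2 M q hqM A :=
    ⟨(mem_gRing_iff A).2 ⟨_, _, hb, h⟩, (mem_gRing_iff A).2 ⟨_, _, cR_qExpand_ne_zero A q hb, h'⟩⟩
  refine ⟨hu, ?_, ?_⟩
  · rw [r1_mul_eq M q hqM A ⟨u, hu⟩ h, cR_def, coeffMap_S1]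
  · rw [r2_mul_eq M q hqM A ⟨u, hu⟩ h', cR_def, coeffMap_S2]

theorem exists_scale2 (x : FB (q * M)) (hx : x ≠ 0) :
    ∃ c : Qb, c ≠ 0 ∧ ∃ y : O2 M q hqM A, red2 M q hqM A hA y ≠ 0 ∧
      x = algebraMap Qb (FB (q * M)) c * ((y : O2 M q hqM A) : FB (q * M)) := by
  have hx0 : (x : LaurentSeries Qb) ≠ 0 := fun h => hx (Subtype.ext h)
  obtain ⟨c, b, w, hc, hb, hw, h⟩ := exists_normalForm2 M q hqM A hA _ x.2 hx0
  have hchar : CharP (kk A) q := charP_kk A hA
  have hb0 := rr_cE_ne_zero A hb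
  set eb : FB (q * M) := ⟨cE A (evJ A b), FB_le M q (cE_evJ_mem_FB M A b)⟩ with heb
  set ew : FB (q * M) := ⟨cE A (S1 M q A w), cE_S1_mem M q A w⟩ with hew
  have heb0 : eb ≠ 0 := fun h0 => hb0 (congrArg Subtype.val h0)
  have h1 : ((ew / eb : FB (q * M)) : LaurentSeries Qb) * cE A (evJ A b) = cE A (S1 M q A w) := by
    show (((ew / eb : FB (q * M)) * eb : FB (q * M)) : LaurentSeries Qb) = _
    rw [div_mul_cancel₀ _ heb0]
  obtain ⟨hu, hr1, hr2⟩ := mem_O2_of_normalForm M q hqM A (ew / eb) b hb w h1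
  refine ⟨c, hc, ⟨_, hu⟩, ?_, ?_⟩
  · intro h0
    apply hw
    apply joint_indep M q (kk A) (indep_charP M hqM (kk A))
    · rw [← hr1, ← coe_red2_fst M q hqM A hA, h0]
      show (0 : LaurentSeries (kk A)) * _ = 0
      rw [zero_mul]
    · rw [← hr2, ← coe_red2_snd M q hqM A hA, h0]
      show (0 : LaurentSeries (kk A)) * _ = 0
      rw [zero_mul]
  · show x = algebraMap Qb (FB (q * M)) c * (ew / eb)
    have h3 : x * eb = algebraMap Qb (FB (q * M)) c * ew := by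
      apply Subtype.ext
      show (x : LaurentSeries Qb) * cE A (evJ A b) =
        ((algebraMap Qb (FB (q * M)) c : FB (q * M)) : LaurentSeries Qb) * cE A (S1 M q A w)
      rw [rr_coe_algebraMap, h]
    rw [mul_div_assoc', ← h3, mul_div_cancel_right₀ _ heb0]

/-! ### pull-backs and `w_q` -/

omit hqF in
theorem coe_pi1 (z : FB M) :
    ((pi1 M q z : FB (q * M)) : LaurentSeries Qb) = (z : LaurentSeries Qb) := by
  unfold pi1
  exact IntermediateField.coe_inclusion _ _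

omit hqF in
theorem pi1_eq (z : FB M) : pi1 M q z = ⟨(z : LaurentSeries Qb), FB_le M q z.2⟩ :=
  Subtype.ext (coe_pi1 M q z)

theorem coe_O2g1 (x : O2 M q hqM A) :
    ((O2g1 M q hqM A x : gRing A) : LaurentSeries Qb) = ((x : FB (q * M)) : LaurentSeries Qb) := rfl

theorem coe_O2g2 (x : O2 M q hqM A) :
    ((O2g2 M q hqM A x : gRing A) : LaurentSeries Qb) = wqS M q hqM (x : FB (q * M)) := rfl

theorem r1_apply (x : O2 M q hqM A) : r1 M q hqM A x = gRed A (O2g1 M q hqM A x) := rfl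
theorem r2_apply (x : O2 M q hqM A) : r2 M q hqM A x = gRed A (O2g2 M q hqM A x) := rfl

theorem wqS_pi1 (z : FB M) : wqS M q hqM (pi1 M q z) = qExpand Qb q (z : LaurentSeries Qb) := by
  rw [pi1_eq]
  exact wqS_of_mem M q hqM _ z.2 _

theorem pi1_mem_O2_aux (z : OC M hqM A hA) : pi1 M q (z : FB M) ∈ O2 M q hqM A := by
  obtain ⟨h2, -⟩ := qExpand_mem_gRing A q (OCtoG M hqM A hA z)
  rw [coe_OCtoG] at h2
  have hz1 : ((z : FB M) : LaurentSeries Qb) ∈ gRing A := (mem_OC_iff M hqM A hA _).1 z.2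
  rw [mem_O2_iff, coe_pi1, ← wqS_apply, wqS_pi1]
  exact ⟨hz1, h2⟩

theorem r1_pi1 (z : OC M hqM A hA) (h : pi1 M q (z : FB M) ∈ O2 M q hqM A) :
    r1 M q hqM A ⟨_, h⟩ = (redC M hqM A hA z : LaurentSeries (kk A)) := by
  rw [coe_redC, r1_apply]
  exact congrArg (gRed A) (Subtype.ext ((coe_O2g1 M q hqM A _).trans
    ((coe_pi1 M q _).trans (coe_OCtoG M hqM A hA z).symm)))

theorem r2_pi1 (z : OC M hqM A hA) (h : pi1 M q (z : FB M) ∈ O2 M q hqM A) :
    r2 M q hqM A ⟨_, h⟩ = qExpand (kk A) q (redC M hqM A hA z : LaurentSeries (kk A)) := by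
  obtain ⟨h2, hr⟩ := qExpand_mem_gRing A q (OCtoG M hqM A hA z)
  rw [coe_redC, ← hr, r2_apply]
  exact congrArg (gRed A) (Subtype.ext ((coe_O2g2 M q hqM A _).trans (wqS_pi1 M q hqM _)))

theorem pi1_mem_O2 (z : OC M hqM A hA) :
    ∃ h : pi1 M q (z : FB M) ∈ O2 M q hqM A,
      r1 M q hqM A ⟨_, h⟩ = (redC M hqM A hA z : LaurentSeries (kk A)) ∧
      r2 M q hqM A ⟨_, h⟩ = qExpand (kk A) q (redC M hqM A hA z : LaurentSeries (kk A)) :=
  ⟨pi1_mem_O2_aux M q hqM A hA z, r1_pi1 M q hqM A hA z _, r2_pi1 M q hqM A hA z _⟩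

theorem wq_mem_O2 (x : O2 M q hqM A) :
    ∃ h : wq M q hqM (x : FB (q * M)) ∈ O2 M q hqM A,
      r1 M q hqM A ⟨_, h⟩ = r2 M q hqM A x ∧ r2 M q hqM A ⟨_, h⟩ = r1 M q hqM A x := by
  have hw : wqS M q hqM (wq M q hqM (x : FB (q * M))) = ((x : FB (q * M)) : LaurentSeries Qb) := by
    rw [wqS_apply, wq_wq]
  have hx := (mem_O2_iff M q hqM A _).1 x.2
  have h : wq M q hqM (x : FB (q * M)) ∈ O2 M q hqM A := by
    rw [mem_O2_iff, wq_wq]
    exact ⟨hx.2, hx.1⟩
  refine ⟨h, ?_, ?_⟩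
  · rw [r1_apply, r2_apply]
    exact congrArg (gRed A) (Subtype.ext ((coe_O2g1 M q hqM A _).trans
      ((wqS_apply M q hqM _).symm.trans (coe_O2g2 M q hqM A x).symm)))
  · rw [r1_apply, r2_apply]
    exact congrArg (gRed A) (Subtype.ext ((coe_O2g2 M q hqM A _).trans
      (hw.trans (coe_O2g1 M q hqM A x).symm)))

theorem jpow_ne (κ : Type) [Field κ] {m n : ℕ} (h : m ≠ n) : jqModC κ ^ m ≠ jqModC κ ^ n := by
  intro h1
  have h2 := congrArg HahnSeries.order h1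
  rw [HahnSeries.order_pow, HahnSeries.order_pow, order_jqModC] at h2
  simp only [nsmul_eq_mul, mul_neg, mul_one, neg_inj, Nat.cast_inj] at h2
  exact h h2

include hA in
/-- an element reducing to `(1, 0)` -/
theorem exists_idem : ∃ e : O2 M q hqM A, r1 M q hqM A e = 1 ∧ r2 M q hqM A e = 0 := by
  have hchar : CharP (kk A) q := charP_kk A hA
  have hV : qExpand (kk A) q (jqModC (kk A)) = jqModC (kk A) ^ q := qExpand_jqModC_eq_pow q (kk A)
  have hy : cE A (jqModC A) ∈ FB M := by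
    rw [cE_def, coeffMap_jqModC]
    exact jqModC_mem_FB M
  obtain ⟨hz, hzr⟩ := rd_int M hqM A hA (jqModC A) hy
  rw [cR_def, coeffMap_jqModC] at hzr
  obtain ⟨hJ, hJ1, hJ2⟩ := pi1_mem_O2 M q hqM A hA ⟨_, hz⟩
  rw [hzr] at hJ1 hJ2
  rw [hV] at hJ2
  set J : O2 M q hqM A := ⟨_, hJ⟩ with hJdef
  obtain ⟨hQ, hQ1, hQ2⟩ := wq_mem_O2 M q hqM A J
  rw [hJ2] at hQ1
  rw [hJ1] at hQ2
  set Q : O2 M q hqM A := ⟨_, hQ⟩ with hQdef
  set u : O2 M q hqM A := Q ^ q - J with hu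
  have hu1 : r1 M q hqM A u = (jqModC (kk A) ^ q) ^ q - jqModC (kk A) := by
    rw [hu, map_sub, map_pow, hQ1, hJ1]
  have hu2 : r2 M q hqM A u = 0 := by
    rw [hu, map_sub, map_pow, hQ2, hJ2, sub_self]
  have hu1' : r1 M q hqM A u ≠ 0 := by
    rw [hu1, ← pow_mul, sub_ne_zero]
    have := jpow_ne (kk A) (m := q * q) (n := 1) (by
      have := hqF.out.two_le
      nlinarith)
    rwa [pow_one] at this
  obtain ⟨hU, hU1, hU2⟩ := wq_mem_O2 M q hqM A u
  set u' : O2 M q hqM A := ⟨_, hU⟩ with hu'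
  have hd : IsUnit (u + u') := by
    apply isUnit_of_red2 M q hqM A hA
    rw [Prod.isUnit_iff]
    constructor
    · rw [isUnit_iff_ne_zero]
      intro h0
      have h1 := congrArg (fun z : FT A M => (z : LaurentSeries (kk A))) h0
      simp only [coe_red2_fst] at h1
      rw [map_add, hU1, hu2, add_zero] at h1
      exact hu1' h1
    · rw [isUnit_iff_ne_zero]
      intro h0
      have h1 := congrArg (fun z : FT A M => (z : LaurentSeries (kk A))) h0
      simp only [coe_red2_snd] at h1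
      rw [map_add, hU2, hu2, zero_add] at h1
      exact hu1' h1
  obtain ⟨d, hd⟩ := hd
  refine ⟨u * ((d⁻¹ : (O2 M q hqM A)ˣ) : O2 M q hqM A), ?_, ?_⟩
  · have h1 : r1 M q hqM A (u + u') * r1 M q hqM A ((d⁻¹ : (O2 M q hqM A)ˣ) : O2 M q hqM A) = 1 := by
      rw [← map_mul, ← hd]
      simp
    rw [map_add, hU1, hu2, add_zero] at h1
    rw [map_mul, h1]
  · rw [map_mul, hu2, zero_mul]

theorem red2_surjective : Function.Surjective (red2 M q hqM A hA) := by
  rintro ⟨a, b⟩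
  obtain ⟨e, he1, he2⟩ := exists_idem M q hqM A hA
  obtain ⟨z, rfl⟩ := rd_surjective M hqM A hA a
  obtain ⟨z', rfl⟩ := rd_surjective M hqM A hA b
  obtain ⟨hP, hP1, hP2⟩ := pi1_mem_O2 M q hqM A hA z
  obtain ⟨hP', hP1', hP2'⟩ := pi1_mem_O2 M q hqM A hA z'
  obtain ⟨hW, hW1, hW2⟩ := wq_mem_O2 M q hqM A ⟨_, hP'⟩
  refine ⟨e * ⟨_, hP⟩ + (1 - e) * ⟨_, hW⟩, ?_⟩
  apply red2_ext
  · rw [map_add, map_mul, map_mul, map_sub, map_one, he1, hP1, sub_self, zero_mul, one_mul,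
      add_zero]
  · rw [map_add, map_mul, map_mul, map_sub, map_one, he2, hW2, hP1', sub_zero, zero_mul, one_mul,
      zero_add]

end

end Fermat.Agent.S34Lib
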